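import Fermat.Agent.ModField.Semistable.Mono.Statement
import Fermat.Agent.ModField.Semistable.HasFibre
import Fermat.Agent.ModField.Semistable.FromFibreData
import Fermat.Agent.JTorsion.Divisible.Descent
import Mathlib.FieldTheory.KrullTopology

/-!
# The lattice modulo `p` as the torsion, and tame generators of inertia
-/

set_option autoImplicit false
set_option linter.style.haveILetI false
set_option linter.unusedSectionVars false
set_option synthInstance.maxHeartbeats 200000
set_option maxHeartbeats 400000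

noncomputable section

namespace FA.ModField

open FA.Level FA.JTorsion ModularCurve AlgebraicCurve FA.Curve

local notation "Qb" => AlgebraicClosure ℚ

variable [Algebra Qb ℂ] (N : ℕ) [NeZero N] (n : ℕ) [NeZero n]

/-- The torsion class of an element of the lattice modulo `n`. -/
def torsN : ModN N (∅ : Set ℕ) n →+ Pic0.torsion Qb (levelField N Qb) n :=
  (toTors N (∅ : Set ℕ) n).codRestrict _ fun z =>
    Pic0.mem_torsion.2 ((natCast_zsmul _ _).trans (nsmul_toTors N (∅ : Set ℕ) n z))

theorem coe_torsN (z : ModN N (∅ : Set ℕ) n) :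
    ((torsN N n z : Pic0.torsion Qb (levelField N Qb) n) : Pic0 Qb (levelField N Qb)) =
      toTors N (∅ : Set ℕ) n z := rfl

theorem torsN_injective : Function.Injective (torsN N n) := fun _ _ h =>
  toTors_injective N (∅ : Set ℕ) n (congrArg Subtype.val h)

theorem torsN_surjective : Function.Surjective (torsN N n) := by
  intro x
  haveI : Algebra.IsAlgebraic ℚ Qb := AlgebraicClosure.isAlgebraic ℚ
  have hx : n • ((x : Pic0 Qb (levelField N Qb)) : JZero N) = 0 := by
    have := Pic0.mem_torsion.1 x.2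
    rwa [natCast_zsmul] at this
  obtain ⟨y, hy⟩ := Divisible.pic0_exists_nsmul_eq (lvlGamma0 N) Qb
    (liftExp_ne_zero (lvlGamma0 N)) ((x : Pic0 Qb (levelField N Qb)) : JZero N)
  obtain ⟨z, hz⟩ := exists_toTors_eq N (∅ : Set ℕ) n (mem_liftedTors_iff.2 ⟨y, by
    rw [Pic0.mem_torsion, natCast_zsmul, mul_comm, mul_nsmul', hy]
    exact hx, hy⟩)
  exact ⟨z, Subtype.ext hz⟩

theorem torsN_galMod (σ : GalQ) (z : ModN N (∅ : Set ℕ) n) :
    torsN N n (galMod N (∅ : Set ℕ) n σ z) = galAut N Qb σ • torsN N n z := by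
  refine Subtype.ext ?_
  rw [SemilinearAut.coe_torsion_smul, coe_torsN, coe_torsN, toTors_galMod]
  exact galois_smul_pic0_def _ σ _

theorem torsN_T_smul {ℓ : ℕ} [NeZero ℓ] (hℓ : ℓ.Prime) (hℓN : ¬ ℓ ∣ N) (z : ModN N (∅ : Set ℕ) n) :
    ((torsN N n (CuspForm.heckeAlgebra.T (k := 2) hℓ hℓN (Set.notMem_empty ℓ) • z) :
      Pic0.torsion Qb (levelField N Qb) n) : Pic0 Qb (levelField N Qb)) =
      heckeOperatorAlong Qb N ℓ (torsN N n z : Pic0 Qb (levelField N Qb)) :=
  toTors_T_smul N n hℓ hℓN (Set.notMem_empty ℓ) z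

section Semistable

variable (M q p : ℕ) [NeZero M] [hq : Fact q.Prime] [NeZero (M * q)] [hp : Fact p.Prime] [NeZero p]
  (hqp : q ≠ p) (hqM : ¬ q ∣ M) {A : ValuationSubring Qb} (hA : A.LiesOverPrime q)

include hqp hqM hA in
theorem galMod_sq {σ : GalQ} (hσ : σ ∈ A.inertiaSubgroupIn ℚ)
    (z : ModN (M * q) (∅ : Set ℕ) p) :
    galMod (M * q) (∅ : Set ℕ) p σ (galMod (M * q) (∅ : Set ℕ) p σ z) + z =
      2 • galMod (M * q) (∅ : Set ℕ) p σ z := by
  have hss : SemistableTors (M * q) q := semistableTors_of_fibre M q fun A hA =>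
    hasInertiaFibre_of_fibreData hasFibreData M q hqM hA
  refine toTors_injective (M * q) (∅ : Set ℕ) p ?_
  rw [map_add, map_nsmul, toTors_galMod, toTors_galMod]
  exact hss A hA σ hσ p (fun h => hqp ((Nat.prime_dvd_prime_iff_eq hq.out hp.out).1 h)) _
    (nsmul_toTors (M * q) (∅ : Set ℕ) p z)

/-- A unipotent element of order two has `p`-power order. -/
theorem pow_eq_one_of_sq {R X : Type} [CommRing R] [AddCommGroup X] [Module R X] {p : ℕ}
    (hX : ∀ x : X, p • x = 0) (g : Module.End R X) (hg : ∀ x, g (g x) + x = 2 • g x) :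
    g ^ p = 1 := by
  have key : ∀ (n : ℕ) x, (g ^ n) x = x + n • (g x - x) := fun n => by
    induction n with
    | zero => intro x; simp
    | succ n ih =>
      intro x
      have h2 : g (g x - x) = g x - x := by
        rw [map_sub, eq_sub_of_add_eq (hg x), two_nsmul]
        abel
      rw [pow_succ', Module.End.mul_apply, ih, map_add, map_nsmul, h2, succ_nsmul]
      abel
  exact LinearMap.ext fun x => by rw [key, hX, add_zero]; rfl

theorem isOpen_ker_galMod : IsOpen ((galMod N (∅ : Set ℕ) n).ker : Set GalQ) := by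
  obtain ⟨E, hE, h⟩ := exists_field_galMod N (∅ : Set ℕ) n
  haveI := hE
  refine Subgroup.isOpen_mono (H₁ := E.fixingSubgroup) (fun σ hσ => ?_)
    E.fixingSubgroup_isOpen
  exact MonoidHom.mem_ker.2 (h σ fun a ha => (IntermediateField.mem_fixingSubgroup_iff E σ).1 hσ a ha)

include hqp hqM hA in
/-- A class fixed by a tame generator is fixed by inertia. -/
theorem galMod_fixed {s : GalQ} (hs : IsTameGen p A s) {z : ModN (M * q) (∅ : Set ℕ) p}
    (hz : galMod (M * q) (∅ : Set ℕ) p s z = z) {σ : GalQ} (hσ : σ ∈ A.inertiaSubgroupIn ℚ) :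
    galMod (M * q) (∅ : Set ℕ) p σ z = z := by
  obtain ⟨i, hi⟩ := hs.2 _ (galMod (M * q) (∅ : Set ℕ) p) (isOpen_ker_galMod (M * q) p)
    (fun σ hσ => ⟨1, by
      rw [pow_one]
      exact pow_eq_one_of_sq (fun x => toTors_injective (M * q) (∅ : Set ℕ) p
        (by rw [map_nsmul, nsmul_toTors, map_zero])) _ (galMod_sq M q p hqp hqM hA hσ)⟩) σ hσ
  rw [hi]
  clear hi
  induction i with
  | zero => rfl
  | succ i ih => rw [pow_succ, Module.End.mul_apply, hz, ih]

end Semistable

end FA.ModField
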