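import Mathlib.LinearAlgebra.Eigenspace.Basic
import Mathlib.LinearAlgebra.FiniteDimensional.Lemmas
import Mathlib.RingTheory.Artinian.Module
import Mathlib.RingTheory.Artinian.Instances

/-!
# Counting on the part of a system of commuting operators

Taking the part of a system of eigenvalues is exact, so an inclusion of dimensions which is sharp
up to one on the whole space is sharp up to one on each part, hence sharp where parity says so.
-/

set_option autoImplicit false
set_option linter.unusedSectionVars false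

noncomputable section

namespace FA.ModField.Assembly

open Module

variable {k : Type*} [Field k] {V W : Type*} [AddCommGroup V] [Module k V] [FiniteDimensional k V]
  [AddCommGroup W] [Module k W] [FiniteDimensional k W]

theorem finrank_map_add (φ : V →ₗ[k] W) (X : Submodule k V) :
    finrank k (X.map φ) + finrank k ↥(X ⊓ LinearMap.ker φ) = finrank k X := by
  have h := LinearMap.finrank_range_add_finrank_ker (φ.domRestrict X)
  rw [show LinearMap.range (φ.domRestrict X) = X.map φ from LinearMap.range_domRestrict _ _,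
    show LinearMap.ker (φ.domRestrict X) = (X ⊓ LinearMap.ker φ).comap X.subtype by
      ext x; simp [LinearMap.domRestrict_apply],
    (Submodule.comapSubtypeEquivOfLe inf_le_left).finrank_eq] at h
  exact h

/-- The part of a subspace loses no more than the subspace. -/
theorem finrank_inf_add_le {Y U : Submodule k V} (h : Y ≤ U) (E : Submodule k V) :
    finrank k ↥(U ⊓ E) + finrank k Y ≤ finrank k ↥(Y ⊓ E) + finrank k U := by
  have h1 := Submodule.finrank_sup_add_finrank_inf_eq Y (U ⊓ E)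
  rw [← inf_assoc, inf_eq_left.2 h] at h1
  have h2 := Submodule.finrank_mono (sup_le h inf_le_left : Y ⊔ U ⊓ E ≤ U)
  omega

theorem pow_mem {f : End k V} {X : Submodule k V} (hX : ∀ x ∈ X, f x ∈ X) (n : ℕ) :
    ∀ x ∈ X, (f ^ n) x ∈ X := by
  induction n with
  | zero => intro x hx; simpa using hx
  | succ n ih =>
    intro x hx
    rw [pow_succ', Module.End.mul_apply]
    exact hX _ (ih x hx)

theorem pow_equivariant {φ : V →ₗ[k] W} {f : End k V} {g : End k W} {X : Submodule k V}
    (hX : ∀ x ∈ X, f x ∈ X) (hφ : ∀ x ∈ X, φ (f x) = g (φ x)) (n : ℕ) :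
    ∀ x ∈ X, φ ((f ^ n) x) = (g ^ n) (φ x) := by
  induction n with
  | zero => intro x _; simp
  | succ n ih =>
    intro x hx
    rw [pow_succ', pow_succ', Module.End.mul_apply, Module.End.mul_apply,
      hφ _ (pow_mem hX n x hx), ih x hx]

theorem ker_pow_two_mul (g : End k W) {n : ℕ} (hn : finrank k W ≤ n) :
    LinearMap.ker (g ^ (2 * n)) = LinearMap.ker (g ^ n) := by
  rw [Module.End.ker_pow_eq_ker_pow_finrank_of_le hn,
    Module.End.ker_pow_eq_ker_pow_finrank_of_le (f := g) (m := 2 * n) (by omega)]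

theorem exists_pow_preimage {f : End k V} {X : Submodule k V} (hX : ∀ x ∈ X, f x ∈ X) {n : ℕ}
    (hn : finrank k V ≤ n) {x : V} (hx : x ∈ X) : ∃ w ∈ X, (f ^ (2 * n)) w = (f ^ n) x := by
  have hle : X.map (f ^ (2 * n)) ≤ X.map (f ^ n) := by
    rintro _ ⟨w, hw, rfl⟩
    refine ⟨(f ^ n) w, pow_mem hX n w hw, ?_⟩
    rw [← Module.End.mul_apply, ← pow_add, two_mul]
  have heq : X.map (f ^ (2 * n)) = X.map (f ^ n) := by
    refine Submodule.eq_of_le_of_finrank_le hle ?_
    have h1 := finrank_map_add (f ^ n) X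
    have h2 := finrank_map_add (f ^ (2 * n)) X
    rw [ker_pow_two_mul f hn] at h2
    omega
  have hmem : (f ^ n) x ∈ X.map (f ^ (2 * n)) := heq ▸ Submodule.mem_map_of_mem hx
  exact hmem

/-- Taking the kernel of a large power is exact. -/
theorem map_inf_ker_pow {φ : V →ₗ[k] W} {f : End k V} {g : End k W} {X : Submodule k V}
    (hX : ∀ x ∈ X, f x ∈ X) (hφ : ∀ x ∈ X, φ (f x) = g (φ x)) {n : ℕ}
    (hn : finrank k V ≤ n) (hn' : finrank k W ≤ n) :
    (X ⊓ LinearMap.ker (f ^ n)).map φ = X.map φ ⊓ LinearMap.ker (g ^ n) := by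
  refine le_antisymm ?_ ?_
  · rintro _ ⟨x, ⟨hx, hk⟩, rfl⟩
    refine ⟨Submodule.mem_map_of_mem hx, ?_⟩
    rw [SetLike.mem_coe, LinearMap.mem_ker] at hk ⊢
    rw [← pow_equivariant hX hφ n x hx, hk, map_zero]
  · rintro _ ⟨⟨x, hx, rfl⟩, hk⟩
    rw [SetLike.mem_coe, LinearMap.mem_ker] at hk
    obtain ⟨w, hw, hwx⟩ := exists_pow_preimage hX hn hx
    have h2 : (g ^ (2 * n)) (φ w) = 0 := by
      rw [← pow_equivariant hX hφ _ w hw, hwx, pow_equivariant hX hφ n x hx, hk]
    rw [← LinearMap.mem_ker, ker_pow_two_mul g hn', LinearMap.mem_ker] at h2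
    refine ⟨x - (f ^ n) w, ⟨sub_mem hx (pow_mem hX n w hw), ?_⟩, ?_⟩
    · rw [SetLike.mem_coe, LinearMap.mem_ker, map_sub, ← Module.End.mul_apply, ← pow_add,
        ← two_mul, hwx, sub_self]
    · rw [map_sub, pow_equivariant hX hφ n w hw, h2, sub_zero]

variable {ι : Type*}

/-- The part of the system `χ`. -/
def part (T : ι → End k V) (χ : ι → k) : Submodule k V :=
  ⨅ i, (T i).maxGenEigenspace (χ i)

theorem maxGen_eq_ker (f : End k V) (μ : k) {n : ℕ} (hn : finrank k V ≤ n) :
    f.maxGenEigenspace μ = LinearMap.ker ((f - μ • (1 : End k V)) ^ n) := by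
  rw [Module.End.maxGenEigenspace_eq_genEigenspace_finrank, Module.End.genEigenspace_nat,
    Module.End.ker_pow_eq_ker_pow_finrank_of_le hn]

theorem exists_finset_part (T : ι → End k V) (χ : ι → k) :
    ∃ s : Finset ι, part T χ = ⨅ i ∈ s, (T i).maxGenEigenspace (χ i) := by
  classical
  obtain ⟨E, ⟨s, rfl⟩, hmin⟩ := (wellFounded_lt (α := Submodule k V)).has_min
    (Set.range fun s : Finset ι => ⨅ i ∈ s, (T i).maxGenEigenspace (χ i)) ⟨_, ∅, rfl⟩
  refine ⟨s, le_antisymm (le_iInf₂ fun i _ => iInf_le _ i) (le_iInf fun i => ?_)⟩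
  have h := hmin _ ⟨insert i s, rfl⟩
  have hle : (⨅ j ∈ insert i s, (T j).maxGenEigenspace (χ j)) ≤
      ⨅ j ∈ s, (T j).maxGenEigenspace (χ j) :=
    biInf_mono fun j hj => Finset.mem_insert_of_mem hj
  have heq := hle.eq_or_lt.resolve_right h
  refine heq.ge.trans ?_
  exact iInf₂_le i (Finset.mem_insert_self i s)

theorem iInf_finset_mono (T : ι → End k V) (χ : ι → k) {s u : Finset ι} (h : s ⊆ u)
    (hs : part T χ = ⨅ i ∈ s, (T i).maxGenEigenspace (χ i)) :
    part T χ = ⨅ i ∈ u, (T i).maxGenEigenspace (χ i) :=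
  le_antisymm (le_iInf₂ fun i _ => iInf_le _ i) (hs ▸ biInf_mono fun _ hj => h hj)

theorem part_invariant {T : ι → End k V} (hT : ∀ i j, Commute (T i) (T j)) (χ : ι → k) (j : ι) :
    ∀ x ∈ part T χ, T j x ∈ part T χ := fun x hx => by
  rw [part, Submodule.mem_iInf] at hx ⊢
  exact fun i => Module.End.mapsTo_maxGenEigenspace_of_comm (hT i j) (χ i) (hx i)

/-- Taking the part of a system is exact. -/
theorem map_inf_part {T : ι → End k V} {T' : ι → End k W} (hT : ∀ i j, Commute (T i) (T j))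
    (χ : ι → k) {φ : V →ₗ[k] W} {X : Submodule k V} (hX : ∀ i, ∀ x ∈ X, T i x ∈ X)
    (hφ : ∀ i, ∀ x ∈ X, φ (T i x) = T' i (φ x)) :
    (X ⊓ part T χ).map φ = X.map φ ⊓ part T' χ := by
  classical
  obtain ⟨s₁, h₁⟩ := exists_finset_part T χ
  obtain ⟨s₂, h₂⟩ := exists_finset_part T' χ
  rw [iInf_finset_mono T χ (Finset.subset_union_left (s₂ := s₂)) h₁,
    iInf_finset_mono T' χ (Finset.subset_union_right (s₁ := s₁)) h₂]
  generalize s₁ ∪ s₂ = s
  induction s using Finset.induction with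
  | empty => simp
  | @insert a s _ ih =>
    set n := finrank k V + finrank k W
    set Y := X ⊓ ⨅ i ∈ s, (T i).maxGenEigenspace (χ i)
    have hY : ∀ i, ∀ x ∈ Y, T i x ∈ Y := fun i x hx => ⟨hX i x hx.1, by
      have h := hx.2
      simp only [SetLike.mem_coe, Submodule.mem_iInf] at h ⊢
      exact fun j hj => Module.End.mapsTo_maxGenEigenspace_of_comm (hT j i) (χ j) (h j hj)⟩
    have hYf : ∀ x ∈ Y, (T a - χ a • (1 : End k V)) x ∈ Y := fun x hx => by
      simpa using sub_mem (hY a x hx) (Y.smul_mem (χ a) hx)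
    have hφf : ∀ x ∈ Y, φ ((T a - χ a • (1 : End k V)) x) =
        (T' a - χ a • (1 : End k W)) (φ x) := fun x hx => by simp [hφ a x hx.1]
    rw [Finset.iInf_insert, Finset.iInf_insert, inf_comm ((T a).maxGenEigenspace (χ a)),
      ← inf_assoc, maxGen_eq_ker _ _ (Nat.le_add_right _ (finrank k W) : finrank k V ≤ n),
      maxGen_eq_ker _ _ (Nat.le_add_left _ (finrank k V) : finrank k W ≤ n),
      map_inf_ker_pow hYf hφf (Nat.le_add_right _ _) (Nat.le_add_left _ _), ih]
    ac_rfl

theorem part_scalar {T : ι → End k W} {c χ : ι → k} (hT : ∀ i, T i = c i • 1)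
    (hne : ∃ i, χ i ≠ c i) : part T χ = ⊥ := by
  obtain ⟨i, hi⟩ := hne
  refine eq_bot_iff.2 ((iInf_le _ i).trans ?_)
  rw [maxGen_eq_ker _ _ le_rfl, hT i, ← sub_smul, smul_pow, one_pow]
  intro x hx
  rw [LinearMap.mem_ker, LinearMap.smul_apply, Module.End.one_apply, smul_eq_zero] at hx
  exact (Submodule.mem_bot k).2 (hx.resolve_left (pow_ne_zero _ (sub_ne_zero.2 hi.symm)))

theorem part_prodMap (T : ι → End k W) (χ : ι → k) :
    part (fun i => (T i).prodMap (T i)) χ = (part T χ).prod (part T χ) := by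
  have h : ∀ (f : End k W) (μ : k) (n : ℕ) (x : W × W),
      ((f.prodMap f - μ • (1 : End k (W × W))) ^ n) x =
        (((f - μ • (1 : End k W)) ^ n) x.1, ((f - μ • (1 : End k W)) ^ n) x.2) := by
    intro f μ n
    induction n with
    | zero => intro x; simp
    | succ n ih => intro x; simp [pow_succ', Module.End.mul_apply, ih]
  ext x
  simp only [part, Submodule.mem_iInf, Submodule.mem_prod]
  have hn : finrank k W ≤ finrank k (W × W) := by rw [Module.finrank_prod]; omega
  simp only [maxGen_eq_ker _ _ (le_refl (finrank k (W × W))), maxGen_eq_ker _ _ hn,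
    LinearMap.mem_ker, h, Prod.ext_iff, Prod.fst_zero, Prod.snd_zero]
  exact ⟨fun hx => ⟨fun i => (hx i).1, fun i => (hx i).2⟩, fun hx i => ⟨hx.1 i, hx.2 i⟩⟩

/-- **The count.** -/
theorem rank_eq {V' Ψ : Type*} [AddCommGroup V'] [Module k V'] [FiniteDimensional k V']
    [AddCommGroup Ψ] [Module k Ψ] [FiniteDimensional k Ψ]
    {T : ι → End k V} (hT : ∀ i j, Commute (T i) (T j)) (T' : ι → End k V') (χ c : ι → k)
    (hne : ∃ i, χ i ≠ c i) (B : End k V) (hB : ∀ i x, B (T i x) = T i (B x))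
    (P : Submodule k V) (hBP : LinearMap.range B ≤ P)
    {t g g' : ℕ} (hPt : finrank k P ≤ t) (hV : 2 * g ≤ finrank k V)
    (hV' : finrank k V' ≤ 2 * g') (hg : t + 2 * g' ≤ g)
    (a : V →ₗ[k] Ψ) (ha : ∀ x ∈ LinearMap.ker B, ∀ i, a (T i x) = c i • a x)
    (ha1 : finrank k ((LinearMap.ker B).map a) ≤ 1)
    (R : V →ₗ[k] V' × V')
    (hR : ∀ x ∈ LinearMap.ker B, a x = 0 → ∀ i, R (T i x) = (T' i (R x).1, T' i (R x).2))
    (hRP : ∀ x ∈ LinearMap.ker B, a x = 0 → R x = 0 → x ∈ P)
    (heven : Even (finrank k ↥(part T χ))) :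
    2 * finrank k ↥((part T χ).map B) + 2 * finrank k ↥(part T' χ) =
      finrank k ↥(part T χ) := by
  set E := part T χ
  set K := LinearMap.ker B
  set S := K ⊓ LinearMap.ker a
  set Q := S ⊓ LinearMap.ker R
  have hK : ∀ i, ∀ x ∈ K, T i x ∈ K := fun i x hx => by
    rw [LinearMap.mem_ker] at hx ⊢
    rw [hB, hx, map_zero]
  have hS : ∀ i, ∀ x ∈ S, T i x ∈ S := fun i x hx => ⟨hK i x hx.1, by
    rw [SetLike.mem_coe, LinearMap.mem_ker, ha x hx.1 i,
      show a x = 0 from LinearMap.mem_ker.1 hx.2, smul_zero]⟩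
  have hQP : Q ≤ P := fun x hx =>
    hRP x hx.1.1 (LinearMap.mem_ker.1 hx.1.2) (LinearMap.mem_ker.1 hx.2)
  -- the images of the part
  have eB : E.map B = LinearMap.range B ⊓ E := by
    have h := map_inf_part hT χ (φ := B) (T' := T) (X := ⊤) (fun _ _ _ => trivial)
      fun i x _ => hB i x
    rwa [top_inf_eq, Submodule.map_top] at h
  have ea : (K ⊓ E).map a = ⊥ := by
    rw [map_inf_part hT χ (T' := fun i => c i • (1 : End k Ψ)) hK
      (fun i x hx => by simp [ha x hx i]), part_scalar (fun _ => rfl) hne, inf_bot_eq]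
  have eR : (S ⊓ E).map R = S.map R ⊓ (part T' χ).prod (part T' χ) := by
    rw [← part_prodMap]
    exact map_inf_part hT χ hS fun i x hx => by
      simpa using hR x hx.1 (LinearMap.mem_ker.1 hx.2) i
  -- the dimensions
  have n1 := finrank_map_add B E
  have n2 := finrank_map_add a (K ⊓ E)
  rw [ea, finrank_bot] at n2
  have n3 := finrank_map_add R (S ⊓ E)
  rw [eR] at n3
  have e2 : K ⊓ E ⊓ LinearMap.ker a = S ⊓ E := inf_right_comm _ _ _
  have e3 : S ⊓ E ⊓ LinearMap.ker R = Q ⊓ E := inf_right_comm _ _ _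
  rw [e2] at n2
  rw [e3] at n3
  rw [inf_comm E] at n1
  have m1 := finrank_map_add B ⊤
  rw [Submodule.map_top, top_inf_eq, finrank_top] at m1
  have m2 := finrank_map_add a K
  have m3 := finrank_map_add R S
  have d1 := finrank_inf_add_le hBP E
  have d2 := finrank_inf_add_le hQP E
  have d3 := finrank_inf_add_le (le_top : S.map R ≤ ⊤) ((part T' χ).prod (part T' χ))
  rw [top_inf_eq, finrank_top, Module.finrank_prod] at d3
  have hprod : finrank k ↥((part T' χ).prod (part T' χ)) =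
      finrank k ↥(part T' χ) + finrank k ↥(part T' χ) := by
    rw [← Module.finrank_prod]
    exact LinearEquiv.finrank_eq
      { toFun := fun x => (⟨x.1.1, x.2.1⟩, ⟨x.1.2, x.2.2⟩)
        invFun := fun x => ⟨(x.1.1, x.2.1), x.1.2, x.2.2⟩
        map_add' := fun _ _ => rfl
        map_smul' := fun _ _ => rfl
        left_inv := fun _ => rfl
        right_inv := fun _ => rfl }
  have u1 : finrank k ↥(LinearMap.range B ⊓ E) ≤ finrank k ↥(P ⊓ E) :=
    Submodule.finrank_mono (inf_le_inf_right E hBP)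
  have u2 : finrank k ↥(Q ⊓ E) ≤ finrank k ↥(P ⊓ E) :=
    Submodule.finrank_mono (inf_le_inf_right E hQP)
  have u3 := Submodule.finrank_mono
    (inf_le_right : S.map R ⊓ (part T' χ).prod (part T' χ) ≤ _)
  rw [eB] at n1 ⊢
  obtain ⟨m, hm⟩ := heven
  change finrank k ↥E = m + m at hm
  change 2 * finrank k ↥(LinearMap.range B ⊓ E) + 2 * finrank k ↥(part T' χ) = finrank k ↥E
  simp only [K, S, Q] at *
  omega

end FA.ModField.Assembly
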