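import Fermat.Agent.ModField.Semistable.Mono.KTensor
import Fermat.Agent.ModField.Semistable.Mono.Assembly

/-!
# The count for groups killed by `p`
-/

set_option autoImplicit false
set_option linter.style.haveILetI false
set_option linter.unusedSectionVars false

noncomputable section

namespace FA.ModField.CountAbs

open scoped TensorProduct
open Module KTensor

variable (k : Type*) [Field k] (p : ℕ) [Fact p.Prime] [CharP k p]
  {X X' Y : Type*} [AddCommGroup X] [Finite X] [AddCommGroup X'] [Finite X'] [AddCommGroup Y]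
  [Finite Y] (hX : ∀ x : X, p • x = 0) (hX' : ∀ x : X', p • x = 0) (hY : ∀ y : Y, p • y = 0)

include hX hX' hY in
/-- The count, with all conditions on elements. -/
theorem rank_eq {ι : Type*} (t : ι → X →+ X) (ht : ∀ i j x, t i (t j x) = t j (t i x))
    (t' : ι → X' →+ X') (χ : ι → k) (c : ι → ℕ) (hne : ∃ i, χ i ≠ (c i : k))
    (B : X →+ X) (hB : ∀ i x, B (t i x) = t i (B x))
    (P : AddSubgroup X) (hBP : B.range ≤ P) {e g g' : ℕ} (hfinP : Finite P)
    (hcardP : Nat.card P ≤ p ^ e) (hcardX : Nat.card X = p ^ (2 * g))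
    (hcardX' : Nat.card X' = p ^ (2 * g')) (hg : e + 2 * g' ≤ g)
    (br : X →+ Y) (hbr : ∀ i x, B x = 0 → br (t i x) = c i • br x)
    (v : Y) (hv : ∀ x, B x = 0 → ∃ κ : ℤ, br x = κ • v)
    (R₀ R₁ : X →+ X')
    (hR : ∀ i x, B x = 0 → br x = 0 → B (t i x) = 0 → br (t i x) = 0 →
      R₀ (t i x) = t' i (R₀ x) ∧ R₁ (t i x) = t' i (R₁ x))
    (hRP : ∀ x, B x = 0 → br x = 0 → R₀ x = 0 → R₁ x = 0 → x ∈ P)
    (heven : Even (finrank k ↥(Assembly.part (fun i => kMap k (t i)) χ))) :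
    2 * finrank k ↥((Assembly.part (fun i => kMap k (t i)) χ).map (kMap k B)) +
        2 * finrank k ↥(Assembly.part (fun i => kMap k (t' i)) χ) =
      finrank k ↥(Assembly.part (fun i => kMap k (t i)) χ) := by
  haveI := hfinP
  haveI : Module.Finite ℤ X := Module.Finite.of_finite
  haveI : Module.Finite ℤ X' := Module.Finite.of_finite
  haveI : Module.Finite ℤ Y := Module.Finite.of_finite
  have hK : LinearMap.ker (kMap k B) ≤ kSpan k B.ker := ker_le k p hX hX B
  have hS : ∀ x ∈ LinearMap.ker (kMap k B), kMap k br x = 0 → x ∈ kSpan k (B.ker ⊓ br.ker) :=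
    fun x hx h => inf_ker_le k p hX hY B.ker br ⟨hK hx, h⟩
  refine Assembly.rank_eq (fun i j => ?_) (fun i => kMap k (t' i)) χ (fun i => (c i : k)) hne
    (kMap k B) (fun i x => ?_) (kSpan k P) ((range_kMap k B).trans (kSpan_mono k hBP))
    (t := e) (g := g) (g' := g') (finrank_kSpan_le k p hX P hcardP)
    (finrank_kTensor k p hX hcardX).ge (finrank_kTensor k p hX' hcardX').le hg
    (kMap k br) (fun x hx i => ?_) ?_ ((kMap k R₀).prod (kMap k R₁)) (fun x hx h i => ?_)
    (fun x hx h h0 => ?_) heven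
  · refine LinearMap.ext fun z => ?_
    rw [Module.End.mul_apply, Module.End.mul_apply]
    induction z using TensorProduct.induction_on with
    | zero => simp
    | tmul a x => rw [kMap_tmul, kMap_tmul, kMap_tmul, kMap_tmul, ht]
    | add a b ha hb => simp only [map_add, ha, hb]
  · induction x using TensorProduct.induction_on with
    | zero => simp
    | tmul a x => rw [kMap_tmul, kMap_tmul, kMap_tmul, kMap_tmul, hB]
    | add a b ha hb => simp only [map_add, ha, hb]
  · refine LinearMap.mem_eqLocus.1 ((kSpan_le k (U := LinearMap.eqLocus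
      ((kMap k br).comp (kMap k (t i))) ((c i : k) • kMap k br))).2 (fun y hy => ?_) (hK hx))
    show (1 : k) ⊗ₜ[ℤ] br (t i y) = (c i : k) • ((1 : k) ⊗ₜ[ℤ] br y)
    rw [hbr i y hy, TensorProduct.tmul_smul, Nat.cast_smul_eq_nsmul]
  · refine (Submodule.finrank_mono ((Submodule.map_mono hK).trans (Submodule.map_le_iff_le_comap.2
      ((kSpan_le k (U := (Submodule.span k {(1 : k) ⊗ₜ[ℤ] v}).comap (kMap k br))).2
        fun y hy => ?_)))).trans ((finrank_span_le_card _).trans (by simp))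
    obtain ⟨κ, hκ⟩ := hv y hy
    show (1 : k) ⊗ₜ[ℤ] br y ∈ Submodule.span k {(1 : k) ⊗ₜ[ℤ] v}
    rw [hκ, TensorProduct.tmul_smul]
    exact zsmul_mem (Submodule.mem_span_singleton_self _) κ
  · refine LinearMap.mem_eqLocus.1 ((kSpan_le k (U := LinearMap.eqLocus
      (((kMap k R₀).prod (kMap k R₁)).comp (kMap k (t i)))
      (((kMap k (t' i)).prodMap (kMap k (t' i))).comp ((kMap k R₀).prod (kMap k R₁))))).2
      (fun y hy => ?_) (hS x hx h))
    have hy1 : B y = 0 := hy.1
    have hy2 : br y = 0 := hy.2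
    obtain ⟨e0, e1⟩ := hR i y hy1 hy2 (by rw [hB, hy1, map_zero])
      (by rw [hbr i y hy1, hy2, smul_zero])
    refine Prod.ext ?_ ?_
    · show (1 : k) ⊗ₜ[ℤ] R₀ (t i y) = (1 : k) ⊗ₜ[ℤ] t' i (R₀ y)
      rw [e0]
    · show (1 : k) ⊗ₜ[ℤ] R₁ (t i y) = (1 : k) ⊗ₜ[ℤ] t' i (R₁ y)
      rw [e1]
  · have h1 := inf_ker_le k p hX hX' _ R₀ ⟨hS x hx h, congrArg Prod.fst h0⟩
    have h2 := inf_ker_le k p hX hX' _ R₁ ⟨h1, congrArg Prod.snd h0⟩
    refine kSpan_mono k ?_ h2
    rintro y ⟨⟨⟨hy, hy'⟩, hy0⟩, hy1⟩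
    exact hRP y hy hy' hy0 hy1

end FA.ModField.CountAbs
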