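import Mathlib.LinearAlgebra.TensorProduct.Tower
import Mathlib.LinearAlgebra.FiniteDimensional.Lemmas
import Mathlib.RingTheory.TensorProduct.Finite
import Mathlib.Algebra.Module.ZMod
import Mathlib.LinearAlgebra.Basis.VectorSpace
import Mathlib.RingTheory.TensorProduct.Basic
import Mathlib.LinearAlgebra.Dimension.Free
import Mathlib.FieldTheory.Finiteness
import Mathlib.LinearAlgebra.FreeModule.Finite.Matrix
import Mathlib.LinearAlgebra.StdBasis
import Mathlib.Algebra.Field.ZMod

/-!
# Groups killed by `p` over a field of characteristic `p`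

Kernels commute with extending the scalars to the field; maps with values in the image of an
injective map lift.
-/

set_option autoImplicit false
set_option linter.unusedSectionVars false
set_option linter.style.haveILetI false

noncomputable section

namespace FA.ModField.KTensor

open scoped TensorProduct
open Module

variable (k : Type*) [Field k] {X Y Z : Type*} [AddCommGroup X] [AddCommGroup Y] [AddCommGroup Z]

/-- A homomorphism over `k`. -/
def kMap (f : X →+ Y) : k ⊗[ℤ] X →ₗ[k] k ⊗[ℤ] Y := LinearMap.baseChange k f.toIntLinearMap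

@[simp] theorem kMap_tmul (f : X →+ Y) (c : k) (x : X) : kMap k f (c ⊗ₜ x) = c ⊗ₜ f x := rfl

theorem kMap_comp (g : Y →+ Z) (f : X →+ Y) :
    kMap k (g.comp f) = kMap k g ∘ₗ kMap k f := by
  refine LinearMap.ext fun z => ?_
  induction z using TensorProduct.induction_on with
  | zero => simp
  | tmul c x => rfl
  | add a b ha hb => rw [map_add, map_add, ha, hb]

/-- The span of a subgroup. -/
def kSpan (H : AddSubgroup X) : Submodule k (k ⊗[ℤ] X) :=
  Submodule.span k ((fun x => (1 : k) ⊗ₜ[ℤ] x) '' (H : Set X))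

theorem kSpan_le {H : AddSubgroup X} {U : Submodule k (k ⊗[ℤ] X)} :
    kSpan k H ≤ U ↔ ∀ x ∈ H, (1 : k) ⊗ₜ[ℤ] x ∈ U := by
  rw [kSpan, Submodule.span_le, Set.image_subset_iff]
  rfl

theorem kSpan_mono {H H' : AddSubgroup X} (h : H ≤ H') : kSpan k H ≤ kSpan k H' :=
  Submodule.span_mono (Set.image_mono h)

theorem tmul_mem (c : k) {H : AddSubgroup X} {x : X} (hx : x ∈ H) :
    c ⊗ₜ[ℤ] x ∈ kSpan k H := by
  rw [← mul_one c, ← smul_eq_mul, ← TensorProduct.smul_tmul']
  exact Submodule.smul_mem _ c (Submodule.subset_span ⟨x, hx, rfl⟩)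

theorem range_kMap (f : X →+ Y) : LinearMap.range (kMap k f) ≤ kSpan k f.range := by
  rintro _ ⟨z, rfl⟩
  induction z using TensorProduct.induction_on with
  | zero => rw [map_zero]; exact zero_mem _
  | tmul c x => exact tmul_mem k c ⟨x, rfl⟩
  | add a b ha hb => rw [map_add]; exact add_mem ha hb

theorem exists_of_mem {H : AddSubgroup X} {z : k ⊗[ℤ] X} (hz : z ∈ kSpan k H) :
    ∃ w : k ⊗[ℤ] H, kMap k H.subtype w = z := by
  refine (Submodule.span_le (p := LinearMap.range (kMap k H.subtype))).2 ?_ hz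
  rintro _ ⟨x, hx, rfl⟩
  exact ⟨(1 : k) ⊗ₜ ⟨x, hx⟩, rfl⟩

section Elementary

variable (p : ℕ) [Fact p.Prime] (hX : ∀ x : X, p • x = 0) (hY : ∀ y : Y, p • y = 0)

include hX hY in
/-- A partial inverse of a homomorphism. -/
theorem exists_section (f : X →+ Y) : ∃ s : Y →+ X, ∀ x, f (s (f x)) = f x := by
  obtain ⟨_⟩ : Nonempty (Module (ZMod p) X) := ⟨AddCommGroup.zmodModule hX⟩
  obtain ⟨_⟩ : Nonempty (Module (ZMod p) Y) := ⟨AddCommGroup.zmodModule hY⟩
  let F := f.toZModLinearMap p
  obtain ⟨g, hg⟩ := LinearMap.exists_rightInverse_of_surjective F.rangeRestrict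
    F.range_rangeRestrict
  obtain ⟨s, hs⟩ := LinearMap.exists_extend g
  refine ⟨s.toAddMonoidHom, fun x => ?_⟩
  show F (s (F x)) = F x
  rw [show s (F x) = g (F.rangeRestrict x) from LinearMap.congr_fun hs (F.rangeRestrict x)]
  exact congrArg Subtype.val (LinearMap.congr_fun hg (F.rangeRestrict x))

include hX hY in
/-- The kernel over `k` is spanned by the kernel. -/
theorem ker_le (f : X →+ Y) : LinearMap.ker (kMap k f) ≤ kSpan k f.ker := by
  intro z hz
  obtain ⟨s, hs⟩ := exists_section p hX hY f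
  have hsum : z = kMap k (AddMonoidHom.id X - s.comp f) z + kMap k s (kMap k f z) := by
    clear hz
    induction z using TensorProduct.induction_on with
    | zero => simp
    | tmul c x => simp [← TensorProduct.tmul_add]
    | add a b ha hb => simp only [map_add]; conv_lhs => rw [ha, hb]
                       abel
  rw [LinearMap.mem_ker] at hz
  rw [hz, map_zero, add_zero] at hsum
  rw [hsum]
  refine kSpan_mono k ?_ (range_kMap k _ ⟨z, rfl⟩)
  rintro _ ⟨x, rfl⟩
  simp [hs]

include hX hY in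
/-- Kernels on the span of a subgroup. -/
theorem inf_ker_le (H : AddSubgroup X) (f : X →+ Y) :
    kSpan k H ⊓ LinearMap.ker (kMap k f) ≤ kSpan k (H ⊓ f.ker) := by
  rintro z ⟨hz, hk⟩
  obtain ⟨w, rfl⟩ := exists_of_mem k hz
  have hw : kMap k (f.comp H.subtype) w = 0 := by
    rw [kMap_comp]
    exact hk
  have h := ker_le k p (X := H) (fun x => Subtype.ext (by simpa using hX x)) hY _
    (LinearMap.mem_ker.2 hw)
  have hmap : (kSpan k (f.comp H.subtype).ker).map (kMap k H.subtype) ≤ kSpan k (H ⊓ f.ker) := by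
    rw [kSpan, Submodule.map_span, Submodule.span_le]
    rintro _ ⟨_, ⟨x, hx, rfl⟩, rfl⟩
    exact tmul_mem k _ ⟨x.2, hx⟩
  exact hmap ⟨w, h, rfl⟩

variable {V : Type*} [AddCommGroup V] (hV : ∀ v : V, p • v = 0)

include hX hY in
/-- A map with values in the image of an injective map on a subgroup lifts. -/
theorem exists_lift_on {T : Type*} [AddCommGroup T] (ψ : Y →+ T) (hψ : Function.Injective ψ)
    (φ : X →+ T) (H : AddSubgroup X) (hH : ∀ x ∈ H, φ x ∈ ψ.range) :
    ∃ R : X →+ Y, ∀ x ∈ H, ψ (R x) = φ x := by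
  obtain ⟨_⟩ : Nonempty (Module (ZMod p) X) := ⟨AddCommGroup.zmodModule hX⟩
  obtain ⟨_⟩ : Nonempty (Module (ZMod p) Y) := ⟨AddCommGroup.zmodModule hY⟩
  let H' : Submodule (ZMod p) X := AddSubgroup.toZModSubmodule p H
  have h : ∀ x : H', ∃ y, ψ y = φ (x : X) := fun x => hH x x.2
  choose g hg using h
  let G : H' →+ Y := AddMonoidHom.mk' g fun a b => hψ (by
    rw [map_add, hg, hg, hg]
    exact map_add φ (a : X) (b : X))
  obtain ⟨R, hR⟩ := LinearMap.exists_extend (G.toZModLinearMap p)
  refine ⟨R.toAddMonoidHom, fun x hx => ?_⟩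
  show ψ (R x) = φ x
  rw [show R x = g ⟨x, hx⟩ from LinearMap.congr_fun hR ⟨x, hx⟩, hg]

include hX hY in
/-- Two maps with values in the image of an injective composite lift. -/
theorem exists_two_lifts {W T : Type*} [AddCommGroup W] [AddCommGroup T] (g : Y →+ W)
    (hg : Function.Injective g) (ψ : W →+ T) (hψ : Function.Injective ψ) (φ₀ φ₁ : X →+ T)
    (H : AddSubgroup X) (hH : ∀ x ∈ H, (∃ y, ψ (g y) = φ₀ x) ∧ ∃ y, ψ (g y) = φ₁ x) :
    ∃ R₀ R₁ : X →+ Y, ∀ x ∈ H, ψ (g (R₀ x)) = φ₀ x ∧ ψ (g (R₁ x)) = φ₁ x := by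
  obtain ⟨R₀, h₀⟩ := exists_lift_on p hX hY (ψ.comp g) (hψ.comp hg) φ₀ H fun x hx => (hH x hx).1
  obtain ⟨R₁, h₁⟩ := exists_lift_on p hX hY (ψ.comp g) (hψ.comp hg) φ₁ H fun x hx => (hH x hx).2
  exact ⟨R₀, R₁, fun x hx => ⟨h₀ x hx, h₁ x hx⟩⟩

include hX in
/-- The span of a subgroup with at most `p ^ t` elements has dimension at most `t`. -/
theorem finrank_kSpan_le (H : AddSubgroup X) [Finite H] {t : ℕ} (ht : Nat.card H ≤ p ^ t) :
    finrank k (kSpan k H) ≤ t := by
  classical
  obtain ⟨_⟩ : Nonempty (Module (ZMod p) H) :=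
    ⟨AddCommGroup.zmodModule fun x => Subtype.ext (by simpa using hX x)⟩
  haveI : Module.Finite (ZMod p) H := Module.Finite.of_finite
  let b := Module.finBasis (ZMod p) H
  have hcard : Nat.card H = p ^ finrank (ZMod p) H := by
    rw [Module.natCard_eq_pow_finrank (K := ZMod p), Nat.card_zmod]
  rw [hcard] at ht
  have hd := (Nat.pow_le_pow_iff_right (Fact.out (p := p.Prime)).one_lt).1 ht
  have hle : kSpan k H ≤
      Submodule.span k (Set.range fun i => (1 : k) ⊗ₜ[ℤ] ((b i : H) : X)) := by
    rw [kSpan_le]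
    intro x hx
    have e : x = ∑ i, (b.repr ⟨x, hx⟩ i).val • ((b i : H) : X) := by
      conv_lhs => rw [show x = ((⟨x, hx⟩ : H) : X) from rfl, ← b.sum_repr ⟨x, hx⟩]
      rw [AddSubmonoidClass.coe_finset_sum]
      refine Finset.sum_congr rfl fun i _ => ?_
      rw [← AddSubmonoidClass.coe_nsmul, ← Nat.cast_smul_eq_nsmul (ZMod p), ZMod.natCast_zmod_val]
    rw [e, TensorProduct.tmul_sum]
    refine Submodule.sum_mem _ fun i _ => ?_
    rw [TensorProduct.tmul_smul]
    exact nsmul_mem (Submodule.subset_span (Set.mem_range_self i)) _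
  haveI : Module.Finite k (Submodule.span k (Set.range fun i => (1 : k) ⊗ₜ[ℤ] ((b i : H) : X))) :=
    Module.Finite.span_of_finite k (Set.finite_range _)
  refine (Submodule.finrank_mono hle).trans ((finrank_range_le_card _).trans ?_)
  rw [Fintype.card_fin]
  exact hd

variable [CharP k p]

include hX in
/-- The dimension over `k`. -/
theorem finrank_kTensor [Finite X] {d : ℕ} (hd : Nat.card X = p ^ d) :
    finrank k (k ⊗[ℤ] X) = d := by
  classical
  haveI : Finite (⊤ : AddSubgroup X) := inferInstance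
  have hle : finrank k (k ⊗[ℤ] X) ≤ d := by
    have h := finrank_kSpan_le k p hX (⊤ : AddSubgroup X) (t := d)
      (by rw [← hd]; exact le_of_eq (Nat.card_congr AddSubgroup.topEquiv.toEquiv))
    have htop : kSpan k (⊤ : AddSubgroup X) = ⊤ := by
      refine eq_top_iff.2 fun z _ => ?_
      induction z using TensorProduct.induction_on with
      | zero => exact zero_mem _
      | tmul c x => exact tmul_mem k c trivial
      | add a b ha hb => exact add_mem (ha trivial) (hb trivial)
    rwa [htop, finrank_top] at h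
  obtain ⟨_⟩ : Nonempty (Module (ZMod p) X) := ⟨AddCommGroup.zmodModule hX⟩
  haveI : Module.Finite (ZMod p) X := Module.Finite.of_finite
  haveI : Module.Finite k (k ⊗[ℤ] X) := by
    haveI : Module.Finite ℤ X := Module.Finite.of_finite
    exact Module.Finite.base_change ℤ k X
  let b := Module.finBasis (ZMod p) X
  have hfr : finrank (ZMod p) X = d := by
    refine Nat.pow_right_injective (Fact.out (p := p.Prime)).two_le ?_
    show p ^ finrank (ZMod p) X = p ^ d
    rw [← hd, Module.natCard_eq_pow_finrank (K := ZMod p) (V := X), Nat.card_zmod]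
  let co : X →+ (Fin (finrank (ZMod p) X) → k) := AddMonoidHom.mk'
    (fun x i => ZMod.castHom (dvd_refl p) k (b.repr x i)) fun x y => funext fun i => by simp
  let L : k ⊗[ℤ] X →ₗ[k] (Fin (finrank (ZMod p) X) → k) :=
    LinearMap.liftBaseChange k co.toIntLinearMap
  have hL : Function.Surjective L := by
    rw [← LinearMap.range_eq_top, eq_top_iff, ← (Pi.basisFun k _).span_eq, Submodule.span_le]
    rintro _ ⟨i, rfl⟩
    refine ⟨(1 : k) ⊗ₜ b i, ?_⟩
    rw [LinearMap.liftBaseChange_tmul, one_smul, Pi.basisFun_apply]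
    funext j
    show ZMod.castHom (dvd_refl p) k (b.repr (b i) j) = _
    rw [b.repr_self]
    rcases eq_or_ne i j with rfl | hij
    · simp
    · simp [Finsupp.single_apply, hij, Pi.single_apply, Ne.symm hij]
  have h2 := L.finrank_range_le
  rw [LinearMap.range_eq_top.2 hL, finrank_top, finrank_fintype_fun_eq_card, Fintype.card_fin,
    hfr] at h2
  omega

end Elementary

end FA.ModField.KTensor
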