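import Fermat.Agent.ModField.Semistable.Mono.GenusLevel
import Fermat.Agent.JTorsion.LatMod
import Mathlib.Data.ZMod.Basic

/-!
# The number of classes of order `p`
-/

set_option autoImplicit false
set_option linter.style.haveILetI false
set_option linter.unusedSectionVars false
set_option synthInstance.maxHeartbeats 200000
set_option maxHeartbeats 400000

noncomputable section

namespace FA.ModField

open FA.Level FA.JTorsion CongruenceSubgroup

variable [Algebra (AlgebraicClosure ℚ) ℂ] (N : ℕ) [NeZero N] (p : ℕ) [NeZero p]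

theorem modN_nsmul (z : ModN N (∅ : Set ℕ) p) : p • z = 0 :=
  toTors_injective N (∅ : Set ℕ) p (by rw [map_nsmul, nsmul_toTors, map_zero])

theorem card_modN : Finite (ModN N (∅ : Set ℕ) p) ∧ Nat.card (ModN N (∅ : Set ℕ) p) =
    p ^ (2 * Module.finrank ℂ (CuspForm (Gamma0 N) 2)) := by
  obtain ⟨hfree, hfin⟩ := cuspLat_free_finite (lvlGamma0 N)
  haveI := hfree
  haveI := hfin
  rw [← finrank_cuspLat N]
  let b := Module.finBasis ℤ (cuspLat (lvlGamma0 N))
  set r := Module.finrank ℤ (cuspLat (lvlGamma0 N))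
  let f : LatMod N (∅ : Set ℕ) →+ (Fin r → ZMod p) :=
    AddMonoidHom.mk' (fun x i => ((b.repr (LatMod.val N (∅ : Set ℕ) x) i : ℤ) : ZMod p))
      fun x y => funext fun i => by simp
  let g : ModN N (∅ : Set ℕ) p →+ (Fin r → ZMod p) :=
    QuotientAddGroup.lift (nMultiples N (∅ : Set ℕ) p).toAddSubgroup f (by
      intro x hx
      obtain ⟨y, rfl⟩ := (mem_nMultiples N (∅ : Set ℕ)).1 hx
      rw [AddMonoidHom.mem_ker, map_nsmul]
      funext i
      simp)
  have hinj : Function.Injective g := by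
    rw [injective_iff_map_eq_zero]
    intro z hz
    obtain ⟨x, rfl⟩ := Submodule.Quotient.mk_surjective _ z
    have hx : ∀ i, (p : ℤ) ∣ b.repr (LatMod.val N (∅ : Set ℕ) x) i := fun i =>
      (ZMod.intCast_zmod_eq_zero_iff_dvd _ _).1 (congrFun hz i)
    choose c hc using hx
    refine (Submodule.Quotient.mk_eq_zero _).2 ((mem_nMultiples N (∅ : Set ℕ)).2
      ⟨(LatMod.val N (∅ : Set ℕ)).symm (∑ i, c i • b i), ?_⟩)
    refine (LatMod.val N (∅ : Set ℕ)).injective ?_
    rw [map_nsmul, AddEquiv.apply_symm_apply, Finset.smul_sum]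
    conv_rhs => rw [← b.sum_repr (LatMod.val N (∅ : Set ℕ) x)]
    refine Finset.sum_congr rfl fun i _ => ?_
    rw [hc i, ← natCast_zsmul, smul_smul]
  have hsurj : Function.Surjective g := fun v => by
    refine ⟨Submodule.Quotient.mk
      ((LatMod.val N (∅ : Set ℕ)).symm (∑ i, ((v i).cast : ℤ) • b i)), funext fun j => ?_⟩
    show ((b.repr (LatMod.val N (∅ : Set ℕ) ((LatMod.val N (∅ : Set ℕ)).symm _)) j : ℤ) :
      ZMod p) = v j
    rw [AddEquiv.apply_symm_apply, b.repr_sum_self, ZMod.intCast_zmod_cast]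
  refine ⟨Finite.of_injective g hinj, ?_⟩
  rw [Nat.card_eq_of_bijective g ⟨hinj, hsurj⟩, Nat.card_fun, Nat.card_zmod, Nat.card_fin]

end FA.ModField
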