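import Fermat.Agent.ModField.Semistable.Mono.Coord
import Fermat.Agent.ModField.Semistable.Inject
import Fermat.Agent.ModField.Semistable.Formal.Glued
import Mathlib.RingTheory.RootsOfUnity.Basic

/-!
# At most `p^(σ-1)` classes of order `p` reduce to zero on both components

With two components the units on the branches modulo gluing are seen on the ratios at the
singular points, normalised at one of them.
-/

set_option autoImplicit false
set_option linter.style.haveILetI false
set_option linter.unusedSectionVars false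

noncomputable section

namespace FA.ModField.FibreHyp

open AlgebraicCurve FA.Curve FA.CurveRed FA.CurveRed.ConstRed

variable {K F k : Type*} [Field K] [IsAlgClosed K] [Field F] [Algebra K F] [Field k]
  [IsAlgClosed k] {Fk : Fin 2 → Type*} [∀ i, Field (Fk i)] [∀ i, Algebra k (Fk i)]
  {A : ValuationSubring K} {J : MultiRed K F k Fk A} {hF : IsFunctionField K F}
  {hk : ∀ i, IsFunctionField k (Fk i)} {x : F} {xb : ∀ i, Fk i} (H : FibreHyp J hF hk x xb)
  (hconn : ∀ c : Fin 2 → k,
    (∀ b b' : H.Br, H.sgPt b = H.sgPt b' → c b.1.1 = c b'.1.1) → ∀ i j, c i = c j)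

include hconn in
theorem nonempty_sg : Nonempty H.Sg := by
  by_contra h
  exact zero_ne_one (hconn ![0, 1] (fun b => absurd ⟨H.sgPt b⟩ h) 0 1)

/-- The ratios of units on the two branches, normalised at `s₀`. -/
def normRatio (s₀ : H.Sg) : (H.Br → kˣ) →* (H.Sg → kˣ) where
  toFun u s := (u (H.brAt s 0) / u (H.brAt s 1)) / (u (H.brAt s₀ 0) / u (H.brAt s₀ 1))
  map_one' := funext fun s => by simp
  map_mul' u v := funext fun s => by simp [mul_div_mul_comm]

theorem normRatio_self (s₀ : H.Sg) (u : H.Br → kˣ) : H.normRatio s₀ u s₀ = 1 := div_self' _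

theorem ker_normRatio (s₀ : H.Sg) (u : H.Br → kˣ) :
    H.normRatio s₀ u = 1 ↔ u ∈ (H.semiFibre hconn).glueHom.range := by
  constructor
  · intro h
    refine ⟨(fun s => u (H.brAt s 1), ![u (H.brAt s₀ 0) / u (H.brAt s₀ 1), 1]), funext fun b => ?_⟩
    show u (H.brAt (H.sgPt b) 1) * _ = u b
    obtain ⟨s, i, rfl⟩ : ∃ s i, b = H.brAt s i := ⟨_, _, H.eq_brAt b rfl⟩
    have h1 : u (H.brAt s 0) / u (H.brAt s 1) = u (H.brAt s₀ 0) / u (H.brAt s₀ 1) :=
      div_eq_one.1 (congrFun h s)
    rw [H.sgPt_brAt]
    show u (H.brAt s 1) * (![u (H.brAt s₀ 0) / u (H.brAt s₀ 1), 1] : Fin 2 → kˣ) i = _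
    fin_cases i
    · show u (H.brAt s 1) * (u (H.brAt s₀ 0) / u (H.brAt s₀ 1)) = u (H.brAt s 0)
      rw [← h1, mul_div_cancel]
    · exact mul_one _
  · rintro ⟨⟨v, c⟩, rfl⟩
    refine funext fun s => ?_
    have e : ∀ (s : H.Sg) i, (H.semiFibre hconn).glueHom (v, c) (H.brAt s i) = v s * c i :=
      fun s i => by
        show v (H.sgPt (H.brAt s i)) * c (H.brAt s i).1.1 = _
        rw [H.sgPt_brAt]
        rfl
    show (_ / _) / (_ / _) = (1 : kˣ)
    rw [e, e, e, e, mul_div_mul_left_eq_div, mul_div_mul_left_eq_div, div_self']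

include hconn in
theorem card_toricKer {p : ℕ} [NeZero p] (hp1 : A.valuation (p : K) = 1) :
    Finite ((H.semiFibre hconn).toricKer hF p) ∧
      Nat.card ((H.semiFibre hconn).toricKer hF p) ≤ p ^ (Fintype.card H.Sg - 1) := by
  classical
  obtain ⟨s₀⟩ := H.nonempty_sg hconn
  set X := H.semiFibre hconn
  let f : X.ToricTarget → H.Sg → kˣ := fun y =>
    QuotientGroup.lift _ (H.normRatio s₀)
      (fun u hu => (H.ker_normRatio hconn s₀ u).2 hu) (Additive.toMul y)
  let g : X.toricKer hF p → ({s : H.Sg // s ≠ s₀} → rootsOfUnity p k) := fun x s =>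
    ⟨f (X.toricHom hF hk (NeZero.ne p) x) s, (mem_rootsOfUnity p _).2 (by
      have h0 : p • X.toricHom hF hk (NeZero.ne p) x = 0 := by
        rw [← map_nsmul, show p • x = 0 from Subtype.ext (Subtype.ext (by
          rw [AddSubgroupClass.coe_nsmul, AddSubgroupClass.coe_nsmul, ← natCast_zsmul]
          exact Pic0.mem_torsion.1 x.1.2)), map_zero]
      have h1 := congrArg (fun y => f y s.1) h0
      simp only [f, toMul_nsmul, map_pow, Pi.pow_apply, toMul_zero, map_one, Pi.one_apply] at h1
      exact h1)⟩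
  have hg : Function.Injective g := by
    intro x y hxy
    apply SemiFibre.toricHom_injective hF hk (NeZero.ne p) hp1
    set a := X.toricHom hF hk (NeZero.ne p) x
    set b := X.toricHom hF hk (NeZero.ne p) y
    have hab : f a = f b := funext fun s => by
      by_cases hs : s = s₀
      · subst hs
        obtain ⟨u, hu⟩ := QuotientGroup.mk_surjective (Additive.toMul a)
        obtain ⟨v, hv⟩ := QuotientGroup.mk_surjective (Additive.toMul b)
        show f a s = f b s
        simp only [f, ← hu, ← hv]
        exact (H.normRatio_self s u).trans (H.normRatio_self s v).symm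
      · exact congrArg Subtype.val (congrFun hxy ⟨s, hs⟩)
    obtain ⟨u, hu⟩ := QuotientGroup.mk_surjective (Additive.toMul a)
    obtain ⟨v, hv⟩ := QuotientGroup.mk_surjective (Additive.toMul b)
    have h1 : H.normRatio s₀ u = H.normRatio s₀ v := by
      have := hab
      simp only [f, ← hu, ← hv] at this
      exact this
    refine Additive.toMul.injective ?_
    rw [← hu, ← hv]
    refine QuotientGroup.eq_iff_div_mem.2 ((H.ker_normRatio hconn s₀ _).1 ?_)
    rw [map_div, h1, div_self']
  haveI := Finite.of_injective g hg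
  refine ⟨inferInstance, (Nat.card_le_card_of_injective g hg).trans ?_⟩
  rw [Nat.card_fun, Nat.card_eq_fintype_card (α := {s : H.Sg // s ≠ s₀}),
    Fintype.card_subtype_compl, Fintype.card_subtype_eq]
  exact Nat.pow_le_pow_left (card_rootsOfUnity k p) _

include H hconn in
/-- The genus of the curve and of the glued special fibre agree. -/
theorem genus_glued :
    (genus K F : ℤ) + 1 = Fintype.card H.Sg + (genus k (Fk 0) + genus k (Fk 1)) := by
  set X := H.semiFibre hconn
  obtain ⟨E, -, hE, hbig⟩ := X.exists_clean_big hF hk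
  obtain ⟨-, h1⟩ := X.ell_eq_finrank hF hk hE (hbig E le_rfl)
  have h3 := finrank_evalSpace X.br hk X.br_inj (hbig E le_rfl) X.gluedVals
  rw [X.finrank_gluedVals] at h3
  have h4 : ∑ i, ell (X.push E i) =
      Divisor.degree E + Fintype.card (Fin 2) - ∑ i, (genus k (Fk i) : ℤ) := by
    rw [Finset.sum_congr rfl fun i _ => ((hbig E le_rfl).2 i).1, Finset.sum_sub_distrib,
      Finset.sum_add_distrib, X.degree_push hF hk E hE]
    simp
  rw [SemiFibre.gluedSpace] at h1
  have h5 := H.card_br
  rw [Fin.sum_univ_two, Fin.sum_univ_two, Fintype.card_fin] at h4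
  rw [Fin.sum_univ_two] at h3
  omega

end FA.ModField.FibreHyp
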