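import Fermat.Agent.ModField.Semistable.Mono.Kernel
import Fermat.Agent.ModField.Semistable.Mono.KTensor
import Fermat.Agent.ModField.Semistable.Mono.LatCard
import Fermat.Agent.ModField.Semistable.Mono.ToricCard
import Fermat.Agent.ModField.Semistable.Mono.CountAbs

/-!
# The count on the part of a system

Given a unit without zeros and poles in the tubes, of widths prime to `p`.
-/

set_option autoImplicit false
set_option linter.style.haveILetI false
set_option linter.unusedSectionVars false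
set_option synthInstance.maxHeartbeats 400000
set_option maxHeartbeats 800000

noncomputable section

namespace FA.ModField

open ModularCurve AlgebraicCurve FA.Curve FA.CurveRed FA.JTorsion FA.Level FA.LocalDef
open scoped TensorProduct

local notation "Qb" => AlgebraicClosure ℚ

theorem map_sub_zero_of_eq {G H : Type*} [AddCommGroup G] [AddGroup H] (f : G →+ H) {a b : G}
    (h : f a = f b) : f (a - b) = 0 := by
  rw [map_sub, h, sub_self]

/-- The good Hecke indices. -/
abbrev GoodIdx (N : ℕ) (S : Finset ℕ) : Type := {ℓ : ℕ // ℓ.Prime ∧ ¬ ℓ ∣ N ∧ ℓ ∉ S}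

section Algebra

variable [Algebra Qb ℂ] (N : ℕ) [NeZero N] (p : ℕ) [NeZero p] (k : Type) [Field k]

/-- The operator of an index. -/
abbrev tOp {N' : ℕ} [NeZero N'] {S : Finset ℕ} (h : ∀ i : GoodIdx N S, ¬ i.1 ∣ N')
    (i : GoodIdx N S) : HFull N' :=
  CuspForm.heckeAlgebra.T (k := 2) i.2.1 (h i) (Set.notMem_empty i.1)

theorem heckeK_comm (t t' : HFull N) : Commute (heckeK N p k t) (heckeK N p k t') := by
  refine LinearMap.ext fun z => ?_
  rw [Module.End.mul_apply, Module.End.mul_apply]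
  induction z using TensorProduct.induction_on with
  | zero => simp
  | tmul c x =>
    show c ⊗ₜ[ℤ] (t • t' • x) = c ⊗ₜ[ℤ] (t' • t • x)
    rw [smul_smul, smul_smul, mul_comm]
  | add a b ha hb => simp only [map_add, ha, hb]

/-- `σ - 1` on the classes. -/
def galSub (σ : GalQ) : ModN N (∅ : Set ℕ) p →+ ModN N (∅ : Set ℕ) p :=
  (galMod N (∅ : Set ℕ) p σ).toAddMonoidHom - AddMonoidHom.id _

theorem galSub_apply (σ : GalQ) (z : ModN N (∅ : Set ℕ) p) :
    galSub N p σ z = galMod N (∅ : Set ℕ) p σ z - z := rfl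

theorem galK_sub_one (σ : GalQ) : galK N p k σ - 1 = KTensor.kMap k (galSub N p σ) := by
  refine LinearMap.ext fun z => ?_
  rw [LinearMap.sub_apply, Module.End.one_apply]
  induction z using TensorProduct.induction_on with
  | zero => simp
  | tmul c x =>
    show c ⊗ₜ[ℤ] galMod N (∅ : Set ℕ) p σ x - c ⊗ₜ x = c ⊗ₜ galSub N p σ x
    rw [galSub_apply, TensorProduct.tmul_sub]
  | add a b ha hb => rw [map_add, map_add, ← ha, ← hb]; abel

theorem eigenPart_eq (S : Finset ℕ) (χ : ℕ → k) :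
    eigenPart N p k S χ = Assembly.part (fun i : GoodIdx N S =>
      heckeK N p k (tOp N (fun i => i.2.2.1) i)) (fun i => χ i.1) := by
  refine le_antisymm (le_iInf fun i => ?_) (le_iInf fun ℓ => le_iInf fun hℓ => le_iInf fun hℓN =>
    le_iInf fun hℓS => ?_)
  · exact (iInf_le _ i.1).trans <| (iInf_le _ i.2.1).trans <| (iInf_le _ i.2.2.1).trans
      (iInf_le _ i.2.2.2)
  · exact iInf_le_of_le ⟨ℓ, hℓ, hℓN, hℓS⟩ le_rfl

theorem eigenPart_low_eq (q : ℕ) (hq : q.Prime) (S : Finset ℕ) (χ : ℕ → k) :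
    eigenPart N p k (insert q S) χ = Assembly.part (fun i : GoodIdx (N * q) S =>
      heckeK N p k (tOp (N * q) (fun i h => i.2.2.1 (h.trans (dvd_mul_right N q))) i))
      (fun i => χ i.1) := by
  refine le_antisymm (le_iInf fun i => ?_) (le_iInf fun ℓ => le_iInf fun hℓ => le_iInf fun hℓN =>
    le_iInf fun hℓS => ?_)
  · refine (iInf_le _ i.1).trans <| (iInf_le _ i.2.1).trans <|
      (iInf_le _ (fun h => i.2.2.1 (h.trans (dvd_mul_right N q)))).trans (iInf_le _ ?_)
    rw [Finset.mem_insert, not_or]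
    exact ⟨fun h => i.2.2.1 (by rw [h]; exact dvd_mul_left q N), i.2.2.2⟩
  · rw [Finset.mem_insert, not_or] at hℓS
    refine iInf_le_of_le ⟨ℓ, hℓ, fun h => ?_, hℓS.2⟩ le_rfl
    rcases hℓ.dvd_mul.1 h with h | h
    · exact hℓN h
    · exact hℓS.1 ((Nat.prime_dvd_prime_iff_eq hℓ hq).1 h)

end Algebra

variable [Algebra Qb ℂ] (M q : ℕ) [NeZero M] [hq : Fact q.Prime] [hq0 : NeZero q]
variable (A : ValuationSubring Qb) [IsAlgClosed (IsLocalRing.ResidueField A)]
  [CharP (IsLocalRing.ResidueField A) q] (hA : A.LiesOverPrime q) (hqM : ¬ q ∣ M)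
  (harch : ∀ c : Qb, c ≠ 0 → ∃ m : ℕ, A.valuation ((q : Qb) ^ m) < A.valuation c)

local notation "kA" => IsLocalRing.ResidueField A
local notation "πA" => IsLocalRing.residue A
local notation "Fl" => levelField (M * q) Qb
local notation "Fb" => modularFunctionFieldFullC (IsLocalRing.ResidueField A) M
local notation "rInf" => redTorInf M q A πA IsLocalRing.residue_surjective residueAt_eq_zero hqM harch
local notation "rZero" => redTorZero M q A πA IsLocalRing.residue_surjective residueAt_eq_zero hqM harch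
local notation "rLow" => redTorLow M q A πA IsLocalRing.residue_surjective residueAt_eq_zero hqM
local notation "thT" => thetaT M q A πA IsLocalRing.residue_surjective residueAt_eq_zero hqM harch

variable (U : (theFibre M q A hqM harch).UnitDatum (q : Qb))
  (hU : ∀ S ∈ inertAuts M q A, S • U.u = U.u)
variable (p : ℕ) [hp : Fact p.Prime] [NeZero p] (hqp : q ≠ p)

/-- The classes reducing to zero on both components. -/
def toricSub : AddSubgroup (ModN (M * q) (∅ : Set ℕ) p) :=
  ((rInf p).comp (torsN (M * q) p)).ker ⊓ ((rZero p).comp (torsN (M * q) p)).ker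

include hA in
theorem galSub_range_le {σ : GalQ} (hσ : σ ∈ A.inertiaSubgroupIn ℚ) :
    (galSub (M * q) p σ).range ≤ toricSub M q A hqM harch p := by
  rintro _ ⟨z, rfl⟩
  have h := redTor_gal_inertia M q A πA IsLocalRing.residue_surjective residueAt_eq_zero hqM harch p
    (inducesOn_inertia hσ) (torsN (M * q) p z)
  refine ⟨?_, ?_⟩
  · refine map_sub_zero_of_eq (G := ModN (M * q) (∅ : Set ℕ) p) (H := RedTarget kA Fb p)
      ((rInf p).comp (torsN (M * q) p)) ?_
    show rInf p (torsN (M * q) p (galMod (M * q) (∅ : Set ℕ) p σ z)) = rInf p (torsN (M * q) p z)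
    rw [torsN_galMod]
    exact h.1
  · refine map_sub_zero_of_eq (G := ModN (M * q) (∅ : Set ℕ) p) (H := RedTarget kA Fb p)
      ((rZero p).comp (torsN (M * q) p)) ?_
    show rZero p (torsN (M * q) p (galMod (M * q) (∅ : Set ℕ) p σ z)) = rZero p (torsN (M * q) p z)
    rw [torsN_galMod]
    exact h.2

include hA hqp in
theorem natCast_kA_ne_zero : (p : kA) ≠ 0 := fun h => hqp
  ((Nat.prime_dvd_prime_iff_eq hq.out hp.out).1 ((CharP.cast_eq_zero_iff kA q p).1 h))

include hA hqp in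
theorem card_toricSub : Finite (toricSub M q A hqM harch p) ∧
    Nat.card (toricSub M q A hqM harch p) ≤
      p ^ (Fintype.card (theFibre M q A hqM harch).Sg - 1) := by
  obtain ⟨hfin, hcard⟩ := (theFibre M q A hqM harch).card_toricKer
    (X0.connected M q A πA IsLocalRing.residue_surjective residueAt_eq_zero hqM harch)
    (valuation_natCast_of_red A πA residueAt_eq_zero (natCast_kA_ne_zero q A hA p hqp))
  haveI := hfin
  let g : toricSub M q A hqM harch p →
      (theSemi M q A hqM harch).toricKer (isFunctionField_level Qb (M * q)) p := fun z =>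
    ⟨torsN (M * q) p z.1, by
      rw [SemiFibre.mem_toricKer, Fin.forall_fin_two]
      exact ⟨z.2.1, z.2.2⟩⟩
  have hg : Function.Injective g := fun a b h =>
    Subtype.ext (torsN_injective (M * q) p (congrArg Subtype.val h))
  exact ⟨Finite.of_injective g hg, (Nat.card_le_card_of_injective g hg).trans hcard⟩

theorem mem_toricSub {z : ModN (M * q) (∅ : Set ℕ) p}
    (h0 : rInf p (torsN (M * q) p z) = 0) (h1 : rZero p (torsN (M * q) p z) = 0) :
    z ∈ toricSub M q A hqM harch p := ⟨h0, h1⟩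

/-- The classes fixed by `σ` without orders at the branches of `∞`. -/
def flatSub (σ : GalQ) : AddSubgroup (ModN (M * q) (∅ : Set ℕ) p) :=
  (galSub (M * q) p σ).ker ⊓ (brOrd M q A hqM harch p).ker

theorem mem_flatSub {σ : GalQ} {z : ModN (M * q) (∅ : Set ℕ) p}
    (h : galSub (M * q) p σ z = 0) (h' : brOrd M q A hqM harch p z = 0) :
    z ∈ flatSub M q A hqM harch p σ := ⟨h, h'⟩

include hA hqp hU in
theorem exists_low_of_flat (hΔ : ¬ p ∣ U.Δ) {s : GalQ} (hs : IsTameGen p A s)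
    {z : ModN (M * q) (∅ : Set ℕ) p} (hz1 : galSub (M * q) p s z = 0)
    (hz2 : brOrd M q A hqM harch p z = 0) :
    (∃ x, rLow p x = rInf p (torsN (M * q) p z)) ∧
      ∃ x, rLow p x = rZero p (torsN (M * q) p z) := by
  have hz : galMod (M * q) (∅ : Set ℕ) p s z = z := sub_eq_zero.1 hz1
  have hn := natCast_kA_ne_zero q A hA p hqp
  have h0 := fun Q => ordMod_eq_zero M q A hA hqM harch U hU p hqp hΔ
    (fun σ hσ => galMod_fixed M q p hqp hqM hA hs hz hσ) hz2 Q
  exact ⟨exists_redTorLow M q A πA IsLocalRing.residue_surjective residueAt_eq_zero hqM hn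
      fun Q => (h0 Q).1,
    exists_redTorLow M q A πA IsLocalRing.residue_surjective residueAt_eq_zero hqM hn
      fun Q => (h0 Q).2⟩

include hA hqp hU in
theorem exists_lifts (hΔ : ¬ p ∣ U.Δ) {s : GalQ} (hs : IsTameGen p A s) :
    ∃ R₀ R₁ : ModN (M * q) (∅ : Set ℕ) p →+ ModN M (∅ : Set ℕ) p,
      ∀ z ∈ flatSub M q A hqM harch p s,
        rLow p (torsN M p (R₀ z)) = rInf p (torsN (M * q) p z) ∧
        rLow p (torsN M p (R₁ z)) = rZero p (torsN (M * q) p z) :=
  KTensor.exists_two_lifts (W := Pic0.torsion Qb (levelField M Qb) p) (T := RedTarget kA Fb p) p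
    (modN_nsmul (M * q) p) (modN_nsmul M p) (torsN M p) (torsN_injective M p) (rLow p)
    (redTorLow_injective M q A πA IsLocalRing.residue_surjective residueAt_eq_zero hqM
      (natCast_kA_ne_zero q A hA p hqp))
    ((rInf p).comp (torsN (M * q) p)) ((rZero p).comp (torsN (M * q) p)) _
    fun z hz => by
      obtain ⟨⟨x, hx⟩, y, hy⟩ := exists_low_of_flat M q A hA hqM harch U hU p hqp hΔ hs hz.1 hz.2
      obtain ⟨w, rfl⟩ := torsN_surjective M p x
      obtain ⟨w', rfl⟩ := torsN_surjective M p y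
      exact ⟨⟨w, hx⟩, w', hy⟩

include hA hqp hU in
/-- `T_ℓ` multiplies the orders at the branches by `ℓ + 1`. -/
theorem brOrd_T (hΔ : ¬ p ∣ U.Δ) {s : GalQ} (hs : IsTameGen p A s)
    {z : ModN (M * q) (∅ : Set ℕ) p} (hz : galMod (M * q) (∅ : Set ℕ) p s z = z)
    {ℓ : ℕ} (hℓ : ℓ.Prime) (hℓN : ¬ ℓ ∣ M * q) :
    brOrd M q A hqM harch p
        (CuspForm.heckeAlgebra.T (k := 2) hℓ hℓN (Set.notMem_empty ℓ) • z) =
      (ℓ + 1) • brOrd M q A hqM harch p z := by
  obtain ⟨κ, hκ, hT⟩ := exists_kappa M q A hA hqM harch U hU p hqp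
    fun σ hσ => galMod_fixed M q p hqp hqM hA hs hz hσ
  funext t
  have h1 := (hκ t).1
  have h2 := (hT ℓ hℓ hℓN t).1
  have hD : (U.Δ : ZMod p) ≠ 0 := fun h => hΔ ((ZMod.natCast_eq_zero_iff _ _).1 h)
  refine mul_left_cancel₀ hD ?_
  rw [h2, Pi.smul_apply, nsmul_eq_mul]
  push_cast at h1 ⊢
  linear_combination -((ℓ : ZMod p) + 1) * h1

include hA hqp hU in
theorem brOrd_mem_span (hΔ : ¬ p ∣ U.Δ) {s : GalQ} (hs : IsTameGen p A s)
    {z : ModN (M * q) (∅ : Set ℕ) p} (hz : galMod (M * q) (∅ : Set ℕ) p s z = z) :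
    ∃ κ : ℤ, brOrd M q A hqM harch p z = κ • fun t => (U.δ t : ZMod p) * (U.Δ : ZMod p)⁻¹ := by
  obtain ⟨κ, hκ, -⟩ := exists_kappa M q A hA hqM harch U hU p hqp
    fun σ hσ => galMod_fixed M q p hqp hqM hA hs hz hσ
  refine ⟨κ, funext fun t => ?_⟩
  have hD : (U.Δ : ZMod p) ≠ 0 := fun h => hΔ ((ZMod.natCast_eq_zero_iff _ _).1 h)
  refine mul_left_cancel₀ hD ?_
  rw [(hκ t).1, Pi.smul_apply, zsmul_eq_mul]
  push_cast
  field_simp

theorem lifts_zero {s : GalQ} {R₀ R₁ : ModN (M * q) (∅ : Set ℕ) p →+ ModN M (∅ : Set ℕ) p}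
    (hR : ∀ z ∈ flatSub M q A hqM harch p s,
      rLow p (torsN M p (R₀ z)) = rInf p (torsN (M * q) p z) ∧
        rLow p (torsN M p (R₁ z)) = rZero p (torsN (M * q) p z))
    {z : ModN (M * q) (∅ : Set ℕ) p} (hz : z ∈ flatSub M q A hqM harch p s)
    (h0 : R₀ z = 0) (h1 : R₁ z = 0) : z ∈ toricSub M q A hqM harch p := by
  obtain ⟨e0, e1⟩ := hR z hz
  rw [h0, map_zero, map_zero] at e0
  rw [h1, map_zero, map_zero] at e1
  exact mem_toricSub M q A hqM harch p e0.symm e1.symm

include hA hqp in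
theorem lifts_T {s : GalQ} {R₀ R₁ : ModN (M * q) (∅ : Set ℕ) p →+ ModN M (∅ : Set ℕ) p}
    (hR : ∀ z ∈ flatSub M q A hqM harch p s,
      rLow p (torsN M p (R₀ z)) = rInf p (torsN (M * q) p z) ∧
        rLow p (torsN M p (R₁ z)) = rZero p (torsN (M * q) p z))
    {ℓ : ℕ} (hℓ : ℓ.Prime) (hℓN : ¬ ℓ ∣ M * q) (hℓM : ¬ ℓ ∣ M)
    {z : ModN (M * q) (∅ : Set ℕ) p} (hz : z ∈ flatSub M q A hqM harch p s)
    (hTz : CuspForm.heckeAlgebra.T (k := 2) hℓ hℓN (Set.notMem_empty ℓ) • z ∈
      flatSub M q A hqM harch p s) :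
    R₀ (CuspForm.heckeAlgebra.T (k := 2) hℓ hℓN (Set.notMem_empty ℓ) • z) =
        CuspForm.heckeAlgebra.T (k := 2) hℓ hℓM (Set.notMem_empty ℓ) • R₀ z ∧
      R₁ (CuspForm.heckeAlgebra.T (k := 2) hℓ hℓN (Set.notMem_empty ℓ) • z) =
        CuspForm.heckeAlgebra.T (k := 2) hℓ hℓM (Set.notMem_empty ℓ) • R₁ z := by
  haveI : Fact ℓ.Prime := ⟨hℓ⟩
  haveI : NeZero ℓ := ⟨hℓ.ne_zero⟩
  have hinj : Function.Injective (rLow p) :=
    redTorLow_injective M q A πA IsLocalRing.residue_surjective residueAt_eq_zero hqM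
      (natCast_kA_ne_zero q A hA p hqp)
  refine ⟨torsN_injective M p (hinj ?_), torsN_injective M p (hinj ?_)⟩
  · refine (hR _ hTz).1.trans ?_
    refine (redTorInf_T M q A πA IsLocalRing.residue_surjective residueAt_eq_zero hqM harch ℓ
      hℓN p _ _ (torsN_T_smul (M * q) p hℓ hℓN z)).trans ?_
    refine (congrArg _ (hR z hz).1.symm).trans ?_
    exact (redTorLow_T M q A πA IsLocalRing.residue_surjective residueAt_eq_zero hqM harch ℓ
      hℓN p _ _ (torsN_T_smul M p hℓ hℓM (R₀ z))).symm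
  · refine (hR _ hTz).2.trans ?_
    refine (redTorZero_T M q A πA IsLocalRing.residue_surjective residueAt_eq_zero hqM harch ℓ
      hℓN p _ _ (torsN_T_smul (M * q) p hℓ hℓN z)).trans ?_
    refine (congrArg _ (hR z hz).2.symm).trans ?_
    exact (redTorLow_T M q A πA IsLocalRing.residue_surjective residueAt_eq_zero hqM harch ℓ
      hℓN p _ _ (torsN_T_smul M p hℓ hℓM (R₁ z))).symm

theorem genus_count :
    Fintype.card (theFibre M q A hqM harch).Sg - 1 +
        2 * Module.finrank ℂ (CuspForm (CongruenceSubgroup.Gamma0 M) 2) ≤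
      Module.finrank ℂ (CuspForm (CongruenceSubgroup.Gamma0 (M * q)) 2) := by
  have hgen : (FA.Curve.genus Qb Fl : ℤ) + 1 = Fintype.card (theFibre M q A hqM harch).Sg +
      (FA.Curve.genus kA Fb + FA.Curve.genus kA Fb) :=
    (theFibre M q A hqM harch).genus_glued
      (X0.connected M q A πA IsLocalRing.residue_surjective residueAt_eq_zero hqM harch)
  have hlow := X0.genus_level_le M q A πA IsLocalRing.residue_surjective residueAt_eq_zero hqM
  rw [curveGenus_level Qb M] at hlow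
  rw [curveGenus_level Qb (M * q)] at hgen
  have hpos : 0 < Fintype.card (theFibre M q A hqM harch).Sg :=
    Fintype.card_pos_iff.2 ((theFibre M q A hqM harch).nonempty_sg
      (X0.connected M q A πA IsLocalRing.residue_surjective residueAt_eq_zero hqM harch))
  omega

include hA hqp hU in
/-- **The rank of inertia on the part of a system.** -/
theorem monoAt_of_unit [NeZero (M * q)] (hΔ : ¬ p ∣ U.Δ) {s : GalQ} (hs : IsTameGen p A s)
    (k : Type) [Field k] [CharP k p] (S : Finset ℕ) (χ : ℕ → k)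
    (hne : ∃ ℓ, ℓ.Prime ∧ ¬ ℓ ∣ M * q ∧ ℓ ∉ S ∧ χ ℓ ≠ (ℓ + 1 : ℕ))
    (heven : Even (Module.finrank k ↥(eigenPart (M * q) p k S χ))) :
    2 * Module.finrank k ↥((eigenPart (M * q) p k S χ).map (galK (M * q) p k s - 1)) +
        2 * Module.finrank k ↥(eigenPart M p k (insert q S) χ) =
      Module.finrank k ↥(eigenPart (M * q) p k S χ) := by
  obtain ⟨R₀, R₁, hR⟩ := exists_lifts M q A hA hqM harch U hU p hqp hΔ hs
  obtain ⟨hfinX, hcardX⟩ := card_modN (M * q) p
  obtain ⟨hfinX', hcardX'⟩ := card_modN M p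
  obtain ⟨hfinP, hcardP⟩ := card_toricSub M q A hA hqM harch p hqp
  haveI := hfinX
  haveI := hfinX'
  have hBker : ∀ {z}, galSub (M * q) p s z = 0 → galMod (M * q) (∅ : Set ℕ) p s z = z :=
    fun h => sub_eq_zero.1 h
  have hdvd : ∀ i : GoodIdx (M * q) S, ¬ i.1 ∣ M :=
    fun i h => i.2.2.1 (h.trans (dvd_mul_right M q))
  have hinj : Function.Injective ((rLow p).comp (torsN M p)) :=
    (redTorLow_injective M q A πA IsLocalRing.residue_surjective residueAt_eq_zero hqM
      (natCast_kA_ne_zero q A hA p hqp)).comp (torsN_injective M p)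
  rw [eigenPart_low_eq M p k q hq.out, galK_sub_one]
  rw [eigenPart_eq (M * q) p k] at heven ⊢
  exact CountAbs.rank_eq k p (X := ModN (M * q) (∅ : Set ℕ) p) (X' := ModN M (∅ : Set ℕ) p)
    (modN_nsmul (M * q) p) (modN_nsmul M p)
    (Y := (theFibre M q A hqM harch).Sg → ZMod p) (fun v => funext fun t => by simp)
    (fun i : GoodIdx (M * q) S =>
      DistribSMul.toAddMonoidHom _ (tOp (M * q) (fun i => i.2.2.1) i))
    (fun i j x => smul_comm _ _ x)
    (fun i : GoodIdx (M * q) S => DistribSMul.toAddMonoidHom _ (tOp (M * q) hdvd i))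
    (fun i => χ i.1) (fun i => i.1 + 1)
    (by obtain ⟨ℓ, hℓ, hℓN, hℓS, h⟩ := hne; exact ⟨⟨ℓ, hℓ, hℓN, hℓS⟩, h⟩)
    (galSub (M * q) p s)
    (fun i x => by
      show galSub (M * q) p s (tOp (M * q) (fun i => i.2.2.1) i • x) =
        tOp (M * q) (fun i => i.2.2.1) i • galSub (M * q) p s x
      rw [galSub_apply, galSub_apply, map_smul, smul_sub])
    (toricSub M q A hqM harch p) (galSub_range_le M q A hA hqM harch p hs.1)
    hfinP hcardP hcardX hcardX'
    (genus_count M q A hqM harch)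
    (brOrd M q A hqM harch p)
    (fun i x hx => brOrd_T M q A hA hqM harch U hU p hqp hΔ hs (hBker hx) i.2.1 i.2.2.1)
    (fun t => (U.δ t : ZMod p) * (U.Δ : ZMod p)⁻¹)
    (fun x hx => brOrd_mem_span M q A hA hqM harch U hU p hqp hΔ hs (hBker hx))
    R₀ R₁
    (fun i x hx hx' hTx hTx' => lifts_T M q A hA hqM harch p hqp hR i.2.1 i.2.2.1 (hdvd i)
      (mem_flatSub M q A hqM harch p hx hx') (mem_flatSub M q A hqM harch p hTx hTx'))
    (fun x hx hx' h0 h1 => lifts_zero M q A hqM harch p hR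
      (mem_flatSub M q A hqM harch p hx hx') h0 h1)
    heven

end FA.ModField
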