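import Fermat.Agent.RT.PatchedMazur
import Mathlib.Algebra.MonoidAlgebra.Lift
import Mathlib.LinearAlgebra.Matrix.Adjugate
import Mathlib.LinearAlgebra.Matrix.Charpoly.Coeff
import Mathlib.LinearAlgebra.Matrix.Block
import Mathlib.Tactic.NoncommRing
import Mathlib.LinearAlgebra.FiniteDimensional.Basic

/-!
# A module with the traces of a full two dimensional representation

If a group acts on a module commuting with a ring `R` and satisfying the quadratic relations of a
representation `ρ` whose image spans `M₂(R)`, then the module is `M₂(R)`-linearly two copies of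
another one, so the rank of an element of `M₂(R)` on two copies of the module is twice its rank.
-/

set_option autoImplicit false
set_option linter.unusedSectionVars false

noncomputable section

namespace FA.ModField.RankTwo

open Matrix MonoidAlgebra FA.RT

variable {k : Type} [Field k] {d : ℕ} {R : Type} [CommRing R] {G : Type} [Group G]
  (act : R →+* Matrix (Fin d) (Fin d) k) (π : G →* Matrix (Fin d) (Fin d) k)
  (hcomm : ∀ r g, Commute (act r) (π g)) (ρ : G →* Matrix (Fin 2) (Fin 2) R)

/-- The action of the group algebra on the module. -/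
def modHom : MonoidAlgebra R G →+* Matrix (Fin d) (Fin d) k := liftNCRingHom act π hcomm

/-- The action of the group algebra on the plane. -/
def planeHom : MonoidAlgebra R G →+* Matrix (Fin 2) (Fin 2) R :=
  liftNCRingHom (Matrix.scalar (Fin 2)) ρ fun r g => Matrix.scalar_commute r (Commute.all r) _

/-- The involution. -/
def invol : MonoidAlgebra R G →+ MonoidAlgebra R G :=
  liftNC (singleAddHom (1 : G)) fun g => single g⁻¹ (ρ g).det

theorem invol_single (g : G) (c : R) : invol ρ (single g c) = single g⁻¹ ((ρ g).det * c) := by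
  rw [invol, liftNC_single, singleAddHom_apply, single_mul_single, one_mul, mul_comm]

theorem invol_mul (x y : MonoidAlgebra R G) : invol ρ (x * y) = invol ρ y * invol ρ x := by
  induction x using MonoidAlgebra.induction_linear with
  | zero => simp
  | add a b ha hb => rw [add_mul, map_add, ha, hb, map_add, mul_add]
  | single g a =>
    induction y using MonoidAlgebra.induction_linear with
    | zero => simp
    | add u v hu hv => rw [mul_add, map_add, hu, hv, map_add, add_mul]
    | single h b =>
      simp only [single_mul_single, invol_single, map_mul, Matrix.det_mul, _root_.mul_inv_rev]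
      congr 1
      ring

theorem invol_invol (x : MonoidAlgebra R G) : invol ρ (invol ρ x) = x := by
  induction x using MonoidAlgebra.induction_linear with
  | zero => simp
  | add a b ha hb => rw [map_add, map_add, ha, hb]
  | single g a =>
    rw [invol_single, invol_single, inv_inv, ← mul_assoc, ← Matrix.det_mul, ← map_mul,
      inv_mul_cancel, map_one, Matrix.det_one, one_mul]

theorem planeHom_single (g : G) (c : R) : planeHom ρ (single g c) = c • ρ g := by
  rw [planeHom, liftNCRingHom_single]
  simp [Matrix.scalar_apply, ← smul_eq_diagonal_mul]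

theorem modHom_single (g : G) (c : R) : modHom act π hcomm (single g c) = act c * π g :=
  liftNCRingHom_single _ _ _ _ _

theorem planeHom_invol (x : MonoidAlgebra R G) :
    planeHom ρ x + planeHom ρ (invol ρ x) = (planeHom ρ x).trace • (1 : Matrix (Fin 2) (Fin 2) R) := by
  induction x using MonoidAlgebra.induction_linear with
  | zero => simp
  | add a b ha hb =>
    rw [map_add, map_add, map_add, Matrix.trace_add, add_smul, ← ha, ← hb]
    abel
  | single g c =>
    have hg : ρ g + (ρ g).det • ρ g⁻¹ = (ρ g).trace • (1 : Matrix (Fin 2) (Fin 2) R) := by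
      have h : ρ g * ρ g⁻¹ = 1 := by rw [← map_mul, mul_inv_cancel, map_one]
      have h2 : (ρ g).det • ρ g⁻¹ = Matrix.adjugate (ρ g) := by
        rw [← Matrix.mul_one (Matrix.adjugate (ρ g)), ← h, ← Matrix.mul_assoc, Matrix.adjugate_mul,
          smul_mul_assoc, Matrix.one_mul]
      rw [h2]
      ext i j
      fin_cases i <;> fin_cases j <;> simp [Matrix.adjugate_fin_two, Matrix.trace_fin_two, add_comm]
    rw [invol_single, planeHom_single, planeHom_single, Matrix.trace_smul, smul_eq_mul,
      mul_comm (ρ g).det, mul_smul, mul_smul, ← smul_add, hg]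

variable (hrel : ∀ g, π g + act (ρ g).det * π g⁻¹ = act (ρ g).trace)

include hrel in
theorem modHom_invol (x : MonoidAlgebra R G) :
    modHom act π hcomm x + modHom act π hcomm (invol ρ x) = act (planeHom ρ x).trace := by
  induction x using MonoidAlgebra.induction_linear with
  | zero => simp
  | add a b ha hb =>
    rw [map_add, map_add, map_add, map_add, Matrix.trace_add, map_add, ← ha, ← hb]
    abel
  | single g c =>
    rw [invol_single, modHom_single, modHom_single, planeHom_single, Matrix.trace_smul, smul_eq_mul,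
      mul_comm (ρ g).det, map_mul, map_mul, mul_assoc, ← mul_add, hrel]

include hrel in
theorem exists_norm (x : MonoidAlgebra R G) : ∃ r,
    planeHom ρ (invol ρ x * x) = r • (1 : Matrix (Fin 2) (Fin 2) R) ∧
      modHom act π hcomm (invol ρ x * x) = act r := by
  induction x using MonoidAlgebra.induction_linear with
  | zero => exact ⟨0, by simp⟩
  | add a b ha hb =>
    obtain ⟨r, hr, hr'⟩ := ha
    obtain ⟨s, hs, hs'⟩ := hb
    have e : invol ρ (a + b) * (a + b) =
        invol ρ a * a + invol ρ b * b + (invol ρ a * b + invol ρ (invol ρ a * b)) := by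
      rw [invol_mul, invol_invol, map_add]
      noncomm_ring
    refine ⟨r + s + (planeHom ρ (invol ρ a * b)).trace, ?_, ?_⟩
    · rw [e, map_add, map_add, hr, hs, map_add (planeHom ρ), planeHom_invol, add_smul, add_smul]
    · rw [e, map_add, map_add, hr', hs', map_add (modHom act π hcomm),
        modHom_invol act π hcomm ρ hrel, map_add, map_add]
  | single g c =>
    refine ⟨(ρ g).det * c * c, ?_, ?_⟩
    · rw [invol_single, single_mul_single, inv_mul_cancel, planeHom_single, map_one]
    · rw [invol_single, single_mul_single, inv_mul_cancel, modHom_single, map_one, mul_one]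

variable (hspan : Submodule.span R (Set.range ρ) = ⊤)

include hspan in
theorem planeHom_surjective : Function.Surjective (planeHom ρ) := by
  intro m
  have hm : m ∈ Submodule.span R (Set.range ρ) := hspan ▸ Submodule.mem_top
  induction hm using Submodule.span_induction with
  | mem y hy => obtain ⟨g, rfl⟩ := hy; exact ⟨single g 1, by rw [planeHom_single, one_smul]⟩
  | zero => exact ⟨0, map_zero _⟩
  | add a b _ _ ha hb =>
    obtain ⟨a, rfl⟩ := ha
    obtain ⟨b, rfl⟩ := hb
    exact ⟨a + b, map_add _ _ _⟩
  | smul c a _ ha =>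
    obtain ⟨a, rfl⟩ := ha
    refine ⟨single 1 c * a, ?_⟩
    rw [map_mul, planeHom_single, map_one, smul_mul_assoc, Matrix.one_mul]

include hrel hspan in
theorem modHom_eq_zero {a : MonoidAlgebra R G} (ha : planeHom ρ a = 0) :
    modHom act π hcomm a = 0 := by
  set ψ := modHom act π hcomm with hψ
  have hneg : ∀ z, planeHom ρ z = 0 → ψ (invol ρ z) = -ψ z := fun z hz => by
    have h := modHom_invol act π hcomm ρ hrel z
    rw [hz, Matrix.trace_zero, map_zero] at h
    exact eq_neg_of_add_eq_zero_right h
  have hcm : ∀ z, ψ a * ψ z = ψ (invol ρ z) * ψ a := fun z => by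
    have h := hneg (a * z) (by rw [map_mul, ha, zero_mul])
    rw [invol_mul, map_mul, map_mul, hneg a ha, mul_neg, neg_inj] at h
    exact h.symm
  obtain ⟨u, hu⟩ := planeHom_surjective ρ hspan !![0, 1; 0, 0]
  obtain ⟨v, hv⟩ := planeHom_surjective ρ hspan !![0, 0; 1, 0]
  set c := invol ρ u * invol ρ v - invol ρ v * invol ρ u with hc
  have hadj : ∀ z, planeHom ρ (invol ρ z) = Matrix.adjugate (planeHom ρ z) := fun z => by
    rw [eq_sub_of_add_eq' (planeHom_invol ρ z)]
    ext i j
    fin_cases i <;> fin_cases j <;> simp [Matrix.adjugate_fin_two, Matrix.trace_fin_two]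
  have hdet : IsUnit (planeHom ρ c).det := by
    rw [hc, map_sub, map_mul, map_mul, hadj, hadj, hu, hv]
    simp [Matrix.adjugate_fin_two, Matrix.det_fin_two]
  obtain ⟨r, hr, hr'⟩ := exists_norm act π hcomm ρ hrel c
  rw [map_mul, hadj, Matrix.adjugate_mul] at hr
  have hrd : (planeHom ρ c).det = r := by
    simpa [Matrix.one_apply] using congrFun (congrFun hr 0) 0
  have hu' : IsUnit (ψ (invol ρ c) * ψ c) := by
    rw [← map_mul, hr', ← hrd]
    exact hdet.map act
  have hcu : IsUnit (ψ c) := by
    rw [Matrix.isUnit_iff_isUnit_det, Matrix.det_mul] at hu'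
    exact (Matrix.isUnit_iff_isUnit_det _).2 (isUnit_of_mul_isUnit_right hu')
  have h0 : ψ c * ψ a = 0 := by
    have h1 : ψ a * ψ v * ψ u = ψ (invol ρ v) * ψ (invol ρ u) * ψ a := by
      rw [hcm v, mul_assoc, hcm u, ← mul_assoc]
    have h2 : ψ a * ψ v * ψ u = ψ (invol ρ u) * ψ (invol ρ v) * ψ a := by
      rw [mul_assoc, ← map_mul, hcm, invol_mul, map_mul]
    rw [hc, map_sub, map_mul, map_mul, sub_mul, ← h1, ← h2, sub_self]
  exact hcu.mul_right_eq_zero.1 h0

/-- The action of the plane on the module. -/
def desc : Matrix (Fin 2) (Fin 2) R →+* Matrix (Fin d) (Fin d) k :=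
  RingHom.liftOfSurjective (planeHom ρ) (planeHom_surjective ρ hspan)
    ⟨modHom act π hcomm, fun _ ha => RingHom.mem_ker.2
      (modHom_eq_zero act π hcomm ρ hrel hspan (RingHom.mem_ker.1 ha))⟩

theorem desc_planeHom (x : MonoidAlgebra R G) :
    desc act π hcomm ρ hrel hspan (planeHom ρ x) = modHom act π hcomm x :=
  RingHom.liftOfRightInverse_comp_apply _ _ _ _ _

theorem desc_smul_one (r : R) : desc act π hcomm ρ hrel hspan (r • 1) = act r := by
  rw [← map_one ρ, ← planeHom_single, desc_planeHom, modHom_single, map_one, mul_one]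

theorem desc_rho (g : G) : desc act π hcomm ρ hrel hspan (ρ g) = π g := by
  rw [← one_smul R (ρ g), ← planeHom_single, desc_planeHom, modHom_single, map_one, one_mul]

/-- The equivalence between the module tensored with the plane and two copies of it. -/
def twist : Matrix (Fin 2) (Fin 2) (Matrix (Fin d) (Fin d) k) :=
  Matrix.of fun a b => desc act π hcomm ρ hrel hspan (Matrix.single b a 1)

theorem twist_mul_scalar (M : Matrix (Fin 2) (Fin 2) R) :
    twist act π hcomm ρ hrel hspan * Matrix.scalar (Fin 2) (desc act π hcomm ρ hrel hspan M) *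
      twist act π hcomm ρ hrel hspan = act.mapMatrix M := by
  ext1 a c
  have e : (∑ b, Matrix.single b a (1 : R) * M * Matrix.single c b 1) = M a c • 1 := by
    ext i j
    fin_cases a <;> fin_cases c <;> fin_cases i <;> fin_cases j <;>
      simp [Matrix.mul_apply, Fin.sum_univ_two, Matrix.single]
  rw [RingHom.mapMatrix_apply, Matrix.map_apply, ← desc_smul_one act π hcomm ρ hrel hspan, ← e,
    map_sum, Matrix.scalar_apply, Matrix.mul_apply]
  simp only [Matrix.mul_diagonal, twist, Matrix.of_apply, map_mul]

theorem twist_sq : twist act π hcomm ρ hrel hspan * twist act π hcomm ρ hrel hspan = 1 := by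
  have h := twist_mul_scalar act π hcomm ρ hrel hspan 1
  rwa [map_one, map_one, mul_one, map_one] at h

include hcomm hrel hspan in
/-- The rank on two copies of the module. -/
theorem rank_blockAct (s : G) :
    (blockAct act (ρ s - 1)).rank = 2 * (π s - 1).rank := by
  set X := π s - 1 with hX
  let C := Matrix.compRingEquiv (Fin 2) (Fin d) k
  have hT : IsUnit (C (twist act π hcomm ρ hrel hspan)) :=
    (IsUnit.of_mul_eq_one _ (twist_sq act π hcomm ρ hrel hspan)).map C
  have hM : blockAct act (ρ s - 1) =
      C (twist act π hcomm ρ hrel hspan) * C (Matrix.scalar (Fin 2) X) *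
        C (twist act π hcomm ρ hrel hspan) := by
    rw [← map_mul, ← map_mul, hX, ← desc_rho act π hcomm ρ hrel hspan,
      ← map_one (desc act π hcomm ρ hrel hspan), ← map_sub, twist_mul_scalar]
    rfl
  rw [hM, Matrix.rank_mul_eq_left_of_isUnit_det _ _ ((Matrix.isUnit_iff_isUnit_det _).1 hT),
    Matrix.rank_mul_eq_right_of_isUnit_det _ _ ((Matrix.isUnit_iff_isUnit_det _).1 hT)]
  let e : (Fin 2 × Fin d → k) ≃ₗ[k] (Fin 2 → Fin d → k) := LinearEquiv.curry k k (Fin 2) (Fin d)
  let P : (Fin 2 → Fin d → k) →ₗ[k] (Fin 2 → Fin d → k) :=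
    LinearMap.pi fun a => X.mulVecLin ∘ₗ LinearMap.proj a
  have hC : (C (Matrix.scalar (Fin 2) X)).mulVecLin = e.symm.toLinearMap ∘ₗ P ∘ₗ e.toLinearMap := by
    refine LinearMap.ext fun z => funext fun au => ?_
    obtain ⟨a, u⟩ := au
    simp [C, e, P, Matrix.mulVec, dotProduct, Fintype.sum_prod_type, Matrix.diagonal_apply,
      Matrix.scalar_apply]
    fin_cases a <;> simp
  let J : (Fin 2 → ↥(LinearMap.range X.mulVecLin)) →ₗ[k] (Fin 2 → Fin d → k) :=
    LinearMap.pi fun a => (LinearMap.range X.mulVecLin).subtype ∘ₗ LinearMap.proj a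
  have hP : LinearMap.range P = LinearMap.range J := by
    refine le_antisymm ?_ ?_
    · rintro _ ⟨z, rfl⟩
      exact ⟨fun a => ⟨_, LinearMap.mem_range_self _ (z a)⟩, rfl⟩
    · rintro _ ⟨z, rfl⟩
      choose w hw using fun a => LinearMap.mem_range.1 (z a).2
      exact ⟨w, funext hw⟩
  unfold Matrix.rank
  rw [hC, LinearMap.range_comp, LinearMap.range_comp_of_range_eq_top _ e.range,
    LinearEquiv.finrank_map_eq, hP, LinearMap.finrank_range_of_inj, Module.finrank_pi_fintype]
  · simp
  · intro z w h
    exact funext fun a => Subtype.ext (congrFun h a)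

theorem det_coords (A B : Matrix (Fin 2) (Fin 2) R) :
    (!![1, 0, 0, 1; A 0 0, A 0 1, A 1 0, A 1 1; B 0 0, B 0 1, B 1 0, B 1 1;
      (A * B) 0 0, (A * B) 0 1, (A * B) 1 0, (A * B) 1 1]).det =
      (A * B - B * A).det := by
  rw [Matrix.det_succ_row_zero]
  simp [Fin.sum_univ_succ, Matrix.det_fin_three, Matrix.mul_apply, Matrix.det_fin_two, Fin.succAbove]
  ring

/-- A representation whose image has a commutator with unit determinant spans the matrix ring. -/
theorem span_eq_top_of_isUnit_det {g h : G} (hu : IsUnit (ρ g * ρ h - ρ h * ρ g).det) :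
    Submodule.span R (Set.range ρ) = ⊤ := by
  rw [← det_coords] at hu
  refine eq_top_iff.2 fun M _ => ?_
  set W := !![1, 0, 0, 1; ρ g 0 0, ρ g 0 1, ρ g 1 0, ρ g 1 1; ρ h 0 0, ρ h 0 1, ρ h 1 0, ρ h 1 1;
    (ρ g * ρ h) 0 0, (ρ g * ρ h) 0 1, (ρ g * ρ h) 1 0, (ρ g * ρ h) 1 1] with hW
  set m : Fin 4 → R := ![M 0 0, M 0 1, M 1 0, M 1 1] with hm
  set c := Matrix.vecMul m W⁻¹ with hc
  have e : M = ∑ i, c i • ρ (![1, g, h, g * h] i) := by
    have h1 : Matrix.vecMul c W = m := by
      rw [hc, Matrix.vecMul_vecMul, Matrix.nonsing_inv_mul _ hu, Matrix.vecMul_one]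
    ext a b
    have h2 := congrFun h1 (![![0, 1], ![2, 3]] a b)
    fin_cases a <;> fin_cases b <;>
      simpa [Matrix.vecMul, dotProduct, hm, hW, Fin.sum_univ_succ, Matrix.sum_apply] using h2.symm
  rw [e]
  exact Submodule.sum_mem _ fun i _ => Submodule.smul_mem _ _ (Submodule.subset_span ⟨_, rfl⟩)

end FA.ModField.RankTwo
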