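import Fermat.Agent.ModField.Semistable.Mono.DualTwist
import Fermat.Agent.ModField.GenusX0
import Fermat.Agent.ModField.Semistable.X0.Fibre
import Fermat.Agent.JTorsion.PeriodPair
import Fermat.Agent.HeckeH1.Eigenvector

/-!
# The genus of the level field and the rank of the lattice

Both are given by the dimension of the space of cusp forms.
-/

set_option autoImplicit false
set_option linter.style.haveILetI false
set_option linter.unusedSectionVars false
set_option synthInstance.maxHeartbeats 200000
set_option maxHeartbeats 800000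

noncomputable section

namespace FA.ModField

open AlgebraicCurve ModularCurve IntermediateField FA.Curve FA.CurveRed

variable (L : Type) [Field L] [Algebra L ℂ] [CharZero L] [IsAlgClosed L] (N : ℕ) [NeZero N]

/-- The Riemann genus of `X₀(N)` is the dimension of the space of cusp forms. -/
theorem curveGenus_fullC :
    FA.Curve.genus L (modularFunctionFieldFullC L N) =
      Module.finrank ℂ (CuspForm (CongruenceSubgroup.Gamma0 N) 2) := by
  classical
  set x := jElem L N
  have hF := isFunctionField_fullC L N
  have hx : Transcendental L x := AllValues.x_transcendental (fam L N)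
  have hx0 : x ≠ 0 := fun h0 => hx (h0 ▸ isAlgebraic_zero)
  haveI := hF.finiteDimensional hx
  haveI : CharZero L⟮x⟯ := charZero_of_injective_algebraMap (algebraMap L L⟮x⟯).injective
  haveI : Algebra.IsAlgebraic L⟮x⟯ (modularFunctionFieldFullC L N) :=
    Algebra.IsAlgebraic.of_finite _ _
  haveI : Algebra.IsSeparable L⟮x⟯ (modularFunctionFieldFullC L N) :=
    Algebra.IsAlgebraic.isSeparable_of_perfectField
  have hB : ∀ a ∉ ({0, 1728} : Finset L),
      ((fam L N a).places.card : ℤ) = Fintype.card (FA.Dim.Cos N) := by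
    intro a ha
    simp only [Finset.mem_insert, Finset.mem_singleton, not_or] at ha
    rw [card_fam_general ha.1 ha.2, ← Nat.card_eq_fintype_card, FA.Dim.card_cos]
  haveI := (cuspFam L N).nontrivial_differentials
  have hω : KaehlerDifferential.D L (modularFunctionFieldFullC L N) x ≠ 0 := by
    intro h0
    obtain ⟨v, hv⟩ : ∃ v : Place L (modularFunctionFieldFullC L N), v.ord x < 0 :=
      exists_ord_neg hF hx
    haveI := (cuspFam L N).dCoordGenerates v
    have h := v.differentialCoeff_smul_dCoord
      (KaehlerDifferential.D L (modularFunctionFieldFullC L N) x)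
    have hg := (AllValues.ordDifferential_dx (fam L N) (cuspFam L N) v).1
    exact smul_ne_zero hg v.dCoord_ne_zero (h.trans h0)
  obtain ⟨W, hW, hdegW⟩ :=
    AllValues.differential_divisor (fam L N) (cuspFam L N) {0, 1728} hB hω
  obtain ⟨h1, h2⟩ := FA.Curve.degree_diffDiv hF hx (W := W)
    (fun P c hc => by
      have hne : x - algebraMap L _ c ≠ 0 := fun h0 =>
        hx (by rw [sub_eq_zero.1 h0]; exact isAlgebraic_algebraMap c)
      rw [hW, (AllValues.ordDifferential_dx (fam L N) (cuspFam L N) P).2.1 c
        ((fam L N c).mem_places.2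
          (show 0 < P.ord (x - algebraMap L _ c) by have := (atLeast_iff hne).1 hc; omega))])
    (fun P hP => by
      rw [hW, (AllValues.ordDifferential_dx (fam L N) (cuspFam L N) P).2.2
        ((cuspFam L N).mem_places.2
          (show 0 < P.ord x⁻¹ by rw [P.ord_inv]; omega)), P.ord_inv, neg_neg])
  have hcard : (Fintype.card (FA.Dim.Cos N) : ℤ) = (dedekindPsi N : ℤ) := by
    rw [← Nat.card_eq_fintype_card, FA.Dim.card_cos]
  rw [Finset.sum_pair (by norm_num : (0 : L) ≠ 1728), hcard, card_cuspFam] at hdegW
  have e0 := congrArg (Int.cast : ℤ → ℚ) (card_fam_zero (L := L) (N := N))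
  have e1 := congrArg (Int.cast : ℤ → ℚ) (card_fam_1728 (L := L) (N := N))
  have hQ := congrArg (Int.cast : ℤ → ℚ) hdegW
  have hk := Fermat.Agent.S20.result N
  rw [genusFormula] at hk
  push_cast at hQ e0 e1
  have key : Divisor.degree W + 2 =
      2 * (Module.finrank ℂ (CuspForm (CongruenceSubgroup.Gamma0 N) 2) : ℤ) := by
    have : ((Divisor.degree W + 2 : ℤ) : ℚ) =
        ((2 * (Module.finrank ℂ (CuspForm (CongruenceSubgroup.Gamma0 N) 2) : ℤ) : ℤ) : ℚ) := by
      push_cast
      linear_combination hQ - (1 / 3 : ℚ) * e0 - (1 / 2 : ℚ) * e1 - 2 * hk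
    exact_mod_cast this
  omega

theorem curveGenus_level [Algebra ℚ L] :
    FA.Curve.genus L (levelField N L) =
      Module.finrank ℂ (CuspForm (CongruenceSubgroup.Gamma0 N) 2) := by
  show FA.Curve.genus L ↥(laurentBaseChange L (modularFunctionFieldFull N)) = _
  rw [laurentBaseChange_full L N]
  exact curveGenus_fullC L N

end FA.ModField

namespace FA.JTorsion

open CongruenceSubgroup FA.Level ModularCurve ModularCurve.Period FA.HeckeH1

variable (N : ℕ) [NeZero N]

/-- The lattice has twice the rank of the space of cusp forms. -/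
theorem finrank_cuspLat : Module.finrank ℤ (cuspLat (lvlGamma0 N)) =
    2 * Module.finrank ℂ (CuspForm (Gamma0 N) 2) := by
  classical
  obtain ⟨hfree, hfin⟩ := cuspLat_free_finite (lvlGamma0 N)
  haveI := hfree
  haveI := hfin
  let b := Module.finBasis ℤ (cuspLat (lvlGamma0 N))
  set P := parabolicHoms ℂ (Gamma0 N) ℂ
  let v : Fin (Module.finrank ℤ (cuspLat (lvlGamma0 N))) → P := fun i =>
    ⟨toComplex N (b i), toComplex_mem N (b i)⟩
  have hli : LinearIndependent ℂ v := by
    rw [Fintype.linearIndependent_iff]
    intro w hw i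
    have hv : LinearIndependent ℤ fun i => ((b i : cuspLat (lvlGamma0 N)) :
        Additive (lvlGamma0 N).grp →+ ℤ) :=
      b.linearIndependent.map' (cuspLat (lvlGamma0 N)).subtype (Submodule.ker_subtype _)
    refine congrFun (FA.HeckeH1.eq_zero_of_sum_comp (O := ℤ) (O' := ℂ) (Γ := Gamma0 N)
      (fun i => ((b i : cuspLat (lvlGamma0 N)) : Additive (lvlGamma0 N).grp →+ ℤ)) hv w ?_) i
    refine Eq.trans ?_ (congrArg Subtype.val hw)
    rw [Submodule.coe_sum]
    rfl
  have hspan : ⊤ ≤ Submodule.span ℂ (Set.range v) := by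
    rintro ⟨φ, hφ⟩ -
    have h : φ ∈ (Submodule.span ℂ (Set.range v)).map P.subtype := by
      rw [Submodule.map_span]
      refine Submodule.span_le.2 ?_ (parabolicHoms_le_span N hφ)
      rintro _ ⟨y, rfl⟩
      rw [← b.sum_repr y, map_sum]
      refine Submodule.sum_mem _ fun i _ => ?_
      rw [map_zsmul]
      exact zsmul_mem (Submodule.subset_span (Set.mem_image_of_mem P.subtype (Set.mem_range_self i))) _
    obtain ⟨y, hy, e⟩ := h
    exact (Subtype.ext e : y = ⟨φ, hφ⟩) ▸ hy
  have h1 : Module.finrank ℂ P = Module.finrank ℤ (cuspLat (lvlGamma0 N)) := by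
    rw [Module.finrank_eq_card_basis (Module.Basis.mk hli hspan), Fintype.card_fin]
  obtain ⟨hinj, hrange⟩ := Fermat.Agent.S21.result N
  have h2 : Module.finrank ℂ P = Module.finrank ℂ (FormPair N) := by
    rw [show P = LinearMap.range (periodHomPair N) from hrange.symm,
      LinearMap.finrank_range_of_inj hinj]
  rw [← h1, h2]
  haveI : Module.Finite ℂ P := Module.Finite.of_basis (Module.Basis.mk hli hspan)
  let L' : FormPair N →ₗ[ℂ] P := LinearMap.codRestrict _ (periodHomPair N) fun p => by
    rw [show P = LinearMap.range (periodHomPair N) from hrange.symm]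
    exact ⟨p, rfl⟩
  haveI : Module.Finite ℂ (CuspForm (Gamma0 N) 2) :=
    Module.Finite.of_injective (L'.comp (LinearMap.inl ℂ _ _))
      (fun a b h => LinearMap.inl_injective (hinj (congrArg Subtype.val h)))
  rw [Module.finrank_prod, two_mul]

end FA.JTorsion
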