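import Fermat.Agent.ModField.Semistable.Mono.HeckeNorm

/-!
# The norm of `T_ℓ` after reduction

On the two components of `X₀(M q)` and on the reduction of level `M` the norm of `T_ℓ` reduces to
the product of the conjugates of the reduced expansion; this gives an endomorphism of the target
of the reduction of torsion classes.
-/

set_option autoImplicit false
set_option linter.style.haveILetI false
set_option linter.unusedSectionVars false
set_option synthInstance.maxHeartbeats 200000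
set_option maxHeartbeats 400000

noncomputable section

namespace FA.ModField

open ModularCurve AlgebraicCurve FA.Level FA.Curve FA.CurveRed FA.CurveRed.Modular

section Roots

variable (ℓ : ℕ) [hℓ : Fact ℓ.Prime] (L : Type) [Field L] [Algebra ℚ L] [Algebra L ℂ]
  [IsAlgClosed L]

/-- The root of unity. -/
def zetaL : Lˣ := (exists_zetaL ℓ L).choose

theorem zetaL_spec : Units.map ((algebraMap L ℂ) : L →* ℂ) (zetaL ℓ L) = zetaN ℓ :=
  (exists_zetaL ℓ L).choose_spec

theorem zetaL_pow : (zetaL ℓ L : L) ^ ℓ = 1 := by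
  refine (algebraMap L ℂ).injective ?_
  have h := congrArg (fun u : ℂˣ => (u : ℂ) ^ ℓ) (zetaL_spec ℓ L)
  simp only [Units.coe_map, MonoidHom.coe_coe] at h
  rw [map_pow, h, (zetaN_prim ℓ).pow_eq_one, map_one]

variable {L} (A : ValuationSubring L)

theorem mem_of_pow_eq_one {w : L} (hw : w ^ ℓ = 1) : w ∈ A := by
  obtain ⟨y, hy⟩ := IsIntegrallyClosed.isIntegral_iff.1 (show IsIntegral A w from
    ⟨Polynomial.X ^ ℓ - Polynomial.C 1,
      Polynomial.monic_X_pow_sub_C 1 hℓ.out.ne_zero, by simp [hw]⟩)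
  rw [← hy]
  exact y.2

/-- The root of unity in the valuation ring. -/
def zetaA : Aˣ :=
  Units.ofPowEqOne (⟨(zetaL ℓ L : L), mem_of_pow_eq_one ℓ A (zetaL_pow ℓ L)⟩ : A) ℓ
    (Subtype.ext (zetaL_pow ℓ L)) hℓ.out.ne_zero

theorem map_zetaA : Units.map (A.subtype : A →+* L).toMonoidHom (zetaA ℓ A) = zetaL ℓ L :=
  Units.ext rfl

variable {k : Type} [Field k] (π : A →+* k)

/-- Its residue. -/
def zetaK : kˣ := Units.map π.toMonoidHom (zetaA ℓ A)

theorem root_eq_one_of_red (hℓk : (ℓ : k) ≠ 0) {w : A} (hw : w ^ ℓ = 1) (hπ : π w = 1) :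
    w = 1 := by
  by_contra hne
  have h0 : (∑ i ∈ Finset.range ℓ, w ^ i) = 0 := by
    have h := geom_sum_mul w ℓ
    rw [hw, sub_self] at h
    exact (mul_eq_zero.1 h).resolve_right (sub_ne_zero.2 hne)
  have h1 := congrArg π h0
  simp only [map_sum, map_pow, hπ, one_pow, Finset.sum_const, Finset.card_range, nsmul_eq_mul,
    mul_one, map_zero] at h1
  exact hℓk h1

/-- An element inducing the identity of the residue field fixes the roots of unity. -/
theorem fix_root (hℓk : (ℓ : k) ≠ 0) {σ : L ≃ₐ[ℚ] L} (hσ : InducesOn L π σ (RingHom.id k))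
    (w : L) (hw : w ^ ℓ = 1) : σ w = w := by
  have hw0 : w ≠ 0 := fun h => by rw [h, zero_pow hℓ.out.ne_zero] at hw; exact zero_ne_one hw
  have hwA := mem_of_pow_eq_one ℓ A hw
  obtain ⟨b, hb, hbπ⟩ := hσ ⟨w, hwA⟩
  have hbℓ : b ^ ℓ = 1 := Subtype.ext (by
    rw [SubmonoidClass.coe_pow, hb, OneMemClass.coe_one]
    show σ w ^ ℓ = 1
    rw [← map_pow, hw, map_one])
  set u : A := ⟨w, hwA⟩
  have hu : u ^ ℓ = 1 := Subtype.ext (by rw [SubmonoidClass.coe_pow]; exact hw)
  have hq : b * u ^ (ℓ - 1) = 1 := by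
    refine root_eq_one_of_red ℓ A π hℓk (by rw [mul_pow, hbℓ, one_mul, ← pow_mul, mul_comm,
      pow_mul, hu, one_pow]) ?_
    rw [map_mul, hbπ, RingHom.id_apply, ← map_mul, ← pow_succ',
      Nat.sub_add_cancel hℓ.out.one_le, hu, map_one]
  have h := congrArg (fun x : A => (x : L) * w) hq
  simp only [MulMemClass.coe_mul, SubmonoidClass.coe_pow, OneMemClass.coe_one, one_mul] at h
  rw [mul_assoc, ← pow_succ, Nat.sub_add_cancel hℓ.out.one_le, hw, mul_one, hb] at h
  exact h

variable (k) in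
/-- The product of the conjugates of a series. -/
def conjProd (ζ : kˣ) (r : LaurentSeries k) : LaurentSeries k := ∏ i, conjMap ℓ ζ i r

theorem conjProd_mul (ζ : kˣ) (r s : LaurentSeries k) :
    conjProd ℓ k ζ (r * s) = conjProd ℓ k ζ r * conjProd ℓ k ζ s := by
  simp only [conjProd, map_mul, Finset.prod_mul_distrib]

theorem conjProd_ne_zero (ζ : kˣ) {r : LaurentSeries k} (hr : r ≠ 0) : conjProd ℓ k ζ r ≠ 0 :=
  Finset.prod_ne_zero_iff.2 fun i _ => by
    haveI : NeZero (ℓ * ℓ) := ⟨mul_ne_zero hℓ.out.ne_zero hℓ.out.ne_zero⟩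
    cases i with
    | none => exact fun h => hr (qExpand_injective (ℓ * ℓ) (h.trans (map_zero _).symm))
    | some b => exact (map_ne_zero (twist (ζ ^ (b : ℕ)))).2 hr

variable (N : ℕ) [NeZero N] (hℓN : ¬ ℓ ∣ N)

include hℓN in
/-- Integral series have integral norms. -/
theorem exists_normT_series (y : levelField N L) (Y : LaurentSeries A)
    (hY : coeffMap (A.subtype : A →+* L) Y = (y : LaurentSeries L)) :
    ∃ Z : LaurentSeries A,
      coeffMap (A.subtype : A →+* L) Z = (normT N ℓ L y : LaurentSeries L) ∧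
        qExpand k ℓ (coeffMap π Z) = conjProd ℓ k (zetaK ℓ A π) (coeffMap π Y) := by
  have hP : coeffMap (A.subtype : A →+* L) (∏ i, conjMap ℓ (zetaA ℓ A) i Y) =
      qExpand L ℓ (normT N ℓ L y : LaurentSeries L) := by
    rw [qExpand_normT N ℓ L hℓN (zetaL_spec ℓ L), map_prod]
    refine Finset.prod_congr rfl fun i _ => ?_
    rw [coeffMap_conjMap, map_zetaA, hY]
  obtain ⟨Z, hZ, hZP⟩ := exists_qExpand_of_coeffMap ℓ A.subtype_injective hP
  refine ⟨Z, hZ, ?_⟩
  rw [← coeffMap_qExpand, hZP, map_prod]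
  exact Finset.prod_congr rfl fun i _ => coeffMap_conjMap π ℓ (zetaA ℓ A) i Y

end Roots

variable (M : ℕ) [NeZero M] (q : ℕ) [hq : Fact q.Prime] [hq0 : NeZero q]
variable {L : Type} [Field L] [Algebra ℚ L] [Algebra L ℂ] [IsAlgClosed L]
variable (A : ValuationSubring L) {k : Type} [Field k] [IsAlgClosed k] [CharP k q] (π : A →+* k)
  (hπs : Function.Surjective π) (hπ0 : ∀ a : A, π a = 0 ↔ A.valuation a < 1) (hqM : ¬ q ∣ M)
  (harch : ∀ c : L, c ≠ 0 → ∃ m : ℕ, A.valuation ((q : L) ^ m) < A.valuation c)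
variable (ℓ : ℕ) [hℓ : Fact ℓ.Prime] (hℓN : ¬ ℓ ∣ M * q)

/-- The relation between a reduced function and its norm. -/
def ConjRel (r r' : modularFunctionFieldFullC k M) : Prop :=
  qExpand k ℓ (r' : LaurentSeries k) = conjProd ℓ k (zetaK ℓ A π) (r : LaurentSeries k)

variable {M A π ℓ} in
theorem ConjRel.ne_zero {r r' : modularFunctionFieldFullC k M} (h : ConjRel M A π ℓ r r')
    (hr : r ≠ 0) : r' ≠ 0 := fun h0 => conjProd_ne_zero ℓ (zetaK ℓ A π)
  (fun e => hr (Subtype.ext e)) (by rw [← h, h0, ZeroMemClass.coe_zero, map_zero])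

variable {M A π ℓ} in
theorem ConjRel.unique {r r' r'' : modularFunctionFieldFullC k M} (h : ConjRel M A π ℓ r r')
    (h' : ConjRel M A π ℓ r r'') : r' = r'' :=
  Subtype.ext (qExpand_injective ℓ (h.trans h'.symm))

variable {M A π ℓ} in
theorem ConjRel.mul {r r' s s' : modularFunctionFieldFullC k M} (h : ConjRel M A π ℓ r r')
    (h' : ConjRel M A π ℓ s s') : ConjRel M A π ℓ (r * s) (r' * s') := by
  rw [ConjRel, MulMemClass.coe_mul, MulMemClass.coe_mul, map_mul, conjProd_mul, ← h, ← h']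

variable {M A π ℓ} in
theorem conjRel_const (a : k) : ConjRel M A π ℓ (algebraMap k _ a) (algebraMap k _ (a ^ (ℓ + 1))) := by
  have hc : ∀ b : k, ((algebraMap k (modularFunctionFieldFullC k M) b :
      modularFunctionFieldFullC k M) : LaurentSeries k) = HahnSeries.C b := fun b => by
    rw [HahnSeries.C_apply, ← algebraMap_laurentSeries_eq_single]
    rfl
  have hi : ∀ i, conjMap ℓ (zetaK ℓ A π) i (HahnSeries.C a) = HahnSeries.C a := fun i => by
    haveI : NeZero (ℓ * ℓ) := ⟨mul_ne_zero hℓ.out.ne_zero hℓ.out.ne_zero⟩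
    cases i with
    | none => exact qExpand_C (ℓ * ℓ) a
    | some b => exact twist_C _ a
  rw [ConjRel, hc, hc, qExpand_C, conjProd, Finset.prod_congr rfl fun i _ => hi i,
    Finset.prod_const, Finset.card_univ, Fintype.card_option, Fintype.card_fin, map_pow]

include hℓN in
/-- The norm of `T_ℓ` on the component of `∞`. -/
theorem cInf_normT {f : levelField (M * q) L} {r : modularFunctionFieldFullC k M}
    (h : (cInf M q A π hπs hπ0 hqM harch).Red f r) :
    ∃ r', (cInf M q A π hπs hπ0 hqM harch).Red (normT (M * q) ℓ L f) r' ∧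
      ConjRel M A π ℓ r r' := by
  obtain ⟨Y, Y', hY, hY', hne, hf, hr⟩ := (cInf_red M q A π hπs hπ0 hqM harch).1 h
  set y : levelField (M * q) L := ⟨_, hY⟩
  set y' : levelField (M * q) L := ⟨_, hY'⟩
  obtain ⟨Z, hZ, hZk⟩ := exists_normT_series ℓ A π (M * q) hℓN y Y rfl
  obtain ⟨Z', hZ', hZk'⟩ := exists_normT_series ℓ A π (M * q) hℓN y' Y' rfl
  have hfy : f * y' = y := Subtype.ext hf
  have hN : normT (M * q) ℓ L f * normT (M * q) ℓ L y' = normT (M * q) ℓ L y := by
    rw [← normT_mul, hfy]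
  have hN' : (normT (M * q) ℓ L f : LaurentSeries L) * coeffMap (A.subtype : A →+* L) Z' =
      coeffMap (A.subtype : A →+* L) Z := by
    rw [hZ, hZ', ← MulMemClass.coe_mul, hN]
  have hne' : coeffMap π Z' ≠ 0 := fun h0 => conjProd_ne_zero ℓ (zetaK ℓ A π) hne
    (by rw [← hZk', h0, map_zero])
  set R : LaurentSeries k := coeffMap π Z / coeffMap π Z'
  have hZm : coeffMap (A.subtype : A →+* L) Z ∈ levelField (M * q) L := hZ ▸ SetLike.coe_mem _
  have hZm' : coeffMap (A.subtype : A →+* L) Z' ∈ levelField (M * q) L := hZ' ▸ SetLike.coe_mem _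
  have hbig : (redBig M q A π hπs hπ0).Red (lvlEquiv L (M * q) (normT (M * q) ℓ L f)) R := by
    rw [redBig, constRedOfQuot_red]
    refine ⟨⟨Z, (laurentBaseChange_full L (M * q)).le hZm⟩,
      ⟨Z', (laurentBaseChange_full L (M * q)).le hZm'⟩, hne', Subtype.ext ?_, ?_⟩
    · show (lvlEquiv L (M * q) (normT (M * q) ℓ L f) : LaurentSeries L) * _ = _
      rw [coe_lvlEquiv]
      exact hN'
    · exact div_mul_cancel₀ _ hne'
  have hmem := (exists_red_inf M q A π hπs hπ0 hqM harch).2 _ R hbig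
  refine ⟨⟨R, hmem⟩, (cInf_red M q A π hπs hπ0 hqM harch).2 ⟨Z, Z', hZm, hZm', hne', hN',
    div_mul_cancel₀ _ hne'⟩, ?_⟩
  show qExpand k ℓ R = _
  rw [map_div₀, div_eq_iff ((map_ne_zero (qExpand k ℓ)).2 hne'), hZk, hZk', ← conjProd_mul, hr]

include hℓN in
/-- The norm of `T_ℓ` on the component of `0`. -/
theorem cZero_normT {f : levelField (M * q) L} {r : modularFunctionFieldFullC k M}
    (h : (cZero M q A π hπs hπ0 hqM harch).Red f r) :
    ∃ r', (cZero M q A π hπs hπ0 hqM harch).Red (normT (M * q) ℓ L f) r' ∧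
      ConjRel M A π ℓ r r' := by
  obtain ⟨r', h1, h2⟩ := cInf_normT M q A π hπs hπ0 hqM harch ℓ hℓN (cZero_red .. |>.1 h)
  rw [normT_wLvl M q ℓ L hℓN hqM] at h1
  exact ⟨r', (cZero_red M q A π hπs hπ0 hqM harch).2 h1, h2⟩

/-- The reduction of level `M`. -/
def cLow : ConstRed L (levelField M L) k (modularFunctionFieldFullC k M) A :=
  redComap (redN A π M hπs hπ0) (lvlEquiv L M)

include hqM in
theorem scaled_cLow : (cLow M A π hπs hπ0).Scaled :=
  haveI : CharZero L := charZero_of_injective_algebraMap (algebraMap ℚ L).injective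
  scaled_redComap (scaledN (natCast_level_ne_zero M q A π hπs hπ0 (k := k) hqM)) _

theorem cLow_compat {e : levelField M L} {r : modularFunctionFieldFullC k M}
    (h : (cLow M A π hπs hπ0).Red e r) :
    (cInf M q A π hπs hπ0 hqM harch).Red (heckeAlphaBar L M q e) r := by
  have h1 := redInf_compat M q A π hπs hπ0 hqM harch _ _ (redComap_red.1 h)
  rw [cInf, redComap_red]
  rwa [show lvlEquiv L (M * q) (heckeAlphaBar L M q e) = inclLevel M q L (lvlEquiv L M e) from
    Subtype.ext (by rw [coe_lvlEquiv, coe_heckeAlphaBar, coe_inclLevel, coe_lvlEquiv])]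

theorem exists_lift_of_gens {K F κ E : Type} [Field K] [Field F] [Algebra K F] [Field κ] [Field E]
    [Algebra κ E] {S : Set E} {A : ValuationSubring K}
    (C : ConstRed K F κ (IntermediateField.adjoin κ S) A)
    (hS : ∀ y (hy : y ∈ S), ∃ f, C.Red f ⟨y, IntermediateField.subset_adjoin κ S hy⟩)
    (h : IntermediateField.adjoin κ S) : ∃ f, C.Red f h := by
  obtain ⟨x, hx⟩ := h
  induction hx using IntermediateField.adjoin_induction with
  | mem y hy => exact hS y hy
  | algebraMap c =>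
    obtain ⟨a, ha⟩ := C.π_surjective c
    exact ⟨_, by
      have := ConstRed.red_const (C := C) a
      rwa [ha] at this⟩
  | add y z hy hz h1 h2 =>
    obtain ⟨f, hf⟩ := h1
    obtain ⟨g, hg⟩ := h2
    exact ⟨f + g, hf.add hg⟩
  | inv y hy h1 =>
    obtain ⟨f, hf⟩ := h1
    rcases eq_or_ne (⟨y, hy⟩ : IntermediateField.adjoin κ S) 0 with h0 | h0
    · refine ⟨f, ?_⟩
      convert hf using 1
      apply Subtype.ext
      show y⁻¹ = y
      rw [show y = 0 from congrArg Subtype.val h0, inv_zero]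
    · exact ⟨f⁻¹, hf.inv h0⟩
  | mul y z hy hz h1 h2 =>
    obtain ⟨f, hf⟩ := h1
    obtain ⟨g, hg⟩ := h2
    exact ⟨f * g, hf.mul hg⟩

theorem exists_lift_red (h : modularFunctionFieldFullC k M) :
    ∃ f, (cLow M A π hπs hπ0).Red f h := by
  refine exists_lift_of_gens (cLow M A π hπs hπ0) (fun y hy => ?_) h
  obtain ⟨d, hne, hd, rfl⟩ := hy
  haveI := hne
  exact ⟨(lvlEquiv L M).symm ⟨qExpand L d (jqModC L), jqModCd_mem_full L M hd⟩,
    redComap_red.2 (by rw [AlgEquiv.apply_symm_apply]; exact red_gen d hd)⟩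

include hπs hπ0 hqM harch hℓN in
theorem exists_conjRel (r : modularFunctionFieldFullC k M) : ∃ r', ConjRel M A π ℓ r r' := by
  obtain ⟨f, hf⟩ := exists_lift_red M A π hπs hπ0 r
  obtain ⟨r', -, h⟩ := cInf_normT M q A π hπs hπ0 hqM harch ℓ hℓN
    (cLow_compat M q A π hπs hπ0 hqM harch hf)
  exact ⟨r', h⟩

include hℓN hqM harch in
/-- The norm of `T_ℓ` at level `M`. -/
theorem cLow_normT {e : levelField M L} {r : modularFunctionFieldFullC k M}
    (h : (cLow M A π hπs hπ0).Red e r) (hr : r ≠ 0) :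
    ∃ r', (cLow M A π hπs hπ0).Red (normT M ℓ L e) r' ∧ ConjRel M A π ℓ r r' := by
  have he : e ≠ 0 := h.ne_zero hr
  obtain ⟨r', h1, h2⟩ := cInf_normT M q A π hπs hπ0 hqM harch ℓ hℓN
    (cLow_compat M q A π hπs hπ0 hqM harch h)
  rw [normT_alpha M q ℓ L hℓN] at h1
  obtain ⟨c, g, s, hc, hg, hgs, hs⟩ := exists_scaled (scaled_cLow M q A π hπs hπ0 hqM)
    (normT_ne_zero M ℓ L he)
  rw [hg, map_mul, AlgHom.commutes] at h1
  obtain ⟨hcA, hr'⟩ := (cLow_compat M q A π hπs hπ0 hqM harch hgs).smul_cancel hs h1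
  refine ⟨r', ?_, h2⟩
  rw [hg, hr']
  exact (ConstRed.red_const (⟨c, hcA⟩ : A)).mul hgs

/-- The endomorphism of units. -/
def thetaU : (modularFunctionFieldFullC k M)ˣ →* (modularFunctionFieldFullC k M)ˣ where
  toFun u := Units.mk0 (exists_conjRel M q A π hπs hπ0 hqM harch ℓ hℓN (u : _)).choose
    ((exists_conjRel M q A π hπs hπ0 hqM harch ℓ hℓN (u : _)).choose_spec.ne_zero u.ne_zero)
  map_one' := Units.ext ((exists_conjRel M q A π hπs hπ0 hqM harch ℓ hℓN _).choose_spec.unique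
    (by simpa using conjRel_const (M := M) (A := A) (π := π) (ℓ := ℓ) (1 : k)))
  map_mul' u v := Units.ext ((exists_conjRel M q A π hπs hπ0 hqM harch ℓ hℓN _).choose_spec.unique
    (((exists_conjRel M q A π hπs hπ0 hqM harch ℓ hℓN (u : _)).choose_spec.mul
      (exists_conjRel M q A π hπs hπ0 hqM harch ℓ hℓN (v : _)).choose_spec)))

theorem thetaU_spec (u : (modularFunctionFieldFullC k M)ˣ) :
    ConjRel M A π ℓ (u : modularFunctionFieldFullC k M)
      (thetaU M q A π hπs hπ0 hqM harch ℓ hℓN u : modularFunctionFieldFullC k M) :=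
  (exists_conjRel M q A π hπs hπ0 hqM harch ℓ hℓN (u : _)).choose_spec

/-- The endomorphism of the target. -/
def thetaT (n : ℕ) : RedTarget k (modularFunctionFieldFullC k M) n →+
    RedTarget k (modularFunctionFieldFullC k M) n :=
  MonoidHom.toAdditive (QuotientGroup.map (powConst k _ n) (powConst k _ n)
    (thetaU M q A π hπs hπ0 hqM harch ℓ hℓN) (sup_le
      (by
        rintro _ ⟨a, rfl⟩
        refine Subgroup.mem_sup_left ⟨a ^ (ℓ + 1), Units.ext ?_⟩
        exact (conjRel_const (M := M) (A := A) (π := π) (ℓ := ℓ) (a : k)).unique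
          (thetaU_spec M q A π hπs hπ0 hqM harch ℓ hℓN _))
      (by
        rintro _ ⟨h, rfl⟩
        exact Subgroup.mem_sup_right ⟨thetaU M q A π hπs hπ0 hqM harch ℓ hℓN h,
          (map_pow (thetaU M q A π hπs hπ0 hqM harch ℓ hℓN) h n).symm⟩)))

theorem thetaT_redCls (n : ℕ) {r r' : modularFunctionFieldFullC k M}
    (h : ConjRel M A π ℓ r r') (hr : r ≠ 0) :
    thetaT M q A π hπs hπ0 hqM harch ℓ hℓN n (redCls n r) = redCls n r' := by
  rw [redCls, dif_pos hr, redCls, dif_pos (h.ne_zero hr)]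
  exact congrArg Additive.ofMul (congrArg QuotientGroup.mk (Units.ext
    ((thetaU_spec M q A π hπs hπ0 hqM harch ℓ hℓN (Units.mk0 r hr)).unique h)))

end FA.ModField
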