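import Fermat.Agent.JTorsion.LatMod
import Fermat.Agent.ModField.Semistable.PairHecke
import Mathlib.LinearAlgebra.Eigenspace.Basic
import Mathlib.RingTheory.TensorProduct.Basic
import Mathlib.LinearAlgebra.FiniteDimensional.Defs

/-!
# Inertia on the part of the torsion of `J₀(M q)` attached to a residual system

The statement: the image of a tame generator of inertia at `q` minus one on the part of a
non-Eisenstein system `χ` has half the dimension of that part, less the dimension at level `M`.
-/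

set_option autoImplicit false
set_option linter.style.haveILetI false
set_option linter.unusedSectionVars false
set_option synthInstance.maxHeartbeats 200000

noncomputable section

namespace FA.ModField

open FA.Level FA.JTorsion ModularCurve
open scoped TensorProduct

local notation "Qb" => AlgebraicClosure ℚ

variable [Algebra Qb ℂ] (N : ℕ) [NeZero N] (p : ℕ) [NeZero p] (k : Type) [Field k]

/-- The torsion of order `p` over the field `k`. -/
abbrev ModK : Type := k ⊗[ℤ] ModN N (∅ : Set ℕ) p

/-- A Hecke operator over `k`. -/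
def heckeK (t : HFull N) : Module.End k (ModK N p k) :=
  LinearMap.baseChange k (DistribSMul.toAddMonoidHom (ModN N (∅ : Set ℕ) p) t).toIntLinearMap

/-- The Galois action over `k`. -/
def galK (σ : GalQ) : Module.End k (ModK N p k) :=
  LinearMap.baseChange k (galMod N (∅ : Set ℕ) p σ).toAddMonoidHom.toIntLinearMap

/-- The part of the system `χ` of good operators outside `S`. -/
def eigenPart (S : Finset ℕ) (χ : ℕ → k) : Submodule k (ModK N p k) :=
  ⨅ (ℓ : ℕ) (hℓ : ℓ.Prime) (hℓN : ¬ ℓ ∣ N) (_ : ℓ ∉ S),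
    (heckeK N p k (CuspForm.heckeAlgebra.T (k := 2) hℓ hℓN (Set.notMem_empty ℓ))).maxGenEigenspace
      (χ ℓ)

/-- The singular points of `X₀(M q)` at `q` have widths prime to `p`. -/
def GoodWidths (M q p : ℕ) : Prop :=
  5 ≤ p ∨ (p = 3 ∧ ∃ r, r ∣ M ∧ r % 3 = q % 3) ∨ (p = 2 ∧ ∃ r, r ∣ M ∧ r % 4 = q % 4)

/-- An element generating the image of inertia at `A` in all finite quotients where it is a
`p`-group. -/
def IsTameGen (p : ℕ) (A : ValuationSubring Qb) (s : GalQ) : Prop :=
  s ∈ A.inertiaSubgroupIn ℚ ∧ ∀ (X : Type) [Monoid X] (f : GalQ →* X),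
    IsOpen (f.ker : Set GalQ) → (∀ σ ∈ A.inertiaSubgroupIn ℚ, ∃ m : ℕ, f σ ^ p ^ m = 1) →
    ∀ σ ∈ A.inertiaSubgroupIn ℚ, ∃ i : ℕ, f σ = f s ^ i

/-- The rank of inertia at `q ∥ M q` on the part of a non-Eisenstein system. -/
def MonoAt (M q p : ℕ) [NeZero M] [NeZero (M * q)] [NeZero p] (k : Type) [Field k]
    (A : ValuationSubring Qb) (s : GalQ) (S : Finset ℕ) (χ : ℕ → k) : Prop :=
  q.Prime → p.Prime → q ≠ p → ¬ q ∣ M → A.LiesOverPrime q → IsTameGen p A s →
    GoodWidths M q p → CharP k p → Finite k →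
    (∃ ℓ, ℓ.Prime ∧ ¬ ℓ ∣ M * q ∧ ℓ ∉ S ∧ χ ℓ ≠ (ℓ + 1 : ℕ)) →
    Even (Module.finrank k ↥(eigenPart (M * q) p k S χ)) →
    2 * Module.finrank k ↥((eigenPart (M * q) p k S χ).map (galK (M * q) p k s - 1)) +
        2 * Module.finrank k ↥(eigenPart M p k (insert q S) χ) =
      Module.finrank k ↥(eigenPart (M * q) p k S χ)

end FA.ModField
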