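import Fermat.Agent.ModField.Semistable.Mono.Coord
import Fermat.Agent.ModField.Semistable.Joint.Symm

/-!
# The orders at the branches of a fixed class

For a divisor fixed by automorphisms inducing the identity on both components, with a function
whose divisor is `p` times it, the order at a branch times the difference of the scales of the
unit equals, modulo `p`, the order of the unit times the difference of the scales of the function.
-/

set_option autoImplicit false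
set_option linter.style.haveILetI false
set_option linter.unusedSectionVars false

noncomputable section

namespace FA.ModField.FibreHyp

open AlgebraicCurve FA.Curve FA.CurveRed FA.CurveRed.ConstRed

variable {K F k : Type*} [Field K] [IsAlgClosed K] [Field F] [Algebra K F] [Field k]
  [IsAlgClosed k] {Fk : Fin 2 → Type*} [∀ i, Field (Fk i)] [∀ i, Algebra k (Fk i)]
  {A : ValuationSubring K} {J : MultiRed K F k Fk A} {hF : IsFunctionField K F}
  {hk : ∀ i, IsFunctionField k (Fk i)} {x : F} {xb : ∀ i, Fk i}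
  {H : FibreHyp J hF hk x xb}

theorem red_zpow {E : Type*} [Field E] [Algebra k E] {C : ConstRed K F k E A} {f : F} {r : E}
    (h : C.Red f r) (hr : r ≠ 0) (n : ℤ) : C.Red (f ^ n) (r ^ n) := by
  obtain ⟨m, rfl | rfl⟩ := Int.eq_nat_or_neg n
  · simpa using h.pow m
  · simpa using (h.pow m).inv (pow_ne_zero m hr)

theorem place_ord_zpow {E L : Type*} [Field E] [Field L] [Algebra L E] (Q : Place L E) (r : E)
    (n : ℤ) : Q.ord (r ^ n) = n * Q.ord r := by
  obtain ⟨m, rfl | rfl⟩ := Int.eq_nat_or_neg n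
  · rw [zpow_natCast, place_ord_pow]
  · rw [zpow_neg, zpow_natCast, Q.ord_inv, place_ord_pow]
    ring

theorem ord_finsetProd {E L α : Type*} [Field E] [Field L] [Algebra L E] (Q : Place L E)
    (s : Finset α) {r : α → E} (h : ∀ a ∈ s, r a ≠ 0) :
    Q.ord (∏ a ∈ s, r a) = ∑ a ∈ s, Q.ord (r a) := by
  classical
  induction s using Finset.induction with
  | empty => simp
  | @insert a s ha ih =>
    rw [Finset.prod_insert ha, Finset.sum_insert ha,
      Q.ord_mul (h a (Finset.mem_insert_self a s))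
        (Finset.prod_ne_zero_iff.2 fun b hb => h b (Finset.mem_insert_of_mem hb)),
      ih fun b hb => h b (Finset.mem_insert_of_mem hb)]

theorem zpow_finsetSum {E α : Type*} [Field E] {z : E} (hz : z ≠ 0) (s : Finset α) (e : α → ℤ) :
    z ^ (∑ a ∈ s, e a) = ∏ a ∈ s, z ^ e a := by
  classical
  induction s using Finset.induction with
  | empty => simp
  | @insert a s ha ih => rw [Finset.sum_insert ha, Finset.prod_insert ha, zpow_add₀ hz, ih]

/-- A pair as a tuple. -/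
def mkTwo (a : Fk 0) (b : Fk 1) : ∀ i, Fk i :=
  Fin.cases a (Fin.cases b fun i => Fin.elim0 i)

/-- Automorphisms inducing the identity on the components preserve each tube. -/
theorem tubeAt_smul {S : SemilinearAut K F} (hS : Induced J x S (fun _ => 1) 1)
    (hSi : Induced J x S⁻¹ (fun _ => 1) 1) {s : H.Sg} {P : Place K F} (hP : H.TubeAt s P) :
    H.TubeAt s (S • P) := by
  obtain ⟨s', hs'⟩ := H.tubeAt_iff_none.1 (H.splMap_none_of_smul hSi (fun _ _ => one_smul _ _)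
    (P := S • P) (by rw [inv_smul_smul]; exact H.tubeAt_iff_none.2 ⟨s, hP⟩))
  obtain ⟨e, ⟨u, hu, hue⟩, hee⟩ := H.exists_cls_indicator s
  obtain ⟨c, _, hc⟩ := hP.inside
  obtain ⟨b, hb⟩ := exists_hasValue hF
    (hu P ((atLeast_iff (x_ne_zero hF H.chart.transX)).1 hc.atLeast))
  obtain ⟨hbA, hv⟩ := H.value_ctr hP.inside hu hue hb
  obtain ⟨b', hb', hb'π⟩ := hS.int ⟨b, hbA⟩
  obtain ⟨_, hv'⟩ := H.value_ctr hs'.inside (regSub_smul S hS.fix hu) (ub := e)
    (fun i => by simpa using hS.twine i _ _ (hue i)) (b := (b' : K))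
    (by rw [hb']; exact hasValue_smul S hb)
  rw [show J.π ⟨(b' : K), _⟩ = J.π ⟨b, hbA⟩ from hb'π,
    hv.unique ((hee _ hP.1).1 hP)] at hv'
  by_contra hne
  exact one_ne_zero (hv'.unique ((hee _ hs'.1).2 hne))

variable {ϖ : K} {U : H.UnitDatum ϖ}

/-- The data of a coordinate at `s`. -/
structure Coord (U : H.UnitDatum ϖ) (s : H.Sg) where
  T : F
  ε : K
  t : ∀ i, Fk i
  ε_pow : ε ^ U.δ s = U.d
  T_ne : T ≠ 0
  t_ne : ∀ i, t i ≠ 0
  red0 : (J.C 0).Red T (t 0)
  red1 : (J.C 1).Red (algebraMap K F ε⁻¹ * T) (t 1)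
  ord0 : (H.brPl s 0).ord (t 0) = 1
  ord1 : (H.brPl s 1).ord (t 1) = -1
  clean : H.CleanAt s T

namespace Coord

variable {s : H.Sg} (C : Coord U s)

theorem ε_ne : C.ε ≠ 0 := fun h0 => U.d_ne (by
  rw [← C.ε_pow, h0, zero_pow (U.δ_pos s).ne'])

theorem ε_lt : A.valuation C.ε < 1 := by
  by_contra h
  have h2 := one_le_pow₀ (not_lt.1 h) (n := U.δ s)
  rw [← map_pow, C.ε_pow] at h2
  exact not_lt.2 h2 U.d_lt

/-- The scales. -/
def c : Fin 2 → K := ![1, C.ε]

theorem c_ne (i : Fin 2) : C.c i ≠ 0 := by fin_cases i <;> simp [c, C.ε_ne]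

theorem red (i : Fin 2) : (J.C i).Red (algebraMap K F (C.c i)⁻¹ * C.T) (C.t i) := by
  revert i
  rw [Fin.forall_fin_two]
  refine ⟨?_, C.red1⟩
  simpa [c] using C.red0

theorem T_eq (i : Fin 2) : C.T = algebraMap K F (C.c i) * (algebraMap K F (C.c i)⁻¹ * C.T) := by
  rw [← mul_assoc, ← map_mul, mul_inv_cancel₀ (C.c_ne i), map_one, one_mul]

theorem value_lt {P : Place K F} (hP : H.TubeAt s P) {a : K} (ha : HasValue P C.T a) :
    A.valuation C.ε < A.valuation a ∧ A.valuation a < 1 := by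
  have h := (CleanAt.of_lt C.T_eq C.red C.t_ne C.T_ne C.clean 0
    (by simpa [c] using C.ε_lt)).2 P hP a ha
  simpa [c] using h

/-- The values of the coordinate against those of the unit. -/
theorem value_pow {P : Place K F} (hP : H.TubeAt s P) {a b : K} (ha : HasValue P C.T a)
    (hb : HasValue P U.u b) : A.valuation a ^ U.δ s = A.valuation b := by
  set φ := C.T ^ U.δ s * U.u⁻¹ with hφ
  have hclean : H.CleanAt s φ :=
    (C.clean.pow _).mul (U.clean s).inv (pow_ne_zero _ C.T_ne) (inv_ne_zero U.u_ne)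
  have hred : ∀ i, (J.C i).Red φ (C.t i ^ U.δ s * (U.r i)⁻¹) := by
    rw [Fin.forall_fin_two]
    refine ⟨(C.red0.pow _).mul (U.red0.inv (U.r_ne 0)), ?_⟩
    have h := (C.red1.pow (U.δ s)).mul (U.red1.inv (U.r_ne 1))
    rwa [show (algebraMap K F C.ε⁻¹ * C.T) ^ U.δ s * (algebraMap K F U.d⁻¹ * U.u)⁻¹ = φ by
      rw [hφ, mul_pow, mul_inv, ← map_pow, inv_pow, C.ε_pow, ← map_inv₀, inv_inv,
        mul_mul_mul_comm, ← map_mul, inv_mul_cancel₀ U.d_ne, map_one, one_mul]] at h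
  have hb0 : b ≠ 0 := fun h0 => by
    rw [h0, hasValue_zero_iff, atLeast_iff U.u_ne, U.clean s P hP] at hb
    omega
  obtain ⟨v, hv⟩ := exists_hasValue hF (hclean.atLeast hP)
  have h1 := (CleanAt.of_eq (c := fun _ => (1 : K)) (g := fun _ => φ) (fun i => by simp [hφ]) hred
    (fun i => mul_ne_zero (pow_ne_zero _ (C.t_ne i)) (inv_ne_zero (U.r_ne i)))
    (mul_ne_zero (pow_ne_zero _ C.T_ne) (inv_ne_zero U.u_ne)) hclean rfl).2 P hP v hv
  have h2 : a ^ U.δ s = v * b := (hasValue_pow ha _).unique (by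
    have h := hv.mul hb
    rwa [hφ, inv_mul_cancel_right₀ U.u_ne] at h)
  rw [← map_pow, h2, map_mul, h1, map_one, one_mul]

open Classical in
/-- `T - T(P)` has one zero in the tube. -/
theorem linear {P : Place K F} (hP : H.TubeAt s P) {a : K} (ha : HasValue P C.T a) :
    (J.C 0).Red (C.T - algebraMap K F a) (C.t 0) ∧
      (J.C 1).Red (algebraMap K F a⁻¹ * (C.T - algebraMap K F a)) (-1) ∧
      C.T - algebraMap K F a ≠ 0 ∧
      ∀ Q, H.TubeAt s Q → Q.ord (C.T - algebraMap K F a) = if Q = P then 1 else 0 := by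
  classical
  obtain ⟨hlo, hhi⟩ := C.value_lt hP ha
  have ha0 : a ≠ 0 := fun h0 => by simp [h0] at hlo
  have haA : a ∈ A := (A.valuation_le_one_iff a).1 hhi.le
  have r0 : (J.C 0).Red (C.T - algebraMap K F a) (C.t 0) := by
    have h := C.red0.sub (J.red_const_at 0 ⟨a, haA⟩)
    rwa [(J.π_eq_zero _).2 hhi, map_zero, sub_zero] at h
  have hq : A.valuation (a⁻¹ * C.ε) < 1 := by
    rw [← div_eq_inv_mul, map_div₀, div_lt_one₀ (A.valuation.pos_iff.2 ha0)]
    exact hlo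
  have hqA : a⁻¹ * C.ε ∈ A := (A.valuation_le_one_iff _).1 hq.le
  have r1 : (J.C 1).Red (algebraMap K F a⁻¹ * (C.T - algebraMap K F a)) (-1) := by
    have h := ((J.red_const_at 1 ⟨_, hqA⟩).mul C.red1).sub (ConstRed.red_one (C := J.C 1))
    rw [(J.π_eq_zero _).2 hq, map_zero, zero_mul, zero_sub] at h
    rwa [show algebraMap K F ((⟨a⁻¹ * C.ε, hqA⟩ : A) : K) * (algebraMap K F C.ε⁻¹ * C.T) - 1 =
      algebraMap K F a⁻¹ * (C.T - algebraMap K F a) by
        rw [mul_sub, ← map_mul, inv_mul_cancel₀ ha0, map_one, ← mul_assoc, ← map_mul,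
          mul_assoc, mul_inv_cancel₀ C.ε_ne, mul_one]] at h
  have hne := r0.ne_zero (C.t_ne 0)
  refine ⟨r0, r1, hne, fun Q hQ => ?_⟩
  have hdeg := H.degree_at (cc := ![1, a])
    (gg := fun i => algebraMap K F (![1, a] i)⁻¹ * (C.T - algebraMap K F a))
    (rr := mkTwo (C.t 0) (-1))
    (fun i => by
      rw [← mul_assoc, ← map_mul, mul_inv_cancel₀ (by fin_cases i <;> simp [ha0]), map_one,
        one_mul])
    (Fin.forall_fin_two.2 ⟨by simp only [mkTwo, Fin.cases_zero]; simpa using r0, r1⟩) hne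
    (Fin.forall_fin_two.2 ⟨C.t_ne 0, neg_ne_zero.2 one_ne_zero⟩) s
  rw [H.sum_cls s, Fin.sum_univ_two] at hdeg
  change _ = (H.brPl s 0).ord (C.t 0) + (H.brPl s 1).ord (-1 : Fk 1) at hdeg
  rw [C.ord0, show (-1 : Fk 1) = algebraMap k (Fk 1) (-1) by simp, place_ord_algebraMap,
    add_zero] at hdeg
  have hnn : ∀ R, H.TubeAt s R → 0 ≤ R.ord (C.T - algebraMap K F a) := fun R hR =>
    (atLeast_iff hne).1 ((C.clean.atLeast hR).sub (atLeast_algebraMap a))
  have hP1 : 1 ≤ P.ord (C.T - algebraMap K F a) := (atLeast_iff hne).1 ha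
  have key : ∀ R, H.TubeAt s R → R ≠ P →
      P.ord (C.T - algebraMap K F a) + R.ord (C.T - algebraMap K F a) ≤ 1 := by
    intro R hR hne'
    have hle : Finsupp.single P (P.ord (C.T - algebraMap K F a)) +
        Finsupp.single R (R.ord (C.T - algebraMap K F a)) ≤
        (divOf hF (C.T - algebraMap K F a)).filter fun P => H.TubeAt s P := by
      refine Finsupp.le_def.2 fun Z => ?_
      rw [Finsupp.add_apply, Finsupp.filter_apply, Finsupp.single_apply, Finsupp.single_apply,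
        divOf_apply]
      by_cases h1 : P = Z
      · subst h1
        rw [if_pos rfl, if_neg hne', if_pos hP, add_zero]
      · by_cases h2 : R = Z
        · subst h2
          rw [if_neg h1, if_pos rfl, if_pos hR, zero_add]
        · rw [if_neg h1, if_neg h2]
          split_ifs with h
          · simpa using hnn Z h
          · rfl
    have h3 := degree_mono hF hle
    rw [map_add, Divisor.degree_single, Divisor.degree_single, hF.deg_eq_one, hF.deg_eq_one,
      hdeg] at h3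
    push_cast at h3
    omega
  split_ifs with hQP
  · subst hQP
    have hle : Finsupp.single Q (Q.ord (C.T - algebraMap K F a)) ≤
        (divOf hF (C.T - algebraMap K F a)).filter fun P => H.TubeAt s P := by
      refine Finsupp.le_def.2 fun Z => ?_
      rw [Finsupp.filter_apply, Finsupp.single_apply, divOf_apply]
      by_cases h1 : Q = Z
      · subst h1
        rw [if_pos rfl, if_pos hQ]
      · rw [if_neg h1]
        split_ifs with h
        · exact hnn Z h
        · rfl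
    have h3 := degree_mono hF hle
    rw [Divisor.degree_single, hF.deg_eq_one, hdeg] at h3
    push_cast at h3
    omega
  · have := key Q hQ hQP
    have := hnn Q hQ
    omega

end Coord

theorem nonempty_coord (hconn : ∀ c : Fin 2 → k,
    (∀ b b' : H.Br, H.sgPt b = H.sgPt b' → c b.1.1 = c b'.1.1) → ∀ i j, c i = c j)
    (U : H.UnitDatum ϖ) (s : H.Sg) : Nonempty (Coord U s) := by
  obtain ⟨T, ε, t, h1, h2, h3, h4, h5, h6, h7, h8⟩ := exists_coord hconn U s
  exact ⟨⟨T, ε, t, h1, h2, h3, h4, h5, h6, h7, h8⟩⟩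

open Classical in
/-- **The orders at the branches.** -/
theorem branch_ord_relation (hconn : ∀ c : Fin 2 → k,
    (∀ b b' : H.Br, H.sgPt b = H.sgPt b' → c b.1.1 = c b'.1.1) → ∀ i j, c i = c j)
    (U : H.UnitDatum ϖ) (G : Set (SemilinearAut K F))
    (hG : ∀ S ∈ G, Induced J x S (fun _ => 1) 1) (hGi : ∀ S ∈ G, S⁻¹ ∈ G)
    (hval : ∀ a : K, a ≠ 0 → (∀ S ∈ G, SemilinearAut.baseAut S a = a) →
      ∃ n : ℤ, A.valuation a = A.valuation ϖ ^ n)
    (hϖ : ϖ ≠ 0) (hUG : ∀ S ∈ G, S • U.u = U.u)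
    {p : ℕ} (D : Divisor K F) (hD : ∀ S ∈ G, ∀ P, D (S • P) = D P)
    {g : F} (hg : g ≠ 0) (hgD : ∀ P, P.ord g = (p : ℤ) * D P)
    {c : Fin 2 → K} {gg : Fin 2 → F} {r : ∀ i, Fk i}
    (hfg : ∀ i, g = algebraMap K F (c i) * gg i) (hr : ∀ i, (J.C i).Red (gg i) (r i))
    (hr0 : ∀ i, r i ≠ 0) {κ : ℤ} (hκ : A.valuation (c 1) = A.valuation ϖ ^ κ * A.valuation (c 0))
    (s : H.Sg) :
    (p : ℤ) ∣ (H.brPl s 0).ord (r 0) + (H.brPl s 1).ord (r 1) ∧
      (p : ℤ) ∣ (U.δ s : ℤ) * κ - (U.Δ : ℤ) * (H.brPl s 0).ord (r 0) := by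
  obtain ⟨C⟩ := nonempty_coord hconn U s
  set TP := D.support.filter fun P => H.TubeAt s P
  have hmem : ∀ {P}, P ∈ TP → H.TubeAt s P := fun hP => (Finset.mem_filter.1 hP).2
  choose! a ha using fun P (hP : P ∈ TP) => exists_hasValue hF (C.clean.atLeast (hmem hP))
  choose! w hw using fun P (hP : P ∈ TP) => exists_hasValue hF ((U.clean s).atLeast (hmem hP))
  have ha0 : ∀ P ∈ TP, a P ≠ 0 := fun P hP h0 => by
    have := (C.value_lt (hmem hP) (ha P hP)).1
    simp [h0] at this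
  have hw0 : ∀ P ∈ TP, w P ≠ 0 := fun P hP h0 => by
    have := (U.value_lt (hmem hP) (hw P hP)).1
    simp [h0] at this
  -- removing the divisor
  set e : Place K F → ℤ := fun P => -((p : ℤ) * D P)
  set eS := ∑ P ∈ TP, e P with heS
  set g₂ := g * ∏ P ∈ TP, (C.T - algebraMap K F (a P)) ^ e P with hg₂
  have hLne : ∀ P ∈ TP, C.T - algebraMap K F (a P) ≠ 0 := fun P hP =>
    (C.linear (hmem hP) (ha P hP)).2.2.1
  have hprodne : ∏ P ∈ TP, (C.T - algebraMap K F (a P)) ^ e P ≠ 0 :=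
    Finset.prod_ne_zero_iff.2 fun P hP => zpow_ne_zero _ (hLne P hP)
  have hg₂ne : g₂ ≠ 0 := mul_ne_zero hg hprodne
  have hclean₂ : H.CleanAt s g₂ := fun Q hQ => by
    rw [hg₂, Q.ord_mul hg hprodne, ord_finsetProd Q _ fun P hP => zpow_ne_zero _ (hLne P hP),
      Finset.sum_congr rfl fun P hP => by
        rw [place_ord_zpow, (C.linear (hmem hP) (ha P hP)).2.2.2 Q hQ]]
    simp only [mul_ite, mul_one, mul_zero, Finset.sum_ite_eq]
    rw [hgD]
    by_cases hQm : Q ∈ TP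
    · rw [if_pos hQm]; simp [e]
    · rw [if_neg hQm, show D Q = 0 from Finsupp.notMem_support_iff.1 fun h =>
        hQm (Finset.mem_filter.2 ⟨h, hQ⟩)]
      ring
  set A₀ := (H.brPl s 0).ord (r 0) + eS with hA₀
  set g₃ := g₂ * C.T ^ (-A₀) with hg₃
  have hclean₃ : H.CleanAt s g₃ := fun Q hQ => by
    rw [hg₃, Q.ord_mul hg₂ne (zpow_ne_zero _ C.T_ne), hclean₂ Q hQ, place_ord_zpow,
      C.clean Q hQ, mul_zero, add_zero]
  set aP := ∏ P ∈ TP, (a P) ^ e P with haP
  have haPne : aP ≠ 0 := Finset.prod_ne_zero_iff.2 fun P hP => zpow_ne_zero _ (ha0 P hP)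
  have hc0 : ∀ i, c i ≠ 0 := scale_ne hfg hr hg
  let c₃ : Fin 2 → K := ![c 0, c 1 * aP * C.ε ^ (-A₀)]
  let r₃ : ∀ i, Fk i := mkTwo (r 0 * C.t 0 ^ eS * C.t 0 ^ (-A₀))
    (r 1 * (-1 : Fk 1) ^ eS * C.t 1 ^ (-A₀))
  have hc₃ : ∀ i, c₃ i ≠ 0 := Fin.forall_fin_two.2
    ⟨hc0 0, mul_ne_zero (mul_ne_zero (hc0 1) haPne) (zpow_ne_zero _ C.ε_ne)⟩
  have hr₃ : ∀ i, (J.C i).Red (algebraMap K F (c₃ i)⁻¹ * g₃) (r₃ i) := by
    rw [Fin.forall_fin_two]
    constructor
    · have h := ((hr 0).mul (ConstRed.red_prod (C := J.C 0) (s := TP)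
        (f := fun P => (C.T - algebraMap K F (a P)) ^ e P) (r := fun P => C.t 0 ^ e P)
        fun P hP => red_zpow (C.linear (hmem hP) (ha P hP)).1 (C.t_ne 0) _)).mul
        (red_zpow C.red0 (C.t_ne 0) (-A₀))
      rw [← zpow_finsetSum (C.t_ne 0) TP e, ← heS] at h
      rwa [show gg 0 * (∏ P ∈ TP, (C.T - algebraMap K F (a P)) ^ e P) * C.T ^ (-A₀) =
        algebraMap K F (c₃ 0)⁻¹ * g₃ by
          rw [hg₃, hg₂, show c₃ 0 = c 0 from rfl]
          conv_rhs => rw [hfg 0, map_inv₀]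
          field_simp [(map_ne_zero (algebraMap K F)).2 (hc0 0)]] at h
    · have h := ((hr 1).mul (ConstRed.red_prod (C := J.C 1) (s := TP)
        (f := fun P => (algebraMap K F (a P)⁻¹ * (C.T - algebraMap K F (a P))) ^ e P)
        (r := fun P => (-1 : Fk 1) ^ e P)
        fun P hP => red_zpow (C.linear (hmem hP) (ha P hP)).2.1 (neg_ne_zero.2 one_ne_zero) _)).mul
        (red_zpow C.red1 (C.t_ne 1) (-A₀))
      rw [← zpow_finsetSum (neg_ne_zero.2 one_ne_zero) TP e, ← heS] at h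
      rwa [show gg 1 * (∏ P ∈ TP, (algebraMap K F (a P)⁻¹ * (C.T - algebraMap K F (a P))) ^ e P) *
          (algebraMap K F C.ε⁻¹ * C.T) ^ (-A₀) = algebraMap K F (c₃ 1)⁻¹ * g₃ by
          simp only [mul_zpow, Finset.prod_mul_distrib, map_inv₀, inv_zpow, Finset.prod_inv_distrib]
          rw [hg₃, hg₂, show c₃ 1 = c 1 * aP * C.ε ^ (-A₀) from rfl, haP, map_mul, map_mul,
            map_prod, map_zpow₀]
          simp only [map_zpow₀, mul_inv]
          conv_rhs => rw [hfg 1]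
          have hc1 := (map_ne_zero (algebraMap K F)).2 (hc0 1)
          field_simp] at h
  have hr₃0 : ∀ i, r₃ i ≠ 0 := Fin.forall_fin_two.2
    ⟨mul_ne_zero (mul_ne_zero (hr0 0) (zpow_ne_zero _ (C.t_ne 0))) (zpow_ne_zero _ (C.t_ne 0)),
      mul_ne_zero (mul_ne_zero (hr0 1) (zpow_ne_zero _ (neg_ne_zero.2 one_ne_zero)))
        (zpow_ne_zero _ (C.t_ne 1))⟩
  have hg₃ne : g₃ ≠ 0 := mul_ne_zero hg₂ne (zpow_ne_zero _ C.T_ne)
  have hfg₃ : ∀ i, g₃ = algebraMap K F (c₃ i) * (algebraMap K F (c₃ i)⁻¹ * g₃) := fun i => by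
    rw [← mul_assoc, ← map_mul, mul_inv_cancel₀ (hc₃ i), map_one, one_mul]
  have h00 : (H.brPl s 0).ord (r₃ 0) = 0 := by
    show (H.brPl s 0).ord (r 0 * C.t 0 ^ eS * C.t 0 ^ (-A₀)) = 0
    rw [Place.ord_mul _ (mul_ne_zero (hr0 0) (zpow_ne_zero _ (C.t_ne 0)))
      (zpow_ne_zero _ (C.t_ne 0)), Place.ord_mul _ (hr0 0) (zpow_ne_zero _ (C.t_ne 0)),
      place_ord_zpow, place_ord_zpow, C.ord0, hA₀]
    ring
  have heq := CleanAt.scale_eq hfg₃ hr₃ hr₃0 hg₃ne hclean₃ h00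
  have h11 := (CleanAt.of_eq hfg₃ hr₃ hr₃0 hg₃ne hclean₃ heq).1 1
  replace h11 : (H.brPl s 1).ord (r 1) + A₀ = 0 := by
    have h := h11
    change (H.brPl s 1).ord (r 1 * (-1 : Fk 1) ^ eS * C.t 1 ^ (-A₀)) = 0 at h
    rw [Place.ord_mul _ (mul_ne_zero (hr0 1) (zpow_ne_zero _ (neg_ne_zero.2 one_ne_zero)))
      (zpow_ne_zero _ (C.t_ne 1)),
      Place.ord_mul _ (hr0 1) (zpow_ne_zero _ (neg_ne_zero.2 one_ne_zero)),
      place_ord_zpow, place_ord_zpow, C.ord1,
      show (-1 : Fk 1) = algebraMap k (Fk 1) (-1) by simp, place_ord_algebraMap] at h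
    linarith
  have heSp : (p : ℤ) ∣ eS := Finset.dvd_sum fun P _ => (dvd_mul_right _ _).neg_right
  refine ⟨?_, ?_⟩
  · rw [show (H.brPl s 0).ord (r 0) + (H.brPl s 1).ord (r 1) = -eS by rw [hA₀] at h11; linarith]
    exact heSp.neg_right
  -- valuations
  set N := ∏ P ∈ TP, (w P) ^ D P with hN
  have hNne : N ≠ 0 := Finset.prod_ne_zero_iff.2 fun P hP => zpow_ne_zero _ (hw0 P hP)
  obtain ⟨n, hn⟩ := hval N hNne fun S hS => by
    have hperm : ∀ P ∈ TP, S • P ∈ TP := fun P hP => Finset.mem_filter.2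
      ⟨Finsupp.mem_support_iff.2 (by
        rw [hD S hS P]; exact Finsupp.mem_support_iff.1 (Finset.mem_filter.1 hP).1),
        tubeAt_smul (hG S hS) (hG _ (hGi S hS)) (hmem hP)⟩
    have hperm' : ∀ P ∈ TP, S⁻¹ • P ∈ TP := fun P hP => Finset.mem_filter.2
      ⟨Finsupp.mem_support_iff.2 (by
        rw [hD _ (hGi S hS) P]; exact Finsupp.mem_support_iff.1 (Finset.mem_filter.1 hP).1),
        tubeAt_smul (hG _ (hGi S hS)) (by rw [inv_inv]; exact hG S hS) (hmem hP)⟩
    rw [hN, map_prod]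
    refine Finset.prod_nbij' (fun P => S • P) (fun P => S⁻¹ • P) hperm hperm'
      (fun P _ => inv_smul_smul S P) (fun P _ => smul_inv_smul S P) fun P hP => ?_
    have h := hasValue_smul S (hw P hP)
    rw [hUG S hS] at h
    rw [map_zpow₀, h.unique (hw _ (hperm P hP)), hD S hS P]
  have hv0 : A.valuation ϖ ≠ 0 := by rw [Valuation.ne_zero_iff]; exact hϖ
  have haPv : A.valuation aP ^ (U.δ s : ℤ) = A.valuation ϖ ^ (-(p : ℤ) * n) := by
    rw [mul_comm (-(p : ℤ)) n, zpow_mul, ← hn, hN, haP, map_prod, map_prod,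
      ← Finset.prod_zpow, ← Finset.prod_zpow]
    refine Finset.prod_congr rfl fun P hP => ?_
    rw [map_zpow₀, map_zpow₀, ← zpow_mul, ← C.value_pow (hmem hP) (ha P hP) (hw P hP),
      ← zpow_natCast, ← zpow_mul, ← zpow_mul]
    congr 1
    simp only [e]
    ring
  have hεv : A.valuation C.ε ^ (U.δ s : ℤ) = A.valuation ϖ ^ (U.Δ : ℤ) := by
    rw [zpow_natCast, zpow_natCast, ← map_pow, C.ε_pow, U.d_val]
  have hE : A.valuation ϖ ^ (κ * U.δ s + -(p : ℤ) * n + (U.Δ : ℤ) * (-A₀)) =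
      A.valuation ϖ ^ (0 : ℤ) := by
    rw [zpow_add₀ hv0, zpow_add₀ hv0, zpow_mul, zpow_mul (A.valuation ϖ) (U.Δ : ℤ), ← haPv,
      ← hεv, ← zpow_mul (A.valuation C.ε), mul_comm (U.δ s : ℤ) (-A₀),
      zpow_mul (A.valuation C.ε), ← mul_zpow, ← mul_zpow, zpow_zero]
    have h1 : A.valuation ϖ ^ κ * A.valuation aP * A.valuation C.ε ^ (-A₀) = 1 := by
      have h := heq
      change A.valuation (c 1 * aP * C.ε ^ (-A₀)) = A.valuation (c 0) at h
      rw [map_mul, map_mul, map_zpow₀, hκ] at h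
      have hc : A.valuation (c 0) ≠ 0 := by rw [Valuation.ne_zero_iff]; exact hc0 0
      apply mul_right_cancel₀ hc
      rw [one_mul]
      conv_rhs => rw [← h]
      ac_rfl
    rw [h1, one_zpow]
  have hexp := zpow_right_injective₀ (zero_lt_iff.2 hv0) U.lt_one.ne hE
  refine ⟨n + (-(U.Δ : ℤ)) * (∑ P ∈ TP, D P), ?_⟩
  have hS : eS = -((p : ℤ) * ∑ P ∈ TP, D P) := by
    rw [heS, Finset.mul_sum, ← Finset.sum_neg_distrib]
  rw [hA₀, hS] at hexp
  linarith

end FA.ModField.FibreHyp
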