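import Fermat.Agent.ModField.Semistable.Mono.LowRed
import Fermat.Agent.ModField.Semistable.Mono.Torsion
import Fermat.Agent.ModField.Semistable.RedPoints
import Fermat.Agent.ModField.Semistable.Push

/-!
# The reduction of torsion commutes with `T_ℓ`
-/

set_option autoImplicit false
set_option linter.style.haveILetI false
set_option linter.unusedSectionVars false
set_option synthInstance.maxHeartbeats 200000
set_option maxHeartbeats 400000

noncomputable section

namespace FA.ModField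

open ModularCurve AlgebraicCurve FA.Curve FA.CurveRed FA.JTorsion FA.Level

section Generic

variable (N : ℕ) [NeZero N] (ℓ : ℕ) [hℓ : Fact ℓ.Prime] (hℓN : ¬ ℓ ∣ N)
variable (L : Type) [Field L] [Algebra ℚ L] [Algebra L ℂ] [IsAlgClosed L]

include hℓN in
theorem normT_algebraMap (c : L) :
    normT N ℓ L (algebraMap L (levelField N L) c) = algebraMap L (levelField N L) (c ^ (ℓ + 1)) := by
  letI := algebraAlong (heckeAlphaBar L N ℓ)
  haveI := isScalarTower_along (heckeAlphaBar L N ℓ)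
  have h : heckeBetaBar L N ℓ (algebraMap L (levelField N L) c) =
      algebraMap (levelField N L) (levelField (N * ℓ) L) (algebraMap L (levelField N L) c) := by
    rw [AlgHom.commutes]
    exact IsScalarTower.algebraMap_apply L (levelField N L) (levelField (N * ℓ) L) c
  show Algebra.norm (levelField N L) (heckeBetaBar L N ℓ (algebraMap L (levelField N L) c)) = _
  rw [h, Algebra.norm_algebraMap, map_pow]
  exact congrArg (fun m => algebraMap L (levelField N L) c ^ m) (finrank_alpha N ℓ hℓN L)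

variable {L}

/-- The function of the image of a class under the correspondence. -/
theorem exists_repr_T {n : ℕ} [NeZero ℓ] (x y : Pic0.torsion L (levelField N L) n)
    (hy : (y : Pic0 L (levelField N L)) =
      heckeOperatorAlong L N ℓ (x : Pic0 L (levelField N L)))
    {D : Divisor.degZero (K := L) (F := levelField N L)} {g : levelField N L}
    (hD : Pic0.mk D = (x : Pic0 L (levelField N L))) (hg : g ≠ 0)
    (hgD : ∀ P, (n : ℤ) * (D : Divisor L (levelField N L)) P = P.ord g) :
    ∃ D' : Divisor.degZero (K := L) (F := levelField N L),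
      Pic0.mk D' = (y : Pic0 L (levelField N L)) ∧ normT N ℓ L g ≠ 0 ∧
      ∀ P, (n : ℤ) * (D' : Divisor L (levelField N L)) P = P.ord (normT N ℓ L g) := by
  obtain ⟨hα, hβ, hP, hfin, hFI, hN⟩ := heckeInputs_level (L := L) N ℓ
  haveI := hP
  rw [heckeOperatorAlong_eq hα hβ hFI hfin hN] at hy
  have hα' : (heckeAlphaBar L N ℓ).toRingHom.IsIntegral := hα
  have hβ' : (heckeBetaBar L N ℓ).toRingHom.IsIntegral := hβ
  obtain ⟨h0, h1⟩ := ord_norm_correspondence (heckeBetaBar L N ℓ) (heckeAlphaBar L N ℓ) hβ' hα'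
    hfin hN hg hgD
  refine ⟨Pic0.degZeroCorrespondence (heckeBetaBar L N ℓ) (heckeAlphaBar L N ℓ) hβ' hα' hFI D,
    ?_, h0, fun P => ?_⟩
  · rw [hy, ← hD]
    exact (Pic0.correspondence_mk (heckeBetaBar L N ℓ) (heckeAlphaBar L N ℓ) hβ' hα' hFI hfin hN
      D).symm
  · refine Eq.trans ?_ (h1 P)
    rw [Pic0.coe_degZeroCorrespondence]

variable {k Fk : Type} [Field k] [Field Fk] [Algebra k Fk] {A : ValuationSubring L}
  {C : ConstRed L (levelField N L) k Fk A}

include hℓN in
/-- The reductions of torsion classes commute with `T_ℓ`. -/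
theorem redTor_normT {n : ℕ} [NeZero ℓ] (hC : C.Scaled) {R : Fk → Fk → Prop}
    (θ : RedTarget k Fk n →+ RedTarget k Fk n)
    (hθ : ∀ r r', R r r' → r ≠ 0 → θ (redCls n r) = redCls n r')
    (hne : ∀ r r', R r r' → r ≠ 0 → r' ≠ 0)
    (hnorm : ∀ f r, C.Red f r → r ≠ 0 → ∃ r', C.Red (normT N ℓ L f) r' ∧ R r r')
    (x y : Pic0.torsion L (levelField N L) n)
    (hy : (y : Pic0 L (levelField N L)) =
      heckeOperatorAlong L N ℓ (x : Pic0 L (levelField N L))) :
    redTor n (isFunctionField_level L N) hC y = θ (redTor n (isFunctionField_level L N) hC x) := by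
  obtain ⟨D, g, hD, hg, hgD⟩ := exists_torsion_fn n x
  obtain ⟨c, f, r, hc, e, hfr, hr⟩ := exists_scaled hC hg
  obtain ⟨D', hD', hng, hngD⟩ := exists_repr_T N ℓ x y hy hD hg hgD
  obtain ⟨r', hr', hR⟩ := hnorm f r hfr hr
  have he : normT N ℓ L g = algebraMap L _ (c ^ (ℓ + 1)) * normT N ℓ L f := by
    rw [e, normT_mul, normT_algebraMap N ℓ hℓN]
  rw [redTor_mk n _ hC y hD' hng hngD, redFn_eq n (pow_ne_zero _ hc) he hr' (hne r r' hR hr),
    redTor_mk n _ hC x hD hg hgD, redFn_eq n hc e hfr hr, hθ r r' hR hr]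

end Generic

variable (M : ℕ) [NeZero M] (q : ℕ) [hq : Fact q.Prime] [hq0 : NeZero q]
variable {L : Type} [Field L] [Algebra ℚ L] [Algebra L ℂ] [IsAlgClosed L]
variable (A : ValuationSubring L) {k : Type} [Field k] [IsAlgClosed k] [CharP k q] (π : A →+* k)
  (hπs : Function.Surjective π) (hπ0 : ∀ a : A, π a = 0 ↔ A.valuation a < 1) (hqM : ¬ q ∣ M)
  (harch : ∀ c : L, c ≠ 0 → ∃ m : ℕ, A.valuation ((q : L) ^ m) < A.valuation c)
variable (ℓ : ℕ) [hℓ : Fact ℓ.Prime] [NeZero ℓ] (hℓN : ¬ ℓ ∣ M * q) (n : ℕ)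

theorem redTorInf_T (x y : Pic0.torsion L (levelField (M * q) L) n)
    (hy : (y : Pic0 L (levelField (M * q) L)) =
      heckeOperatorAlong L (M * q) ℓ (x : Pic0 L (levelField (M * q) L))) :
    redTorInf M q A π hπs hπ0 hqM harch n y =
      thetaT M q A π hπs hπ0 hqM harch ℓ hℓN n (redTorInf M q A π hπs hπ0 hqM harch n x) :=
  redTor_normT (M * q) ℓ hℓN _ (R := ConjRel M A π ℓ) _
    (fun _ _ h hr => thetaT_redCls M q A π hπs hπ0 hqM harch ℓ hℓN n h hr)
    (fun _ _ h hr => h.ne_zero hr)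
    (fun _ _ h _ => cInf_normT M q A π hπs hπ0 hqM harch ℓ hℓN h) x y hy

theorem redTorZero_T (x y : Pic0.torsion L (levelField (M * q) L) n)
    (hy : (y : Pic0 L (levelField (M * q) L)) =
      heckeOperatorAlong L (M * q) ℓ (x : Pic0 L (levelField (M * q) L))) :
    redTorZero M q A π hπs hπ0 hqM harch n y =
      thetaT M q A π hπs hπ0 hqM harch ℓ hℓN n (redTorZero M q A π hπs hπ0 hqM harch n x) :=
  redTor_normT (M * q) ℓ hℓN _ (R := ConjRel M A π ℓ) _
    (fun _ _ h hr => thetaT_redCls M q A π hπs hπ0 hqM harch ℓ hℓN n h hr)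
    (fun _ _ h hr => h.ne_zero hr)
    (fun _ _ h _ => cZero_normT M q A π hπs hπ0 hqM harch ℓ hℓN h) x y hy

theorem redTorLow_T (x y : Pic0.torsion L (levelField M L) n)
    (hy : (y : Pic0 L (levelField M L)) =
      heckeOperatorAlong L M ℓ (x : Pic0 L (levelField M L))) :
    redTorLow M q A π hπs hπ0 hqM n y =
      thetaT M q A π hπs hπ0 hqM harch ℓ hℓN n (redTorLow M q A π hπs hπ0 hqM n x) :=
  redTor_normT M ℓ (fun h => hℓN (h.trans (dvd_mul_right M q))) _ (R := ConjRel M A π ℓ) _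
    (fun _ _ h hr => thetaT_redCls M q A π hπs hπ0 hqM harch ℓ hℓN n h hr)
    (fun _ _ h hr => h.ne_zero hr)
    (fun _ _ h hr => cLow_normT M q A π hπs hπ0 hqM harch ℓ hℓN h hr) x y hy

end FA.ModField
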