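import Fermat.Agent.ModField.Semistable.Mono.TubeDeg

/-!
# Scales of functions without zeros and poles in a tube

With two components every singular point has one branch on each. For a function without zeros
and poles in its tube, the orders at the two branches are opposite, the component where the
function is bigger has a zero there, and equal scales mean unit values.
-/

set_option autoImplicit false
set_option linter.style.haveILetI false
set_option linter.unusedSectionVars false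

noncomputable section

namespace FA.ModField.FibreHyp

open AlgebraicCurve FA.Curve FA.CurveRed FA.CurveRed.ConstRed

variable {K F k : Type*} [Field K] [IsAlgClosed K] [Field F] [Algebra K F] [Field k]
  [IsAlgClosed k] {Fk : Fin 2 → Type*} [∀ i, Field (Fk i)] [∀ i, Algebra k (Fk i)]
  {A : ValuationSubring K} {J : MultiRed K F k Fk A} {hF : IsFunctionField K F}
  {hk : ∀ i, IsFunctionField k (Fk i)} {x : F} {xb : ∀ i, Fk i} (H : FibreHyp J hF hk x xb)

theorem two_rev_ne : ∀ i : Fin 2, i.rev ≠ i := by decide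

theorem two_eq_rev : ∀ i j : Fin 2, j ≠ i → j = i.rev := by decide

theorem two_eq_of_ne_rev : ∀ i j : Fin 2, j ≠ i.rev → j = i := by decide

theorem inCls_iff {s : H.Sg} {q q' : Σ i, Place k (Fk i)} (hs : J.SameVal x q q')
    (hq : J.IsBranch x xb q) (hq' : J.IsBranch x xb q') : H.InCls s q ↔ H.InCls s q' := by
  have h := (H.sgPt_eq (b := ⟨q, hq⟩) (b' := ⟨q', hq'⟩)).2 hs
  exact ⟨fun ⟨_, e⟩ => ⟨hq', h.symm.trans e⟩, fun ⟨_, e⟩ => ⟨hq, h.trans e⟩⟩

include H in
theorem InCls.subsingleton {s : H.Sg} {i : Fin 2} {Q Q' : Place k (Fk i)}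
    (h : H.InCls s ⟨i, Q⟩) (h' : H.InCls s ⟨i, Q'⟩) : Q = Q' := by
  by_contra hne
  obtain ⟨hb, he⟩ := h
  obtain ⟨hb', he'⟩ := h'
  exact H.not_sameVal_same hb.1 hne (H.sgPt_eq.1 (he.trans he'.symm))

include H in
theorem exists_cls_branch (s : H.Sg) (i : Fin 2) : ∃ Q : Place k (Fk i), H.InCls s ⟨i, Q⟩ := by
  obtain ⟨⟨q, hq⟩, rfl⟩ := H.sgPt_surjective s
  obtain ⟨l, Q⟩ := q
  obtain ⟨⟨l', Q'⟩, hne, hfin, hs⟩ := id hq.2
  have hll : l' ≠ l := by
    rintro rfl
    exact H.not_sameVal_same hq.1 (fun e => hne (by subst e; rfl)) hs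
  have hq' := H.branch_symm hq.1 hne hfin hs
  rcases eq_or_ne i l with rfl | hi
  · exact ⟨Q, hq, rfl⟩
  · obtain rfl : i = l' := by omega
    exact ⟨Q', (H.inCls_iff hs hq hq').1 ⟨hq, rfl⟩⟩

/-- The branch at `s` on the component `i`. -/
def brPl (s : H.Sg) (i : Fin 2) : Place k (Fk i) := (H.exists_cls_branch s i).choose

theorem brPl_spec (s : H.Sg) (i : Fin 2) : H.InCls s ⟨i, H.brPl s i⟩ :=
  (H.exists_cls_branch s i).choose_spec

/-- The branch at `s` on the component `i`, as a branch. -/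
def brAt (s : H.Sg) (i : Fin 2) : H.Br := ⟨⟨i, H.brPl s i⟩, (H.brPl_spec s i).choose⟩

theorem sgPt_brAt (s : H.Sg) (i : Fin 2) : H.sgPt (H.brAt s i) = s :=
  (H.brPl_spec s i).choose_spec

theorem eq_brAt {s : H.Sg} (b : H.Br) (hb : H.sgPt b = s) : b = H.brAt s b.1.1 := by
  obtain ⟨⟨i, Q⟩, hQ⟩ := b
  refine Subtype.ext ?_
  show (⟨i, Q⟩ : Σ i, Place k (Fk i)) = ⟨i, H.brPl s i⟩
  rw [InCls.subsingleton H ⟨hQ, hb⟩ (H.brPl_spec s i)]

open Classical in
theorem sum_cls (s : H.Sg) (G : H.Br → ℤ) :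
    (∑ b : H.Br, if H.sgPt b = s then G b else 0) = ∑ i, G (H.brAt s i) := by
  rw [← Finset.sum_filter]
  refine Finset.sum_bij' (fun b _ => b.1.1) (fun i _ => H.brAt s i) (fun _ _ => Finset.mem_univ _)
    (fun i _ => Finset.mem_filter.2 ⟨Finset.mem_univ _, H.sgPt_brAt s i⟩)
    (fun b hb => (H.eq_brAt b (Finset.mem_filter.1 hb).2).symm) (fun _ _ => rfl)
    fun b hb => by rw [← H.eq_brAt b (Finset.mem_filter.1 hb).2]

/-- No zero and no pole in the tube of `s`. -/
def CleanAt (s : H.Sg) (f : F) : Prop := ∀ P, H.TubeAt s P → P.ord f = 0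

variable {H} {s : H.Sg} {f : F}

theorem CleanAt.atLeast (h : H.CleanAt s f) {P : Place K F} (hP : H.TubeAt s P) :
    AtLeast P 0 f := Or.inr (h P hP).ge

theorem CleanAt.mul (h : H.CleanAt s f) {g : F} (h' : H.CleanAt s g) (hf : f ≠ 0) (hg : g ≠ 0) :
    H.CleanAt s (f * g) := fun P hP => by rw [P.ord_mul hf hg, h P hP, h' P hP, add_zero]

theorem CleanAt.inv (h : H.CleanAt s f) : H.CleanAt s f⁻¹ := fun P hP => by
  rw [P.ord_inv, h P hP, neg_zero]

theorem CleanAt.pow (h : H.CleanAt s f) (n : ℕ) : H.CleanAt s (f ^ n) := fun P hP => by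
  rw [place_ord_pow, h P hP, mul_zero]

theorem cleanAt_const (c : K) : H.CleanAt s (algebraMap K F c) :=
  fun P _ => place_ord_algebraMap P c

variable {c : Fin 2 → K} {g : Fin 2 → F} {r : ∀ i, Fk i}
  (hfg : ∀ i, f = algebraMap K F (c i) * g i) (hr : ∀ i, (J.C i).Red (g i) (r i))
  (hr0 : ∀ i, r i ≠ 0) (hf : f ≠ 0) (hclean : H.CleanAt s f)

include hfg hr hr0 hf hclean

theorem CleanAt.ord_add : (H.brPl s 0).ord (r 0) + (H.brPl s 1).ord (r 1) = 0 := by
  classical
  have h := H.degree_at hfg hr hf hr0 s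
  rw [H.sum_cls s, Fin.sum_univ_two] at h
  have h0 : Divisor.degree ((divOf hF f).filter fun P => H.TubeAt s P) = 0 := by
    rw [show (divOf hF f).filter (fun P => H.TubeAt s P) = 0 from Finsupp.ext fun P => by
      rw [Finsupp.filter_apply]
      split_ifs with hP
      · rw [divOf_apply, hclean P hP]; rfl
      · rfl, map_zero]
  rw [h0] at h
  exact h.symm

omit hclean hr0 in
theorem scale_ne (i : Fin 2) : c i ≠ 0 := fun h0 => hf (by rw [hfg i, h0, map_zero, zero_mul])

omit hclean hr0 in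
/-- The function divided by its scale on `i`, reduced on every component. -/
theorem red_div_scale (i j : Fin 2) (h : c j / c i ∈ A) :
    (J.C j).Red (algebraMap K F (c i)⁻¹ * f) (algebraMap k (Fk j) (J.π ⟨_, h⟩) * r j) := by
  have h1 := (J.red_const_at j ⟨_, h⟩).mul (hr j)
  rwa [show algebraMap K F ((⟨c j / c i, h⟩ : A) : K) * g j = algebraMap K F (c i)⁻¹ * f by
    rw [hfg j, ← mul_assoc, ← map_mul, ← div_eq_inv_mul]] at h1

omit hclean in
theorem red_inv_scale (i j : Fin 2) (h : c i / c j ∈ A) :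
    (J.C j).Red (algebraMap K F (c i) * f⁻¹) (algebraMap k (Fk j) (J.π ⟨_, h⟩) * (r j)⁻¹) := by
  have h1 := (J.red_const_at j ⟨_, h⟩).mul ((hr j).inv (hr0 j))
  rwa [show algebraMap K F ((⟨c i / c j, h⟩ : A) : K) * (g j)⁻¹ = algebraMap K F (c i) * f⁻¹ by
    rw [hfg j, mul_inv, ← mul_assoc, ← map_inv₀, ← map_mul]; simp [div_eq_mul_inv]] at h1

/-- The bigger component has a zero; the values lie strictly between the scales. -/
theorem CleanAt.of_lt (i : Fin 2) (hlt : A.valuation (c i.rev) < A.valuation (c i)) :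
    0 < (H.brPl s i).ord (r i) ∧ ∀ P, H.TubeAt s P → ∀ a, HasValue P f a →
      A.valuation (c i.rev) < A.valuation a ∧ A.valuation a < A.valuation (c i) := by
  have hci := scale_ne hfg hr hf i
  have hcj := scale_ne hfg hr hf i.rev
  have hv : A.valuation (c i.rev / c i) < 1 := by
    rw [map_div₀, div_lt_one₀ (A.valuation.pos_iff.2 hci)]
    exact hlt
  have hjA : c i.rev / c i ∈ A := (A.valuation_le_one_iff _).1 hv.le
  have hπ : J.π ⟨_, hjA⟩ = 0 := (J.π_eq_zero _).2 hv
  have hii : c i / c i ∈ A := by rw [div_self hci]; exact one_mem A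
  have h1i : J.π ⟨_, hii⟩ = 1 := by
    rw [show (⟨c i / c i, hii⟩ : A) = 1 from Subtype.ext (div_self hci), map_one]
  have hjj : c i.rev / c i.rev ∈ A := by rw [div_self hcj]; exact one_mem A
  have h1j : J.π ⟨_, hjj⟩ = 1 := by
    rw [show (⟨c i.rev / c i.rev, hjj⟩ : A) = 1 from Subtype.ext (div_self hcj), map_one]
  set ρ : ∀ j, Fk j := Pi.single i (r i)
  have hφ : J.Red (algebraMap K F (c i)⁻¹ * f) ρ := fun j => by
    rcases eq_or_ne j i with rfl | hj
    · have := red_div_scale hfg hr hf j j hii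
      rwa [h1i, map_one, one_mul, ← Pi.single_eq_same (M := Fk) j (r j)] at this
    · obtain rfl : j = i.rev := two_eq_rev i j hj
      have := red_div_scale hfg hr hf i i.rev hjA
      rwa [hπ, map_zero, zero_mul, ← Pi.single_eq_of_ne (M := Fk) hj (r i)] at this
  obtain ⟨v, hv1, hv2⟩ := H.value_at hφ s fun P hP => (hclean.atLeast hP).smul _
  have hv0 : v = 0 := by
    have h := hv1 _ (H.sgPt_brAt s i.rev)
    change HasValue (H.brPl s i.rev) (ρ i.rev) v at h
    rw [show ρ i.rev = 0 from Pi.single_eq_of_ne (two_rev_ne i) _] at h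
    exact h.unique (by simpa using hasValue_algebraMap (H.brPl s i.rev) (0 : k))
  subst hv0
  set ρ' : ∀ j, Fk j := Pi.single i.rev (r i.rev)⁻¹
  have hψ : J.Red (algebraMap K F (c i.rev) * f⁻¹) ρ' := fun j => by
    rcases eq_or_ne j i.rev with rfl | hj
    · have := red_inv_scale hfg hr hr0 hf i.rev i.rev hjj
      rwa [h1j, map_one, one_mul, ← Pi.single_eq_same (M := Fk) i.rev (r i.rev)⁻¹] at this
    · obtain rfl : j = i := two_eq_of_ne_rev i j hj
      have := red_inv_scale hfg hr hr0 hf j.rev j hjA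
      rwa [hπ, map_zero, zero_mul, ← Pi.single_eq_of_ne (M := Fk) hj (r j.rev)⁻¹] at this
  obtain ⟨v', hv1', hv2'⟩ := H.value_at hψ s fun P hP => (hclean.inv.atLeast hP).smul _
  have hv0' : v' = 0 := by
    have h := hv1' _ (H.sgPt_brAt s i)
    change HasValue (H.brPl s i) (ρ' i) v' at h
    rw [show ρ' i = 0 from Pi.single_eq_of_ne (two_rev_ne i).symm _] at h
    exact h.unique (by simpa using hasValue_algebraMap (H.brPl s i) (0 : k))
  subst hv0'
  refine ⟨?_, fun P hP a ha => ?_⟩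
  · have h := hv1 _ (H.sgPt_brAt s i)
    change HasValue (H.brPl s i) (ρ i) 0 at h
    rw [show ρ i = r i from Pi.single_eq_same i _, hasValue_zero_iff, atLeast_iff (hr0 i)] at h
    omega
  · have ha0 : a ≠ 0 := fun h0 => by
      rw [h0, hasValue_zero_iff, atLeast_iff hf, hclean P hP] at ha
      omega
    obtain ⟨hA1, h1⟩ := hv2 P hP _ (ha.smul _)
    rw [J.π_eq_zero] at h1
    change A.valuation ((c i)⁻¹ * a) < 1 at h1
    obtain ⟨hu0, hu⟩ := ha.ord_eq_zero ha0
    obtain ⟨b, hb⟩ := exists_hasValue hF (Or.inr (by rw [P.ord_inv, hu]; rfl) : AtLeast P 0 f⁻¹)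
    have hab : a * b = 1 := (ha.mul hb).unique (by
      rw [mul_inv_cancel₀ hu0]; simpa using hasValue_algebraMap P (1 : K))
    obtain ⟨hA2, h2⟩ := hv2' P hP _ (hb.smul _)
    rw [J.π_eq_zero] at h2
    change A.valuation (c i.rev * b) < 1 at h2
    rw [eq_inv_of_mul_eq_one_right hab, ← div_eq_mul_inv, map_div₀,
      div_lt_one₀ (A.valuation.pos_iff.2 ha0)] at h2
    rw [← div_eq_inv_mul, map_div₀, div_lt_one₀ (A.valuation.pos_iff.2 hci)] at h1
    exact ⟨h2, h1⟩

/-- Equal scales: no zero or pole at the branches and values of the same size. -/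
theorem CleanAt.of_eq (heq : A.valuation (c 1) = A.valuation (c 0)) :
    (∀ i, (H.brPl s i).ord (r i) = 0) ∧ ∀ P, H.TubeAt s P → ∀ a, HasValue P f a →
      A.valuation a = A.valuation (c 0) := by
  have hc := scale_ne hfg hr hf
  have hA : ∀ i j : Fin 2, c i / c j ∈ A := fun i j => by
    rw [← A.valuation_le_one_iff, map_div₀, div_le_one₀ (A.valuation.pos_iff.2 (hc j))]
    fin_cases i <;> fin_cases j <;> first | exact le_rfl | exact heq.le | exact heq.ge
  have hu : ∀ i j : Fin 2, J.π ⟨_, hA i j⟩ ≠ 0 := fun i j h0 => by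
    rw [J.π_eq_zero] at h0
    change A.valuation (c i / c j) < 1 at h0
    rw [map_div₀, div_lt_one₀ (A.valuation.pos_iff.2 (hc j))] at h0
    fin_cases i <;> fin_cases j <;>
      first | exact lt_irrefl _ h0 | exact h0.ne heq | exact h0.ne heq.symm
  obtain ⟨v, hv1, hv2⟩ := H.value_at (fun j => red_div_scale hfg hr hf 0 j (hA j 0)) s
    fun P hP => (hclean.atLeast hP).smul _
  obtain ⟨v', hv1', -⟩ := H.value_at (fun j => red_inv_scale hfg hr hr0 hf 0 j (hA 0 j)) s
    fun P hP => (hclean.inv.atLeast hP).smul _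
  have key : ∀ i, (H.brPl s i).ord (r i) = 0 := fun i => by
    have h := (hv1 _ (H.sgPt_brAt s i)).atLeast
    have h' := (hv1' _ (H.sgPt_brAt s i)).atLeast
    change AtLeast (H.brPl s i) 0 (algebraMap k (Fk i) (J.π ⟨_, hA i 0⟩) * r i) at h
    change AtLeast (H.brPl s i) 0 (algebraMap k (Fk i) (J.π ⟨_, hA 0 i⟩) * (r i)⁻¹) at h'
    have hn1 := (map_ne_zero (algebraMap k (Fk i))).2 (hu i 0)
    have hn2 := (map_ne_zero (algebraMap k (Fk i))).2 (hu 0 i)
    rw [atLeast_iff (mul_ne_zero hn1 (hr0 i)), Place.ord_mul _ hn1 (hr0 i),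
      place_ord_algebraMap] at h
    rw [atLeast_iff (mul_ne_zero hn2 (inv_ne_zero (hr0 i))),
      Place.ord_mul _ hn2 (inv_ne_zero (hr0 i)), place_ord_algebraMap, Place.ord_inv] at h'
    omega
  refine ⟨key, fun P hP a ha => ?_⟩
  have hv0 : v ≠ 0 := by
    rintro rfl
    have h := hasValue_zero_iff.1 (hv1 _ (H.sgPt_brAt s 0))
    change AtLeast (H.brPl s 0) 1 (algebraMap k (Fk 0) (J.π ⟨_, hA 0 0⟩) * r 0) at h
    have hn1 := (map_ne_zero (algebraMap k (Fk 0))).2 (hu 0 0)
    rw [atLeast_iff (mul_ne_zero hn1 (hr0 0)), Place.ord_mul _ hn1 (hr0 0), place_ord_algebraMap,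
      key 0] at h
    omega
  obtain ⟨hA1, h1⟩ := hv2 P hP _ (ha.smul _)
  have h2 : ¬ A.valuation ((c 0)⁻¹ * a) < 1 := fun hlt => hv0 (by
    rw [← h1]; exact (J.π_eq_zero _).2 hlt)
  have h3 : A.valuation ((c 0)⁻¹ * a) = 1 :=
    le_antisymm ((A.valuation_le_one_iff _).2 hA1) (not_lt.1 h2)
  rw [← div_eq_inv_mul, map_div₀, div_eq_one_iff_eq (A.valuation.pos_iff.2 (hc 0)).ne'] at h3
  exact h3

/-- Without a zero or pole at the branch the scales are equal. -/
theorem CleanAt.scale_eq (h0 : (H.brPl s 0).ord (r 0) = 0) :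
    A.valuation (c 1) = A.valuation (c 0) := by
  have hsum := CleanAt.ord_add hfg hr hr0 hf hclean
  rcases lt_trichotomy (A.valuation (c 1)) (A.valuation (c 0)) with h | h | h
  · have := (CleanAt.of_lt hfg hr hr0 hf hclean 0 h).1
    omega
  · exact h
  · have := (CleanAt.of_lt hfg hr hr0 hf hclean 1 h).1
    omega

end FA.ModField.FibreHyp
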