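import Mathlib.RingTheory.Unramified.LocalStructure
import Mathlib.RingTheory.Smooth.StandardSmoothCotangent
import Mathlib.RingTheory.Valuation.ValuationSubring
import Mathlib.RingTheory.IntegralClosure.IntegrallyClosed
import Mathlib.FieldTheory.IsAlgClosed.Basic
import Mathlib.RingTheory.Valuation.LocalSubring

/-!
# Lifting simple solutions of square systems

A valuation subring of an algebraically closed field lifts every residual solution of a square
system of polynomial equations with invertible Jacobian determinant.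
-/

set_option autoImplicit false
set_option linter.style.haveILetI false

noncomputable section

namespace FA.ModField.Hensel

open MvPolynomial

universe u v w

variable {K : Type u} [Field K] [IsAlgClosed K] (A : ValuationSubring K) {k : Type v} [Field k]
  (π : A →+* k) [IsLocalHom π]

omit [IsLocalHom π] in
/-- A residual root of a monic polynomial is the reduction of a root. -/
theorem exists_root_lift {f : Polynomial A} (hf : f.Monic) {t₀ : k}
    (h : (f.map π).eval t₀ = 0) : ∃ r : A, f.eval r = 0 ∧ π r = t₀ := by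
  classical
  have hm : (f.map (algebraMap A K)).Monic := hf.map _
  have hprod := (IsAlgClosed.splits (f.map (algebraMap A K))).eq_prod_roots_of_monic hm
  have hint : ∀ x ∈ (f.map (algebraMap A K)).roots, ∃ a : A, algebraMap A K a = x := by
    intro x hx
    refine IsIntegrallyClosed.isIntegral_iff.1 ⟨f, hf, ?_⟩
    rw [← Polynomial.eval_map]
    exact (Polynomial.mem_roots hm.ne_zero).1 hx
  choose g hg using hint
  let M : Multiset A := (f.map (algebraMap A K)).roots.attach.map fun x => g x.1 x.2
  have hM : M.map (algebraMap A K) = (f.map (algebraMap A K)).roots := by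
    rw [Multiset.map_map]
    conv_rhs => rw [← Multiset.attach_map_val (f.map (algebraMap A K)).roots]
    exact Multiset.map_congr rfl fun x _ => hg x.1 x.2
  have hf' : f = (M.map fun a => Polynomial.X - Polynomial.C a).prod := by
    apply Polynomial.map_injective (algebraMap A K) (IsFractionRing.injective A K)
    rw [Polynomial.map_multiset_prod, Multiset.map_map, hprod, ← hM, Multiset.map_map]
    refine congrArg _ (Multiset.map_congr rfl fun x _ => ?_)
    simp
  rw [hf', Polynomial.map_multiset_prod, Polynomial.eval_multiset_prod,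
    Multiset.prod_eq_zero_iff] at h
  simp only [Multiset.map_map, Multiset.mem_map, Function.comp_apply, Polynomial.map_sub,
    Polynomial.map_X, Polynomial.map_C, Polynomial.eval_sub, Polynomial.eval_X,
    Polynomial.eval_C] at h
  obtain ⟨r, hr, h0⟩ := h
  refine ⟨r, ?_, (sub_eq_zero.1 h0).symm⟩
  rw [hf', Polynomial.eval_multiset_prod, Multiset.prod_eq_zero_iff]
  simp only [Multiset.map_map, Multiset.mem_map, Function.comp_apply]
  exact ⟨r, hr, by simp⟩

/-- A residual point of a standard étale algebra lifts. -/
theorem exists_hom_lift {T : Type w} [CommRing T] [Algebra A T] [Algebra.Etale A T]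
    [Algebra A k] (hπ : algebraMap A k = π) (φ : T →ₐ[A] k) :
    ∃ ψ : T →ₐ[A] A, ∀ x, π (ψ x) = φ x := by
  let Q : Ideal T := RingHom.ker φ
  haveI : Q.IsPrime := RingHom.ker_isPrime φ
  haveI : Algebra.IsEtaleAt A Q := Algebra.FormallyEtale.comp A T (Localization.AtPrime Q)
  obtain ⟨f, hf, hst⟩ := Algebra.IsEtaleAt.exists_isStandardEtale (R := A) Q
  have hu : IsUnit (φ f) := isUnit_iff_ne_zero.2 hf
  let φ₁ : Localization.Away f →ₐ[A] k :=
    IsLocalization.liftAlgHom (M := Submonoid.powers f) (f := φ)
      (fun y => by obtain ⟨m, hm⟩ := y.2; rw [← hm, map_pow]; exact hu.pow m)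
  obtain ⟨P⟩ := hst.nonempty_standardEtalePresentation
  have hmap := P.hasMap.map φ₁
  have hroot : (P.f.map π).eval (φ₁ P.x) = 0 := by
    rw [← hπ, Polynomial.eval_map]
    exact hmap.1
  obtain ⟨r, hr, hr'⟩ := exists_root_lift A π P.monic_f hroot
  have hg : IsUnit (Polynomial.aeval r P.g) := by
    apply isUnit_of_map_unit π
    have e : π (Polynomial.aeval r P.g) = Polynomial.aeval (φ₁ P.x) P.g := by
      rw [Polynomial.coe_aeval_eq_eval, ← Polynomial.eval_map_apply (f := π), hr', ← hπ,
        Polynomial.eval_map]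
      rfl
    rw [e]
    exact hmap.2
  let ψ₁ : Localization.Away f →ₐ[A] A :=
    (P.lift r ⟨by rw [Polynomial.coe_aeval_eq_eval]; exact hr, hg⟩).comp P.equivRing.toAlgHom
  have hψ : (Algebra.ofId A k).comp ψ₁ = φ₁ := by
    have h0 : (Algebra.ofId A k).comp (P.lift r ⟨by rw [Polynomial.coe_aeval_eq_eval]; exact hr,
        hg⟩) = φ₁.comp P.equivRing.symm.toAlgHom := by
      apply StandardEtalePair.hom_ext
      simp [hπ, hr', Algebra.ofId_apply]
    refine AlgHom.ext fun x => ?_
    have := DFunLike.congr_fun h0 (P.equivRing x)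
    simpa [ψ₁] using this
  refine ⟨ψ₁.comp (IsScalarTower.toAlgHom A T _), fun x => ?_⟩
  have := DFunLike.congr_fun hψ (algebraMap T _ x)
  simp only [AlgHom.comp_apply, Algebra.ofId_apply, hπ] at this
  rw [AlgHom.comp_apply, IsScalarTower.coe_toAlgHom', this]
  exact IsLocalization.lift_eq _ x

/-- A residual solution of a square system with invertible Jacobian determinant lifts. -/
theorem exists_solution {σ : Type} [Fintype σ] [DecidableEq σ] (v : σ → MvPolynomial σ A)
    (x₀ : σ → k) (h0 : ∀ i, eval₂ π x₀ (v i) = 0)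
    (hJ : (Matrix.of fun i j => eval₂ π x₀ (pderiv j (v i))).det ≠ 0) :
    ∃ x : σ → A, (∀ i, eval x (v i) = 0) ∧ ∀ j, π (x j) = x₀ j := by
  letI : Algebra A k := π.toAlgebra
  let P₀ := Algebra.PreSubmersivePresentation.naive (R := A) (v := v) (id : σ → σ)
    Function.injective_id
  set J := P₀.jacobian with hJdef
  let φ₀ : (MvPolynomial σ A ⧸ Ideal.span (Set.range v)) →ₐ[A] k :=
    Ideal.Quotient.liftₐ _ (aeval x₀) (fun a ha => by
      refine (Ideal.span_le (I := RingHom.ker (aeval x₀ : MvPolynomial σ A →ₐ[A] k))).2 ?_ ha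
      rintro _ ⟨i, rfl⟩
      exact h0 i)
  have hφmk : ∀ p, φ₀ (Ideal.Quotient.mk _ p) = aeval x₀ p := fun p => rfl
  have hJ' : φ₀ J ≠ 0 := by
    have e : J = Ideal.Quotient.mk _ P₀.jacobiMatrix.det := by
      rw [hJdef, Algebra.PreSubmersivePresentation.jacobian_eq_jacobiMatrix_det]
      rfl
    rw [e, hφmk]
    have e2 : P₀.jacobiMatrix.det = (Matrix.of fun i j => pderiv i (v j)).det := by
      congr 1
      ext i j
      simp [P₀]
    rw [e2, AlgHom.map_det, ← Matrix.det_transpose]
    exact hJ
  let P : Algebra.SubmersivePresentation A (Localization.Away J) (Unit ⊕ σ) (Unit ⊕ σ) :=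
    { (Algebra.PreSubmersivePresentation.localizationAway (Localization.Away J) J).comp P₀ with
      jacobian_isUnit := by
        rw [Algebra.PreSubmersivePresentation.comp_jacobian_eq_jacobian_smul_jacobian,
          Algebra.PreSubmersivePresentation.localizationAway_jacobian, Algebra.smul_def]
        exact (IsLocalization.Away.algebraMap_isUnit J).mul
          (IsLocalization.Away.algebraMap_isUnit J) }
  haveI : Algebra.IsStandardSmoothOfRelativeDimension 0 A (Localization.Away J) :=
    P.isStandardSmoothOfRelativeDimension (by simp [Algebra.Presentation.dimension])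
  let φ : Localization.Away J →ₐ[A] k :=
    IsLocalization.liftAlgHom (M := Submonoid.powers J) (f := φ₀)
      (fun y => by
        obtain ⟨m, hm⟩ := y.2
        rw [← hm, map_pow]
        exact (isUnit_iff_ne_zero.2 hJ').pow m)
  obtain ⟨ψ, hψ⟩ := exists_hom_lift A π rfl φ
  let χ : MvPolynomial σ A →ₐ[A] A :=
    (ψ.comp (IsScalarTower.toAlgHom A (MvPolynomial σ A ⧸ Ideal.span (Set.range v))
      (Localization.Away J))).comp (Ideal.Quotient.mkₐ A (Ideal.span (Set.range v)))
  refine ⟨fun j => χ (X j), fun i => ?_, fun j => ?_⟩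
  · have e : χ (v i) = 0 := by
      have e0 : Ideal.Quotient.mk (Ideal.span (Set.range v)) (v i) = 0 :=
        Ideal.Quotient.eq_zero_iff_mem.2 (Ideal.subset_span ⟨i, rfl⟩)
      simp [χ, e0]
    have h1 : (aeval fun j => χ (X j) : MvPolynomial σ A →ₐ[A] A) = χ :=
      MvPolynomial.algHom_ext fun j => aeval_X _ j
    calc eval (fun j => χ (X j)) (v i) = χ (v i) := DFunLike.congr_fun h1 (v i)
      _ = 0 := e
  · show π (χ (X j)) = _
    simp only [χ, AlgHom.comp_apply]
    rw [hψ, IsScalarTower.coe_toAlgHom']
    refine (IsLocalization.lift_eq _ _).trans ?_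
    exact aeval_X x₀ j

end FA.ModField.Hensel
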