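import Fermat.Agent.Curve.Value
import Fermat.Agent.Curve.Genus

/-!
# Divisors in general position
-/

set_option autoImplicit false
set_option linter.style.haveILetI false
set_option linter.unusedSectionVars false

noncomputable section

namespace FA.ModField.Position

open AlgebraicCurve FA.Curve

variable {K F : Type*} [Field K] [Field F] [Algebra K F] [IsAlgClosed K]
  (hF : IsFunctionField K F)

/-- The divisor of a family of places. -/
def pts {ι : Type*} (s : Finset ι) (Q : ι → Place K F) : Divisor K F :=
  ∑ i ∈ s, Finsupp.single (Q i) 1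

theorem pts_nonneg {ι : Type*} (s : Finset ι) (Q : ι → Place K F) : 0 ≤ pts s Q :=
  Finset.sum_nonneg fun _ _ => Finsupp.single_nonneg.2 zero_le_one

theorem pts_id_apply [DecidableEq (Place K F)] (S : Finset (Place K F)) (v : Place K F) :
    pts S id v = if v ∈ S then 1 else 0 := by
  rw [pts, Finset.sum_apply']
  simp [Finsupp.single_apply]

theorem pts_insert [DecidableEq (Place K F)] {S : Finset (Place K F)} {P : Place K F}
    (hP : P ∉ S) : pts (insert P S) id = pts S id + Finsupp.single P 1 := by
  rw [pts, Finset.sum_insert hP, add_comm]; rfl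

include hF in
theorem degree_pts (S : Finset (Place K F)) : Divisor.degree (pts S id) = S.card := by
  simp [pts, map_sum, hF.deg_eq_one]

include hF

/-- Only finitely many places raise a divisor of small defect by a section. -/
theorem finite_bad {Δ : Divisor K F} (h : defect Δ < genus K F) :
    {P : Place K F | ell Δ < ell (Δ + Finsupp.single P 1)}.Finite := by
  classical
  by_contra hinf
  obtain ⟨c, hc⟩ := exists_threshold hF
  obtain ⟨S, hS, hcard⟩ := Set.Infinite.exists_subset_card_eq hinf (c - Divisor.degree Δ).toNat
  have key : ∀ T : Finset (Place K F), (∀ P ∈ T, ell Δ < ell (Δ + Finsupp.single P 1)) →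
      ell Δ + T.card ≤ ell (Δ + pts T id) := by
    intro T
    induction T using Finset.induction with
    | empty => intro _; simp [pts]
    | @insert P T hP ih =>
      intro hT
      have h1 := ih fun Q hQ => hT Q (Finset.mem_insert_of_mem hQ)
      haveI := finite_riemannRochSpace hF (Δ + Finsupp.single P 1)
      haveI := finite_riemannRochSpace hF (Δ + pts (insert P T) id)
      haveI := finite_riemannRochSpace hF Δ
      obtain ⟨f, hf, hf'⟩ : ∃ f ∈ riemannRochSpace (Δ + Finsupp.single P 1),
          f ∉ riemannRochSpace Δ := by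
        by_contra hno
        push Not at hno
        exact not_lt.2 (Int.ofNat_le.2 (Submodule.finrank_mono hno)) (hT P (Finset.mem_insert_self P T))
      have hle : Δ + Finsupp.single P 1 ≤ Δ + pts (insert P T) id := by
        refine add_le_add le_rfl ?_
        rw [pts_insert hP]
        exact le_add_of_nonneg_left (pts_nonneg T id)
      have hlt : riemannRochSpace (Δ + pts T id) < riemannRochSpace (Δ + pts (insert P T) id) := by
        refine lt_of_le_of_ne (riemannRochSpace_mono (by
          rw [pts_insert hP, ← add_assoc]
          exact le_add_of_nonneg_right (Finsupp.single_nonneg.2 zero_le_one))) fun he => hf' ?_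
        have h2 := riemannRochSpace_mono hle hf
        rw [← he, mem_riemannRochSpace] at h2
        rw [mem_riemannRochSpace] at hf ⊢
        intro v
        rcases eq_or_ne v P with rfl | hv
        · simpa [pts_id_apply, hP] using h2 v
        · simpa [Finsupp.single_eq_of_ne hv] using hf v
      have h3 : ell (Δ + pts T id) < ell (Δ + pts (insert P T) id) :=
        Int.ofNat_lt.2 (Submodule.finrank_lt_finrank_of_lt hlt)
      rw [Finset.card_insert_of_notMem hP]
      push_cast
      omega
  have h1 := key S fun P hP => hS (Finset.mem_coe.2 hP)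
  have h2 := hc (Δ + pts S id) (by rw [map_add, degree_pts hF, hcard]; omega)
  rw [map_add, degree_pts hF] at h2
  simp only [defect] at h
  omega

/-- `g` places in general position with respect to a nonprincipal class of degree zero. -/
theorem exists_position {D : Divisor K F} (hD : Divisor.degree D = 0)
    (hD' : ¬ D.IsPrincipal) (T : Finset (Place K F)) :
    0 < genus K F ∧ ∃ Q : Fin (genus K F) → Place K F, Function.Injective Q ∧ (∀ i, Q i ∉ T) ∧
      ell (pts Finset.univ Q) = 1 ∧
      ∀ i, ell (pts Finset.univ Q - Finsupp.single (Q i) 1 - D) = 0 := by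
  classical
  have h0 : ell (-D) = 0 := by
    by_contra hne
    obtain ⟨f, hf0, hle⟩ := exists_effective_of_ell_pos hF
      (lt_of_le_of_ne (ell_nonneg _) (Ne.symm hne))
    refine hD' ⟨f, hf0, fun v => ?_⟩
    have hdeg : Divisor.degree (-D + divOf hF f) = 0 := by
      rw [map_add, map_neg, hD, degree_divOf, neg_zero, add_zero]
    have hv : (-D + divOf hF f) v = 0 := by
      refine le_antisymm ?_ (by simpa using Finsupp.le_def.1 hle v)
      have h1 : Finsupp.single v ((-D + divOf hF f) v) ≤ -D + divOf hF f := by
        refine Finsupp.le_def.2 fun w => ?_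
        rcases eq_or_ne w v with rfl | hw
        · simp
        · rw [Finsupp.single_eq_of_ne hw]; simpa using Finsupp.le_def.1 hle w
      have h2 := degree_mono hF h1
      rw [Divisor.degree_single, hF.deg_eq_one, hdeg] at h2
      simpa using h2
    simp only [Finsupp.add_apply, Finsupp.neg_apply, divOf_apply] at hv
    omega
  have hg : 0 < genus K F := by
    by_contra hg
    have := riemann_inequality hF (-D)
    rw [map_neg, hD, h0] at this
    omega
  refine ⟨hg, ?_⟩
  suffices h : ∀ m ≤ genus K F, ∃ S : Finset (Place K F), S.card = m ∧ Disjoint S T ∧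
      (∀ U ⊆ S, ell (pts U id) = 1) ∧
      ∀ U ⊆ S, U.card + 1 ≤ genus K F → ell (pts U id - D) = 0 by
    obtain ⟨S, hcard, hST, h1, h2⟩ := h _ le_rfl
    let e := (S.equivFinOfCardEq hcard).symm
    refine ⟨fun i => (e i : Place K F), fun i j hij => e.injective (Subtype.ext hij),
      fun i => Finset.disjoint_left.1 hST (e i).2, ?_, fun i => ?_⟩ <;>
      have hsum : pts Finset.univ (fun i => (e i : Place K F)) = pts S id := by
        rw [pts, e.sum_comp fun x : S => Finsupp.single (x : Place K F) (1 : ℤ), pts,
          Finset.sum_coe_sort S fun v => Finsupp.single v (1 : ℤ)]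
        rfl
    · rw [hsum]; exact h1 S subset_rfl
    · rw [hsum, show pts S id = pts (insert (e i : Place K F) (S.erase (e i))) id by
        rw [Finset.insert_erase (e i).2], pts_insert (Finset.notMem_erase _ _), add_sub_cancel_right]
      exact h2 _ (Finset.erase_subset _ _) (by rw [Finset.card_erase_of_mem (e i).2, hcard]; omega)
  intro m
  induction m with
  | zero =>
    exact fun _ => ⟨∅, rfl, Finset.disjoint_empty_left T,
      fun U hU => by rw [Finset.subset_empty.1 hU]; simp [pts, ell_zero hF],
      fun U hU _ => by rw [Finset.subset_empty.1 hU]; simpa [pts] using h0⟩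
  | succ m ih =>
    intro hm
    obtain ⟨S, hcard, hST, h1, h2⟩ := ih (by omega)
    have hfin : (⋃ U ∈ S.powerset, {P : Place K F |
        ell (pts U id) < ell (pts U id + Finsupp.single P 1) ∨
          (U.card + 2 ≤ genus K F ∧
            ell (pts U id - D) < ell (pts U id - D + Finsupp.single P 1))}).Finite := by
      refine S.powerset.finite_toSet.biUnion fun U hU => ?_
      have hU' : U ⊆ S := Finset.mem_powerset.1 hU
      have hc := Finset.card_le_card hU'
      rw [Set.setOf_or]
      refine Set.Finite.union (finite_bad hF ?_) ?_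
      · rw [defect, degree_pts hF, h1 U hU']; omega
      · by_cases h : U.card + 2 ≤ genus K F
        · refine (finite_bad hF (Δ := pts U id - D) ?_).subset fun P hP => hP.2
          rw [defect, map_sub, degree_pts hF, hD, h2 U hU' (by omega)]; omega
        · simp [h]
    haveI := infinite_places hF
    obtain ⟨P, hP⟩ := ((hfin.union S.finite_toSet).union T.finite_toSet).infinite_compl.nonempty
    simp only [Set.mem_compl_iff, Set.mem_union, Set.mem_iUnion, not_or, not_exists,
      SetLike.mem_coe] at hP
    obtain ⟨⟨hbad, hPS⟩, hPT⟩ := hP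
    refine ⟨insert P S, by rw [Finset.card_insert_of_notMem hPS, hcard],
      Finset.disjoint_insert_left.2 ⟨hPT, hST⟩, fun U hU => ?_, fun U hU hUg => ?_⟩
    · by_cases hPU : P ∈ U
      · have hU' : U.erase P ⊆ S := fun x hx =>
          (Finset.mem_insert.1 (hU (Finset.mem_of_mem_erase hx))).resolve_left
            (Finset.ne_of_mem_erase hx)
        have hb := hbad (U.erase P) (Finset.mem_powerset.2 hU')
        simp only [Set.mem_ofPred_eq, not_or, not_lt] at hb
        rw [← Finset.insert_erase hPU, pts_insert (Finset.notMem_erase _ _)]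
        refine le_antisymm (hb.1.trans (h1 _ hU').le) ?_
        exact (ell_zero hF).ge.trans
          (ell_mono hF (add_nonneg (pts_nonneg _ _) (Finsupp.single_nonneg.2 zero_le_one)))
      · exact h1 U fun x hx => (Finset.mem_insert.1 (hU hx)).resolve_left fun h => hPU (h ▸ hx)
    · by_cases hPU : P ∈ U
      · have hU' : U.erase P ⊆ S := fun x hx =>
          (Finset.mem_insert.1 (hU (Finset.mem_of_mem_erase hx))).resolve_left
            (Finset.ne_of_mem_erase hx)
        have hb := hbad (U.erase P) (Finset.mem_powerset.2 hU')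
        simp only [Set.mem_ofPred_eq, not_or, not_and, not_lt] at hb
        have hc : (U.erase P).card + 1 = U.card := Finset.card_erase_add_one hPU
        rw [← Finset.insert_erase hPU, pts_insert (Finset.notMem_erase _ _), add_sub_right_comm]
        exact le_antisymm ((hb.2 (by omega)).trans (h2 _ hU' (by omega)).le) (ell_nonneg _)
      · exact h2 U (fun x hx => (Finset.mem_insert.1 (hU hx)).resolve_left fun h => hPU (h ▸ hx))
          hUg

/-- A function with a single pole separating `g` places and with simple zeros there. -/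
theorem exists_coordinate {g : ℕ} {Q : Fin g → Place K F} (hQ : Function.Injective Q)
    {Qi : Place K F} (hQi : ∀ i, Q i ≠ Qi) {c : ℤ}
    (hc : ∀ D : Divisor K F, c ≤ Divisor.degree D → ell D = Divisor.degree D + 1 - genus K F)
    {N : ℕ} (hN : c + 2 * g ≤ N) :
    ∃ r ∈ riemannRochSpace (Finsupp.single Qi (N : ℤ)), ∃ a : Fin g → K, Function.Injective a ∧
      ∀ i, (Q i).ord (r - algebraMap K F (a i)) = 1 := by
  classical
  set E : Divisor K F := pts Finset.univ Q with hE
  have hEi : ∀ i, E (Q i) = 1 := fun i => by
    rw [hE, pts, Finset.sum_apply', Finset.sum_eq_single i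
      (fun j _ hj => Finsupp.single_eq_of_ne fun h => hj (hQ h.symm))
      (fun h => absurd (Finset.mem_univ i) h), Finsupp.single_eq_same]
  set D₂ : Divisor K F := Finsupp.single Qi (N : ℤ) - 2 • E with hD₂
  have hD₂i : ∀ i, D₂ (Q i) = -2 := fun i => by
    rw [hD₂, Finsupp.sub_apply, Finsupp.smul_apply, hEi, Finsupp.single_eq_of_ne (hQi i)]; rfl
  have hdeg : Divisor.degree D₂ = N - 2 * g := by
    simp [hD₂, hE, pts, map_sum, hF.deg_eq_one]
  have key : ∀ i (m : ℕ), ∃ w ∈ riemannRochSpace (D₂ + Finsupp.single (Q i) ((m : ℤ) + 1)),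
      w ≠ 0 ∧ (Q i).ord w = 1 - (m : ℤ) ∧ ∀ j, j ≠ i → AtLeast (Q j) 2 w := by
    intro i m
    set D' := D₂ + Finsupp.single (Q i) (m : ℤ)
    have h1 := hc D' (by simp [D', hdeg, hF.deg_eq_one]; omega)
    have h2 := hc (D' + Finsupp.single (Q i) 1) (by simp [D', hdeg, hF.deg_eq_one]; omega)
    rw [map_add, Divisor.degree_single, hF.deg_eq_one] at h2
    obtain ⟨w, hw, hw'⟩ : ∃ w ∈ riemannRochSpace (D' + Finsupp.single (Q i) 1),
        w ∉ riemannRochSpace D' := by
      by_contra hno
      push Not at hno
      haveI := finite_riemannRochSpace hF D'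
      have := Int.ofNat_le.2 (Submodule.finrank_mono hno)
      simp only [ell] at h1 h2
      push_cast at h2
      omega
    have hw0 : w ≠ 0 := fun h => hw' (h ▸ Submodule.zero_mem _)
    have hD' : D' + Finsupp.single (Q i) 1 = D₂ + Finsupp.single (Q i) ((m : ℤ) + 1) := by
      rw [Finsupp.single_add, ← add_assoc]
    rw [hD'] at hw
    have hw2 := mem_riemannRochSpace.1 hw
    refine ⟨w, hw, hw0, le_antisymm ?_ ?_, fun j hj => ?_⟩
    · by_contra hgt
      rw [not_le] at hgt
      refine hw' (mem_riemannRochSpace.2 fun v => ?_)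
      rcases eq_or_ne v (Q i) with rfl | hv
      · refine Or.inr ?_
        simp only [D', Finsupp.add_apply, hD₂i, Finsupp.single_eq_same]
        omega
      · have := hw2 v
        simpa [D', Finsupp.single_eq_of_ne hv] using this
    · have := (atLeast_iff hw0).1 (hw2 (Q i))
      simp only [Finsupp.add_apply, hD₂i, Finsupp.single_eq_same] at this
      omega
    · have := hw2 (Q j)
      simpa [hD₂i, Finsupp.single_eq_of_ne (hQ.ne hj)] using this
  choose w1 hw1 hw10 hw1o hw1j using fun i => key i 0
  choose u hu hu0 huo huj using fun i => key i 1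
  have hval : ∀ i, ∃ b : K, b ≠ 0 ∧ HasValue (Q i) (u i) b := by
    intro i
    obtain ⟨b, hb⟩ := exists_hasValue hF (Or.inr (by rw [huo]; simp) : AtLeast (Q i) 0 (u i))
    refine ⟨b, fun h0 => ?_, hb⟩
    rw [h0, hasValue_zero_iff, atLeast_iff (hu0 i), huo] at hb
    simp at hb
  choose b hb hbv using hval
  let a : Fin g → K := fun i => Infinite.natEmbedding K i
  have ha : Function.Injective a := fun i j h => Fin.ext ((Infinite.natEmbedding K).injective h)
  set z : Fin g → F := fun i => algebraMap K F (a i / b i) * u i
  set l : Fin g → K := fun i => if AtLeast (Q i) 2 (z i - algebraMap K F (a i)) then 1 else 0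
  set t : Fin g → F := fun i => z i + algebraMap K F (l i) * w1 i
  refine ⟨∑ i, t i, Submodule.sum_mem _ fun i _ => ?_, a, ha, fun i => ?_⟩
  · have hle : ∀ m : ℕ, m ≤ 1 → riemannRochSpace (D₂ + Finsupp.single (Q i) ((m : ℤ) + 1)) ≤
        riemannRochSpace (Finsupp.single Qi (N : ℤ)) := by
      intro m hm
      refine riemannRochSpace_mono ?_
      rw [hD₂, sub_add_eq_add_sub, sub_le_iff_le_add]
      refine add_le_add le_rfl (Finsupp.le_def.2 fun v => ?_)
      have hnn : 0 ≤ E v := by simpa using Finsupp.le_def.1 (pts_nonneg Finset.univ Q) v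
      rcases eq_or_ne v (Q i) with rfl | hv
      · rw [Finsupp.single_eq_same, Finsupp.smul_apply, hEi, nsmul_eq_mul]; push_cast; omega
      · rw [Finsupp.single_eq_of_ne hv, Finsupp.smul_apply, nsmul_eq_mul]; positivity
    refine Submodule.add_mem _ ?_ ?_
    · simp only [z]
      rw [← Algebra.smul_def]
      exact Submodule.smul_mem _ _ (hle 1 le_rfl (by simpa using hu i))
    · rw [← Algebra.smul_def]
      exact Submodule.smul_mem _ _ (hle 0 (by omega) (by simpa using hw1 i))
  · have hz1 : AtLeast (Q i) 1 (z i - algebraMap K F (a i)) := by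
      have := (hbv i).smul (a i / b i)
      rwa [div_mul_cancel₀ _ (hb i)] at this
    have hw1' : (Q i).ord (w1 i) = 1 := by simpa using hw1o i
    have hi : t i - algebraMap K F (a i) ≠ 0 ∧ (Q i).ord (t i - algebraMap K F (a i)) = 1 := by
      by_cases h : AtLeast (Q i) 2 (z i - algebraMap K F (a i))
      · have := ord_add_eq_left (v := Q i) (f := w1 i) (g := z i - algebraMap K F (a i)) (hw10 i)
          (by rw [hw1']; exact h)
        simp only [t, l, if_pos h, map_one, one_mul]
        rw [show z i + w1 i - algebraMap K F (a i) = w1 i + (z i - algebraMap K F (a i)) by ring]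
        exact ⟨this.1, this.2.trans hw1'⟩
      · simp only [t, l, if_neg h, map_zero, zero_mul, add_zero]
        rw [AtLeast, not_or] at h
        exact ⟨h.1, by have := (atLeast_iff h.1).1 hz1; omega⟩
    have hrest : AtLeast (Q i) 2 (∑ j ∈ Finset.univ.erase i, t j) :=
      atLeast_sum fun j hj => by
        have hji := (Finset.ne_of_mem_erase hj).symm
        exact ((huj j i hji).smul _).add ((hw1j j i hji).smul _)
    rw [← Finset.add_sum_erase _ _ (Finset.mem_univ i), add_sub_right_comm]
    exact (ord_add_eq_left hi.1 (by rw [hi.2]; exact hrest)).2.trans hi.2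

end FA.ModField.Position
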