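import Mathlib.Algebra.MvPolynomial.PDeriv
import Mathlib.Algebra.DualNumber
import Mathlib.Algebra.Polynomial.Eval.Degree
import Mathlib.Algebra.Polynomial.BigOperators
import Mathlib.Algebra.Polynomial.Degree.Operations
import Mathlib.Algebra.MvPolynomial.CommRing
import Mathlib.Tactic.FieldSimp
import Mathlib.Tactic.Ring

/-!
# The square system of a torsion lift

The equations say that `(u₀ + Σ cₘ uₘ) (Σ dₗ vₗ) = ∏ (x - aᵢ) ^ p` in coordinates.
-/

set_option autoImplicit false
set_option linter.style.haveILetI false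
set_option linter.unusedSectionVars false

noncomputable section

namespace FA.ModField.TorsionLift

open MvPolynomial

/-- Evaluation at a first order deformation. -/
theorem eval₂_dual {σ A R : Type*} [Fintype σ] [CommRing A] [CommRing R] (ψ : A →+* R)
    (z δ : σ → R) (q : MvPolynomial σ A) :
    eval₂ ((TrivSqZeroExt.inlHom R R).comp ψ)
        (fun j => TrivSqZeroExt.inl (z j) + TrivSqZeroExt.inr (δ j)) q =
      TrivSqZeroExt.inl (eval₂ ψ z q) +
        TrivSqZeroExt.inr (∑ j, δ j * eval₂ ψ z (pderiv j q)) := by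
  classical
  induction q using MvPolynomial.induction_on with
  | C a =>
    simp only [eval₂_C, RingHom.comp_apply, pderiv_C, eval₂_zero, mul_zero, Finset.sum_const_zero,
      TrivSqZeroExt.inr_zero, add_zero]
    rfl
  | add f g hf hg =>
    rw [eval₂_add, hf, hg, eval₂_add]
    simp only [map_add, eval₂_add, mul_add, Finset.sum_add_distrib, TrivSqZeroExt.inl_add,
      TrivSqZeroExt.inr_add]
    abel
  | mul_X f i hf =>
    have e : ∑ j, δ j * eval₂ ψ z (pderiv j (f * X i)) =
        (∑ j, δ j * eval₂ ψ z (pderiv j f)) * z i + eval₂ ψ z f * δ i := by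
      simp only [pderiv_mul, eval₂_add, eval₂_mul, eval₂_X, mul_add, Finset.sum_add_distrib,
        Finset.sum_mul, mul_assoc]
      congr 1
      rw [Finset.sum_eq_single i]
      · rw [pderiv_X_self, eval₂_one]; ring
      · intro j _ hj; rw [pderiv_X_of_ne (Ne.symm hj), eval₂_zero, mul_zero, mul_zero]
      · intro h; exact absurd (Finset.mem_univ i) h
    rw [eval₂_mul, hf, eval₂_X, e, eval₂_mul, eval₂_X]
    ext <;> simp
    ring

/-- The first order part of a product of powers of units. -/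
theorem prod_dual {ι R : Type*} [Field R] (s : Finset ι) (p : ℕ) (y w : ι → R)
    (hy : ∀ i ∈ s, y i ≠ 0) :
    ∏ i ∈ s, (TrivSqZeroExt.inl (y i) + TrivSqZeroExt.inr (w i) : TrivSqZeroExt R R) ^ p =
      TrivSqZeroExt.inl (∏ i ∈ s, y i ^ p) +
        TrivSqZeroExt.inr ((∏ i ∈ s, y i ^ p) * ∑ i ∈ s, (p : R) * w i / y i) := by
  classical
  have hp : ∀ a b : R, a ≠ 0 → (TrivSqZeroExt.inl a + TrivSqZeroExt.inr b : TrivSqZeroExt R R) ^ p =
      TrivSqZeroExt.inl (a ^ p) + TrivSqZeroExt.inr (a ^ p * ((p : R) * b / a)) := by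
    intro a b ha
    induction p with
    | zero => simp
    | succ n ih =>
      rw [pow_succ, ih, pow_succ]
      ext
      · simp
      · simp
        field_simp
        ring
  induction s using Finset.induction with
  | empty => simp
  | @insert i s hi ih =>
    rw [Finset.prod_insert hi, ih fun j hj => hy j (Finset.mem_insert_of_mem hj),
      hp _ _ (hy i (Finset.mem_insert_self i s)), Finset.prod_insert hi, Finset.sum_insert hi]
    ext <;> simp
    ring

variable {A : Type*} [CommRing A] {n₁ n₂ g n : ℕ} (p : ℕ) (α₀ : Fin n₂ → Fin n → A)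
  (α : Fin n₁ → Fin n₂ → Fin n → A) (β : ℕ → Fin n → A)

/-- The variables `c`, `d`, `a`. -/
abbrev Var (n₁ n₂ g : ℕ) := Fin n₁ ⊕ Fin n₂ ⊕ Fin g

/-- `∏ (x - aᵢ) ^ p`. -/
def pw (A : Type*) [CommRing A] (n₁ n₂ g p : ℕ) :
    Polynomial (MvPolynomial (Var n₁ n₂ g) A) :=
  ∏ i : Fin g, (Polynomial.X - Polynomial.C (X (Sum.inr (Sum.inr i)))) ^ p

/-- The equations. -/
def eqs (t : Fin n) : MvPolynomial (Var n₁ n₂ g) A :=
  (∑ l, C (α₀ l t) * X (Sum.inr (Sum.inl l))) +
    (∑ m, ∑ l, C (α m l t) * (X (Sum.inl m) * X (Sum.inr (Sum.inl l)))) -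
    ∑ j ∈ Finset.range (p * g + 1), C (β j t) * (pw A n₁ n₂ g p).coeff j

theorem natDegree_pw_le : (pw A n₁ n₂ g p).natDegree ≤ p * g := by
  refine (Polynomial.natDegree_prod_le _ _).trans ((Finset.sum_le_sum (g := fun _ => p)
    fun i _ => ?_).trans ?_)
  · refine (Polynomial.natDegree_pow_le).trans ?_
    nth_rw 2 [← mul_one p]
    exact Nat.mul_le_mul_left p (Polynomial.natDegree_X_sub_C_le _)
  · simp [mul_comm]

/-- The equations in coordinates are the identity of functions. -/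
theorem sum_eqs {S : Type*} [CommRing S] (φ : A →+* S) (z : Var n₁ n₂ g → S) (U₀ : S)
    (U : Fin n₁ → S) (V : Fin n₂ → S) (T : S) (E : Fin n → S)
    (h₀ : ∀ l, U₀ * V l = ∑ t, φ (α₀ l t) * E t)
    (h₁ : ∀ m l, U m * V l = ∑ t, φ (α m l t) * E t)
    (h₂ : ∀ j ≤ p * g, T ^ j = ∑ t, φ (β j t) * E t) :
    ∑ t, eval₂ φ z (eqs p α₀ α β t) * E t =
      (U₀ + ∑ m, z (Sum.inl m) * U m) * (∑ l, z (Sum.inr (Sum.inl l)) * V l) -
        ∏ i, (T - z (Sum.inr (Sum.inr i))) ^ p := by
  classical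
  have hT : ∏ i, (T - z (Sum.inr (Sum.inr i))) ^ p =
      ∑ j ∈ Finset.range (p * g + 1), eval₂ φ z ((pw A n₁ n₂ g p).coeff j) * T ^ j := by
    rw [← coe_eval₂Hom, ← Polynomial.eval₂_eq_sum_range' _
      (Nat.lt_succ_of_le (natDegree_pw_le (A := A) (n₁ := n₁) (n₂ := n₂) (g := g) p)), pw,
      Polynomial.eval₂_finsetProd]
    simp [Polynomial.eval₂_pow]
  have e0 : U₀ * (∑ l, z (Sum.inr (Sum.inl l)) * V l) =
      ∑ t, (∑ l, φ (α₀ l t) * z (Sum.inr (Sum.inl l))) * E t := by
    simp only [Finset.mul_sum, Finset.sum_mul]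
    rw [Finset.sum_comm]
    exact Finset.sum_congr rfl fun l _ => by
      rw [mul_left_comm, h₀, Finset.mul_sum]
      exact Finset.sum_congr rfl fun t _ => by ring
  have e1 : (∑ m, z (Sum.inl m) * U m) * (∑ l, z (Sum.inr (Sum.inl l)) * V l) =
      ∑ t, (∑ m, ∑ l, φ (α m l t) * (z (Sum.inl m) * z (Sum.inr (Sum.inl l)))) * E t := by
    rw [Finset.sum_mul_sum]
    simp only [Finset.sum_mul]
    conv_rhs => rw [Finset.sum_comm]
    refine Finset.sum_congr rfl fun m _ => ?_
    conv_rhs => rw [Finset.sum_comm]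
    refine Finset.sum_congr rfl fun l _ => ?_
    rw [mul_mul_mul_comm, h₁, Finset.mul_sum]
    exact Finset.sum_congr rfl fun t _ => by ring
  have e2 : ∑ j ∈ Finset.range (p * g + 1), eval₂ φ z ((pw A n₁ n₂ g p).coeff j) * T ^ j =
      ∑ t, (∑ j ∈ Finset.range (p * g + 1), φ (β j t) * eval₂ φ z ((pw A n₁ n₂ g p).coeff j)) *
        E t := by
    simp only [Finset.sum_mul]
    conv_rhs => rw [Finset.sum_comm]
    refine Finset.sum_congr rfl fun j hj => ?_
    rw [h₂ j (Nat.lt_succ_iff.1 (Finset.mem_range.1 hj)), Finset.mul_sum]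
    exact Finset.sum_congr rfl fun t _ => by ring
  rw [add_mul, e0, e1, hT, e2]
  simp only [eqs, eval₂_sub, eval₂_add, eval₂_sum, eval₂_mul, eval₂_C, eval₂_X, sub_mul, add_mul,
    Finset.sum_sub_distrib, Finset.sum_add_distrib]

end FA.ModField.TorsionLift
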