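import Fermat.Agent.CurveRed.Torsion
import Fermat.Agent.CurveRed.Ext
import Fermat.Agent.Curve.TraceLocal
import Fermat.Agent.ModField.Semistable.Mono.Hensel
import Fermat.Agent.ModField.Semistable.Mono.Position
import Fermat.Agent.ModField.Semistable.Mono.TorsionSystem

/-!
# Every class of order `p` on the special fibre lifts

For a divisor `Q₁ + … + Q_g - E₀` whose multiple by `p` is principal, a function `f` of divisor
`p (P₁ + … + P_g - E₀)` is found by solving `f h = ∏ (x - aᵢ) ^ p`, a square system with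
invertible Jacobian.
-/

set_option autoImplicit false
set_option linter.style.haveILetI false
set_option linter.unusedSectionVars false
set_option maxHeartbeats 1000000

noncomputable section

namespace FA.ModField.TorsionLift

open AlgebraicCurve FA.Curve FA.CurveRed FA.CurveRed.Reduction FA.ModField.Position

variable {K F k Fk : Type*} [Field K] [Field F] [Algebra K F] [Field k] [Field Fk] [Algebra k Fk]
  {A : ValuationSubring K} {R : Reduction K F k Fk A} [IsAlgClosed K] [IsAlgClosed k]
  (hF : IsFunctionField K F) (hk : IsFunctionField k Fk)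

include hF hk

/-- A basis with independent reductions. -/
theorem exists_red_basis (D : Divisor K F) :
    ∃ (e : Fin (Module.finrank K (riemannRochSpace D)) → F)
      (rb : Fin (Module.finrank K (riemannRochSpace D)) → Fk),
      (∀ i, e i ∈ riemannRochSpace D) ∧ (∀ i, R.Red (e i) (rb i)) ∧ LinearIndependent k rb ∧
      (∀ i, rb i ∈ riemannRochSpace (R.push D)) ∧
      (∀ (f : F) (r : Fk), f ∈ riemannRochSpace D → R.Red f r →
        ∃ a : Fin (Module.finrank K (riemannRochSpace D)) → A,
          f = ∑ i, algebraMap K F (a i : K) * e i ∧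
          r = ∑ i, algebraMap k Fk (R.π (a i)) * rb i) := by
  classical
  haveI := finite_riemannRochSpace hF D
  obtain ⟨e, rb, he, her, hli⟩ := exists_lift_basis hF hk (R := R) D _ _ le_rfl rfl
  have hred : ∀ (s : Finset (Fin (Module.finrank K (riemannRochSpace D))))
      (a : Fin (Module.finrank K (riemannRochSpace D)) → A),
      R.Red (∑ i ∈ s, algebraMap K F (a i : K) * e i)
        (∑ i ∈ s, algebraMap k Fk (R.π (a i)) * rb i) := by
    intro s a
    induction s using Finset.induction with
    | empty => simpa using red_zero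
    | @insert j s hj ih =>
      rw [Finset.sum_insert hj, Finset.sum_insert hj]
      exact ((red_const (a j)).mul (her j)).add ih
  have hmax : ∀ b : Fin (Module.finrank K (riemannRochSpace D)) → K, (∃ i, b i ≠ 0) →
      ∃ j, b j ≠ 0 ∧ ∀ i, b i / b j ∈ A := fun b hb => FA.CurveRed.ConstRed.exists_max_coeff A b hb
  have hliK : LinearIndependent K e := by
    rw [Fintype.linearIndependent_iff]
    intro b hb
    by_contra hne
    push Not at hne
    obtain ⟨j, hj0, hj⟩ := hmax b hne
    have h := hred Finset.univ fun i => ⟨_, hj i⟩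
    have h0 : ∑ i, algebraMap K F (b i / b j) * e i = 0 := by
      have h2 : ∑ i, algebraMap K F (b i) * e i = 0 := by simpa [Algebra.smul_def] using hb
      rw [← mul_zero (algebraMap K F (b j)⁻¹), ← h2, Finset.mul_sum]
      exact Finset.sum_congr rfl fun i _ => by rw [div_eq_inv_mul, map_mul, mul_assoc]
    simp only at h
    rw [h0] at h
    have h3 := Fintype.linearIndependent_iff.1 hli (fun i => R.π ⟨_, hj i⟩)
      (by simpa [Algebra.smul_def] using (red_zero.unique h).symm) j
    rw [R.π_eq_zero] at h3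
    simp [div_self hj0] at h3
  refine ⟨e, rb, he, her, hli, fun i => red_mem_riemannRochSpace hF (her i) (he i),
    fun f r hf hfr => ?_⟩
  have hspan : Submodule.span K (Set.range e) = riemannRochSpace D := by
    refine Submodule.eq_of_le_of_finrank_le (Submodule.span_le.2 (Set.range_subset_iff.2 he)) ?_
    rw [finrank_span_eq_card hliK, Fintype.card_fin]
  rw [← hspan, Submodule.mem_span_range_iff_exists_fun] at hf
  obtain ⟨b, hb⟩ := hf
  simp only [Algebra.smul_def] at hb
  suffices h : ∀ i, b i ∈ A by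
    refine ⟨fun i => ⟨b i, h i⟩, hb.symm, hfr.unique ?_⟩
    have h1 := hred Finset.univ fun i => ⟨b i, h i⟩
    simp only at h1
    rwa [hb] at h1
  intro i
  by_contra hi
  obtain ⟨j, hj0, hj⟩ := hmax b ⟨i, fun h => hi (h ▸ zero_mem A)⟩
  have hjA : b j ∉ A := fun hjm => hi (by
    have := mul_mem (hj i) hjm
    rwa [div_mul_cancel₀ _ hj0] at this)
  have hinv : (b j)⁻¹ ∈ A := (A.mem_or_inv_mem _).resolve_left hjA
  have hlt : A.valuation (b j)⁻¹ < 1 := by
    rw [map_inv₀]
    exact inv_lt_one_of_one_lt₀ (lt_of_not_ge fun h => hjA ((A.valuation_le_one_iff _).1 h))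
  have h1 := (red_const (R := R) ⟨_, hinv⟩).mul hfr
  rw [(R.π_eq_zero _).2 hlt, map_zero, zero_mul] at h1
  have h2 := hred Finset.univ fun i => ⟨_, hj i⟩
  simp only at h2
  have heq : algebraMap K F (b j)⁻¹ * f = ∑ i, algebraMap K F (b i / b j) * e i := by
    rw [← hb, Finset.mul_sum]
    exact Finset.sum_congr rfl fun i _ => by rw [div_eq_inv_mul, map_mul, mul_assoc]
  rw [heq] at h1
  have h3 := Fintype.linearIndependent_iff.1 hli (fun i => R.π ⟨_, hj i⟩)
    (by simpa [Algebra.smul_def] using (h2.unique h1)) j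
  rw [R.π_eq_zero] at h3
  simp [div_self hj0] at h3

theorem ell_le_push (D : Divisor K F) : ell D ≤ ell (R.push D) := by
  obtain ⟨e, rb, -, -, hli, hmem, -⟩ := exists_red_basis hF hk (R := R) D
  haveI := finite_riemannRochSpace hk (R.push D)
  have h := (LinearIndependent.of_comp (riemannRochSpace (R.push D)).subtype
    (v := fun i => (⟨rb i, hmem i⟩ : riemannRochSpace (R.push D))) hli).fintype_card_le_finrank
  rw [Fintype.card_fin] at h
  exact Int.ofNat_le.2 h

omit hF hk in
theorem finrank_lt_of_mem {D : Divisor k Fk} {V : Submodule k Fk} [Module.Finite k V]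
    (hD : riemannRochSpace D < V) :
    Module.finrank k (riemannRochSpace D) < Module.finrank k V :=
  Submodule.finrank_lt_finrank_of_lt hD

/-- The lift of a divisor class in general position. -/
theorem exists_lift_core {g : ℕ} (hgg : genus k Fk = g) (hg : genus K F ≤ g) {p : ℕ}
    (hp : (p : k) ≠ 0) {Q : Fin g → Place k Fk} (hQ : Function.Injective Q)
    (hell : ell (pts Finset.univ Q) = 1) (hg0 : 0 < g) {E₀ : Divisor k Fk} (hE₀ : 0 ≤ E₀)
    (hdis : ∀ i, E₀ (Q i) = 0) {r : Fk} (hr : r ≠ 0)
    (hdiv : ∀ v, v.ord r = p * (pts Finset.univ Q v - E₀ v)) :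
    ∃ D : Divisor K F, Divisor.degree D = 0 ∧ (p • D).IsPrincipal ∧
      R.push D = pts Finset.univ Q - E₀ := by
  classical
  have hp1 : 1 ≤ p := Nat.one_le_iff_ne_zero.2 fun h => hp (by simp [h])
  set E := pts Finset.univ Q with hE
  have hEi : ∀ i, E (Q i) = 1 := fun i => by
    rw [hE, pts, Finset.sum_apply', Finset.sum_eq_single i
      (fun j _ hj => Finsupp.single_eq_of_ne fun h => hj (hQ h.symm))
      (fun h => absurd (Finset.mem_univ i) h), Finsupp.single_eq_same]
  have hE0 : ∀ v, (∀ i, Q i ≠ v) → E v = 0 := fun v hv => by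
    rw [hE, pts, Finset.sum_apply']
    exact Finset.sum_eq_zero fun i _ => Finsupp.single_eq_of_ne (hv i).symm
  have hdegE : Divisor.degree E = g := by simp [hE, pts, map_sum, hk.deg_eq_one]
  have hdivr : divOf hk r = p • E - p • E₀ := Finsupp.ext fun v => by
    rw [divOf_apply, hdiv]; simp [mul_sub]
  have hdegE₀ : Divisor.degree E₀ = g := by
    have h := degree_divOf hk r
    rw [hdivr, map_sub, map_nsmul, map_nsmul, hdegE, sub_eq_zero, nsmul_eq_mul, nsmul_eq_mul] at h
    exact (mul_left_cancel₀ (by exact_mod_cast (by omega : p ≠ 0)) h).symm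
  -- the auxiliary place, the coordinate, sections
  haveI := infinite_places hk
  obtain ⟨Qi, hQi⟩ := (((Finset.univ.image Q) ∪ E₀.support).finite_toSet).infinite_compl.nonempty
  simp only [Set.mem_compl_iff, Finset.coe_union, Set.mem_union, Finset.coe_image, Finset.coe_univ,
    Set.image_univ, Set.mem_range, SetLike.mem_coe, Finsupp.mem_support_iff, not_or, not_exists,
    not_not] at hQi
  obtain ⟨hQiQ, hQiE⟩ := hQi
  set sec := Function.surjInv (spl_surjective hF hk (R := R)) with hsec
  have hspl : ∀ v, R.spl (sec v) = v := Function.surjInv_eq _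
  have hsecinj : Function.Injective sec := Function.injective_surjInv _
  set Pinf := sec Qi with hPi
  set E₁ : Divisor K F := Finsupp.mapDomain sec E₀ with hE₁
  have hpushE₁ : R.push E₁ = E₀ := by
    rw [push, hE₁, ← Finsupp.mapDomain_comp]
    have : R.spl ∘ sec = id := funext hspl
    rw [this, Finsupp.mapDomain_id]
  have hE₁0 : ∀ X, E₀ (R.spl X) = 0 → E₁ X = 0 := by
    intro X hX
    by_cases h : ∃ v, sec v = X
    · obtain ⟨v, rfl⟩ := h
      rw [hE₁, Finsupp.mapDomain_apply hsecinj, ← hX, hspl]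
    · exact Finsupp.mapDomain_notin_range _ _ fun ⟨v, hv⟩ => h ⟨v, hv⟩
  obtain ⟨cK, hcK⟩ := exists_threshold hF
  obtain ⟨ck, hck⟩ := exists_threshold hk
  simp only [hgg] at hck
  set N : ℕ := cK.toNat + ck.toNat + 2 * g + 1 with hN
  have hpushPi : ∀ n : ℤ, R.push (Finsupp.single Pinf n) = Finsupp.single Qi n := fun n => by
    rw [push_single, hPi, hspl]
  have hgK : genus K F = g := by
    have h1 := ell_le_push hF hk (R := R) (Finsupp.single Pinf (N : ℤ))
    rw [hcK _ (by simp [hF.deg_eq_one]; omega), hpushPi, hck _ (by simp [hk.deg_eq_one]; omega),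
      Divisor.degree_single, Divisor.degree_single, hF.deg_eq_one, hk.deg_eq_one] at h1
    omega
  obtain ⟨xb, hxb, c₀, hc₀inj, hc₀⟩ := exists_coordinate hk hQ hQiQ (c := ck) (by simpa [hgg] using hck) (N := N) (by omega)
  obtain ⟨x, hx, hxr⟩ := exists_lift hF hk (R := R) (D := Finsupp.single Pinf (N : ℤ))
    (by rw [hpushPi, hck _ (by simp [hk.deg_eq_one]; omega),
      hcK _ (by simp [hF.deg_eq_one]; omega)]; simp [hF.deg_eq_one, hk.deg_eq_one]; omega)
    (by rw [hpushPi]; exact hxb)
  set M : ℕ := p * g * N with hM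
  have hNM : N ≤ M := Nat.le_mul_of_pos_left N (Nat.mul_pos (by omega) hg0)
  -- the three spaces
  set D₁ : Divisor K F := p • E₁ with hD₁
  set D₂ : Divisor K F := Finsupp.single Pinf (M : ℤ) with hD₂
  have hpushD₁ : R.push D₁ = p • E₀ := by
    rw [hD₁, push, ← Finsupp.mapDomain.addMonoidHom_apply, map_nsmul,
      Finsupp.mapDomain.addMonoidHom_apply]
    rw [show Finsupp.mapDomain R.spl E₁ = R.push E₁ from rfl, hpushE₁]
  have hpushD₂ : R.push D₂ = Finsupp.single Qi (M : ℤ) := hpushPi _
  have hpE : ell (p • E₀) = p * g + 1 - g := by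
    have h1 : p • E₀ + divOf hk r = p • E := by rw [hdivr]; abel
    rw [← ell_add_divOf hk (p • E₀) hr, h1]
    have h2 := defect_mono hk (D := E) (D' := p • E)
      (Finsupp.le_def.2 fun v => by
        have : 0 ≤ E v := by simpa using Finsupp.le_def.1 (pts_nonneg Finset.univ Q) v
        rw [Finsupp.smul_apply, nsmul_eq_mul]
        exact le_mul_of_one_le_left this (by exact_mod_cast hp1))
    have h3 := defect_le_genus hk (p • E)
    rw [hgg] at h3
    simp only [defect, map_nsmul, hdegE, hell, nsmul_eq_mul] at h2 h3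
    omega
  have hdegD₁ : Divisor.degree D₁ = p * g := by
    rw [hD₁, map_nsmul, ← degree_push hF hk (R := R), hpushE₁, hdegE₀, nsmul_eq_mul]
  have hlift₁ : ell (R.push D₁) ≤ ell D₁ := by
    have := riemann_inequality hF D₁
    rw [hpushD₁, hpE]
    omega
  have hlift₂ : ell (R.push D₂) ≤ ell D₂ := by
    rw [hpushD₂, hD₂, hck _ (by simp [hk.deg_eq_one]; omega),
      hcK _ (by simp [hF.deg_eq_one]; omega)]
    simp [hF.deg_eq_one, hk.deg_eq_one]; omega
  have hrmem : r ∈ riemannRochSpace (R.push D₁) := by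
    rw [hpushD₁, FA.Curve.mem_riemannRochSpace]
    intro v
    refine Or.inr ?_
    have h1 : 0 ≤ E v := by simpa using Finsupp.le_def.1 (pts_nonneg Finset.univ Q) v
    rw [hdiv v, Finsupp.smul_apply, nsmul_eq_mul, mul_sub]
    nlinarith
  obtain ⟨u₀, hu₀, hu₀r⟩ := exists_lift hF hk hlift₁ hrmem
  -- the hyperplane at `Qi`
  set H : Divisor k Fk := p • E₀ - Finsupp.single Qi 1 with hH
  haveI := finite_riemannRochSpace hk H
  have hn₁ : (Module.finrank k (riemannRochSpace H) : ℤ) = p * g - g := by
    have hHD : H + Finsupp.single Qi 1 = p • E₀ := sub_add_cancel _ _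
    have h1 := (finrank_succ hk H Qi).2
    rw [hHD] at h1
    haveI := finite_riemannRochSpace hk (p • E₀)
    have h2 : Module.finrank k (riemannRochSpace H) <
        Module.finrank k (riemannRochSpace (p • E₀)) := by
      refine finrank_lt_of_mem (lt_of_le_of_ne (riemannRochSpace_mono (by
        rw [hH]; exact sub_le_self _ (Finsupp.single_nonneg.2 zero_le_one))) fun he => ?_)
      have hrH : r ∈ riemannRochSpace H := he ▸ (hpushD₁ ▸ hrmem)
      have h3 := (atLeast_iff hr).1 (FA.Curve.mem_riemannRochSpace.1 hrH Qi)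
      rw [hdiv, hE0 Qi hQiQ, hQiE, hH, Finsupp.sub_apply, Finsupp.smul_apply, hQiE,
        Finsupp.single_eq_same] at h3
      simp at h3
    simp only [ell] at hpE
    omega
  set n₁ := Module.finrank k (riemannRochSpace H) with hn₁d
  set sb : Module.Basis (Fin n₁) k (riemannRochSpace H) := Module.finBasis k (riemannRochSpace H)
    with hsb
  have hHle : riemannRochSpace H ≤ riemannRochSpace (R.push D₁) := by
    rw [hpushD₁]
    exact riemannRochSpace_mono (by rw [hH]; exact sub_le_self _ (Finsupp.single_nonneg.2 zero_le_one))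
  choose u hu hur using fun m => exists_lift hF hk hlift₁ (hHle (sb m).2)
  haveI := finite_riemannRochSpace hk (R.push D₂)
  set n₂ := Module.finrank k (riemannRochSpace (R.push D₂)) with hn₂d
  set vb : Module.Basis (Fin n₂) k (riemannRochSpace (R.push D₂)) :=
    Module.finBasis k (riemannRochSpace (R.push D₂)) with hvb
  choose v hv hvr using fun l => exists_lift hF hk hlift₂ (vb l).2
  obtain ⟨n, e, rb, hnn, hli, hcoord⟩ : ∃ (n : ℕ) (e : Fin n → F) (rb : Fin n → Fk),
      Module.finrank K (riemannRochSpace (D₁ + D₂)) = n ∧ LinearIndependent k rb ∧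
      ∀ (f : F) (r : Fk), f ∈ riemannRochSpace (D₁ + D₂) → R.Red f r → ∃ a : Fin n → A,
          f = ∑ i, algebraMap K F (a i : K) * e i ∧
          r = ∑ i, algebraMap k Fk (R.π (a i)) * rb i := by
    obtain ⟨e, rb, he, her, hli, hrbmem, hcoord⟩ := exists_red_basis hF hk (R := R) (D₁ + D₂)
    exact ⟨_, e, rb, rfl, hli, hcoord⟩
  have hcard : n₁ + (n₂ + g) =
        n := by
    rw [← hnn]
    have h1 := hck (R.push D₂) (by rw [hpushD₂]; simp [hk.deg_eq_one]; omega)
    have h2 := hcK (D₁ + D₂) (by rw [map_add, hdegD₁, hD₂]; simp [hF.deg_eq_one]; omega)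
    rw [map_add, hdegD₁, hD₂, Divisor.degree_single, hF.deg_eq_one, ← hD₂] at h2
    rw [degree_push hF hk, hD₂, Divisor.degree_single, hF.deg_eq_one, ← hD₂] at h1
    simp only [ell] at h1 h2
    rw [← hn₂d] at h1
    push_cast at h1 h2 ⊢
    omega
  have hmul : ∀ {a b : F} {a' b' : Fk}, a ∈ riemannRochSpace D₁ → R.Red a a' →
      b ∈ riemannRochSpace D₂ → R.Red b b' →
      ∃ co : Fin n → A, a * b = ∑ i, algebraMap K F (co i : K) * e i ∧
        a' * b' = ∑ i, algebraMap k Fk (R.π (co i)) * rb i := by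
    intro a b a' b' ha ha' hb hb'
    refine hcoord _ _ ?_ (ha'.mul hb')
    rw [FA.Curve.mem_riemannRochSpace]
    intro w
    rw [Finsupp.add_apply, neg_add]
    exact (FA.Curve.mem_riemannRochSpace.1 ha w).mul (FA.Curve.mem_riemannRochSpace.1 hb w)
  choose α₀ hα₀ hα₀' using fun l => hmul hu₀ hu₀r (hv l) (hvr l)
  choose α hα hα' using fun m l => hmul (hu m) (hur m) (hv l) (hvr l)
  have hpow : ∀ j, ∃ co : Fin n → A, j ≤ p * g → x ^ j = ∑ i, algebraMap K F (co i : K) * e i ∧
      xb ^ j = ∑ i, algebraMap k Fk (R.π (co i)) * rb i := by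
    intro j
    by_cases hj : j ≤ p * g
    · suffices hmem : x ^ j ∈ riemannRochSpace (D₁ + D₂) by
        obtain ⟨co, h⟩ := hcoord (x ^ j) (xb ^ j) hmem (hxr.pow j)
        exact ⟨co, fun _ => h⟩
      · rw [FA.Curve.mem_riemannRochSpace]
        intro w
        refine (atLeast_pow (FA.Curve.mem_riemannRochSpace.1 hx w) j).mono ?_
        have h1 : 0 ≤ D₁ w := by
          have h : 0 ≤ E₁ := Finsupp.le_def.2 fun X => by
            by_cases hX : ∃ v, sec v = X
            · obtain ⟨v, rfl⟩ := hX
              rw [hE₁, Finsupp.mapDomain_apply hsecinj]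
              simpa using Finsupp.le_def.1 hE₀ v
            · rw [hE₁, Finsupp.mapDomain_notin_range _ _ fun ⟨v, hv⟩ => hX ⟨v, hv⟩]; rfl
          rw [hD₁, Finsupp.smul_apply]
          exact nsmul_nonneg (by simpa using Finsupp.le_def.1 h w) p
        rcases eq_or_ne w Pinf with rfl | hw
        · simp only [hD₂, Finsupp.add_apply, Finsupp.single_eq_same, hM]
          have : ((j * N : ℕ) : ℤ) ≤ ((p * g * N : ℕ) : ℤ) := by
            exact_mod_cast Nat.mul_le_mul_right N hj
          push_cast at this ⊢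
          linarith
        · simp [hD₂, Finsupp.single_eq_of_ne hw, h1]
    · exact ⟨0, fun h => absurd h hj⟩
  choose β hβ using hpow
  -- the residual solution
  set y : Fin g → Fk := fun i => xb - algebraMap k Fk (c₀ i) with hy
  have hy0 : ∀ i, y i ≠ 0 := fun i h => by
    have := hc₀ i
    simp only [hy] at h
    rw [h] at this
    simp at this
  have hordy : ∀ i j, (Q i).ord (y j) = if j = i then 1 else 0 := by
    intro i j
    split_ifs with h
    · rw [h]; exact hc₀ i
    · have hv : HasValue (Q i) xb (c₀ i) := Or.inr (hc₀ i).ge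
      exact (HasValue.ord_eq_zero (HasValue.sub hv (hasValue_algebraMap (Q i) (c₀ j)))
        (sub_ne_zero.2 fun e => h (hc₀inj e.symm))).2
  set P₀ : Fk := ∏ i, y i ^ p with hP₀
  have hP₀ne : P₀ ≠ 0 := Finset.prod_ne_zero_iff.2 fun i _ => pow_ne_zero _ (hy0 i)
  have hordP₀ : ∀ w : Place k Fk, w.ord P₀ = ∑ i, (p : ℤ) * w.ord (y i) := by
    intro w
    have : ∀ s : Finset (Fin g), w.ord (∏ i ∈ s, y i ^ p) = ∑ i ∈ s, (p : ℤ) * w.ord (y i) := by
      intro s
      induction s using Finset.induction with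
      | empty => simp
      | @insert a s ha ih =>
        rw [Finset.prod_insert ha, Finset.sum_insert ha, w.ord_mul (pow_ne_zero _ (hy0 a))
          (Finset.prod_ne_zero_iff.2 fun i _ => pow_ne_zero _ (hy0 i)), place_ord_pow, ih]
    exact this _
  set hb : Fk := P₀ / r with hhb
  have hhb0 : hb ≠ 0 := div_ne_zero hP₀ne hr
  have hordh : ∀ w : Place k Fk, w.ord hb = w.ord P₀ - w.ord r := fun w => by
    rw [hhb, div_eq_mul_inv, w.ord_mul hP₀ne (inv_ne_zero hr), w.ord_inv]; ring
  have hpoley : ∀ i (w : Place k Fk), w ≠ Qi → AtLeast w 0 (y i) := fun i w hw => by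
    have := FA.Curve.mem_riemannRochSpace.1 hxb w
    rw [Finsupp.single_eq_of_ne hw, neg_zero] at this
    exact this.sub (atLeast_algebraMap _)
  have hhmem : hb ∈ riemannRochSpace (R.push D₂) := by
    rw [hpushD₂, FA.Curve.mem_riemannRochSpace]
    intro w
    refine Or.inr ?_
    rw [hordh, hordP₀, hdiv]
    have hE₀w : 0 ≤ E₀ w := by simpa using Finsupp.le_def.1 hE₀ w
    rcases eq_or_ne w Qi with rfl | hw
    · rw [hE0 _ hQiQ, hQiE, Finsupp.single_eq_same]
      have h1 : ∀ i ∈ (Finset.univ : Finset (Fin g)), -(p : ℤ) * N ≤ (p : ℤ) * w.ord (y i) :=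
        fun i _ => by
          have hx' := FA.Curve.mem_riemannRochSpace.1 hxb w
          rw [Finsupp.single_eq_same] at hx'
          have := (atLeast_iff (hy0 i)).1
            (hx'.sub ((atLeast_algebraMap (c₀ i)).mono (by simp)))
          nlinarith
      have h2 := Finset.sum_le_sum h1
      simp only [Finset.sum_const, Finset.card_univ, Fintype.card_fin, nsmul_eq_mul] at h2
      rw [hM]
      push_cast
      nlinarith
    · rw [Finsupp.single_eq_of_ne hw, neg_zero]
      have hnn : ∀ i, 0 ≤ (p : ℤ) * w.ord (y i) := fun i =>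
        mul_nonneg (Int.natCast_nonneg p) ((atLeast_iff (hy0 i)).1 (hpoley i w hw))
      by_cases hwQ : ∃ i, Q i = w
      · obtain ⟨i, rfl⟩ := hwQ
        have := Finset.single_le_sum (fun j _ => hnn j) (Finset.mem_univ i)
        rw [hordy, if_pos rfl] at this
        rw [hEi, hdis]
        linarith
      · push Not at hwQ
        rw [hE0 w hwQ]
        have := Finset.sum_nonneg fun j (_ : j ∈ (Finset.univ : Finset (Fin g))) => hnn j
        have : 0 ≤ (p : ℤ) * E₀ w := mul_nonneg (Int.natCast_nonneg p) hE₀w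
        linarith
  set d₀ : Fin n₂ → k := fun l => vb.repr ⟨hb, hhmem⟩ l with hd₀
  have hhsum : ∑ l, algebraMap k Fk (d₀ l) * (vb l : Fk) = hb := by
    have := congrArg Subtype.val (vb.sum_repr ⟨hb, hhmem⟩)
    rw [AddSubmonoidClass.coe_finsetSum] at this
    simpa [Algebra.smul_def] using this
  let z₀ : Var n₁ n₂ g → k := Sum.elim 0 (Sum.elim d₀ c₀)
  let ι : A →+* Fk := (algebraMap k Fk).comp R.π
  have hevalk : ∀ q : MvPolynomial (Var n₁ n₂ g) A, algebraMap k Fk (MvPolynomial.eval₂ R.π z₀ q) =
      MvPolynomial.eval₂ ι (fun j => algebraMap k Fk (z₀ j)) q := fun q =>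
    MvPolynomial.eval₂_comp_left (algebraMap k Fk) R.π z₀ q
  have hzero : ∀ t, MvPolynomial.eval₂ R.π z₀ (eqs p α₀ α β t) = 0 := by
    have h := sum_eqs p α₀ α β ι (fun j => algebraMap k Fk (z₀ j)) r (fun m => ((sb m : _) : Fk))
      (fun l => ((vb l : _) : Fk)) xb rb hα₀' hα' (fun j hj => (hβ j hj).2)
    simp only [z₀, Sum.elim_inl, Sum.elim_inr, Pi.zero_apply, map_zero, zero_mul,
      Finset.sum_const_zero, add_zero, hhsum] at h
    rw [hhb, mul_div_cancel₀ _ hr, show ∏ i, (xb - algebraMap k Fk (c₀ i)) ^ p = P₀ from rfl,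
      sub_self] at h
    refine Fintype.linearIndependent_iff.1 hli _ ?_
    simpa [Algebra.smul_def, hevalk] using h
  let e₀ : Var n₁ n₂ g ≃ Fin n := Fintype.equivFinOfCardEq (by simpa using hcard)
  -- the Jacobian
  have hJ : (Matrix.of fun i j => MvPolynomial.eval₂ R.π z₀
      (MvPolynomial.pderiv j (eqs p α₀ α β (e₀ i)))).det ≠ 0 := by
    intro hdet
    obtain ⟨δ, hδ0, hδ⟩ := Matrix.exists_mulVec_eq_zero_iff.2 hdet
    refine hδ0 ?_
    set δ' : Var n₁ n₂ g → Fk := fun j => algebraMap k Fk (δ j) with hδ'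
    have h := sum_eqs p α₀ α β ((TrivSqZeroExt.inlHom Fk Fk).comp ι)
      (fun j => TrivSqZeroExt.inl (algebraMap k Fk (z₀ j)) + TrivSqZeroExt.inr (δ' j))
      (TrivSqZeroExt.inl r) (fun m => TrivSqZeroExt.inl ((sb m : _) : Fk))
      (fun l => TrivSqZeroExt.inl ((vb l : _) : Fk)) (TrivSqZeroExt.inl xb)
      (fun t => TrivSqZeroExt.inl (rb t))
      (fun l => by
        have := congrArg (TrivSqZeroExt.inlHom Fk Fk) (hα₀' l)
        simp only [map_mul, map_sum] at this
        exact this)
      (fun m l => by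
        have := congrArg (TrivSqZeroExt.inlHom Fk Fk) (hα' m l)
        simp only [map_mul, map_sum] at this
        exact this)
      (fun j hj => by
        have := congrArg (TrivSqZeroExt.inlHom Fk Fk) (hβ j hj).2
        simp only [map_mul, map_sum, map_pow] at this
        exact this)
    have hlhs : ∀ t, MvPolynomial.eval₂ ((TrivSqZeroExt.inlHom Fk Fk).comp ι)
        (fun j => TrivSqZeroExt.inl (algebraMap k Fk (z₀ j)) + TrivSqZeroExt.inr (δ' j))
        (eqs p α₀ α β t) = 0 := by
      intro t
      rw [eval₂_dual, ← hevalk, hzero, map_zero, TrivSqZeroExt.inl_zero, zero_add]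
      have h1 := congrFun hδ (e₀.symm t)
      simp only [Matrix.mulVec, dotProduct, Matrix.of_apply, Equiv.apply_symm_apply,
        Pi.zero_apply] at h1
      have h2 : ∑ j, δ' j * MvPolynomial.eval₂ ι (fun j => algebraMap k Fk (z₀ j))
          (MvPolynomial.pderiv j (eqs p α₀ α β t)) = 0 := by
        simp only [hδ', ← hevalk, ← map_mul, ← map_sum]
        rw [show ∑ j, δ j * MvPolynomial.eval₂ R.π z₀ (MvPolynomial.pderiv j (eqs p α₀ α β t)) = 0
          from (Finset.sum_congr rfl fun j _ => mul_comm _ _).trans h1, map_zero]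
      rw [h2, TrivSqZeroExt.inr_zero]
    rw [Finset.sum_eq_zero fun t _ => by rw [hlhs t, zero_mul]] at h
    have hfac : ∀ i, TrivSqZeroExt.inl xb -
        (TrivSqZeroExt.inl (algebraMap k Fk (c₀ i)) + TrivSqZeroExt.inr (δ' (Sum.inr (Sum.inr i)))) =
          (TrivSqZeroExt.inl (y i) + TrivSqZeroExt.inr (-δ' (Sum.inr (Sum.inr i))) :
            TrivSqZeroExt Fk Fk) := fun i => by
      ext <;> simp [hy]
    simp only [z₀, Sum.elim_inl, Sum.elim_inr, Pi.zero_apply, map_zero, hfac] at h
    rw [prod_dual _ _ _ _ fun i _ => hy0 i] at h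
    set s := ∑ m, δ' (Sum.inl m) * ((sb m : _) : Fk) with hs
    set dh := ∑ l, δ' (Sum.inr (Sum.inl l)) * ((vb l : _) : Fk) with hdh
    have h' := congrArg TrivSqZeroExt.snd h
    simp only [TrivSqZeroExt.snd_zero, TrivSqZeroExt.snd_sub, TrivSqZeroExt.snd_mul,
      TrivSqZeroExt.fst_add, TrivSqZeroExt.snd_add, TrivSqZeroExt.fst_sum, TrivSqZeroExt.snd_sum,
      TrivSqZeroExt.fst_mul, TrivSqZeroExt.fst_inl, TrivSqZeroExt.snd_inl, TrivSqZeroExt.fst_inr,
      TrivSqZeroExt.snd_inr, smul_eq_mul, MulOpposite.smul_eq_mul_unop, MulOpposite.unop_op,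
      zero_mul, mul_zero, add_zero, zero_add, Finset.sum_const_zero, hhsum, ← hs, ← hdh,
      ← hP₀] at h'
    set σ := ∑ i, (p : Fk) * -δ' (Sum.inr (Sum.inr i)) / y i with hσ
    set w := s / r with hw
    have hwd : w + dh / hb = σ := by
      rw [hw, hhb]
      field_simp
      rw [show hb = P₀ / r from hhb] at h'
      field_simp at h'
      linear_combination -h'
    have hsmem : s ∈ riemannRochSpace H := by
      rw [hs]
      refine sum_mem fun m _ => ?_
      rw [← Algebra.smul_def]
      exact Submodule.smul_mem _ _ (sb m).2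
    have hdhmem : dh ∈ riemannRochSpace (R.push D₂) := by
      rw [hdh]
      refine sum_mem fun l _ => ?_
      rw [← Algebra.smul_def]
      exact Submodule.smul_mem _ _ (vb l).2
    have hterm : ∀ i j, AtLeast (Q i) (if j = i then -1 else 0)
        ((p : Fk) * -δ' (Sum.inr (Sum.inr j)) / y j) := by
      intro i j
      have hc : (p : Fk) * -δ' (Sum.inr (Sum.inr j)) =
          algebraMap k Fk (p * -δ (Sum.inr (Sum.inr j))) := by simp [hδ']
      rw [hc, div_eq_mul_inv]
      refine AtLeast.smul (Or.inr ?_) _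
      rw [(Q i).ord_inv, hordy]
      split_ifs <;> simp
    have hdhQ : ∀ i, AtLeast (Q i) 0 (dh / hb) := by
      intro i
      have h1 := FA.Curve.mem_riemannRochSpace.1 hdhmem (Q i)
      rw [hpushD₂, Finsupp.single_eq_of_ne (hQiQ i), neg_zero] at h1
      have h2 : (Q i).ord hb = 0 := by
        rw [hordh, hordP₀, hdiv, hEi, hdis, Finset.sum_eq_single i
          (fun j _ hj => by rw [hordy, if_neg hj, mul_zero])
          (fun h => absurd (Finset.mem_univ i) h), hordy, if_pos rfl]
        ring
      rw [div_eq_mul_inv]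
      have := h1.mul (Or.inr (le_of_eq (by rw [(Q i).ord_inv, h2]; rfl)) :
        AtLeast (Q i) 0 hb⁻¹)
      simpa using this
    have hwmem : w ∈ riemannRochSpace E := by
      rw [FA.Curve.mem_riemannRochSpace]
      intro v
      by_cases hvQ : ∃ i, Q i = v
      · obtain ⟨i, rfl⟩ := hvQ
        rw [hEi, show w = σ - dh / hb by rw [← hwd]; ring]
        refine AtLeast.sub (atLeast_sum fun j _ => (hterm i j).mono ?_) ((hdhQ i).mono (by simp))
        split_ifs <;> simp
      · push Not at hvQ
        rw [hE0 v hvQ, neg_zero]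
        rcases eq_or_ne s 0 with hs0 | hs0
        · rw [hw, hs0, zero_div]; exact atLeast_zero
        refine Or.inr ?_
        have h1 := (atLeast_iff hs0).1 (FA.Curve.mem_riemannRochSpace.1 hsmem v)
        rw [hw, div_eq_mul_inv, v.ord_mul hs0 (inv_ne_zero hr), v.ord_inv, hdiv, hE0 v hvQ]
        simp only [hH, Finsupp.sub_apply, Finsupp.smul_apply, nsmul_eq_mul] at h1
        have h2 : 0 ≤ (Finsupp.single Qi (1 : ℤ)) v := by
          simpa using Finsupp.le_def.1 (Finsupp.single_nonneg.2 (zero_le_one (α := ℤ)) :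
            0 ≤ Finsupp.single Qi (1 : ℤ)) v
        linarith
    have hw0 : w = 0 := by
      refine eq_zero_of_mem_of_hasValue (Q := Qi) hk hell (pts_nonneg _ _) hwmem ?_
      rw [hasValue_zero_iff]
      rcases eq_or_ne s 0 with hs0 | hs0
      · rw [hw, hs0, zero_div]; exact atLeast_zero
      refine Or.inr ?_
      have h1 := (atLeast_iff hs0).1 (FA.Curve.mem_riemannRochSpace.1 hsmem Qi)
      rw [hw, div_eq_mul_inv, Qi.ord_mul hs0 (inv_ne_zero hr), Qi.ord_inv, hdiv, hE0 Qi hQiQ, hQiE]
      simp only [hH, Finsupp.sub_apply, Finsupp.smul_apply, hQiE, smul_zero,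
        Finsupp.single_eq_same] at h1
      linarith
    have hs0 : s = 0 := (div_eq_zero_iff.1 (hw ▸ hw0)).resolve_right hr
    have hA : ∀ m, δ (Sum.inl m) = 0 := by
      refine Fintype.linearIndependent_iff.1 sb.linearIndependent (fun m => δ (Sum.inl m))
        (Subtype.ext ?_)
      rw [AddSubmonoidClass.coe_finsetSum]
      simpa [Algebra.smul_def, hs, hδ'] using hs0
    have ha : ∀ i, δ (Sum.inr (Sum.inr i)) = 0 := by
      intro i
      by_contra hne
      rw [hw0, zero_add] at hwd
      have h1 := hdhQ i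
      rw [hwd, hσ, ← Finset.add_sum_erase _ _ (Finset.mem_univ i)] at h1
      have h2 : AtLeast (Q i) 0 (∑ j ∈ Finset.univ.erase i,
          (p : Fk) * -δ' (Sum.inr (Sum.inr j)) / y j) :=
        atLeast_sum fun j hj => (hterm i j).mono (by rw [if_neg (Finset.ne_of_mem_erase hj)])
      have h3 := h1.sub h2
      rw [add_sub_cancel_right, show (p : Fk) * -δ' (Sum.inr (Sum.inr i)) =
        algebraMap k Fk (p * -δ (Sum.inr (Sum.inr i))) by simp [hδ'], div_eq_mul_inv] at h3
      have hne' : algebraMap k Fk (p * -δ (Sum.inr (Sum.inr i))) ≠ 0 :=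
        (_root_.map_ne_zero _).2 (mul_ne_zero hp (neg_ne_zero.2 hne))
      have h4 := (atLeast_iff (mul_ne_zero hne' (inv_ne_zero (hy0 i)))).1 h3
      rw [(Q i).ord_mul hne' (inv_ne_zero (hy0 i)), place_ord_algebraMap, (Q i).ord_inv, hordy,
        if_pos rfl] at h4
      omega
    have hB : ∀ l, δ (Sum.inr (Sum.inl l)) = 0 := by
      have hdh0 : dh = 0 := by
        rw [hw0, zero_add, hσ, Finset.sum_eq_zero fun i _ => by simp [hδ', ha i]] at hwd
        exact (div_eq_zero_iff.1 hwd).resolve_right hhb0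
      refine Fintype.linearIndependent_iff.1 vb.linearIndependent
        (fun l => δ (Sum.inr (Sum.inl l))) (Subtype.ext ?_)
      rw [AddSubmonoidClass.coe_finsetSum]
      simpa [Algebra.smul_def, hdh, hδ'] using hdh0
    funext j
    rcases j with m | l | i
    exacts [hA m, hB l, ha i]
  haveI : IsLocalHom R.π := ⟨fun a ha => by
    rw [isUnit_iff_ne_zero, Ne, R.π_eq_zero, not_lt] at ha
    exact (ValuationSubring.valuation_eq_one_iff A a).2 (le_antisymm (A.valuation_le_one a) ha)⟩
  obtain ⟨X, hX, hXπ⟩ := Hensel.exists_solution A R.π (fun i => eqs p α₀ α β (e₀ i)) z₀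
    (fun i => hzero _) hJ
  -- the function
  let φ : A →+* F := (algebraMap K F).comp A.subtype
  set f := u₀ + ∑ m, φ (X (Sum.inl m)) * u m with hf
  set h' := ∑ l, φ (X (Sum.inr (Sum.inl l))) * v l with hh'
  set a : Fin g → A := fun i => X (Sum.inr (Sum.inr i)) with ha
  have hid : f * h' = ∏ i, (x - algebraMap K F (a i : K)) ^ p := by
    have h := sum_eqs p α₀ α β φ (fun j => φ (X j)) u₀ u v x e hα₀ hα (fun j hj => (hβ j hj).1)
    rw [Finset.sum_eq_zero fun t _ => by
      rw [show MvPolynomial.eval₂ φ (fun j => φ (X j)) (eqs p α₀ α β t) =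
        φ (MvPolynomial.eval X (eqs p α₀ α β (e₀ (e₀.symm t)))) by
          rw [Equiv.apply_symm_apply]
          exact (MvPolynomial.eval₂_comp_left φ (RingHom.id A) X _).symm, hX, map_zero,
        zero_mul]] at h
    exact sub_eq_zero.1 h.symm
  have hfmem : f ∈ riemannRochSpace D₁ := Submodule.add_mem _ hu₀ (Submodule.sum_mem _ fun m _ => by
    show algebraMap K F (X (Sum.inl m) : K) * u m ∈ _
    rw [← Algebra.smul_def]; exact Submodule.smul_mem _ _ (hu m))
  have hhmem' : h' ∈ riemannRochSpace D₂ := Submodule.sum_mem _ fun l _ => by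
    show algebraMap K F (X (Sum.inr (Sum.inl l)) : K) * v l ∈ _
    rw [← Algebra.smul_def]; exact Submodule.smul_mem _ _ (hv l)
  have hfred : R.Red f r := by
    have : ∀ s : Finset (Fin n₁), R.Red (∑ m ∈ s, φ (X (Sum.inl m)) * u m) 0 := by
      intro s
      induction s using Finset.induction with
      | empty => simpa using red_zero
      | @insert j s hj ih =>
        rw [Finset.sum_insert hj]
        have := ((red_const (R := R) (X (Sum.inl j))).mul (hur j)).add ih
        rwa [hXπ, show z₀ (Sum.inl j) = 0 from rfl, map_zero, zero_mul, zero_add] at this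
    simpa using hu₀r.add (this Finset.univ)
  have hf0 : f ≠ 0 := hfred.ne_zero hr
  -- the zeros in the discs
  have hdisc : ∀ i, ∃ P : Place K F, R.spl P = Q i ∧ P.ord f = p ∧
      ∀ P', R.spl P' = Q i → P' ≠ P → P'.ord f = 0 := by
    intro i
    have hnpx : NoPole R (Q i) x := fun P hP => by
      have := FA.Curve.mem_riemannRochSpace.1 hx P
      rwa [Finsupp.single_eq_of_ne (fun h => hQiQ i (by rw [← hP, h, hPi, hspl])), neg_zero] at this
    have ht : IsCoord R (Q i) (x - algebraMap K F (a i : K)) := by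
      refine ⟨xb - algebraMap k Fk (R.π (a i)), hxr.sub (red_const (a i)), ?_,
        fun P hP => (hnpx P hP).sub (atLeast_algebraMap _)⟩
      rw [ha, hXπ]; exact hc₀ i
    obtain ⟨rt, hrt, hrt1, hnpt⟩ := ht
    have hrt0 : rt ≠ 0 := fun h => by simp [h] at hrt1
    obtain ⟨P, hP, hPne⟩ : ∃ P, R.spl P = Q i ∧ P.ord (x - algebraMap K F (a i : K)) ≠ 0 := by
      by_contra hno
      push Not at hno
      have := push_divOf hF hrt hrt0 (Q i)
      rw [push_apply, hrt1, Finset.sum_eq_zero fun P _ => by
        split_ifs with h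
        · rw [divOf_apply]; exact hno P h
        · rfl] at this
      omega
    obtain ⟨b, hb, -, hb1, hb2⟩ := IsCoord.exists_value hF
      (Q := Q i) (t := x - algebraMap K F (a i : K)) ⟨rt, hrt, hrt1, hnpt⟩ hP
    have hpos := (atLeast_iff (hrt.ne_zero hrt0)).1 (hnpt P hP)
    have hb0 : b = 0 := hb.unique (hasValue_zero_of_pos (by omega))
    rw [hb0, map_zero, sub_zero] at hb1 hb2
    have hnf : ∀ X', R.spl X' = Q i → 0 ≤ X'.ord f := fun X' hX' => by
      have := (atLeast_iff hf0).1 (FA.Curve.mem_riemannRochSpace.1 hfmem X')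
      rwa [hD₁, Finsupp.smul_apply, hE₁0 X' (by rw [hX', hdis]), smul_zero, neg_zero] at this
    have hzero : ∀ P', R.spl P' = Q i → P' ≠ P → P'.ord f = 0 := by
      intro P' hP' hne
      have h1 := congrArg P'.ord hid
      have hx0 : ∀ j, x - algebraMap K F (a j : K) ≠ 0 ∧ P'.ord (x - algebraMap K F (a j : K)) = 0 := by
        intro j
        rcases eq_or_ne j i with rfl | hji
        · exact ⟨hrt.ne_zero hrt0, hb2 P' hP' hne⟩
        · obtain ⟨c, hc⟩ := exists_hasValue hF (hnpx P' hP')
          obtain ⟨hcA, hcv⟩ := hasValue_red hF hxr hnpx hP' hc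
          refine (hc.sub (hasValue_algebraMap P' (a j : K))).ord_eq_zero (sub_ne_zero.2 fun e => ?_)
          have h2 := hcv.unique (Or.inr (hc₀ i).ge : HasValue (Q i) xb (c₀ i))
          rw [show (⟨c, hcA⟩ : A) = a j from Subtype.ext e, ha, hXπ] at h2
          exact hji (hc₀inj h2)
      have hne' : ∀ j, x - algebraMap K F (a j : K) ≠ 0 := fun j => (hx0 j).1
      have hord : ∀ s : Finset (Fin g),
          P'.ord (∏ j ∈ s, (x - algebraMap K F (a j : K)) ^ p) = 0 := by
        intro s
        induction s using Finset.induction with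
        | empty => simp
        | @insert j s hj ih =>
          rw [Finset.prod_insert hj, P'.ord_mul (pow_ne_zero _ (hne' j))
            (Finset.prod_ne_zero_iff.2 fun i _ => pow_ne_zero _ (hne' i)), place_ord_pow,
            (hx0 j).2, ih]
          simp
      have hh0 : h' ≠ 0 := fun h => by
        rw [h, mul_zero] at hid
        exact Finset.prod_ne_zero_iff.2 (fun i _ => pow_ne_zero p (hne' i)) hid.symm
      rw [P'.ord_mul hf0 hh0, hord] at h1
      have h3 := (atLeast_iff hh0).1 (FA.Curve.mem_riemannRochSpace.1 hhmem' P')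
      rw [hD₂, Finsupp.single_eq_of_ne (fun h => hQiQ i (by rw [← hP', h, hPi, hspl])), neg_zero]
        at h3
      have h4 := hnf P' hP'
      omega
    refine ⟨P, hP, ?_, hzero⟩
    have h := push_divOf hF hfred hr (Q i)
    rw [push_apply, hdiv, hEi, hdis, Finset.sum_eq_single P
      (fun P' _ hne => by
        split_ifs with h'
        · rw [divOf_apply]; exact hzero P' h' hne
        · rfl)
      (fun h' => by rw [if_pos hP]; exact Finsupp.notMem_support_iff.1 h'),
      if_pos hP, divOf_apply] at h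
    rw [h]; ring
  choose P hP hPord hPzero using hdisc
  set Et : Divisor K F := ∑ i, Finsupp.single (P i) 1 with hEt
  have hdegEt : Divisor.degree Et = g := by simp [hEt, map_sum, hF.deg_eq_one]
  have hPinj : Function.Injective P := fun i j h => hQ (by rw [← hP i, h, hP j])
  have hfle : p • Et ≤ divOf hF f + D₁ := by
    refine Finsupp.le_def.2 fun X => ?_
    rw [Finsupp.add_apply, divOf_apply, Finsupp.smul_apply, hEt, Finset.sum_apply']
    by_cases hX : ∃ i, P i = X
    · obtain ⟨i, rfl⟩ := hX
      rw [Finset.sum_eq_single i (fun j _ hj => Finsupp.single_eq_of_ne fun h => hj (hPinj h.symm))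
        (fun h => absurd (Finset.mem_univ i) h), Finsupp.single_eq_same, hPord, hD₁,
        Finsupp.smul_apply, hE₁0 _ (by rw [hP, hdis])]
      simp
    · push Not at hX
      rw [Finset.sum_eq_zero fun i _ => Finsupp.single_eq_of_ne (hX i).symm, smul_zero]
      have := (atLeast_iff hf0).1 (FA.Curve.mem_riemannRochSpace.1 hfmem X)
      omega
  have heq : p • Et = divOf hF f + D₁ := by
    refine Finsupp.ext fun X => le_antisymm (Finsupp.le_def.1 hfle X) ?_
    set G := divOf hF f + D₁ - p • Et with hG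
    have hG0 : 0 ≤ G := sub_nonneg.2 hfle
    have h1 : Finsupp.single X (G X) ≤ G := by
      refine Finsupp.le_def.2 fun w => ?_
      rcases eq_or_ne w X with rfl | hw
      · simp
      · rw [Finsupp.single_eq_of_ne hw]; simpa using Finsupp.le_def.1 hG0 w
    have h2 := degree_mono hF h1
    rw [Divisor.degree_single, hF.deg_eq_one, hG, map_sub, map_add, degree_divOf, hdegD₁,
      map_nsmul, hdegEt] at h2
    simp only [Finsupp.coe_sub, Finsupp.coe_add, Pi.sub_apply, Pi.add_apply, Nat.cast_one,
      mul_one, nsmul_eq_mul] at h2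
    simp only [Finsupp.coe_add, Pi.add_apply, nsmul_eq_mul]
    linarith
  refine ⟨Et - E₁, ?_, ⟨f, hf0, fun X => ?_⟩, ?_⟩
  · rw [map_sub, hdegEt, ← degree_push hF hk (R := R), hpushE₁, hdegE₀, sub_self]
  · have := congrArg (fun D : Divisor K F => D X) heq
    simp only [hD₁, Finsupp.add_apply, divOf_apply, Finsupp.smul_apply] at this
    rw [Finsupp.smul_apply, Finsupp.sub_apply, smul_sub, this]
    ring
  · rw [push, Finsupp.mapDomain_sub]
    congr 1
    rw [hEt, Finsupp.mapDomain_finsetSum, hE, pts]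
    exact Finset.sum_congr rfl fun i _ => by rw [Finsupp.mapDomain_single, hP]

/-- Every class of order dividing `p` on the special fibre is the reduction of one. -/
theorem exists_torsion_lift (hg : genus K F ≤ genus k Fk) {p : ℕ} (hp : (p : k) ≠ 0)
    {D : Divisor k Fk} (hD : Divisor.degree D = 0) (hpD : (p • D).IsPrincipal) :
    ∃ D' : Divisor K F, Divisor.degree D' = 0 ∧ (p • D').IsPrincipal ∧
      (R.push D' - D).IsPrincipal := by
  classical
  by_cases hprin : D.IsPrincipal
  · refine ⟨0, map_zero _, by rw [smul_zero]; exact Divisor.principal.zero_mem, ?_⟩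
    rw [push, Finsupp.mapDomain_zero, zero_sub]
    exact Divisor.principal.neg_mem hprin
  obtain ⟨hg0, Q, hQ, -, hell, hQD⟩ := exists_position hk hD hprin ∅
  set E := pts Finset.univ Q with hE
  have hdegE : Divisor.degree E = genus k Fk := by simp [hE, pts, map_sum, hk.deg_eq_one]
  have hpos : 0 < ell (E - D) := by
    have := riemann_inequality hk (E - D)
    rw [map_sub, hdegE, hD] at this
    omega
  obtain ⟨f, hf0, hle⟩ := exists_effective_of_ell_pos hk hpos
  set E₀ := E - D + divOf hk f
  have hdis : ∀ i, E₀ (Q i) = 0 := by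
    intro i
    by_contra hne
    have hnn : ∀ v, 0 ≤ E₀ v := fun v => by simpa using Finsupp.le_def.1 hle v
    have hle' : Finsupp.single (Q i) 1 ≤ E₀ := by
      refine Finsupp.le_def.2 fun v => ?_
      rcases eq_or_ne v (Q i) with rfl | hv
      · have := hnn (Q i); rw [Finsupp.single_eq_same]; omega
      · rw [Finsupp.single_eq_of_ne hv]; exact hnn v
    have hmem : f ∈ riemannRochSpace (E - Finsupp.single (Q i) 1 - D) := by
      rw [FA.Curve.mem_riemannRochSpace]
      intro v
      have := Finsupp.le_def.1 hle' v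
      simp only [E₀, Finsupp.add_apply, Finsupp.sub_apply, divOf_apply] at this
      exact Or.inr (by simp only [Finsupp.sub_apply]; omega)
    haveI := finite_riemannRochSpace hk (E - Finsupp.single (Q i) 1 - D)
    have h0 := hQD i
    rw [ell, Nat.cast_eq_zero, Submodule.finrank_eq_zero] at h0
    rw [h0, Submodule.mem_bot] at hmem
    exact hf0 hmem
  obtain ⟨fD, hfD0, hfD⟩ := hpD
  set r := fD * f⁻¹ ^ p with hrdef
  have hr0 : r ≠ 0 := mul_ne_zero hfD0 (pow_ne_zero _ (inv_ne_zero hf0))
  have hdiv : ∀ v, v.ord r = p * (E v - E₀ v) := by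
    intro v
    have h1 := hfD v
    rw [Finsupp.smul_apply, nsmul_eq_mul] at h1
    rw [hrdef, v.ord_mul hfD0 (pow_ne_zero _ (inv_ne_zero hf0)), place_ord_pow, v.ord_inv]
    simp only [E₀, Finsupp.add_apply, Finsupp.sub_apply, divOf_apply]
    linarith
  obtain ⟨D', h1, h2, h3⟩ :=
    exists_lift_core hF hk (R := R) rfl hg hp hQ hell hg0 hle hdis hr0 hdiv
  refine ⟨D', h1, h2, ⟨f⁻¹, inv_ne_zero hf0, fun v => ?_⟩⟩
  rw [h3, v.ord_inv]
  simp only [E₀, Finsupp.add_apply, Finsupp.sub_apply, divOf_apply, hE]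
  ring

end FA.ModField.TorsionLift
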