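import Fermat.Agent.ModField.Semistable.Mono.HeckeRed
import Fermat.Agent.ModField.Semistable.Mono.TorsionLift
import Fermat.Agent.ModField.Semistable.X0.Fibre
import Fermat.Agent.ModField.Congruence.Setup
import Fermat.Agent.CurveRed.GoodReduction

/-!
# The reduction of torsion of level `M`

It is injective, and reaches every class of functions all of whose orders are divisible by `p`.
-/

set_option autoImplicit false
set_option linter.style.haveILetI false
set_option linter.unusedSectionVars false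
set_option synthInstance.maxHeartbeats 200000
set_option maxHeartbeats 400000

noncomputable section

namespace FA.ModField

open ModularCurve AlgebraicCurve FA.Level FA.Curve FA.CurveRed FA.CurveRed.Modular

section Orders

variable (k Fk : Type*) [Field k] [Field Fk] [Algebra k Fk] (n : ℕ)

/-- The order at `Q` modulo `n` of a unit. -/
def ordHom (Q : Place k Fk) : Fkˣ →* Multiplicative (ZMod n) where
  toFun u := Multiplicative.ofAdd ((Q.ord (u : Fk) : ℤ) : ZMod n)
  map_one' := by rw [Units.val_one, Q.ord_one, Int.cast_zero, ofAdd_zero]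
  map_mul' a b := by
    rw [Units.val_mul, Q.ord_mul a.ne_zero b.ne_zero, Int.cast_add, ofAdd_add]

/-- The order at `Q` modulo `n` on the target of the reduction. -/
def ordMod (Q : Place k Fk) : RedTarget k Fk n →+ ZMod n :=
  let φ := QuotientGroup.lift (powConst k Fk n) (ordHom k Fk n Q) (sup_le
    (by
      rintro _ ⟨a, rfl⟩
      refine MonoidHom.mem_ker.2 ?_
      show Multiplicative.ofAdd ((Q.ord (algebraMap k Fk (a : k)) : ℤ) : ZMod n) = 1
      rw [place_ord_algebraMap, Int.cast_zero, ofAdd_zero])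
    (by
      rintro _ ⟨h, rfl⟩
      refine MonoidHom.mem_ker.2 ?_
      show Multiplicative.ofAdd ((Q.ord ((h : Fk) ^ n) : ℤ) : ZMod n) = 1
      rw [place_ord_pow, Int.cast_mul, Int.cast_natCast, ZMod.natCast_self, zero_mul, ofAdd_zero]))
  AddMonoidHom.mk' (fun x => Multiplicative.toAdd (φ (Additive.toMul x))) fun x y => by
    simp only [toMul_add, map_mul, toAdd_mul]

variable {k Fk}

theorem ordMod_redCls (Q : Place k Fk) {r : Fk} (hr : r ≠ 0) :
    ordMod k Fk n Q (redCls n r) = ((Q.ord r : ℤ) : ZMod n) := by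
  rw [redCls, dif_pos hr]
  rfl

theorem exists_redCls (x : RedTarget k Fk n) : ∃ r, r ≠ 0 ∧ redCls n r = x := by
  obtain ⟨u, rfl⟩ : ∃ u : Fkˣ, Additive.ofMul (QuotientGroup.mk u) = x :=
    ⟨_, QuotientGroup.out_eq' (Additive.toMul x)⟩
  refine ⟨u, u.ne_zero, ?_⟩
  rw [redCls, dif_pos u.ne_zero, Units.mk0_val]

end Orders

variable (M : ℕ) [NeZero M] (q : ℕ) [hq : Fact q.Prime] [hq0 : NeZero q]
variable {L : Type} [Field L] [Algebra ℚ L] [Algebra L ℂ] [IsAlgClosed L]
variable (A : ValuationSubring L) {k : Type} [Field k] [IsAlgClosed k] [CharP k q] (π : A →+* k)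
  (hπs : Function.Surjective π) (hπ0 : ∀ a : A, π a = 0 ↔ A.valuation a < 1) (hqM : ¬ q ∣ M)

include hπs hπ0 hqM in
theorem lowInputs : ReductionInputsAlong A π M := by
  haveI : CharZero L := charZero_of_injective_algebraMap (algebraMap ℚ L).injective
  exact reductionInputsAlong hπs hπ0 M (natCast_level_ne_zero M q A π hπs hπ0 (k := k) hqM)

/-- The reduction of level `M`, with its specialisation. -/
def lowRed : Reduction L (levelField M L) k (modularFunctionFieldFullC k M) A :=
  redOf M L hπs hπ0 (lowInputs M q A π hπs hπ0 hqM)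

theorem lowRed_compat {f : levelField M L} {r : modularFunctionFieldFullC k M}
    (h : (lowRed M q A π hπs hπ0 hqM).Red f r) : (cLow M A π hπs hπ0).Red f r := by
  obtain ⟨hf, hr⟩ := h
  have hu : Function.Injective (toUp A π M) :=
    (quotData hπs hπ0 (lowInputs M q A π hπs hπ0 hqM).choose_spec.1
      (lowInputs M q A π hπs hπ0 hqM).choose_spec.2).u_inj
  have hq := isQuot_redFun (toUp A π M) (toDown A π M) hu ⟨f, hf⟩
  have hr' : redFun (toUp A π M) (toDown A π M) hu ⟨f, hf⟩ = r := hr
  rw [hr'] at hq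
  obtain ⟨y, y', hy', e1, e2⟩ := hq
  rw [cLow, redComap_red, redN, constRedOfQuot_red]
  have hmem : ∀ z : intSeries A π M, (z : LaurentSeries A) ∈ intRing A π M := fun z =>
    ⟨show coeffMap (A.subtype : A →+* L) (z : LaurentSeries A) ∈ modularFunctionFieldFullC L M from
      (laurentBaseChange_full L M).le z.2.1, z.2.2⟩
  refine ⟨⟨y, hmem y⟩, ⟨y', hmem y'⟩, fun h0 => hy' (Subtype.ext (congrArg Subtype.val h0)),
    Subtype.ext ?_, Subtype.ext (congrArg Subtype.val e2)⟩
  show ((lvlEquiv L M f : modularFunctionFieldFullC L M) : LaurentSeries L) * _ = _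
  rw [coe_lvlEquiv]
  exact congrArg Subtype.val e1

/-- The reduction of torsion classes of level `M`. -/
def redTorLow (n : ℕ) :
    Pic0.torsion L (levelField M L) n →+ RedTarget k (modularFunctionFieldFullC k M) n :=
  redTor n (isFunctionField_level L M) (scaled_cLow M q A π hπs hπ0 hqM)

theorem exists_low_scaled (n : ℕ) (x : Pic0.torsion L (levelField M L) n) :
    ∃ (D : Divisor.degZero (K := L) (F := levelField M L)) (g : levelField M L) (c : L)
      (g' : levelField M L) (r : modularFunctionFieldFullC k M),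
      Pic0.mk D = (x : Pic0 L (levelField M L)) ∧ g ≠ 0 ∧
      (∀ P, (n : ℤ) * (D : Divisor L (levelField M L)) P = P.ord g) ∧
      c ≠ 0 ∧ g = algebraMap L _ c * g' ∧ (lowRed M q A π hπs hπ0 hqM).Red g' r ∧ r ≠ 0 ∧
      redTorLow M q A π hπs hπ0 hqM n x = redCls n r := by
  obtain ⟨D, g, hD, hg, hgD⟩ := exists_torsion_fn n x
  obtain ⟨c, g', r, hc, e, hg', hr⟩ := Reduction.exists_scale' (R := lowRed M q A π hπs hπ0 hqM) hg
  refine ⟨D, g, c, g', r, hD, hg, hgD, hc, e, hg', hr, ?_⟩
  rw [redTorLow, redTor_mk n _ _ x hD hg hgD,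
    redFn_eq n hc e (lowRed_compat M q A π hπs hπ0 hqM hg') hr]

include hπ0 in
theorem valuation_natCast_of_red {n : ℕ} (hn : (n : k) ≠ 0) : A.valuation (n : L) = 1 := by
  refine le_antisymm ((A.valuation_le_one_iff _).2 (natCast_mem A n)) (le_of_not_gt fun h => hn ?_)
  have := (hπ0 ⟨(n : L), natCast_mem A n⟩).2 h
  rwa [show (⟨(n : L), natCast_mem A n⟩ : A) = (n : A) from Subtype.ext (by simp), map_natCast]
    at this

theorem redTorLow_injective {n : ℕ} (hn : (n : k) ≠ 0) :
    Function.Injective (redTorLow M q A π hπs hπ0 hqM n) := by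
  rw [injective_iff_map_eq_zero]
  intro x hx
  obtain ⟨D, g, c, g', r, hD, hg, hgD, hc, e, hg', hr, hxr⟩ :=
    exists_low_scaled M q A π hπs hπ0 hqM n x
  rw [hxr, redCls_eq_zero_iff n hr] at hx
  obtain ⟨a, h, ha, hrh⟩ := hx
  have hn0 : n ≠ 0 := fun h0 => hn (by rw [h0, Nat.cast_zero])
  have hh : h ≠ 0 := fun h0 => hr (by rw [hrh, h0, zero_pow hn0, mul_zero])
  have hF := isFunctionField_level L M
  have hk := isFunctionField_fullC k M
  have hprin : ((D : Divisor L (levelField M L))).IsPrincipal := by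
    refine Reduction.isPrincipal_of_push_isPrincipal (R := lowRed M q A π hπs hπ0 hqM) hF hk
      (X0.genus_level_le M q A π hπs hπ0 hqM) hn0 (valuation_natCast_of_red A π hπ0 hn)
      (Divisor.mem_degZero.1 D.2) ⟨g, hg, fun P => by simpa using hgD P⟩ ⟨h, hh, fun Q => ?_⟩
    have h1 := Reduction.push_divOf hF hg' hr Q
    rw [show divOf hF g' = n • (D : Divisor L (levelField M L)) from Finsupp.ext fun P => by
      rw [divOf_apply, Finsupp.smul_apply, nsmul_eq_mul, hgD, e,
        P.ord_mul (by simpa using hc) (hg'.ne_zero hr), place_ord_algebraMap, zero_add]] at h1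
    have h2 : (lowRed M q A π hπs hπ0 hqM).push (n • (D : Divisor L (levelField M L))) =
        n • (lowRed M q A π hπs hπ0 hqM).push (D : Divisor L (levelField M L)) :=
      map_nsmul (Finsupp.mapDomain.addMonoidHom _) n _
    rw [h2, Finsupp.smul_apply, nsmul_eq_mul, hrh,
      Q.ord_mul (by simpa using ha) (pow_ne_zero n hh), place_ord_algebraMap, zero_add,
      place_ord_pow] at h1
    exact mul_left_cancel₀ (Int.natCast_ne_zero.2 hn0) h1
  refine Subtype.ext ?_
  rw [← hD, ZeroMemClass.coe_zero, Pic0.mk, QuotientAddGroup.eq_zero_iff,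
    AddSubgroup.mem_addSubgroupOf]
  exact hprin

/-- Every class with all orders divisible by `n` is the reduction of a torsion class. -/
theorem exists_redTorLow {n : ℕ} (hn : (n : k) ≠ 0) {y : RedTarget k (modularFunctionFieldFullC k M) n}
    (hy : ∀ Q, ordMod k (modularFunctionFieldFullC k M) n Q y = 0) :
    ∃ x, redTorLow M q A π hπs hπ0 hqM n x = y := by
  obtain ⟨r, hr, rfl⟩ := exists_redCls n y
  have hn0 : n ≠ 0 := fun h0 => hn (by rw [h0, Nat.cast_zero])
  have hF := isFunctionField_level L M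
  have hk := isFunctionField_fullC k M
  have hdvd : ∀ Q : Place k (modularFunctionFieldFullC k M), (n : ℤ) ∣ Q.ord r := fun Q => by
    rw [← ZMod.intCast_zmod_eq_zero_iff_dvd, ← ordMod_redCls n Q hr]
    exact hy Q
  set E : Divisor k (modularFunctionFieldFullC k M) :=
    (divOf hk r).mapRange (fun z => z / (n : ℤ)) (Int.zero_ediv _) with hE
  have hnE : ∀ Q, (n : ℤ) * E Q = Q.ord r := fun Q => by
    rw [hE, Finsupp.mapRange_apply, divOf_apply, Int.mul_ediv_cancel' (hdvd Q)]
  have hdiv : n • E = divOf hk r := Finsupp.ext fun Q => by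
    rw [Finsupp.smul_apply, nsmul_eq_mul, divOf_apply, hnE]
  have hdeg : Divisor.degree E = 0 := by
    have h := congrArg Divisor.degree hdiv
    rw [map_nsmul, degree_divOf, nsmul_eq_mul] at h
    exact (mul_eq_zero.1 h).resolve_left (Int.natCast_ne_zero.2 hn0)
  obtain ⟨D', hD'0, ⟨g, hg, hgD⟩, ⟨h, hh, hhD⟩⟩ := TorsionLift.exists_torsion_lift
    (R := lowRed M q A π hπs hπ0 hqM) hF hk (X0.genus_level_le M q A π hπs hπ0 hqM) hn hdeg
    ⟨r, hr, fun Q => by rw [hdiv, divOf_apply]⟩
  let D : Divisor.degZero (K := L) (F := levelField M L) := ⟨D', Divisor.mem_degZero.2 hD'0⟩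
  have hgD' : ∀ P, (n : ℤ) * D' P = P.ord g := fun P => by simpa using hgD P
  have hx : Pic0.mk D ∈ Pic0.torsion L (levelField M L) n := Pic0.mem_torsion.2 (by
    show Pic0.mk ((n : ℤ) • D) = 0
    rw [Pic0.mk, QuotientAddGroup.eq_zero_iff, AddSubgroup.mem_addSubgroupOf]
    exact ⟨g, hg, fun P => by
      rw [AddSubgroupClass.coe_zsmul, Finsupp.smul_apply, smul_eq_mul]; exact hgD' P⟩)
  obtain ⟨c, g', r', hc, e, hg', hr'⟩ :=
    Reduction.exists_scale' (R := lowRed M q A π hπs hπ0 hqM) hg
  refine ⟨⟨_, hx⟩, ?_⟩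
  rw [redTorLow, redTor_mk n _ _ ⟨_, hx⟩ (D := D) rfl hg hgD',
    redFn_eq n hc e (lowRed_compat M q A π hπs hπ0 hqM hg') hr']
  have hord : ∀ Q : Place k (modularFunctionFieldFullC k M), Q.ord r' = Q.ord (r * h ^ n) := fun Q => by
    have h1 := Reduction.push_divOf hF hg' hr' Q
    rw [show divOf hF g' = n • D' from Finsupp.ext fun P => by
      rw [divOf_apply, Finsupp.smul_apply, nsmul_eq_mul, hgD', e,
        P.ord_mul (by simpa using hc) (hg'.ne_zero hr'), place_ord_algebraMap, zero_add]] at h1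
    have h2 : (lowRed M q A π hπs hπ0 hqM).push (n • D') =
        n • (lowRed M q A π hπs hπ0 hqM).push D' :=
      map_nsmul (Finsupp.mapDomain.addMonoidHom _) n D'
    have h3 := hhD Q
    rw [Finsupp.sub_apply] at h3
    rw [h2, Finsupp.smul_apply, nsmul_eq_mul] at h1
    rw [Q.ord_mul hr (pow_ne_zero n hh), place_ord_pow, ← hnE, ← h1, ← h3]
    ring
  obtain ⟨b, hb, hb'⟩ := exists_const_of_ord_eq hk hr' (mul_ne_zero hr (pow_ne_zero n hh)) hord
  rw [hb', redCls_mul n (by simpa using hb) (mul_ne_zero hr (pow_ne_zero n hh)),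
    redCls_mul n hr (pow_ne_zero n hh), redCls_const n hb, redCls_pow]
  exact (zero_add (redCls n r + 0 : RedTarget k (modularFunctionFieldFullC k M) n)).trans
    (add_zero (redCls n r : RedTarget k (modularFunctionFieldFullC k M) n))

end FA.ModField
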