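import Fermat.Agent.ModField.Semistable.Mono.Scale
import Fermat.Agent.ModField.Semistable.Toric

/-!
# The coordinate of a tube

From a function without zeros and poles in all tubes whose scales on the two components differ,
every singular point gets a function with a simple zero on one branch and a simple pole on the
other and no zero or pole in its tube.
-/

set_option autoImplicit false
set_option linter.style.haveILetI false
set_option linter.unusedSectionVars false

noncomputable section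

namespace FA.ModField.FibreHyp

open AlgebraicCurve FA.Curve FA.CurveRed FA.CurveRed.ConstRed

variable {K F k : Type*} [Field K] [IsAlgClosed K] [Field F] [Algebra K F] [Field k]
  [IsAlgClosed k] {Fk : Fin 2 → Type*} [∀ i, Field (Fk i)] [∀ i, Algebra k (Fk i)]
  {A : ValuationSubring K} {J : MultiRed K F k Fk A} {hF : IsFunctionField K F}
  {hk : ∀ i, IsFunctionField k (Fk i)} {x : F} {xb : ∀ i, Fk i}

/-- A function without zeros and poles in the tubes, `ϖ^Δ` times bigger on the component `0`. -/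
structure UnitDatum (H : FibreHyp J hF hk x xb) (ϖ : K) where
  /-- the function -/
  u : F
  u_ne : u ≠ 0
  clean : ∀ s, H.CleanAt s u
  /-- the scale on the component `1` -/
  d : K
  /-- the difference of the scales -/
  Δ : ℕ
  Δ_pos : 0 < Δ
  d_val : A.valuation d = A.valuation ϖ ^ Δ
  lt_one : A.valuation ϖ < 1
  /-- the reductions -/
  r : ∀ i, Fk i
  r_ne : ∀ i, r i ≠ 0
  d_ne : d ≠ 0
  red0 : (J.C 0).Red u (r 0)
  red1 : (J.C 1).Red (algebraMap K F d⁻¹ * u) (r 1)

namespace UnitDatum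

variable {H : FibreHyp J hF hk x xb} {ϖ : K} (U : H.UnitDatum ϖ)

/-- The scales. -/
def c : Fin 2 → K := ![1, U.d]

theorem c_ne (i : Fin 2) : U.c i ≠ 0 := by fin_cases i <;> simp [c, U.d_ne]

theorem u_eq (i : Fin 2) : U.u = algebraMap K F (U.c i) * (algebraMap K F (U.c i)⁻¹ * U.u) := by
  rw [← mul_assoc, ← map_mul, mul_inv_cancel₀ (U.c_ne i), map_one, one_mul]

theorem red (i : Fin 2) : (J.C i).Red (algebraMap K F (U.c i)⁻¹ * U.u) (U.r i) := by
  revert i
  rw [Fin.forall_fin_two]
  refine ⟨?_, U.red1⟩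
  simpa [c] using U.red0

theorem d_lt : A.valuation U.d < 1 := by
  rw [U.d_val]
  exact pow_lt_one₀ zero_le' U.lt_one U.Δ_pos.ne'

/-- The order at the branch on the component `0`. -/
def δ (s : H.Sg) : ℕ := ((H.brPl s 0).ord (U.r 0)).toNat

theorem ord_zero_pos (s : H.Sg) : 0 < (H.brPl s 0).ord (U.r 0) :=
  (CleanAt.of_lt U.u_eq U.red U.r_ne U.u_ne (U.clean s) 0
    (by simpa [c] using U.d_lt)).1

theorem δ_pos (s : H.Sg) : 0 < U.δ s := by
  have := U.ord_zero_pos s
  rw [δ]
  omega

theorem ord_zero (s : H.Sg) : (H.brPl s 0).ord (U.r 0) = U.δ s := by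
  have := U.ord_zero_pos s
  rw [δ]
  omega

theorem ord_one (s : H.Sg) : (H.brPl s 1).ord (U.r 1) = -(U.δ s : ℤ) := by
  have h := CleanAt.ord_add U.u_eq U.red U.r_ne U.u_ne (U.clean s)
  rw [U.ord_zero] at h
  omega

theorem value_lt {s : H.Sg} {P : Place K F} (hP : H.TubeAt s P) {a : K}
    (ha : HasValue P U.u a) : A.valuation U.d < A.valuation a ∧ A.valuation a < 1 := by
  have h := (CleanAt.of_lt U.u_eq U.red U.r_ne U.u_ne (U.clean s) 0
    (by simpa [c] using U.d_lt)).2 P hP a ha
  simpa [c] using h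

end UnitDatum

/-- The lowest order of a product bounds the orders of the factor. -/
theorem ord_bound_of_pow {E : Type*} [Field E] [Algebra k E] (Q : Place k E) {r w : E}
    (hw : w ≠ 0) {δ : ℕ} {n : ℤ} (h : AtLeast Q n (r ^ δ * w⁻¹)) (hr : r ≠ 0) :
    n + Q.ord w ≤ δ * Q.ord r := by
  rw [atLeast_iff (mul_ne_zero (pow_ne_zero _ hr) (inv_ne_zero hw)),
    Q.ord_mul (pow_ne_zero _ hr) (inv_ne_zero hw), place_ord_pow, Q.ord_inv] at h
  omega

variable (H : FibreHyp J hF hk x xb)

theorem exists_uniform_div (hconn : ∀ c : Fin 2 → k,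
    (∀ b b' : H.Br, H.sgPt b = H.sgPt b' → c b.1.1 = c b'.1.1) → ∀ i j, c i = c j) (N : ℕ) :
    ∃ E : Divisor K F, 0 ≤ E ∧ (H.semiFibre hconn).Clean E ∧
      ∀ i, (N : ℤ) ≤ Divisor.degree ((H.semiFibre hconn).push E i) := by
  classical
  set X := H.semiFibre hconn
  have hpick : ∀ i, ∃ (Q : Place k (Fk i)) (P : Place K F), X.spl P = some ⟨i, Q⟩ := fun i => by
    haveI := infinite_places (hk i)
    obtain ⟨Q, hQ⟩ := ((Set.finite_range X.br).preimage
      (f := fun Q => (⟨i, Q⟩ : Σ i, Place k (Fk i)))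
      (fun _ _ _ _ h => eq_of_heq (Sigma.mk.inj h).2)).infinite_compl.nonempty
    obtain ⟨P, hP⟩ := X.spl_surj ⟨i, Q⟩ fun b hb => hQ ⟨b, hb⟩
    exact ⟨Q, P, hP⟩
  choose Q P hP using hpick
  have hpos : ∀ i, 0 ≤ Finsupp.single (P i) (N : ℤ) := fun i =>
    Finsupp.single_nonneg.2 (Nat.cast_nonneg N)
  refine ⟨∑ i, Finsupp.single (P i) (N : ℤ), Finset.sum_nonneg fun i _ => hpos i, fun R hR => ?_,
    fun i => ?_⟩
  · rw [Finset.sum_apply']
    exact Finset.sum_eq_zero fun i _ => X.clean_single (hP i) _ R hR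
  · have h1 := degree_mono (hk i) (X.push_mono (Finset.single_le_sum (fun j _ => hpos j)
      (Finset.mem_univ i)) i)
    rwa [X.push_single_same (hP i), Divisor.degree_single, (hk i).deg_eq_one, Nat.cast_one,
      mul_one] at h1

include H in
theorem card_br : Fintype.card H.Br = 2 * Fintype.card H.Sg := by
  classical
  rw [show 2 * Fintype.card H.Sg = Fintype.card (H.Sg × Fin 2) by
    rw [Fintype.card_prod, Fintype.card_fin, mul_comm]]
  exact Fintype.card_congr
    { toFun := fun b => (H.sgPt b, b.1.1)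
      invFun := fun p => H.brAt p.1 p.2
      left_inv := fun b => (H.eq_brAt b rfl).symm
      right_inv := fun p => Prod.ext (H.sgPt_brAt p.1 p.2) rfl }

variable {H} {ϖ : K}

open Classical in
/-- **The coordinate of a tube.** -/
theorem exists_coord (hconn : ∀ c : Fin 2 → k,
    (∀ b b' : H.Br, H.sgPt b = H.sgPt b' → c b.1.1 = c b'.1.1) → ∀ i j, c i = c j)
    (U : H.UnitDatum ϖ) (s : H.Sg) :
    ∃ (T : F) (ε : K) (t : ∀ i, Fk i), ε ^ U.δ s = U.d ∧ T ≠ 0 ∧ (∀ i, t i ≠ 0) ∧
      (J.C 0).Red T (t 0) ∧ (J.C 1).Red (algebraMap K F ε⁻¹ * T) (t 1) ∧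
      (H.brPl s 0).ord (t 0) = 1 ∧ (H.brPl s 1).ord (t 1) = -1 ∧ H.CleanAt s T := by
  set δ := U.δ s with hδ
  have hδ0 : 0 < δ := U.δ_pos s
  obtain ⟨ε, hε⟩ := IsAlgClosed.exists_pow_nat_eq U.d hδ0
  have hε0 : ε ≠ 0 := fun h0 => U.d_ne (by rw [← hε, h0, zero_pow hδ0.ne'])
  set X := H.semiFibre hconn
  let tw : X.Twist 0 :=
    { D := 0
      g := 1
      g_ne := one_ne_zero
      div_eq := fun P => by simp
      c := ![1, ε⁻¹]
      c_ne := fun i => by fin_cases i <;> simp [hε0]
      h := 1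
      h_ne := fun _ => one_ne_zero
      red := fun i => by simpa using (ConstRed.red_one (C := X.C i)) }
  let Z0 : Place k (Fk 0) := H.brPl s 0
  let Z1 : Place k (Fk 1) := H.brPl s 1
  -- the bounds at the branches
  let mult : H.Sg → ℕ := fun s' => U.δ s' / δ
  let linked : H.Sg → ℤ := fun s' => if δ ∣ U.δ s' then 1 else 0
  let D0 : Divisor k (Fk 0) :=
    ∑ s', Finsupp.single (H.brPl s' 0) ((mult s' : ℤ) + 1)
  let D1 : Divisor k (Fk 1) :=
    ∑ s', Finsupp.single (H.brPl s' 1) ((mult s' : ℤ) - linked s')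
  obtain ⟨c0, hc0⟩ := exists_threshold (hk 0)
  obtain ⟨c1, hc1⟩ := exists_threshold (hk 1)
  obtain ⟨N, hN0, hN1⟩ : ∃ N : ℕ, c0 + Divisor.degree D0 ≤ N ∧ c1 - Divisor.degree D1 ≤ N :=
    ⟨(c0 + Divisor.degree D0).toNat + (c1 - Divisor.degree D1).toNat, by omega, by omega⟩
  obtain ⟨B, -, hBc, hBN⟩ := H.exists_uniform_div hconn N
  set T0 := X.push B 0 - D0
  set T1 := X.push B 1 + D1
  have hinj : ∀ i, Function.Injective fun s' => H.brPl s' i := fun i a b hab => by
    have ha := H.sgPt_brAt a i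
    rw [← ha, ← H.sgPt_brAt b i]
    exact congrArg H.sgPt (Subtype.ext (Sigma.ext rfl (heq_of_eq hab)))
  have hD0 : ∀ s', D0 (H.brPl s' 0) = (mult s' : ℤ) + 1 := fun s' => by
    rw [Finset.sum_apply', Finset.sum_eq_single s' (fun s'' _ hne => Finsupp.single_eq_of_ne
      fun e => hne (hinj 0 e).symm) (fun h => absurd (Finset.mem_univ _) h), Finsupp.single_eq_same]
  have hD1 : ∀ s', D1 (H.brPl s' 1) = (mult s' : ℤ) - linked s' := fun s' => by
    rw [Finset.sum_apply', Finset.sum_eq_single s' (fun s'' _ hne => Finsupp.single_eq_of_ne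
      fun e => hne (hinj 1 e).symm) (fun h => absurd (Finset.mem_univ _) h), Finsupp.single_eq_same]
  have hav : ∀ s' i, X.push B i (H.brPl s' i) = 0 := fun s' i =>
    X.avoids_push B (H.brAt s' i)
  -- the lifts
  obtain ⟨Hs, hHs, hli⟩ := tw.exists_lift_basis hF hk B _ (riemannRochSpace _) le_rfl rfl
  have hdata : ∀ G ∈ tw.space B, ∃ f ∈ riemannRochSpace B, (J.C 0).Red f (G 0) ∧
      (J.C 1).Red (algebraMap K F ε⁻¹ * f) (G 1) := by
    rintro G ⟨f, hf, hG⟩
    refine ⟨f, by simpa [tw] using hf, ?_, ?_⟩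
    · obtain ⟨r, hr, e⟩ := hG 0
      simpa [tw, e, X, H.semiFibre_C hconn] using hr
    · obtain ⟨r, hr, e⟩ := hG 1
      simpa [tw, e, X, H.semiFibre_C hconn] using hr
  have hnp : ∀ f ∈ riemannRochSpace B, ∀ s' P, H.TubeAt s' P → AtLeast P 0 f :=
    fun f hf s' P hP => by
      have h := FA.Curve.mem_riemannRochSpace.1 hf P
      rwa [hBc P (H.tubeAt_iff_none.2 ⟨s', hP⟩), neg_zero] at h
  -- the comparison with the power of the unit
  have hcmp : ∀ (f : F) (G : ∀ i, Fk i), (J.C 0).Red f (G 0) →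
      (J.C 1).Red (algebraMap K F ε⁻¹ * f) (G 1) →
        J.Red (f ^ δ * U.u⁻¹) (fun i => G i ^ δ * (U.r i)⁻¹) := by
    intro f G h0 h1
    intro i
    revert i
    rw [Fin.forall_fin_two]
    refine ⟨(h0.pow δ).mul (U.red0.inv (U.r_ne 0)), ?_⟩
    have h := (h1.pow δ).mul (U.red1.inv (U.r_ne 1))
    rwa [show (algebraMap K F ε⁻¹ * f) ^ δ * (algebraMap K F U.d⁻¹ * U.u)⁻¹ = f ^ δ * U.u⁻¹ by
      rw [mul_pow, mul_inv, ← map_pow, inv_pow, hε, ← map_inv₀, inv_inv, mul_mul_mul_comm,
        ← map_mul, inv_mul_cancel₀ U.d_ne, map_one, one_mul]] at h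
  have hbnd : ∀ G ∈ tw.space B, ∀ s', ∃ v : k,
      HasValue (H.brPl s' 0) (G 0 ^ δ * (U.r 0)⁻¹) v ∧
      HasValue (H.brPl s' 1) (G 1 ^ δ * (U.r 1)⁻¹) v := by
    intro G hG s'
    obtain ⟨f, hf, h0, h1⟩ := hdata G hG
    obtain ⟨v, hv, -⟩ := H.value_at (hcmp f G h0 h1) s' fun P hP => by
      have h := (atLeast_pow (hnp f hf s' P hP) δ).mul (atLeast_ord (v := P) U.u⁻¹)
      rwa [P.ord_inv, U.clean s' P hP, mul_zero, neg_zero, add_zero] at h
    exact ⟨v, hv _ (H.sgPt_brAt s' 0), hv _ (H.sgPt_brAt s' 1)⟩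
  have hlow0 : ∀ G ∈ tw.space B, ∀ s',
      G 0 = 0 ∨ (U.δ s' : ℤ) ≤ δ * (H.brPl s' 0).ord (G 0) := fun G hG s' => by
    rcases eq_or_ne (G 0) 0 with h | h
    · exact Or.inl h
    obtain ⟨v, hv, -⟩ := hbnd G hG s'
    have := ord_bound_of_pow _ (U.r_ne 0) hv.atLeast h
    rw [U.ord_zero] at this
    exact Or.inr (by linarith)
  have hlow1 : ∀ G ∈ tw.space B, ∀ s',
      G 1 = 0 ∨ -(U.δ s' : ℤ) ≤ δ * (H.brPl s' 1).ord (G 1) := fun G hG s' => by
    rcases eq_or_ne (G 1) 0 with h | h
    · exact Or.inl h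
    obtain ⟨v, -, hv⟩ := hbnd G hG s'
    have := ord_bound_of_pow _ (U.r_ne 1) hv.atLeast h
    rw [U.ord_one] at this
    exact Or.inr (by linarith)
  have hlink : ∀ G ∈ tw.space B, ∀ s', δ ∣ U.δ s' →
      AtLeast (H.brPl s' 0) ((mult s' : ℤ) + 1) (G 0) →
        AtLeast (H.brPl s' 1) (-(mult s' : ℤ) + 1) (G 1) := by
    intro G hG s' hd hge
    rcases eq_or_ne (G 1) 0 with h1 | h1
    · exact Or.inl h1
    have hmul : (δ : ℤ) * (mult s' : ℤ) = U.δ s' := by
      exact_mod_cast Nat.mul_div_cancel' hd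
    obtain ⟨v, hv0, hv1⟩ := hbnd G hG s'
    have hv : v = 0 := hv0.unique (hasValue_zero_iff.2 (by
      refine ((atLeast_pow hge δ).mul (atLeast_ord _)).mono ?_
      rw [Place.ord_inv, U.ord_zero, mul_add, hmul]
      omega))
    subst hv
    have := ord_bound_of_pow _ (U.r_ne 1) (hasValue_zero_iff.1 hv1) h1
    rw [U.ord_one] at this
    refine Or.inr ?_
    by_contra hlt
    push Not at hlt
    have h3 : (δ : ℤ) * (H.brPl s' 1).ord (G 1) ≤ δ * (-(mult s' : ℤ)) :=
      mul_le_mul_of_nonneg_left (by omega) (Int.natCast_nonneg _)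
    rw [mul_neg, hmul] at h3
    omega
  have hge0 : ∀ G ∈ tw.space B, ∀ s', AtLeast (H.brPl s' 0) (mult s' : ℤ) (G 0) :=
    fun G hG s' => (hlow0 G hG s').imp id fun h => by
      have h2 : ((δ : ℤ) * (mult s' : ℤ)) ≤ U.δ s' := by
        exact_mod_cast Nat.mul_div_le (U.δ s') δ
      exact le_of_mul_le_mul_left (h2.trans h) (by exact_mod_cast hδ0)
  -- some lift has a simple zero at `s`
  set V := Submodule.span k (Set.range Hs)
  have hVle : V ≤ tw.space B := Submodule.span_le.2 (Set.range_subset_iff.2 hHs)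
  obtain ⟨G, hGV, hG2⟩ : ∃ G ∈ V, ¬ AtLeast Z0 2 (G 0) := by
    by_contra hall
    push Not at hall
    haveI : Module.Finite k V := Module.Finite.span_of_finite k (Set.finite_range Hs)
    let Lk : Finset H.Sg := (Finset.univ.filter fun s' => δ ∣ U.δ s').erase s
    choose π hπ using fun s' => exists_uniformizer (H.brPl s' 0)
    have hπ0 : ∀ s', π s' ≠ 0 := fun s' h0 => by
      have := hπ s'
      rw [h0, Place.ord_zero] at this
      omega
    have hex : ∀ (G : V) (s' : H.Sg), ∃ a : k,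
        HasValue (H.brPl s' 0) ((G : ∀ i, Fk i) 0 * (π s')⁻¹ ^ mult s') a := fun G s' => by
      refine exists_hasValue (hk 0) ?_
      refine ((hge0 G (hVle G.2) s').mul (atLeast_ord _)).mono (le_of_eq ?_)
      rw [place_ord_pow, Place.ord_inv, hπ]
      ring
    choose lead hlead using hex
    let φ : V →ₗ[k] (Lk → k) :=
      { toFun := fun G s' => lead G s'
        map_add' := fun G G' => funext fun s' => (hlead (G + G') s').unique (by
          have h := (hlead G s').add (hlead G' s')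
          rwa [← add_mul] at h)
        map_smul' := fun a G => funext fun s' => (hlead (a • G) s').unique (by
          have h := (hlead G s').smul a
          rw [← mul_assoc] at h
          rw [Submodule.coe_smul, Pi.smul_apply, Algebra.smul_def]
          exact h) }
    have hker : ∀ G : V, φ G = 0 →
        (G : ∀ i, Fk i) 0 ∈ riemannRochSpace T0 ∧ (G : ∀ i, Fk i) 1 ∈ riemannRochSpace T1 := by
      intro G hG
      have hGsp := hVle G.2
      have hup : ∀ s', δ ∣ U.δ s' →
          AtLeast (H.brPl s' 0) ((mult s' : ℤ) + 1) ((G : ∀ i, Fk i) 0) := by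
        intro s' hd
        rcases eq_or_ne s' s with rfl | hne
        · have hm : mult s' = 1 := Nat.div_self hδ0
          rw [hm]
          exact hall _ G.2
        · have h := hlead G s'
          rw [show lead G s' = 0 from congrFun hG ⟨s', Finset.mem_erase.2
            ⟨hne, Finset.mem_filter.2 ⟨Finset.mem_univ _, hd⟩⟩⟩, hasValue_zero_iff] at h
          have h2 := h.mul (atLeast_ord (v := H.brPl s' 0) (π s' ^ mult s'))
          rw [inv_pow, inv_mul_cancel_right₀ (pow_ne_zero _ (hπ0 s')), place_ord_pow, hπ] at h2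
          exact h2.mono (by omega)
      have hb0 : ∀ s', AtLeast (H.brPl s' 0) ((mult s' : ℤ) + 1) ((G : ∀ i, Fk i) 0) := by
        intro s'
        by_cases hd : δ ∣ U.δ s'
        · exact hup s' hd
        rcases hlow0 G hGsp s' with h | h
        · exact Or.inl h
        refine Or.inr ?_
        by_contra hlt
        push Not at hlt
        have h3 : (δ : ℤ) * (H.brPl s' 0).ord ((G : ∀ i, Fk i) 0) ≤ δ * (mult s' : ℤ) :=
          mul_le_mul_of_nonneg_left (by omega) (Int.natCast_nonneg _)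
        have h4 : δ * (U.δ s' / δ) ≠ U.δ s' := fun e => hd ⟨_, e.symm⟩
        have h5 := Nat.mul_div_le (U.δ s') δ
        have h6 : ((δ * (U.δ s' / δ) : ℕ) : ℤ) = δ * (mult s' : ℤ) := by push_cast; rfl
        omega
      have hb1 : ∀ s', AtLeast (H.brPl s' 1) (-((mult s' : ℤ) - linked s'))
          ((G : ∀ i, Fk i) 1) := by
        intro s'
        by_cases hd : δ ∣ U.δ s'
        · have := hlink G hGsp s' hd (hup s' hd)
          rwa [show linked s' = 1 from if_pos hd, neg_sub, sub_eq_neg_add]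
        rw [show linked s' = 0 from if_neg hd, sub_zero]
        rcases hlow1 G hGsp s' with h | h
        · exact Or.inl h
        refine Or.inr ?_
        by_contra hlt
        push Not at hlt
        have h3 : (δ : ℤ) * (H.brPl s' 1).ord ((G : ∀ i, Fk i) 1) ≤ δ * (-(mult s' : ℤ) - 1) :=
          mul_le_mul_of_nonneg_left (by omega) (Int.natCast_nonneg _)
        have h5 := Nat.lt_div_mul_add hδ0 (a := U.δ s')
        have h6 : (U.δ s' : ℤ) < (mult s' : ℤ) * δ + δ := by exact_mod_cast h5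
        rw [mul_sub, mul_neg, mul_one, mul_comm] at h3
        linarith
      obtain ⟨f, hf, h0, h1⟩ := hdata _ hGsp
      have hsm : ∀ (i : Fin 2) (φ' : F) (r' : Fk i), (J.C i).Red φ' r' →
          φ' ∈ riemannRochSpace B → ∀ Q, (∀ s', Q ≠ H.brPl s' i) →
            AtLeast Q (-X.push B i Q) r' := by
        intro i φ' r' hr' hφ Q hQ
        rcases eq_or_ne r' 0 with h | h
        · exact Or.inl h
        refine Or.inr ?_
        have hb : ∀ b : H.Br, X.br b ≠ ⟨i, Q⟩ := fun b e => by
          obtain ⟨⟨l, R⟩, hR⟩ := b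
          obtain ⟨rfl, e2⟩ := Sigma.mk.inj e
          obtain rfl := eq_of_heq e2
          exact hQ (H.sgPt ⟨⟨l, R⟩, hR⟩)
            (InCls.subsingleton H ⟨hR, rfl⟩ (H.brPl_spec _ l))
        have hle : 0 ≤ divOf hF φ' + B := Finsupp.le_def.2 fun P => by
          have := (atLeast_iff (hr'.ne_zero h)).1 (FA.Curve.mem_riemannRochSpace.1 hφ P)
          simp only [Finsupp.coe_zero, Pi.zero_apply, Finsupp.add_apply, divOf_apply]
          omega
        have h2 := Finsupp.le_def.1 (X.push_nonneg hle i) Q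
        rw [X.push_add, Finsupp.add_apply, X.push_divOf hF hr' h hb] at h2
        simp only [Finsupp.coe_zero, Pi.zero_apply] at h2
        omega
      refine ⟨FA.Curve.mem_riemannRochSpace.2 fun Q => ?_,
        FA.Curve.mem_riemannRochSpace.2 fun Q => ?_⟩
      · by_cases hQ : ∃ s', Q = H.brPl s' 0
        · obtain ⟨s', rfl⟩ := hQ
          rw [Finsupp.sub_apply, hD0, hav, zero_sub, neg_neg]
          exact hb0 s'
        · push Not at hQ
          rw [Finsupp.sub_apply, show D0 Q = 0 by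
            rw [Finset.sum_apply']
            exact Finset.sum_eq_zero fun s' _ => Finsupp.single_eq_of_ne (hQ s'), sub_zero]
          exact hsm 0 f _ h0 hf Q hQ
      · by_cases hQ : ∃ s', Q = H.brPl s' 1
        · obtain ⟨s', rfl⟩ := hQ
          rw [Finsupp.add_apply, hD1, hav, zero_add]
          exact hb1 s'
        · push Not at hQ
          rw [Finsupp.add_apply, show D1 Q = 0 by
            rw [Finset.sum_apply']
            exact Finset.sum_eq_zero fun s' _ => Finsupp.single_eq_of_ne (hQ s'), add_zero]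
          exact hsm 1 _ _ h1 (by rw [← Algebra.smul_def]; exact Submodule.smul_mem _ _ hf) Q hQ
    haveI := finite_riemannRochSpace (hk 0) T0
    haveI := finite_riemannRochSpace (hk 1) T1
    let ψ : LinearMap.ker φ →ₗ[k] riemannRochSpace T0 × riemannRochSpace T1 :=
      { toFun := fun G => (⟨_, (hker G.1 G.2).1⟩, ⟨_, (hker G.1 G.2).2⟩)
        map_add' := fun _ _ => rfl
        map_smul' := fun _ _ => rfl }
    have hψ : Function.Injective ψ := fun G G' e => by
      refine Subtype.ext (Subtype.ext (funext ?_))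
      rw [Fin.forall_fin_two]
      exact ⟨congrArg (fun p => (p.1 : Fk 0)) e, congrArg (fun p => (p.2 : Fk 1)) e⟩
    have e1 := LinearMap.finrank_le_finrank_of_injective hψ
    rw [Module.finrank_prod] at e1
    have e2 := φ.finrank_range_add_finrank_ker
    have e3 : Module.finrank k (LinearMap.range φ) ≤ Lk.card := by
      refine (Submodule.finrank_le _).trans (le_of_eq ?_)
      rw [Module.finrank_fintype_fun_eq_card, Fintype.card_coe]
    have e4 : Module.finrank k V = Module.finrank K (riemannRochSpace ((tw.D : Divisor K F) + B)) := by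
      rw [finrank_span_eq_card hli, Fintype.card_fin]
    have e5 := riemann_inequality hF ((tw.D : Divisor K F) + B)
    have hd0 : (tw.D : Divisor K F) = 0 := rfl
    rw [hd0, zero_add] at e5 e4
    have hp0 : (N : ℤ) ≤ Divisor.degree (X.push B 0) := hBN 0
    have hp1 : (N : ℤ) ≤ Divisor.degree (X.push B 1) := hBN 1
    have hT0 : Divisor.degree T0 = Divisor.degree (X.push B 0) - Divisor.degree D0 :=
      map_sub _ _ _
    have hT1 : Divisor.degree T1 = Divisor.degree (X.push B 1) + Divisor.degree D1 :=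
      map_add _ _ _
    have e6 : ell T0 = Divisor.degree T0 + 1 - genus k (Fk 0) :=
      hc0 T0 (by omega)
    have e7 : ell T1 = Divisor.degree T1 + 1 - genus k (Fk 1) :=
      hc1 T1 (by omega)
    have e8 := X.degree_push hF hk B hBc
    rw [Fin.sum_univ_two] at e8
    have e9 : Divisor.degree D0 - Divisor.degree D1 = Fintype.card H.Sg + (Lk.card + 1 : ℤ) := by
      rw [map_sum, map_sum, ← Finset.sum_sub_distrib]
      simp only [Divisor.degree_single, (hk 0).deg_eq_one, (hk 1).deg_eq_one, Nat.cast_one,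
        mul_one]
      have hmem : s ∈ Finset.univ.filter fun s' => δ ∣ U.δ s' :=
        Finset.mem_filter.2 ⟨Finset.mem_univ _, dvd_refl δ⟩
      have hl : ∑ s', linked s' = (Lk.card : ℤ) + 1 := by
        simp only [linked]
        rw [Finset.sum_ite, Finset.sum_const_zero, add_zero, Finset.sum_const, nsmul_one,
          ← Finset.card_erase_add_one hmem]
        push_cast
        rfl
      rw [← hl, Finset.sum_congr rfl (fun s' _ => show
        ((mult s' : ℤ) + 1) - ((mult s' : ℤ) - linked s') = 1 + linked s' by ring),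
        Finset.sum_add_distrib, Finset.sum_const, nsmul_one]
      simp
    have e10 := H.genus_bound
    rw [Fin.sum_univ_two, H.card_br, Fintype.card_fin] at e10
    rw [ell] at e5 e6 e7
    push_cast at e10
    omega
  -- the coordinate
  obtain ⟨f, hf, h0, h1⟩ := hdata G (hVle hGV)
  have hG0 : G 0 ≠ 0 := fun h => hG2 (Or.inl h)
  have hone : (H.brPl s 0).ord (G 0) = 1 := by
    have h := hge0 G (hVle hGV) s
    rw [show mult s = 1 from Nat.div_self hδ0, Nat.cast_one, atLeast_iff hG0] at h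
    rw [atLeast_iff hG0] at hG2
    change ¬ 2 ≤ (H.brPl s 0).ord (G 0) at hG2
    omega
  obtain ⟨v, hv0, hv1⟩ := hbnd G (hVle hGV) s
  have hz0 : (H.brPl s 0).ord (G 0 ^ δ * (U.r 0)⁻¹) = 0 := by
    rw [Place.ord_mul _ (pow_ne_zero _ hG0) (inv_ne_zero (U.r_ne 0)), place_ord_pow,
      Place.ord_inv, hone, U.ord_zero]
    ring
  have hv : v ≠ 0 := by
    rintro rfl
    rw [hasValue_zero_iff, atLeast_iff (mul_ne_zero (pow_ne_zero _ hG0)
      (inv_ne_zero (U.r_ne 0))), hz0] at hv0
    omega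
  obtain ⟨hw, hwo⟩ := hv1.ord_eq_zero hv
  have hG1 : G 1 ≠ 0 := fun h => hw (by rw [h, zero_pow hδ0.ne', zero_mul])
  rw [Place.ord_mul _ (pow_ne_zero _ hG1) (inv_ne_zero (U.r_ne 1)), place_ord_pow,
    Place.ord_inv, U.ord_one] at hwo
  have hf0 : f ≠ 0 := h0.ne_zero hG0
  refine ⟨f, ε, G, hε, hf0, Fin.forall_fin_two.2 ⟨hG0, hG1⟩, h0, h1, hone, ?_, fun P hP => ?_⟩
  · have h2 : (δ : ℤ) * ((H.brPl s 1).ord (G 1) + 1) = 0 := by rw [mul_add, mul_one]; omega
    rcases mul_eq_zero.1 h2 with h | h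
    · omega
    · omega
  · have hreg : AtLeast P 0 (f ^ δ * U.u⁻¹) := by
      have h := (atLeast_pow (hnp f hf s P hP) δ).mul (atLeast_ord (v := P) U.u⁻¹)
      rwa [P.ord_inv, U.clean s P hP, mul_zero, neg_zero, add_zero] at h
    obtain ⟨a, ha⟩ := exists_hasValue hF hreg
    obtain ⟨w, hw1, hw2⟩ := H.value_at (hcmp f G h0 h1) s fun P hP => by
      have h := (atLeast_pow (hnp f hf s P hP) δ).mul (atLeast_ord (v := P) U.u⁻¹)
      rwa [P.ord_inv, U.clean s P hP, mul_zero, neg_zero, add_zero] at h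
    have hwv : w = v := (hw1 _ (H.sgPt_brAt s 0)).unique hv0
    obtain ⟨haA, ha2⟩ := hw2 P hP a ha
    have ha0 : a ≠ 0 := fun h => hv (by
      rw [← hwv, ← ha2, show (⟨a, haA⟩ : A) = 0 from Subtype.ext h, map_zero])
    have h3 := (ha.ord_eq_zero ha0).2
    rw [P.ord_mul (pow_ne_zero _ hf0) (inv_ne_zero U.u_ne), place_ord_pow, P.ord_inv,
      U.clean s P hP, neg_zero, add_zero] at h3
    rcases mul_eq_zero.1 h3 with h | h
    · omega
    · exact h

end FA.ModField.FibreHyp
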