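import Fermat.Agent.Curve.DualityGenus

/-!
# Differentials with poles at infinity, and the degree of the divisor of `dx`

The construction of `exists_dual`, allowing poles of order up to `t` times the pole divisor.
For large `t` it gives the degree of the divisor of `dx`.
-/

set_option autoImplicit false
set_option linter.style.haveILetI false
set_option linter.unusedSectionVars false

noncomputable section

namespace FA.Curve

open AlgebraicCurve FA.ModField Polynomial IntermediateField

variable {K F : Type*} [Field K] [Field F] [Algebra K F] [IsAlgClosed K]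
  (hF : IsFunctionField K F) {x : F} (hx : Transcendental K x)

include hF hx

/-- Dual differentials with poles bounded by `t` times the pole divisor. -/
theorem exists_dual_twist [Algebra.IsSeparable K⟮x⟯ F] (t : ℕ) :
    ∃ φ : Fin (t * Module.finrank K⟮x⟯ F + genus K F - 1) → F, LinearIndependent K φ ∧
      ∀ i, (∀ u ∈ regSub (K := K) x, ∃ p : K[X], trX K x (φ i * u) = aeval x p) ∧
        ∀ u ∈ regSub (K := K) x⁻¹, ∃ p : K[X],
          trX K x (φ i * u) = x ^ t * (x⁻¹ ^ 2 * aeval x⁻¹ p) := by
  classical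
  haveI := hF.finiteDimensional hx
  have hx0 := x_ne_zero hF hx
  obtain ⟨c₀, hc₀⟩ := exists_threshold hF
  set m := c₀.toNat + t + 1 with hm
  have hdeg : ∀ j : ℕ, Divisor.degree (j • poleDiv hF x) =
      (j : ℤ) * Module.finrank K⟮x⟯ F := fun j => by
    rw [map_nsmul, degree_poleDiv hF hx, nsmul_eq_mul]
  have hdim : ∀ j : ℕ, c₀.toNat ≤ j → ell (j • poleDiv hF x) =
      (j : ℤ) * Module.finrank K⟮x⟯ F + 1 - genus K F := fun j hj => by
    have hn := finrank_adjoin_pos hF hx
    rw [hc₀ _ (by
      rw [hdeg]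
      have : (j : ℤ) ≤ (j : ℤ) * Module.finrank K⟮x⟯ F :=
        le_mul_of_one_le_right (Int.natCast_nonneg _) (by omega)
      omega), hdeg]
  set Z : Submodule K F := (regSub (K := K) x).toSubmodule ⊔
    (regSub (K := K) x⁻¹).toSubmodule.map (LinearMap.mulLeft K (x⁻¹ ^ t))
  set V := riemannRochSpace ((2 * m) • poleDiv hF x)
  haveI : Module.Finite K V := finite_riemannRochSpace hF _
  let θ : V →ₗ[K] F ⧸ Z := Z.mkQ.comp ((LinearMap.mulLeft K (x⁻¹ ^ m)).comp V.subtype)
  set W : Submodule K F :=
    (riemannRochSpace (m • poleDiv hF x)).map (LinearMap.mulLeft K (x ^ m)) ⊔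
      riemannRochSpace ((m - t) • poleDiv hF x)
  haveI := finite_riemannRochSpace hF (m • poleDiv hF x)
  haveI := finite_riemannRochSpace hF ((m - t) • poleDiv hF x)
  have hmt : ((m - t : ℕ) : ℤ) = m - t := by omega
  have hker : (LinearMap.ker θ).map V.subtype ≤ W := by
    rintro _ ⟨⟨v, hv⟩, hθ, rfl⟩
    change Submodule.Quotient.mk (x⁻¹ ^ m * v) = (0 : F ⧸ Z) at hθ
    obtain ⟨a, ha, _, ⟨b, hb, rfl⟩, hab⟩ :=
      Submodule.mem_sup.1 ((Submodule.Quotient.mk_eq_zero _).1 hθ)
    rw [LinearMap.mulLeft_apply] at hab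
    rw [mem_riemannRoch_nB hF hx] at hv
    have hbi : ∀ P : Place K F, P.ord x < 0 → AtLeast P 0 b := fun P hP =>
      hb P (by rw [P.ord_inv]; omega)
    have haV : a ∈ riemannRochSpace (m • poleDiv hF x) := by
      rw [mem_riemannRoch_nB hF hx]
      refine ⟨ha, fun P hP => ?_⟩
      rw [eq_sub_of_add_eq hab]
      refine AtLeast.sub ?_ (((atLeast_ord (v := P) (x⁻¹ ^ t)).mul (hbi P hP)).mono ?_)
      · refine ((atLeast_ord (v := P) (x⁻¹ ^ m)).mul (hv.2 P hP)).mono (le_of_eq ?_)
        rw [place_ord_pow, P.ord_inv]; push_cast; ring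
      · rw [place_ord_pow, P.ord_inv]
        have : (m : ℤ) * P.ord x ≤ 0 := mul_nonpos_of_nonneg_of_nonpos (Int.natCast_nonneg _) hP.le
        nlinarith [Int.natCast_nonneg t]
    refine Submodule.mem_sup.2 ⟨x ^ m * a, ⟨a, haV, rfl⟩, x ^ m * (x⁻¹ ^ t * b), ?_, ?_⟩
    · rw [mem_riemannRoch_nB hF hx]
      refine ⟨fun P hP => ?_, fun P hP => ?_⟩
      · have hxb : x ^ m * (x⁻¹ ^ t * b) = v - x ^ m * a := by
          have h : x ^ m * (a + x⁻¹ ^ t * b) = v := by
            rw [hab, ← mul_assoc, ← mul_pow, mul_inv_cancel₀ hx0, one_pow, one_mul]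
          linear_combination h
        rw [hxb]
        exact (hv.1 P hP).sub (mul_mem (pow_mem (self_mem_regSub x) m) ha P hP)
      · refine ((atLeast_ord (v := P) (x ^ m)).mul
          ((atLeast_ord (v := P) (x⁻¹ ^ t)).mul (hbi P hP))).mono (le_of_eq ?_)
        rw [place_ord_pow, place_ord_pow, P.ord_inv, hmt]; ring
    · rw [Submodule.subtype_apply, ← mul_add, hab, ← mul_assoc, ← mul_pow,
        mul_inv_cancel₀ hx0, one_pow, one_mul]
  have hrange : t * Module.finrank K⟮x⟯ F + genus K F - 1 ≤
      Module.finrank K (LinearMap.range θ) := by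
    have h1 := LinearMap.finrank_range_add_finrank_ker θ
    have h2 := Submodule.finrank_mono hker
    rw [(Submodule.equivMapOfInjective _ V.injective_subtype _).finrank_eq.symm] at h2
    have h3 := Submodule.finrank_add_le_finrank_add_finrank
      ((riemannRochSpace (m • poleDiv hF x)).map (LinearMap.mulLeft K (x ^ m)))
      (riemannRochSpace ((m - t) • poleDiv hF x))
    have h4 := Submodule.finrank_map_le (LinearMap.mulLeft K (x ^ m))
      (riemannRochSpace (m • poleDiv hF x))
    have d1 : (Module.finrank K V : ℤ) =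
        2 * m * Module.finrank K⟮x⟯ F + 1 - genus K F := by
      have := hdim (2 * m) (by omega)
      simpa [ell] using this
    have d2 : (Module.finrank K (riemannRochSpace (m • poleDiv hF x)) : ℤ) =
        m * Module.finrank K⟮x⟯ F + 1 - genus K F := hdim m (by omega)
    have d3 : (Module.finrank K (riemannRochSpace ((m - t) • poleDiv hF x)) : ℤ) =
        ((m : ℤ) - t) * Module.finrank K⟮x⟯ F + 1 - genus K F := by
      rw [← hmt]; exact hdim (m - t) (by omega)
    have hW : (Module.finrank K W : ℤ) ≤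
        m * Module.finrank K⟮x⟯ F + 1 - genus K F +
          (((m : ℤ) - t) * Module.finrank K⟮x⟯ F + 1 - genus K F) := by
      rw [← d2, ← d3]
      exact_mod_cast h3.trans (Nat.add_le_add_right h4 _)
    have h5 : (t * Module.finrank K⟮x⟯ F + genus K F : ℕ) ≤
        Module.finrank K (LinearMap.range θ) + 1 := by
      zify at h1 h2 ⊢
      linarith
    omega
  -- functionals biorthogonal to part of the image
  let bR := Module.finBasis K (LinearMap.range θ)
  have hext : ∀ i : Fin (t * Module.finrank K⟮x⟯ F + genus K F - 1), ∃ Λ : F ⧸ Z →ₗ[K] K,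
      Λ.comp (LinearMap.range θ).subtype = bR.coord (Fin.castLE hrange i) :=
    fun i => LinearMap.exists_extend _
  choose Λ hΛ using hext
  choose v hv using fun i : Fin (t * Module.finrank K⟮x⟯ F + genus K F - 1) => (bR (Fin.castLE hrange i)).2
  have hbi : ∀ i j, Λ i (θ (v j)) = if i = j then 1 else 0 := by
    intro i j
    rw [hv j]
    have := LinearMap.congr_fun (hΛ i) (bR (Fin.castLE hrange j))
    simp only [LinearMap.comp_apply, Submodule.subtype_apply, Module.Basis.coord_apply,
      Module.Basis.repr_self, Finsupp.single_apply, Fin.castLE_inj] at this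
    rw [this]
    simp only [eq_comm]
  let lam : Fin (t * Module.finrank K⟮x⟯ F + genus K F - 1) → F →ₗ[K] K := fun i => (Λ i).comp Z.mkQ
  have hlam0 : ∀ i, ∀ u ∈ regSub (K := K) x, lam i u = 0 := fun i u hu => by
    simp only [lam, LinearMap.comp_apply, Submodule.mkQ_apply,
      (Submodule.Quotient.mk_eq_zero Z).2 (Submodule.mem_sup_left hu), map_zero]
  have hlam1 : ∀ i, ∀ u ∈ regSub (K := K) x⁻¹, lam i (x⁻¹ ^ t * u) = 0 := fun i u hu => by
    have h : x⁻¹ ^ t * u ∈ Z := Submodule.mem_sup_right ⟨u, hu, rfl⟩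
    simp only [lam, LinearMap.comp_apply, Submodule.mkQ_apply,
      (Submodule.Quotient.mk_eq_zero Z).2 h, map_zero]
  -- every regular function has bounded poles
  have hbound : ∀ u ∈ regSub (K := K) x, ∃ M : ℕ, ∀ j, M ≤ j →
      x⁻¹ ^ j * u ∈ regSub (K := K) x⁻¹ := by
    intro u hu
    refine ⟨∑ P ∈ (poleDiv hF x).support, (P.ord u).natAbs, fun j hj P hP => ?_⟩
    rw [P.ord_inv] at hP
    rcases eq_or_lt_of_le (show P.ord x ≤ 0 by omega) with h0 | h0
    · refine (((atLeast_ord (v := P) (x⁻¹ ^ j)).mul (hu P h0.ge))).mono ?_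
      rw [place_ord_pow, P.ord_inv, h0]; simp
    · refine ((atLeast_ord (v := P) (x⁻¹ ^ j)).mul (atLeast_ord u)).mono ?_
      have hmem : P ∈ (poleDiv hF x).support :=
        Finsupp.mem_support_iff.2 (by rw [poleDiv_apply]; omega)
      have hPB := Finset.single_le_sum
        (f := fun P : Place K F => (P.ord u).natAbs) (fun _ _ => Nat.zero_le _) hmem
      rw [place_ord_pow, P.ord_inv]
      have h2 : (j : ℤ) ≤ j * -P.ord x := by nlinarith
      omega
  have hT : ∀ i, ∀ u ∈ regSub (K := K) x, ∃ T : K[X], ∀ j, T.coeff j = lam i (x⁻¹ ^ (j + 1) * u) := by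
    intro i u hu
    obtain ⟨M, hM⟩ := hbound u hu
    refine ⟨∑ j ∈ Finset.range (M + t), monomial j (lam i (x⁻¹ ^ (j + 1) * u)), fun j => ?_⟩
    rw [finsetSum_coeff]
    simp only [coeff_monomial, Finset.sum_ite_eq', Finset.mem_range]
    split_ifs with h
    · rfl
    · rw [show j + 1 = t + (j + 1 - t) by omega, pow_add, mul_assoc]
      exact (hlam1 i _ (hM (j + 1 - t) (by omega))).symm
  choose T hT using hT
  have hTadd : ∀ i u hu w hw, T i (u + w) (add_mem hu hw) = T i u hu + T i w hw := fun i u hu w hw =>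
    Polynomial.ext fun j => by rw [coeff_add, hT, hT, hT, mul_add, map_add]
  have hTsmul : ∀ i (c : K) u hu, T i (c • u) (Subalgebra.smul_mem _ hu c) = c • T i u hu :=
    fun i c u hu => Polynomial.ext fun j => by
      rw [coeff_smul, hT, hT, mul_smul_comm, map_smul]
  have hTX : ∀ i u hu, T i (x * u) (mul_mem (self_mem_regSub x) hu) = X * T i u hu := fun i u hu =>
    Polynomial.ext fun j => by
      rw [hT, pow_succ, mul_assoc, inv_mul_cancel_left₀ hx0]
      rcases j with _ | j
      · rw [mul_coeff_zero, coeff_X_zero, zero_mul, pow_zero, one_mul, hlam0 i u hu]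
      · rw [coeff_X_mul, hT]
  have hTmul : ∀ i (q : K[X]) u hu,
      ∃ h, T i (aeval x q * u) h = q * T i u hu := by
    intro i q
    induction q using Polynomial.induction_on' with
    | add p q hp hq =>
      intro u hu
      obtain ⟨h1, e1⟩ := hp u hu
      obtain ⟨h2, e2⟩ := hq u hu
      have : aeval x (p + q) * u = aeval x p * u + aeval x q * u := by rw [map_add, add_mul]
      refine ⟨by rw [this]; exact add_mem h1 h2, ?_⟩
      rw [add_mul, ← e1, ← e2, ← hTadd]
      congr 1
    | monomial n c =>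
      induction n with
      | zero =>
        intro u hu
        have : aeval x (monomial 0 c) * u = c • u := by simp [Algebra.smul_def]
        refine ⟨by rw [this]; exact Subalgebra.smul_mem _ hu c, ?_⟩
        conv_rhs => rw [monomial_zero_left, ← smul_eq_C_mul, ← hTsmul]
        congr 1
      | succ n ih =>
        intro u hu
        obtain ⟨h, e⟩ := ih u hu
        have : aeval x (monomial (n + 1) c) * u = x * (aeval x (monomial n c) * u) := by
          rw [aeval_monomial, aeval_monomial, pow_succ]; ring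
        refine ⟨by rw [this]; exact mul_mem (self_mem_regSub x) h, ?_⟩
        conv_rhs => rw [show monomial (n + 1) c = X * monomial n c by rw [X_mul_monomial], mul_assoc,
          ← e, ← hTX]
        congr 1
  -- a basis of regular functions
  let b₀ := Module.finBasis K⟮x⟯ F
  choose s hs hsb using fun k => exists_clear hF hx (b₀ k)
  have hsne : ∀ k, aeval x (s k) ≠ 0 := fun k h => hs k (transcendental_iff.1 hx _ h)
  let b := b₀.unitsSMul fun k =>
    Units.mk0 (⟨aeval x (s k), aeval_mem x (s k)⟩ : K⟮x⟯) fun h => hsne k (congrArg Subtype.val h)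
  have hb : ∀ k, b k ∈ regSub (K := K) x := fun k => by
    simpa [b, Module.Basis.unitsSMul_apply, Units.smul_def, IntermediateField.smul_def] using hsb k
  let B := Algebra.traceForm K⟮x⟯ F
  let φ : Fin (t * Module.finrank K⟮x⟯ F + genus K F - 1) → F := fun i =>
    (B.toDual (traceForm_nondegenerate K⟮x⟯ F)).symm
      (b.constr K⟮x⟯ fun k => (⟨aeval x (T i (b k) (hb k)), aeval_mem x _⟩ : K⟮x⟯))
  have hφb : ∀ i k, trX K x (φ i * b k) = aeval x (T i (b k) (hb k)) := by
    intro i k
    have := LinearMap.BilinForm.apply_toDual_symm_apply (B := B)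
      (hB := traceForm_nondegenerate K⟮x⟯ F)
      (b.constr K⟮x⟯ fun k => (⟨aeval x (T i (b k) (hb k)), aeval_mem x _⟩ : K⟮x⟯)) (b k)
    rw [Module.Basis.constr_basis, Algebra.traceForm_apply] at this
    exact congrArg Subtype.val this
  have hφT : ∀ i u hu, trX K x (φ i * u) = aeval x (T i u hu) := by
    intro i u hu
    -- clear denominators of the coordinates
    choose r t hrt using fun k =>
      (IntermediateField.mem_adjoin_simple_iff K ((b.repr u k : K⟮x⟯) : F)).1 (b.repr u k).2
    set t' := fun k => if t k = 0 then 1 else t k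
    have ht' : ∀ k, t' k ≠ 0 := fun k => by simp only [t']; split_ifs <;> simp [*]
    set Q := ∏ k, t' k
    have hQ : Q ≠ 0 := Finset.prod_ne_zero_iff.2 fun k _ => ht' k
    have hco : ∀ k, ∃ p : K[X], aeval x Q * ((b.repr u k : K⟮x⟯) : F) = aeval x p := by
      intro k
      rw [hrt k]
      by_cases h0 : t k = 0
      · exact ⟨0, by simp [h0]⟩
      · refine ⟨(∏ j ∈ Finset.univ.erase k, t' j) * r k, ?_⟩
        have : t' k = t k := if_neg h0
        rw [show Q = t' k * ∏ j ∈ Finset.univ.erase k, t' j from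
          (Finset.mul_prod_erase _ _ (Finset.mem_univ k)).symm, this, map_mul, map_mul]
        field_simp [show aeval x (t k) ≠ 0 from fun h => h0 (transcendental_iff.1 hx _ h)]
    choose p hp using hco
    have hsum : aeval x Q * u = ∑ k, aeval x (p k) * b k := by
      conv_lhs => rw [← b.sum_repr u]
      rw [Finset.mul_sum]
      refine Finset.sum_congr rfl fun k _ => ?_
      rw [IntermediateField.smul_def, smul_eq_mul, ← mul_assoc, hp]
    have hTsum : ∀ (S : Finset (Fin (Module.finrank K⟮x⟯ F))),
        ∃ h, T i (∑ k ∈ S, aeval x (p k) * b k) h = ∑ k ∈ S, p k * T i (b k) (hb k) := by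
      intro S
      induction S using Finset.induction with
      | empty =>
        refine ⟨by rw [Finset.sum_empty]; exact zero_mem _, Polynomial.ext fun j => ?_⟩
        rw [hT]; simp
      | @insert a S ha ih =>
        obtain ⟨h, e⟩ := ih
        obtain ⟨h', e'⟩ := hTmul i (p a) (b a) (hb a)
        have hins : ∑ k ∈ insert a S, aeval x (p k) * b k =
            aeval x (p a) * b a + ∑ k ∈ S, aeval x (p k) * b k := Finset.sum_insert ha
        refine ⟨by rw [hins]; exact add_mem h' h, ?_⟩
        rw [Finset.sum_insert ha (f := fun k => p k * T i (b k) (hb k)), ← e, ← e', ← hTadd]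
        congr 1
    obtain ⟨h1, e1⟩ := hTsum Finset.univ
    obtain ⟨h2, e2⟩ := hTmul i Q u hu
    have hmain : aeval x Q * trX K x (φ i * u) = aeval x Q * aeval x (T i u hu) := by
      rw [← trX_mul_of_mem (aeval_mem x Q), mul_left_comm, hsum, ← map_mul, ← e2]
      have : T i (aeval x Q * u) h2 = T i (∑ k, aeval x (p k) * b k) h1 := by
        congr 1
      rw [this, e1, map_sum, Finset.mul_sum, map_sum]
      refine Finset.sum_congr rfl fun k _ => ?_
      rw [mul_left_comm, trX_mul_of_mem (aeval_mem x _), hφb, map_mul]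
    exact mul_left_cancel₀ (fun h => hQ (transcendental_iff.1 hx _ h)) hmain
  refine ⟨φ, ?_, fun i => ⟨fun u hu => ⟨_, hφT i u hu⟩, fun u hu => ?_⟩⟩
  · rw [Fintype.linearIndependent_iff]
    intro a ha k
    have hvk := (mem_riemannRoch_nB hF hx).1 (v k).2
    have hTk : ∀ i, (T i (v k) hvk.1).coeff (m - 1) = if i = k then 1 else 0 := fun i => by
      rw [hT, show m - 1 + 1 = m by omega, ← hbi i k]
      rfl
    have h0 : ∑ i, a i • T i (v k) hvk.1 = 0 := by
      apply transcendental_iff_injective.1 hx
      simp only [map_sum, map_smul, map_zero, ← hφT]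
      have h1 : trX K x ((∑ i, a i • φ i) * (v k : F)) = 0 := by rw [ha, zero_mul, map_zero]
      simpa [Finset.sum_mul, smul_mul_assoc, map_sum, map_smul] using h1
    have := congrArg (fun p : K[X] => p.coeff (m - 1)) h0
    simpa [finsetSum_coeff, hTk] using this
  · -- at infinity
    obtain ⟨M, hM⟩ : ∃ M : ℕ, 2 ≤ M ∧ x ^ M * u ∈ regSub (K := K) x := by
      refine ⟨2 + ∑ P ∈ (poleDiv hF x⁻¹).support, (P.ord u).natAbs, by omega, fun P hP => ?_⟩
      rcases eq_or_lt_of_le hP with h0 | h0
      · refine (((atLeast_ord (v := P) _).mul (hu P (by rw [P.ord_inv]; omega)))).mono ?_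
        rw [place_ord_pow, ← h0]; simp
      · refine ((atLeast_ord (v := P) _).mul (atLeast_ord u)).mono ?_
        have hmem : P ∈ (poleDiv hF x⁻¹).support :=
          Finsupp.mem_support_iff.2 (by rw [poleDiv_apply, P.ord_inv]; omega)
        have hPB := Finset.single_le_sum
          (f := fun P : Place K F => (P.ord u).natAbs) (fun _ _ => Nat.zero_le _) hmem
        rw [place_ord_pow]
        set S := ∑ P ∈ (poleDiv hF x⁻¹).support, (P.ord u).natAbs
        have h2 : ((2 + S : ℕ) : ℤ) ≤ ((2 + S : ℕ) : ℤ) * P.ord x :=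
          le_mul_of_one_le_right (Int.natCast_nonneg _) h0
        push_cast at h2 ⊢
        omega
    obtain ⟨hM2, hMu⟩ := hM
    set T' := T i (x ^ M * u) hMu
    have hdeg' : T'.natDegree ≤ M + t - 2 := by
      refine natDegree_le_iff_coeff_eq_zero.2 fun j hj => ?_
      rw [hT]
      obtain ⟨d, hd⟩ := Nat.exists_eq_add_of_le (show M + t ≤ j + 1 by omega)
      rw [show x⁻¹ ^ (j + 1) * (x ^ M * u) = x⁻¹ ^ t * (x⁻¹ ^ d * u) by
        rw [hd, inv_pow, inv_pow, inv_pow, pow_add, pow_add]; field_simp]
      exact hlam1 i _ (mul_mem (pow_mem (self_mem_regSub _) d) hu)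
    refine ⟨T'.reflect (M + t - 2), ?_⟩
    have h1 := hφT i _ hMu
    rw [mul_left_comm, trX_mul_of_mem (pow_mem (mem_adjoin_simple_self K x) _)] at h1
    have hxi : Transcendental K x⁻¹ := transcendental_inv hx
    have h2 := aeval_inv_mul_pow hxi (p := T') hdeg'
    rw [inv_inv] at h2
    rw [← h2, ← h1, inv_pow, inv_pow]
    obtain ⟨e, he⟩ := Nat.exists_eq_add_of_le (show 2 ≤ M by omega)
    rw [show M + t - 2 = e + t by omega, he, pow_add, pow_add]
    field_simp

/-- Twisted dual differentials have bounded poles. -/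
theorem isRegDiff_twist [CharZero K] {φ : F} {t : ℕ}
    (h0 : ∀ u ∈ regSub (K := K) x, ∃ p : K[X], trX K x (φ * u) = aeval x p)
    (h1 : ∀ u ∈ regSub (K := K) x⁻¹, ∃ p : K[X],
      trX K x (φ * u) = x ^ t * (x⁻¹ ^ 2 * aeval x⁻¹ p)) :
    (∀ (P : Place K F) (c : K), HasValue P x c →
      AtLeast P (1 - P.ord (x - algebraMap K F c)) φ) ∧
      ∀ P : Place K F, P.ord x < 0 → AtLeast P (1 - P.ord x + t * P.ord x) φ := by
  refine ⟨fun P c hc => ?_, fun P hP => ?_⟩
  · by_contra hcon
    simp only [AtLeast, not_or, not_le] at hcon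
    obtain ⟨u, hu, hne, hlt⟩ := exists_trX_pole hF hx rfl hx hc 0 hcon.1 (by linarith)
    obtain ⟨p, hp⟩ := h0 u hu
    rw [hp] at hne hlt
    have := (atLeast_iff hne).1 (hc.aeval p).atLeast
    simp at hlt
    omega
  · by_contra hcon
    simp only [AtLeast, not_or, not_le] at hcon
    have hv : HasValue P x⁻¹ 0 := hasValue_zero_of_pos (by rw [P.ord_inv]; omega)
    obtain ⟨u, hu, hne, hlt⟩ := exists_trX_pole hF hx (adjoin_inv_eq x) (transcendental_inv hx)
      hv (2 - t) hcon.1 (by rw [map_zero, sub_zero, P.ord_inv]; linarith)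
    obtain ⟨p, hp⟩ := h1 u hu
    rw [hp] at hne hlt
    rw [map_zero, sub_zero] at hlt
    have := (atLeast_iff hne).1 ((atLeast_pow (atLeast_ord (v := P) x) t).mul
      ((atLeast_pow (atLeast_ord (v := P) x⁻¹) 2).mul (hv.aeval p).atLeast))
    rw [P.ord_inv] at this hlt
    push_cast at this
    linarith

/-- **The divisor of `dx` has degree `2g - 2` up to one.** -/
theorem degree_diffDiv [CharZero K] [Algebra.IsSeparable K⟮x⟯ F] {W : Divisor K F}
    (hW0 : ∀ P c, HasValue P x c → W P = P.ord (x - algebraMap K F c) - 1)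
    (hW1 : ∀ P : Place K F, P.ord x < 0 → W P = P.ord x - 1) :
    2 * (genus K F : ℤ) - 2 ≤ Divisor.degree W ∧
      Divisor.degree W ≤ 2 * (genus K F : ℤ) - 1 := by
  classical
  have hx0 : x ≠ 0 := fun h0 => hx (h0 ▸ isAlgebraic_zero)
  have hn := finrank_adjoin_pos hF hx
  constructor
  · obtain ⟨c₀, hc₀⟩ := exists_threshold hF
    set t : ℕ := (c₀ - Divisor.degree W).toNat + 1 with ht
    obtain ⟨φ, hli, hφ⟩ := exists_dual_twist hF hx t
    set D := W + t • poleDiv hF x
    have hdeg : Divisor.degree D = Divisor.degree W + (t : ℤ) * Module.finrank K⟮x⟯ F := by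
      rw [map_add, map_nsmul, degree_poleDiv hF hx, nsmul_eq_mul]
    have hmem : ∀ i, φ i ∈ riemannRochSpace D := fun i => by
      obtain ⟨h0, h1⟩ := isRegDiff_twist hF hx (hφ i).1 (hφ i).2
      rw [mem_riemannRochSpace]
      intro P
      simp only [D, Finsupp.add_apply, Finsupp.smul_apply, poleDiv_apply, nsmul_eq_mul]
      rcases lt_or_ge (P.ord x) 0 with hP | hP
      · refine (h1 P hP).mono ?_
        rw [hW1 P hP, max_eq_right (by omega)]
        linarith
      · obtain ⟨c, hc⟩ := exists_hasValue hF (Or.inr hP : AtLeast P 0 x)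
        refine (h0 P c hc).mono ?_
        rw [hW0 P c hc, max_eq_left (by omega)]
        simp
    haveI := finite_riemannRochSpace hF D
    have hle := (LinearIndependent.of_comp (riemannRochSpace D).subtype
      (v := fun i => (⟨φ i, hmem i⟩ : riemannRochSpace D)) hli).fintype_card_le_finrank
    rw [Fintype.card_fin] at hle
    have hh : (t : ℤ) ≤ (t : ℤ) * Module.finrank K⟮x⟯ F :=
      le_mul_of_one_le_right (Int.natCast_nonneg _) (by omega)
    have e := hc₀ D (by rw [hdeg]; omega)
    rw [hdeg, ell] at e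
    have hle' : (t : ℤ) * Module.finrank K⟮x⟯ F + genus K F - 1 ≤
        Module.finrank K (riemannRochSpace D) := by
      have : t * Module.finrank K⟮x⟯ F + genus K F ≤
          Module.finrank K (riemannRochSpace D) + 1 := by omega
      zify at this
      linarith
    linarith
  · haveI := finite_riemannRochSpace hF W
    let b := Module.finBasis K (riemannRochSpace W)
    have h := card_le_genus hF hx (fun i => ((b i : riemannRochSpace W) : F))
      (b.linearIndependent.map' _ (Submodule.ker_subtype _)) fun i => by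
      refine IsRegDiff.isDual hF hx ?_
      have hi := mem_riemannRochSpace.1 (b i).2
      refine ⟨fun P c hc => (hi P).mono ?_, fun P hP => (hi P).mono ?_⟩
      · rw [hW0 P c hc]; linarith
      · rw [hW1 P hP]; linarith
    rw [Fintype.card_fin] at h
    have h' := riemann_inequality hF W
    rw [ell] at h'
    have : (Module.finrank K (riemannRochSpace W) : ℤ) ≤ genus K F := by exact_mod_cast h
    linarith

end FA.Curve
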