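import Fermat.Agent.ModField.Semistable.Formal.Fixed

/-!
# Fixed representatives of fixed classes

With a fixed place, a class fixed by automorphisms has a fixed divisor; with enough fixed places
over the components, a function with fixed divisor can be taken fixed and its scales have the
valuation of fixed constants.
-/

set_option autoImplicit false
set_option linter.style.haveILetI false
set_option linter.unusedSectionVars false

noncomputable section

namespace FA.ModField

open AlgebraicCurve FA.Curve FA.CurveRed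

section Class

variable {K F : Type*} [Field K] [IsAlgClosed K] [Field F] [Algebra K F]
  (hF : IsFunctionField K F) (G : Set (SemilinearAut K F))

include hF

/-- A fixed class has a fixed divisor. -/
theorem exists_fixed_rep {O : Place K F} (hO : ∀ S ∈ G, S • O = O)
    (D₀ : Divisor.degZero (K := K) (F := F)) (hD₀ : ∀ S ∈ G, S • Pic0.mk D₀ = Pic0.mk D₀) :
    ∃ D : Divisor.degZero (K := K) (F := F), Pic0.mk D = Pic0.mk D₀ ∧
      ∀ S ∈ G, ∀ P, (D : Divisor K F) (S • P) = (D : Divisor K F) P := by
  classical
  set Dn : ℕ → Divisor K F := fun r => (D₀ : Divisor K F) + Finsupp.single O (r : ℤ)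
  have hdeg : ∀ r, Divisor.degree (Dn r) = (r : ℤ) := fun r => by
    rw [map_add, Divisor.mem_degZero.1 D₀.2, zero_add, Divisor.degree_single, hF.deg_eq_one]
    simp
  have hex : ∃ r, 0 < ell (Dn r) := ⟨genus K F + 1, by
    have := riemann_inequality hF (Dn (genus K F + 1))
    rw [hdeg] at this
    push_cast at this
    omega⟩
  set r := Nat.find hex
  set V := riemannRochSpace (Dn r)
  haveI := finite_riemannRochSpace hF (Dn r)
  have hpos : 0 < ell (Dn r) := Nat.find_spec hex
  haveI : Nontrivial V :=
    Module.nontrivial_of_finrank_pos (R := K) (Int.natCast_pos.1 hpos)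
  obtain ⟨f, hf⟩ := exists_ne (0 : V)
  have hf0 : (f : F) ≠ 0 := fun h => hf (Subtype.ext h)
  set E := Dn r + divOf hF (f : F) with hE
  have hEapp : ∀ g : F, ∀ P, (Dn r + divOf hF g) P = Dn r P + P.ord g := fun g P => by
    rw [Finsupp.add_apply, divOf_apply]
  have huniq : ∀ g ∈ V, g ≠ 0 → ∀ P : Place K F, P.ord g = P.ord (f : F) := by
    intro g hg hg0
    obtain ⟨c, rfl⟩ : ∃ c : K, g = algebraMap K F c * f := by
      by_cases hr : r = 0
      · have h1 : ∀ v ∈ V, v ≠ 0 → ∀ P, P.ord v = -Dn r P := by
          intro v hv hv0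
          have hle : 0 ≤ Dn r + divOf hF v := Finsupp.le_def.2 fun P => by
            have := (atLeast_iff hv0).1 (FA.Curve.mem_riemannRochSpace.1 hv P)
            rw [hEapp, Finsupp.coe_zero, Pi.zero_apply]
            omega
          have hz : Dn r + divOf hF v = 0 := by
            ext P
            have h2 := degree_mono hF (D := Finsupp.single P ((Dn r + divOf hF v) P))
              (D' := Dn r + divOf hF v) (Finsupp.le_def.2 fun Q => by
                rw [Finsupp.single_apply]
                split_ifs with h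
                · rw [h]
                · exact Finsupp.le_def.1 hle Q)
            rw [Divisor.degree_single, hF.deg_eq_one, map_add, hdeg, degree_divOf] at h2
            have h3 := Finsupp.le_def.1 hle P
            simp only [Finsupp.coe_zero, Pi.zero_apply, Finsupp.add_apply] at h2 h3 ⊢
            simp only [Nat.cast_one, mul_one, add_zero] at h2
            omega
          intro P
          have := DFunLike.congr_fun hz P
          rw [hEapp, Finsupp.coe_zero, Pi.zero_apply] at this
          omega
        obtain ⟨c, -, hc⟩ := exists_const_of_ord_eq hF hg0 hf0 fun P => by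
          rw [h1 g hg hg0 P, h1 f f.2 hf0 P]
        exact ⟨c, hc⟩
      · have hlt : ¬ 0 < ell (Dn (r - 1)) := Nat.find_min hex (Nat.sub_one_lt hr)
        have hzero : riemannRochSpace (Dn (r - 1)) = ⊥ := by
          haveI := finite_riemannRochSpace hF (Dn (r - 1))
          rw [← Submodule.finrank_eq_zero]
          simp only [ell, Int.natCast_pos, not_lt, Nat.le_zero] at hlt
          exact hlt
        obtain ⟨t, ht⟩ := exists_uniformizer O
        have ht0 : t ≠ 0 := fun h => by rw [h, Place.ord_zero] at ht; omega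
        set n := Dn r O
        have hreg : ∀ v ∈ V, AtLeast O 0 (v * t ^ n) := fun v hv => by
          refine ((FA.Curve.mem_riemannRochSpace.1 hv O).mul (atLeast_ord _)).mono (le_of_eq ?_)
          rcases Int.eq_nat_or_neg n with ⟨m, hm | hm⟩
          · rw [hm, zpow_natCast, place_ord_pow, ht, ← hm]; ring
          · rw [hm, zpow_neg, zpow_natCast, O.ord_inv, place_ord_pow, ht]
            rw [show Dn r O = -(m : ℤ) from hm]
            ring
        obtain ⟨a, ha⟩ := exists_hasValue hF (hreg g hg)
        obtain ⟨b, hb⟩ := exists_hasValue hF (hreg f f.2)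
        have hsub : ∀ v ∈ V, HasValue O (v * t ^ n) 0 → v = 0 := by
          intro v hv h0
          have h : v ∈ riemannRochSpace (Dn (r - 1)) := by
            rw [FA.Curve.mem_riemannRochSpace]
            intro P
            have h1 := FA.Curve.mem_riemannRochSpace.1 hv P
            rcases eq_or_ne P O with rfl | hP
            · have h2 := (hasValue_zero_iff.1 h0).mul (atLeast_ord (v := P) (t ^ n)⁻¹)
              rw [mul_assoc, mul_inv_cancel₀ (zpow_ne_zero _ ht0), mul_one] at h2
              refine h2.mono ?_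
              have e : (Dn (r - 1)) P = n - 1 := by
                simp only [n, Dn, Finsupp.add_apply, Finsupp.single_eq_same]
                push_cast [Nat.cast_sub (Nat.one_le_iff_ne_zero.2 hr)]
                ring
              rw [e, P.ord_inv]
              rcases Int.eq_nat_or_neg n with ⟨m, hm | hm⟩
              · rw [hm, zpow_natCast, place_ord_pow, ht]; omega
              · rw [hm, zpow_neg, zpow_natCast, P.ord_inv, place_ord_pow, ht]; omega
            · have e : (Dn (r - 1)) P = Dn r P := by
                simp only [Dn, Finsupp.add_apply, Finsupp.single_eq_of_ne hP]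
              rw [e]
              exact h1
          rwa [hzero, Submodule.mem_bot] at h
        have hb0 : b ≠ 0 := fun h0 => hf0 (hsub f f.2 (h0 ▸ hb))
        refine ⟨a / b, sub_eq_zero.1 (hsub _ (sub_mem hg (by
          rw [← Algebra.smul_def]; exact Submodule.smul_mem _ _ f.2)) ?_)⟩
        have h := ha.sub (hb.smul (a / b))
        rwa [div_mul_cancel₀ _ hb0, sub_self, ← mul_assoc, ← sub_mul] at h
    intro P
    have hc : algebraMap K F c ≠ 0 := fun h => hg0 (by rw [h, zero_mul])
    rw [P.ord_mul hc hf0, place_ord_algebraMap, zero_add]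
  have hEdeg : Divisor.degree (E - Finsupp.single O (r : ℤ)) = 0 := by
    rw [map_sub, hE, map_add, hdeg, degree_divOf, Divisor.degree_single, hF.deg_eq_one]
    simp
  refine ⟨⟨E - Finsupp.single O (r : ℤ), Divisor.mem_degZero.2 hEdeg⟩, ?_, fun S hS P => ?_⟩
  · refine QuotientAddGroup.eq_iff_sub_mem.2 ?_
    rw [AddSubgroup.mem_addSubgroupOf]
    refine ⟨f, hf0, fun P => ?_⟩
    simp [hE, Dn]
    ring
  · -- the image is a representative of the same class
    have h1 := hD₀ S hS
    rw [SemilinearAut.pic0_smul_mk] at h1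
    have h2 := (QuotientAddGroup.eq_iff_sub_mem.1 h1 :)
    rw [AddSubgroup.mem_addSubgroupOf] at h2
    obtain ⟨h, hh0, hh⟩ := h2
    have hSf : S • (f : F) ≠ 0 := fun e =>
      hf0 (MulAction.injective S (e.trans (smul_zero S).symm))
    have hv : S • (f : F) * h ∈ V ∧ ∀ Q, Q.ord (S • (f : F) * h) + Dn r Q = E (S⁻¹ • Q) := by
      have key : ∀ Q, Q.ord (S • (f : F) * h) + Dn r Q = E (S⁻¹ • Q) := fun Q => by
        have e1 := hh Q
        simp only [AddSubgroupClass.coe_sub, Finsupp.sub_apply, SemilinearAut.coe_degZeroSMulHom,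
          SemilinearAut.divisor_smul_apply] at e1
        have e2 := SemilinearAut.ord_smul S (S⁻¹ • Q) (f : F)
        rw [smul_inv_smul] at e2
        have e3 : (Finsupp.single O (r : ℤ) : Divisor K F) (S⁻¹ • Q) = Finsupp.single O (r : ℤ) Q := by
          rw [Finsupp.single_apply, Finsupp.single_apply]
          refine if_congr ⟨fun e => ?_, fun e => ?_⟩ rfl rfl
          · rw [← hO S hS, e, smul_inv_smul]
          · exact eq_inv_smul_iff.2 (by rw [hO S hS, e])
        rw [Q.ord_mul hSf hh0, e2, hE, hEapp]
        simp only [Dn, Finsupp.add_apply, e3]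
        linarith
      refine ⟨FA.Curve.mem_riemannRochSpace.2 fun Q => Or.inr ?_, key⟩
      have h3 := key Q
      have h4 := (atLeast_iff hf0).1 (FA.Curve.mem_riemannRochSpace.1 f.2 (S⁻¹ • Q))
      rw [hE, hEapp] at h3
      omega
    have h5 := hv.2 (S • P)
    rw [inv_smul_smul, huniq _ hv.1 (mul_ne_zero hSf hh0)] at h5
    show (E - Finsupp.single O (r : ℤ) : Divisor K F) (S • P) = _
    have e4 : (Finsupp.single O (r : ℤ) : Divisor K F) (S • P) = Finsupp.single O (r : ℤ) P := by
      rw [Finsupp.single_apply, Finsupp.single_apply]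
      refine if_congr ⟨fun e => ?_, fun e => ?_⟩ rfl rfl
      · exact MulAction.injective S (show S • O = S • P by rw [hO S hS, e])
      · rw [← e, hO S hS]
    rw [Finsupp.sub_apply, Finsupp.sub_apply, e4, ← h5, hE, hEapp]
    ring

/-- A function with fixed divisor can be scaled to be fixed. -/
theorem exists_fixed_fn {g : F} (hg : g ≠ 0) (hinv : ∀ S ∈ G, ∀ P : Place K F,
      (S • P).ord g = P.ord g) {P₁ : Place K F} (hP₁ : ∀ S ∈ G, S • P₁ = P₁)
    (hord : P₁.ord g = 0) :
    ∃ c : K, c ≠ 0 ∧ ∀ S ∈ G, S • (algebraMap K F c * g) = algebraMap K F c * g := by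
  obtain ⟨a, ha⟩ := exists_hasValue hF (Or.inr hord.ge : AtLeast P₁ 0 g)
  have ha0 : a ≠ 0 := fun h0 => by
    rw [h0, hasValue_zero_iff, atLeast_iff hg, hord] at ha
    omega
  refine ⟨a⁻¹, inv_ne_zero ha0, fun S hS => ?_⟩
  set g' := algebraMap K F a⁻¹ * g with hg'
  have hc : algebraMap K F a⁻¹ ≠ 0 := by simpa using ha0
  have hg'0 : g' ≠ 0 := mul_ne_zero hc hg
  have hg'ord : ∀ P : Place K F, P.ord g' = P.ord g := fun P => by
    rw [hg', P.ord_mul hc hg, place_ord_algebraMap, zero_add]
  have hv : HasValue P₁ g' 1 := by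
    have := ha.smul a⁻¹
    rwa [inv_mul_cancel₀ ha0] at this
  have hS0 : S • g' ≠ 0 := fun e => hg'0 (MulAction.injective S (e.trans (smul_zero S).symm))
  obtain ⟨c, -, hcc⟩ := exists_const_of_ord_eq hF hS0 hg'0 fun P => by
    have h := SemilinearAut.ord_smul S (S⁻¹ • P) g'
    rw [smul_inv_smul] at h
    have h2 := hinv S hS (S⁻¹ • P)
    rw [smul_inv_smul] at h2
    rw [h, hg'ord, hg'ord, h2]
  have h1 := SemiFibre.hasValue_smul' S hv
  rw [hP₁ S hS, map_one, hcc] at h1
  have h2 := hv.smul c
  rw [mul_one] at h2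
  rw [hcc, ← h1.unique h2, map_one, one_mul]

end Class

namespace SemiFibre

variable {K F k : Type*} [Field K] [Field F] [Algebra K F] [Field k] {ι : Type*} [Fintype ι]
  {Fk : ι → Type*} [∀ i, Field (Fk i)] [∀ i, Algebra k (Fk i)] {A : ValuationSubring K}
  {β σ : Type*} [Fintype β] [Fintype σ] {X : SemiFibre K F k Fk A β σ}
  [IsAlgClosed K] [IsAlgClosed k] [Nonempty ι] (hF : IsFunctionField K F)
  (hk : ∀ i, IsFunctionField k (Fk i)) {T : Set (SemilinearAut K F)}
  (hlift : ∀ i, (X.fixGood T i).Infinite)

include hF hlift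

omit [Nonempty ι] in
/-- A fixed place off a finite set. -/
theorem exists_fixed_place [Nonempty ι] (g : F) :
    ∃ P : Place K F, P.ord g = 0 ∧ ∀ τ ∈ T, τ • P = P := by
  classical
  set i := Classical.arbitrary ι
  obtain ⟨Q, ⟨-, P, hP, hfix⟩, hQ⟩ := (hlift i).exists_notMem_finset
    ((((FA.Curve.finite_support hF g).toFinset.image X.spl).preimage
      (fun Q : Place k (Fk i) => some (⟨i, Q⟩ : Σ i, Place k (Fk i)))
      (fun _ _ _ _ h => eq_of_heq (Sigma.mk.inj (Option.some_injective _ h)).2)))
  refine ⟨P, ?_, hfix⟩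
  by_contra hne
  exact hQ (Finset.mem_preimage.2 (Finset.mem_image.2
    ⟨P, (FA.Curve.finite_support hF g).mem_toFinset.2 hne, hP⟩))

include hk

/-- The scales of a fixed function have the valuation of fixed constants. -/
theorem exists_fixed_scale {i : ι} {g g' : F} {c : K} {r : Fk i}
    (hgg : g = algebraMap K F c * g') (hr : (X.C i).Red g' r) (hr0 : r ≠ 0) (hc : c ≠ 0)
    (hg : ∀ τ ∈ T, τ • g = g) :
    ∃ a : K, a ≠ 0 ∧ (∀ τ ∈ T, SemilinearAut.baseAut τ a = a) ∧
      A.valuation a = A.valuation c := by
  classical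
  have hg'0 := hr.ne_zero hr0
  obtain ⟨Q, ⟨hQb, P, hP, hfix⟩, hQ⟩ := (hlift i).exists_notMem_finset
    ((((FA.Curve.finite_support hF g').toFinset.image X.spl).preimage
      (fun Q : Place k (Fk i) => some (⟨i, Q⟩ : Σ i, Place k (Fk i)))
      (fun _ _ _ _ h => eq_of_heq (Sigma.mk.inj (Option.some_injective _ h)).2)) ∪
      (FA.Curve.finite_support (hk i) r).toFinset)
  rw [Finset.mem_union, not_or] at hQ
  have hzero : ∀ P', X.spl P' = some ⟨i, Q⟩ → P'.ord g' = 0 := fun P' hP' => by
    by_contra hne
    exact hQ.1 (Finset.mem_preimage.2 (Finset.mem_image.2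
      ⟨P', (FA.Curve.finite_support hF g').mem_toFinset.2 hne, hP'⟩))
  have hQr : Q.ord r = 0 := by
    by_contra hne
    exact hQ.2 ((FA.Curve.finite_support (hk i) r).mem_toFinset.2 hne)
  have hnp : X.NoPole ⟨i, Q⟩ g' := fun P' hP' => Or.inr (hzero P' hP').ge
  obtain ⟨b, hb⟩ := exists_hasValue hF (hnp P hP)
  obtain ⟨hbA, hbv⟩ := X.hasValue_red hF hr hQb hnp hP hb
  have hb1 : A.valuation b = 1 := by
    refine le_antisymm ((A.valuation_le_one_iff b).2 hbA) (le_of_not_gt fun hlt => ?_)
    rw [(X.π_eq_zero ⟨b, hbA⟩).2 hlt, hasValue_zero_iff, atLeast_iff hr0, hQr] at hbv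
    omega
  have hval : HasValue P g (c * b) := hgg ▸ hb.smul c
  refine ⟨c * b, mul_ne_zero hc fun h0 => by simp [h0] at hb1, fun τ hτ => ?_, by
    rw [map_mul, hb1, mul_one]⟩
  have h := hasValue_smul' τ hval
  rw [hfix τ hτ, hg τ hτ] at h
  exact h.unique hval

end SemiFibre

end FA.ModField
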