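import Fermat.Agent.ModField.Semistable.NormU
import Fermat.Agent.ModField.Semistable.RedModular

/-!
# The norm of the Hecke correspondence on functions

`normT` sends `f` to the norm along `α` of `β f`. Its expansion is the product of the conjugates,
so it commutes with the inclusion of level `M` into level `M q`, with Galois elements fixing the
`ℓ`-th roots of unity and with the Atkin–Lehner involution at `q`.
-/

set_option autoImplicit false
set_option linter.style.haveILetI false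
set_option linter.unusedSectionVars false
set_option synthInstance.maxHeartbeats 200000
set_option maxHeartbeats 400000

noncomputable section

namespace FA.ModField

open ModularCurve AlgebraicCurve FA.Level FA.Curve Polynomial

section Norm

variable (N ℓ : ℕ) [NeZero N] [hℓ : Fact ℓ.Prime]
variable (L : Type) [Field L] [Algebra ℚ L] [Algebra L ℂ]

/-- The norm along `α` of the image under `β`. -/
def normT (f : levelField N L) : levelField N L :=
  letI := algebraAlong (heckeAlphaBar L N ℓ)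
  Algebra.norm (levelField N L) (heckeBetaBar L N ℓ f)

theorem normT_mul (f g : levelField N L) : normT N ℓ L (f * g) = normT N ℓ L f * normT N ℓ L g := by
  letI := algebraAlong (heckeAlphaBar L N ℓ)
  simp only [normT, map_mul]

variable (hℓN : ¬ ℓ ∣ N) [IsAlgClosed L]

theorem normT_ne_zero {f : levelField N L} (hf : f ≠ 0) : normT N ℓ L f ≠ 0 := by
  letI := algebraAlong (heckeAlphaBar L N ℓ)
  haveI : FiniteDimensional (levelField N L) (levelField (N * ℓ) L) :=
    finiteAlong (isFunctionField_level L N) (isFunctionField_level L (N * ℓ))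
      (heckeAlphaBar L N ℓ)
  exact Algebra.norm_ne_zero_iff.2 ((map_ne_zero (heckeBetaBar L N ℓ).toRingHom).2 hf)

include hℓN in
/-- The expansion of the norm. -/
theorem qExpand_normT {ζ : Lˣ}
    (hζ : Units.map ((algebraMap L ℂ) : L →* ℂ) ζ = zetaN ℓ) (f : levelField N L) :
    qExpand L ℓ (normT N ℓ L f : LaurentSeries L) =
      ∏ i, conjMap ℓ ζ i (f : LaurentSeries L) := by
  letI := algebraAlong (heckeAlphaBar L N ℓ)
  haveI : FiniteDimensional (levelField N L) (levelField (N * ℓ) L) :=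
    finiteAlong (isFunctionField_level L N) (isFunctionField_level L (N * ℓ))
      (heckeAlphaBar L N ℓ)
  haveI := charZero_levelField (L := L) N
  let σ : Option (Fin ℓ) → levelField (N * ℓ) L →+* LaurentSeries ℂ := fun i =>
    (cosEmb N ℓ L hℓN i).toRingHom
  have hσinj : Function.Injective σ := fun i j h =>
    cosEmb_levelJ_injective N ℓ hℓN L (RingHom.congr_fun h _)
  have hτ : ∀ i, (σ i).comp (algebraMap (levelField N L) (levelField (N * ℓ) L)) =
      (qExpand ℂ N).comp ((qExpand ℂ ℓ).comp (toCSer L)) := fun i =>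
    RingHom.ext fun y => (cosEmb_alpha N ℓ L hℓN i y).trans (qExpand_qExpand _ _ _).symm
  have hcard : Fintype.card (Option (Fin ℓ)) =
      Module.finrank (levelField N L) (levelField (N * ℓ) L) := by
    rw [Fintype.card_option, Fintype.card_fin]
    exact (finrank_alpha N ℓ hℓN L).symm
  have h := norm_conj _ σ hσinj hτ hcard inferInstance (heckeBetaBar L N ℓ f)
  apply coeffMap_injective' (algebraMap L ℂ).injective
  apply qExpand_injective N
  rw [coeffMap_qExpand, map_prod, map_prod]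
  refine h.trans (Finset.prod_congr rfl fun i _ => ?_)
  rw [coeffMap_conjMap]
  refine (cosEmb_beta N ℓ L hℓN i f).trans ?_
  exact congrArg (fun u => qExpand ℂ N
    (conjMap ℓ u i (coeffMap (algebraMap L ℂ) (f : LaurentSeries L)))) hζ.symm

theorem exists_zetaL : ∃ ζ : Lˣ, Units.map ((algebraMap L ℂ) : L →* ℂ) ζ = zetaN ℓ := by
  haveI : CharZero L := charZero_of_injective_algebraMap (algebraMap ℚ L).injective
  haveI : NeZero (ℓ : L) := ⟨Nat.cast_ne_zero.2 hℓ.out.ne_zero⟩
  obtain ⟨z, hz⟩ := HasEnoughRootsOfUnity.exists_primitiveRoot L ℓ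
  obtain ⟨u, rfl⟩ := hz.isUnit hℓ.out.ne_zero
  obtain ⟨i, -, hi⟩ := (hz.map_of_injective (algebraMap L ℂ).injective).eq_pow_of_pow_eq_one
    (zetaN_prim ℓ).pow_eq_one
  refine ⟨u ^ i, Units.ext ?_⟩
  rw [Units.coe_map, Units.val_pow_eq_pow_val, MonoidHom.coe_coe, map_pow]
  exact hi

include hℓN in
/-- A Galois element fixing the roots of unity commutes with the norm. -/
theorem normT_gal (σ : L ≃ₐ[ℚ] L) (hσ : ∀ w : L, w ^ ℓ = 1 → σ w = w) (f : levelField N L) :
    normT N ℓ L (galAut N L σ • f) = galAut N L σ • normT N ℓ L f := by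
  obtain ⟨ζ, hζ⟩ := exists_zetaL ℓ L
  apply Subtype.ext
  apply qExpand_injective ℓ
  rw [qExpand_normT N ℓ L hℓN hζ]
  show _ = qExpand L ℓ (coeffMap (σ : L →+* L) (normT N ℓ L f : LaurentSeries L))
  rw [← coeffMap_qExpand, qExpand_normT N ℓ L hℓN hζ, map_prod]
  refine Finset.prod_congr rfl fun i _ => ?_
  have hfix : Units.map (σ : L →+* L).toMonoidHom ζ = ζ := Units.ext (hσ _ (by
    rw [← Units.val_pow_eq_pow_val]
    refine (algebraMap L ℂ).injective ?_
    have h := congrArg (fun u : ℂˣ => ((u ^ ℓ : ℂˣ) : ℂ)) hζ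
    simp only [Units.val_pow_eq_pow_val, Units.coe_map, MonoidHom.coe_coe] at h
    rw [Units.val_pow_eq_pow_val, map_pow, h, (zetaN_prim ℓ).pow_eq_one, map_one]))
  rw [coeffMap_conjMap, hfix]
  rfl

end Norm

section Levels

variable (M q ℓ : ℕ) [NeZero M] [hq : Fact q.Prime] [hℓ : Fact ℓ.Prime]
variable (L : Type) [Field L] [Algebra ℚ L] [Algebra L ℂ] [IsAlgClosed L]
  (hℓN : ¬ ℓ ∣ M * q)

include hℓN in
/-- The norm commutes with the inclusion of level `M`. -/
theorem normT_alpha (e : levelField M L) :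
    normT (M * q) ℓ L (heckeAlphaBar L M q e) = heckeAlphaBar L M q (normT M ℓ L e) := by
  obtain ⟨ζ, hζ⟩ := exists_zetaL ℓ L
  apply Subtype.ext
  apply qExpand_injective ℓ
  rw [qExpand_normT (M * q) ℓ L hℓN hζ, coe_heckeAlphaBar, coe_heckeAlphaBar,
    qExpand_normT M ℓ L (fun h => hℓN (h.trans (dvd_mul_right M q))) hζ]

variable [NeZero q] (hqM : ¬ q ∣ M)

theorem coe_equivOfEq' {K E : Type} [Field K] [Field E] [Algebra K E]
    {S T : IntermediateField K E} (h : S = T) (x : S) :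
    ((IntermediateField.equivOfEq h x : T) : E) = (x : E) := by
  subst h; rfl

theorem level_comm : levelField (M * ℓ * q) L = levelField (M * q * ℓ) L := by
  rw [mul_right_comm M ℓ q]

/-- The involution at `q` of level `M q ℓ`. -/
def wTop (hqMℓ : ¬ q ∣ M * ℓ) :
    levelField (M * q * ℓ) L ≃ₐ[L] levelField (M * q * ℓ) L :=
  haveI : NeZero (M * ℓ) := ⟨mul_ne_zero (NeZero.ne M) hℓ.out.ne_zero⟩
  ((IntermediateField.equivOfEq (level_comm M q ℓ L).symm).trans (wLvl (M * ℓ) q L hqMℓ)).trans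
    (IntermediateField.equivOfEq (level_comm M q ℓ L))

theorem wTop_gen (hqMℓ : ¬ q ∣ M * ℓ) (d : ℕ) [NeZero d] [NeZero (swapDiv q d)]
    (hd : d ∣ M * q * ℓ) (f : levelField (M * q * ℓ) L)
    (hf : (f : LaurentSeries L) = qExpand L d (jqModC L)) :
    (wTop M q ℓ L hqMℓ f : LaurentSeries L) = qExpand L (swapDiv q d) (jqModC L) := by
  haveI : NeZero (M * ℓ) := ⟨mul_ne_zero (NeZero.ne M) hℓ.out.ne_zero⟩
  have hd' : d ∣ M * ℓ * q := by rwa [mul_right_comm]
  have e : (IntermediateField.equivOfEq (level_comm M q ℓ L).symm) f =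
      lvlGenD L (M * ℓ * q) d hd' :=
    Subtype.ext (((coe_equivOfEq' _ f).trans hf).trans (coe_lvlGenD L _ d hd').symm)
  rw [wTop, AlgEquiv.trans_apply, AlgEquiv.trans_apply, coe_equivOfEq', e]
  exact coe_wLvl_gen (M * ℓ) q L hqMℓ d hd'

include hℓN in
theorem not_dvd_mul_level (hqM : ¬ q ∣ M) : ¬ q ∣ M * ℓ := fun h =>
  (hq.out.dvd_mul.1 h).elim hqM fun h' => hℓN
    (((Nat.prime_dvd_prime_iff_eq hq.out hℓ.out).1 h') ▸ dvd_mul_left q M)

theorem wTop_alpha (hqMℓ : ¬ q ∣ M * ℓ) (f : levelField (M * q) L) :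
    wTop M q ℓ L hqMℓ (heckeAlphaBar L (M * q) ℓ f) =
      heckeAlphaBar L (M * q) ℓ (wLvl M q L hqM f) := by
  suffices h : (wTop M q ℓ L hqMℓ).toAlgHom.comp (heckeAlphaBar L (M * q) ℓ) =
      (heckeAlphaBar L (M * q) ℓ).comp (wLvl M q L hqM).toAlgHom from congrArg (fun g => g f) h
  refine algHom_ext_lvl L fun d _ hd => Subtype.ext ?_
  haveI : NeZero (swapDiv q d) :=
    ⟨(Nat.pos_of_dvd_of_pos (swapDiv_dvd M q hd) (NeZero.pos _)).ne'⟩
  show (wTop M q ℓ L hqMℓ (heckeAlphaBar L (M * q) ℓ (lvlGenD L (M * q) d hd)) :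
    LaurentSeries L) = (heckeAlphaBar L (M * q) ℓ (wLvl M q L hqM (lvlGenD L (M * q) d hd)) :
      LaurentSeries L)
  rw [coe_heckeAlphaBar, coe_wLvl_gen]
  exact wTop_gen M q ℓ L hqMℓ d (hd.trans (dvd_mul_right _ _)) _ (coe_heckeAlphaBar _ _ _)

include hℓN in
theorem wTop_beta (hqMℓ : ¬ q ∣ M * ℓ) (f : levelField (M * q) L) :
    wTop M q ℓ L hqMℓ (heckeBetaBar L (M * q) ℓ f) =
      heckeBetaBar L (M * q) ℓ (wLvl M q L hqM f) := by
  suffices h : (wTop M q ℓ L hqMℓ).toAlgHom.comp (heckeBetaBar L (M * q) ℓ) =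
      (heckeBetaBar L (M * q) ℓ).comp (wLvl M q L hqM).toAlgHom from congrArg (fun g => g f) h
  refine algHom_ext_lvl L fun d _ hd => Subtype.ext ?_
  haveI : NeZero (swapDiv q d) :=
    ⟨(Nat.pos_of_dvd_of_pos (swapDiv_dvd M q hd) (NeZero.pos _)).ne'⟩
  have hs : swapDiv q (ℓ * d) = ℓ * swapDiv q d := by
    have hql : ¬ q ∣ ℓ := fun h => hqMℓ (h.trans (dvd_mul_left ℓ M))
    by_cases h : q ∣ d
    · rw [swapDiv, swapDiv, if_pos h, if_pos (h.trans (dvd_mul_left d ℓ)), Nat.mul_div_assoc _ h]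
    · rw [swapDiv, swapDiv, if_neg h,
        if_neg fun h' => (hq.out.dvd_mul.1 h').elim hql h, mul_assoc]
  haveI : NeZero (swapDiv q (ℓ * d)) := hs ▸ inferInstance
  show (wTop M q ℓ L hqMℓ (heckeBetaBar L (M * q) ℓ (lvlGenD L (M * q) d hd)) :
    LaurentSeries L) = (heckeBetaBar L (M * q) ℓ (wLvl M q L hqM (lvlGenD L (M * q) d hd)) :
      LaurentSeries L)
  rw [coe_heckeBetaBar, coe_wLvl_gen, qExpand_qExpand,
    wTop_gen M q ℓ L hqMℓ (ℓ * d) (by rw [mul_comm]; exact mul_dvd_mul_right hd ℓ) _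
      (by rw [coe_heckeBetaBar, coe_lvlGenD, qExpand_qExpand])]
  exact qExpand_congr hs _

include hℓN in
/-- The norm commutes with the involution at `q`. -/
theorem normT_wLvl (f : levelField (M * q) L) :
    normT (M * q) ℓ L (wLvl M q L hqM f) = wLvl M q L hqM (normT (M * q) ℓ L f) := by
  have hqMℓ := not_dvd_mul_level M q ℓ hℓN hqM
  have h := @Algebra.norm_eq_of_equiv_equiv (levelField (M * q) L) (levelField (M * q * ℓ) L)
    (levelField (M * q) L) (levelField (M * q * ℓ) L) _ _ _ _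
    (algebraAlong (heckeAlphaBar L (M * q) ℓ)) (algebraAlong (heckeAlphaBar L (M * q) ℓ))
    (wLvl M q L hqM).toRingEquiv (wTop M q ℓ L hqMℓ).toRingEquiv
    (RingHom.ext fun x => (wTop_alpha M q ℓ L hqM hqMℓ x).symm) (heckeBetaBar L (M * q) ℓ f)
  simp only [normT]
  rw [h]
  show _ = wLvl M q L hqM ((wLvl M q L hqM).toRingEquiv.symm _)
  rw [show (wLvl M q L hqM).toRingEquiv.symm = (wLvl M q L hqM).symm.toRingEquiv from rfl]
  refine Eq.trans ?_ (AlgEquiv.apply_symm_apply (wLvl M q L hqM) _).symm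
  exact congrArg _ (wTop_beta M q ℓ L hℓN hqM hqMℓ f).symm

end Levels

end FA.ModField
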