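import Fermat.Agent.ModField.Semistable.Mono.HeckeTors
import Fermat.Agent.ModField.Semistable.Mono.Core
import Fermat.Agent.ModField.Semistable.Mono.Fixed
import Fermat.Agent.ModField.Semistable.X0.FibreData
import Fermat.Agent.ModField.Semistable.Formal.Modular
import Fermat.Agent.LocalDef.Unr

/-!
# Classes fixed by inertia

For a class of order `p` fixed by inertia the orders of its two reductions at the crossings are
given by one number, which `T_ℓ` multiplies by `ℓ + 1`.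
-/

set_option autoImplicit false
set_option linter.style.haveILetI false
set_option linter.unusedSectionVars false
set_option synthInstance.maxHeartbeats 400000
set_option maxHeartbeats 1600000

noncomputable section

namespace FA.ModField

open ModularCurve AlgebraicCurve FA.Curve FA.CurveRed FA.JTorsion FA.Level FA.LocalDef

namespace SemiFibre

variable {K F k : Type*} [Field K] [IsAlgClosed K] [Field F] [Algebra K F] [Field k]
  [IsAlgClosed k] {ι : Type*} [Fintype ι] {Fk : ι → Type*} [∀ i, Field (Fk i)]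
  [∀ i, Algebra k (Fk i)] {A : ValuationSubring K} {β σ : Type*} [Fintype β] [Fintype σ]

/-- Off the branches the orders of the reduced classes vanish modulo `p`. -/
theorem ordMod_redTor_off (X : SemiFibre K F k Fk A β σ) (hF : IsFunctionField K F) (p : ℕ)
    [Fact p.Prime] [NeZero p] (x : Pic0.torsion K F p) {i : ι} {Q : Place k (Fk i)}
    (hb : ∀ b, X.br b ≠ ⟨i, Q⟩) :
    ordMod k (Fk i) p Q (redTor p hF (X.scaled i) x) = 0 := by
  obtain ⟨D, g, hD, hg, hgD⟩ := exists_torsion_fn p x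
  obtain ⟨c, f, r, hc, e, hfr, hr⟩ := exists_scaled (X.scaled i) hg
  rw [redTor_mk p _ _ _ hD hg hgD, redFn_eq p hc e hfr hr, ordMod_redCls p Q hr,
    ZMod.intCast_zmod_eq_zero_iff_dvd, ← X.push_divOf hF hfr hr hb,
    show divOf hF f = p • (D : Divisor K F) from
      Finsupp.ext fun P => by
        rw [divOf_apply, Finsupp.smul_apply, nsmul_eq_mul, hgD, e,
          P.ord_mul (by simpa using hc) (hfr.ne_zero hr), place_ord_algebraMap, zero_add],
    SemiFibre.push_nsmul, Finsupp.smul_apply, nsmul_eq_mul]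
  exact dvd_mul_right _ _

end SemiFibre

namespace FibreHyp

variable {K F k : Type*} [Field K] [IsAlgClosed K] [Field F] [Algebra K F] [Field k]
  [IsAlgClosed k] {Fk : Fin 2 → Type*} [∀ i, Field (Fk i)] [∀ i, Algebra k (Fk i)]
  {A : ValuationSubring K} {J : MultiRed K F k Fk A} {hF : IsFunctionField K F}
  {hk : ∀ i, IsFunctionField k (Fk i)} {x : F} {xb : ∀ i, Fk i} (H : FibreHyp J hF hk x xb)

/-- A property of the places of the components holds if it holds off the branches and at the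
branches. -/
theorem forall_place {P : ∀ i, Place k (Fk i) → Prop}
    (hoff : ∀ i Q, (∀ b : H.Br, b.1 ≠ ⟨i, Q⟩) → P i Q) (hbr : ∀ s i, P i (H.brPl s i))
    (i : Fin 2) (Q : Place k (Fk i)) : P i Q := by
  by_cases hb : ∀ b : H.Br, b.1 ≠ ⟨i, Q⟩
  · exact hoff i Q hb
  · push Not at hb
    obtain ⟨⟨⟨j, Q'⟩, hj⟩, hb⟩ := hb
    obtain ⟨rfl, hQ⟩ := Sigma.mk.inj hb
    obtain rfl := eq_of_heq hQ
    have h := congrArg Subtype.val (H.eq_brAt (⟨⟨j, Q'⟩, hj⟩ : H.Br) rfl)
    rw [eq_of_heq (Sigma.mk.inj h).2]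
    exact hbr _ _

end FibreHyp

local notation "Qb" => AlgebraicClosure ℚ
local notation "GQ" => AlgebraicClosure ℚ ≃ₐ[ℚ] AlgebraicClosure ℚ

variable [Algebra Qb ℂ] (M q : ℕ) [NeZero M] [hq : Fact q.Prime] [hq0 : NeZero q]
variable (A : ValuationSubring Qb) [IsAlgClosed (IsLocalRing.ResidueField A)]
  [CharP (IsLocalRing.ResidueField A) q] (hA : A.LiesOverPrime q) (hqM : ¬ q ∣ M)
  (harch : ∀ c : Qb, c ≠ 0 → ∃ m : ℕ, A.valuation ((q : Qb) ^ m) < A.valuation c)

local notation "kA" => IsLocalRing.ResidueField A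
local notation "πA" => IsLocalRing.residue A
local notation "Fl" => levelField (M * q) Qb
local notation "Fb" => modularFunctionFieldFullC (IsLocalRing.ResidueField A) M
local notation "rInf" => redTorInf M q A πA IsLocalRing.residue_surjective residueAt_eq_zero hqM harch
local notation "rZero" => redTorZero M q A πA IsLocalRing.residue_surjective residueAt_eq_zero hqM harch

/-- The special fibre. -/
abbrev theFibre : FibreHyp (X0.joint M q A πA IsLocalRing.residue_surjective residueAt_eq_zero hqM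
    harch) (isFunctionField_level Qb (M * q)) (X0.hkM M) (X0.xX M q) (X0.xbX M q kA) :=
  X0.fibreHyp M q A πA IsLocalRing.residue_surjective residueAt_eq_zero hqM harch

/-- The semistable fibre. -/
abbrev theSemi : SemiFibre Qb Fl kA (fun _ : Fin 2 => Fb) A (theFibre M q A hqM harch).Br
    (theFibre M q A hqM harch).Sg :=
  (theFibre M q A hqM harch).semiFibre
    (X0.connected M q A πA IsLocalRing.residue_surjective residueAt_eq_zero hqM harch)

/-- The elements of inertia acting on the function field. -/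
def inertAuts : Set (SemilinearAut Qb Fl) :=
  (fun s => galAut (M * q) Qb s) '' (A.inertiaSubgroupIn ℚ : Set GQ)

theorem inertAuts_inv {S : SemilinearAut Qb Fl} (hS : S ∈ inertAuts M q A) :
    S⁻¹ ∈ inertAuts M q A := by
  obtain ⟨s, hs, rfl⟩ := hS
  exact ⟨s⁻¹, inv_mem hs, map_inv (arithmeticGalois (modularFunctionFieldFull (M * q))) s⟩

include hA in
theorem induced_inert {S : SemilinearAut Qb Fl} (hS : S ∈ inertAuts M q A) :
    Induced (X0.joint M q A πA IsLocalRing.residue_surjective residueAt_eq_zero hqM harch)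
      (X0.xX M q) S (fun _ => 1) 1 := by
  obtain ⟨s, hs, rfl⟩ := hS
  have h := X0.induced M q A πA IsLocalRing.residue_surjective residueAt_eq_zero hqM harch
    (φ := RingEquiv.refl kA) (inducesOn_inertia hs)
  rwa [show X0.galFull M (RingEquiv.refl kA) = 1 from
    Subtype.ext (Prod.ext (RingEquiv.ext fun z => fullMap_id M z) rfl)] at h

include hA in
theorem infinite_fix (i : Fin 2) :
    ((theSemi M q A hqM harch).fixGood (inertAuts M q A) i).Infinite :=
  (fibreData M q A πA IsLocalRing.residue_surjective residueAt_eq_zero hqM harch).infinite_fixGood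
    _ (fun _ hs => inducesOn_inertia hs) (fun b => FlatModel.exists_root_lift hq.out hA b) i

include hA in
theorem exists_zpow_of_fixed {a : Qb} (ha : a ≠ 0)
    (hfix : ∀ S ∈ inertAuts M q A, SemilinearAut.baseAut S a = a) :
    ∃ m : ℤ, A.valuation a = A.valuation (q : Qb) ^ m :=
  exists_zpow_of_mem_kur hq.out hA (mem_kur.2 fun σ hσ => hfix _ ⟨σ, hσ, rfl⟩) ha

variable (U : (theFibre M q A hqM harch).UnitDatum (q : Qb))
  (hU : ∀ S ∈ inertAuts M q A, S • U.u = U.u)
variable (p : ℕ) [hp : Fact p.Prime]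

/-- The orders at the branches on the component of `∞`, modulo `p`. -/
def brOrd : ModN (M * q) (∅ : Set ℕ) p →+ ((theFibre M q A hqM harch).Sg → ZMod p) :=
  Pi.addMonoidHom fun s => (ordMod kA Fb p ((theFibre M q A hqM harch).brPl s 0)).comp
    ((rInf p).comp (torsN (M * q) p))

theorem brOrd_apply (z : ModN (M * q) (∅ : Set ℕ) p) (s : (theFibre M q A hqM harch).Sg) :
    brOrd M q A hqM harch p z s =
      ordMod kA Fb p ((theFibre M q A hqM harch).brPl s 0) (rInf p (torsN (M * q) p z)) := rfl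

/-- `κ` gives the orders of `z` at the branches. -/
def HasKappa (z : ModN (M * q) (∅ : Set ℕ) p) (κ : ℤ) : Prop :=
  ∀ s, (U.Δ : ZMod p) * brOrd M q A hqM harch p z s = ((U.δ s : ℤ) * κ : ℤ) ∧
    ordMod kA Fb p ((theFibre M q A hqM harch).brPl s 1) (rZero p (torsN (M * q) p z)) =
      - brOrd M q A hqM harch p z s

include hA hU in
theorem hasKappa_of_fixed {z : ModN (M * q) (∅ : Set ℕ) p}
    {D : Divisor.degZero (K := Qb) (F := Fl)} {g : Fl}
    (hD : Pic0.mk D = (torsN (M * q) p z : Pic0 Qb Fl)) (hg : g ≠ 0)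
    (hgD : ∀ P, (p : ℤ) * (D : Divisor Qb Fl) P = P.ord g)
    (hfix : ∀ S ∈ inertAuts M q A, S • g = g)
    {c : Fin 2 → Qb} {gg : Fin 2 → Fl} {r : Fin 2 → Fb}
    (hfg : ∀ i, g = algebraMap Qb Fl (c i) * gg i)
    (h0 : (cInf M q A πA IsLocalRing.residue_surjective residueAt_eq_zero hqM harch).Red
      (gg 0) (r 0))
    (h1 : (cZero M q A πA IsLocalRing.residue_surjective residueAt_eq_zero hqM harch).Red
      (gg 1) (r 1))
    (hr0 : ∀ i, r i ≠ 0) {κ : ℤ}
    (hκ : A.valuation (c 1) = A.valuation (q : Qb) ^ κ * A.valuation (c 0)) :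
    HasKappa M q A hqM harch U p z κ := by
  intro s
  have hc : ∀ i, c i ≠ 0 := fun i h => hg (by rw [hfg i, h, map_zero, zero_mul])
  have hr : ∀ i, ((X0.joint M q A πA IsLocalRing.residue_surjective residueAt_eq_zero hqM
      harch).C i).Red (gg i) (r i) := Fin.forall_fin_two.2 ⟨h0, h1⟩
  have hp0 : (p : ℤ) ≠ 0 := Int.natCast_ne_zero.2 hp.out.ne_zero
  have hDS : ∀ S ∈ inertAuts M q A, ∀ P,
      (D : Divisor Qb Fl) (S • P) = (D : Divisor Qb Fl) P := fun S hS P => by
    refine mul_left_cancel₀ hp0 ?_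
    rw [hgD, hgD]
    conv_lhs => rw [← hfix S hS]
    exact SemilinearAut.ord_smul S P g
  obtain ⟨e1, e2⟩ := FibreHyp.branch_ord_relation
    (X0.connected M q A πA IsLocalRing.residue_surjective residueAt_eq_zero hqM harch) U
    (inertAuts M q A) (fun S hS => induced_inert M q A hA hqM harch hS)
    (fun S hS => inertAuts_inv M q A hS)
    (fun a ha hf => exists_zpow_of_fixed M q A hA ha hf)
    (Nat.cast_ne_zero.2 hq.out.ne_zero) hU (p := p) (D : Divisor Qb Fl) hDS hg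
    (fun P => (hgD P).symm) hfg hr hr0 hκ s
  have a0 : rInf p (torsN (M * q) p z) = redCls p (r 0) := by
    rw [redTorInf, redTor_mk p _ _ _ hD hg hgD, redFn_eq p (hc 0) (hfg 0) h0 (hr0 0)]
  have a1 : rZero p (torsN (M * q) p z) = redCls p (r 1) := by
    rw [redTorZero, redTor_mk p _ _ _ hD hg hgD, redFn_eq p (hc 1) (hfg 1) h1 (hr0 1)]
  rw [← ZMod.intCast_zmod_eq_zero_iff_dvd] at e1 e2
  rw [brOrd_apply, a0, a1, ordMod_redCls p _ (hr0 0), ordMod_redCls p _ (hr0 1)]
  push_cast at e1 e2 ⊢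
  exact ⟨(sub_eq_zero.1 e2).symm, eq_neg_of_add_eq_zero_right e1⟩

variable (hqp : q ≠ p)

include hA hqp in
/-- Inertia fixes the roots of unity of order prime to `q`. -/
theorem inertia_fix_root {ℓ : ℕ} [Fact ℓ.Prime] (hℓq : ℓ ≠ q) {σ : GQ}
    (hσ : σ ∈ A.inertiaSubgroupIn ℚ) (w : Qb) (hw : w ^ ℓ = 1) : σ w = w := by
  refine fix_root ℓ A πA (fun h => hℓq ?_) (inducesOn_inertia hσ) w hw
  rw [CharP.cast_eq_zero_iff kA q] at h
  exact ((Nat.prime_dvd_prime_iff_eq hq.out Fact.out).1 h).symm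

include hA hU hqp in
/-- **The orders of a fixed class and of its images.** -/
theorem exists_kappa [NeZero p] {z : ModN (M * q) (∅ : Set ℕ) p}
    (hz : ∀ σ ∈ A.inertiaSubgroupIn ℚ, galMod (M * q) (∅ : Set ℕ) p σ z = z) :
    ∃ κ : ℤ, HasKappa M q A hqM harch U p z κ ∧
      ∀ (ℓ : ℕ) (hℓ : ℓ.Prime) (hℓN : ¬ ℓ ∣ M * q), HasKappa M q A hqM harch U p
        (CuspForm.heckeAlgebra.T (k := 2) hℓ hℓN (Set.notMem_empty ℓ) • z)
        ((ℓ + 1 : ℕ) * κ) := by
  have hF := isFunctionField_level Qb (M * q)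
  have hlift := infinite_fix M q A hA hqM harch
  obtain ⟨D₀, hD₀⟩ := Pic0.mk_surjective (torsN (M * q) p z : Pic0 Qb Fl)
  obtain ⟨O, -, hO⟩ := SemiFibre.exists_fixed_place hF hlift (1 : Fl)
  obtain ⟨D, hD, hDfix⟩ := exists_fixed_rep hF (inertAuts M q A) hO D₀ (by
    rintro _ ⟨σ, hσ, rfl⟩
    rw [hD₀, ← SemilinearAut.coe_torsion_smul, ← torsN_galMod, hz σ hσ])
  rw [hD₀] at hD
  obtain ⟨g₀, hg₀, hgD₀⟩ : ∃ g : Fl, g ≠ 0 ∧
      ∀ P, (p : ℤ) * (D : Divisor Qb Fl) P = P.ord g := by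
    have h : Pic0.mk ((p : ℤ) • D) = 0 := by
      have := Pic0.mem_torsion.1 (torsN (M * q) p z).2
      rw [← hD] at this
      exact this
    rw [Pic0.mk, QuotientAddGroup.eq_zero_iff, AddSubgroup.mem_addSubgroupOf] at h
    obtain ⟨g, hg, hgD⟩ := h
    exact ⟨g, hg, fun P => by simpa using hgD P⟩
  obtain ⟨P₁, hP₁0, hP₁⟩ := SemiFibre.exists_fixed_place hF hlift g₀
  obtain ⟨e, he, hfix⟩ := exists_fixed_fn hF (inertAuts M q A) hg₀
    (fun S hS P => by rw [← hgD₀, ← hgD₀, hDfix S hS P]) hP₁ hP₁0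
  set g := algebraMap Qb Fl e * g₀
  have hg : g ≠ 0 := mul_ne_zero (by simpa using he) hg₀
  have hgD : ∀ P, (p : ℤ) * (D : Divisor Qb Fl) P = P.ord g := fun P => by
    rw [P.ord_mul (by simpa using he) hg₀, place_ord_algebraMap, zero_add, hgD₀]
  obtain ⟨c0, g0, r0, hc0, e0, hg0, hr0⟩ := exists_scaled
    (scaled_cInf M q A πA IsLocalRing.residue_surjective residueAt_eq_zero hqM harch) hg
  obtain ⟨c1, g1, r1, hc1, e1, hg1, hr1⟩ := exists_scaled
    (scaled_cZero M q A πA IsLocalRing.residue_surjective residueAt_eq_zero hqM harch) hg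
  obtain ⟨a0, ha0, ha0f, ha0v⟩ := SemiFibre.exists_fixed_scale hF (fun _ : Fin 2 =>
    isFunctionField_fullC kA M) hlift (i := 0) e0 hg0 hr0 hc0 hfix
  obtain ⟨a1, ha1, ha1f, ha1v⟩ := SemiFibre.exists_fixed_scale hF (fun _ : Fin 2 =>
    isFunctionField_fullC kA M) hlift (i := 1) e1 hg1 hr1 hc1 hfix
  obtain ⟨m0, hm0⟩ := exists_zpow_of_fixed M q A hA ha0 ha0f
  obtain ⟨m1, hm1⟩ := exists_zpow_of_fixed M q A hA ha1 ha1f
  have hv0 : A.valuation (q : Qb) ≠ 0 :=
    (Valuation.ne_zero_iff _).2 (Nat.cast_ne_zero.2 hq.out.ne_zero)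
  have hκ : A.valuation c1 = A.valuation (q : Qb) ^ (m1 - m0) * A.valuation c0 := by
    rw [← ha0v, ← ha1v, hm0, hm1, ← zpow_add₀ hv0, sub_add_cancel]
  refine ⟨m1 - m0, hasKappa_of_fixed M q A hA hqM harch U hU p hD hg hgD hfix
    (c := ![c0, c1]) (gg := ![g0, g1]) (r := ![r0, r1]) (Fin.forall_fin_two.2 ⟨e0, e1⟩) hg0 hg1
    (Fin.forall_fin_two.2 ⟨hr0, hr1⟩) hκ, fun ℓ hℓ hℓN => ?_⟩
  haveI : Fact ℓ.Prime := ⟨hℓ⟩
  haveI : NeZero ℓ := ⟨hℓ.ne_zero⟩
  obtain ⟨D', hD', hng, hngD⟩ := exists_repr_T (M * q) ℓ (torsN (M * q) p z)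
    (torsN (M * q) p (CuspForm.heckeAlgebra.T (k := 2) hℓ hℓN (Set.notMem_empty ℓ) • z))
    (torsN_T_smul (M * q) p hℓ hℓN z) hD hg hgD
  obtain ⟨r0', hr0', hR0⟩ :=
    cInf_normT M q A πA IsLocalRing.residue_surjective residueAt_eq_zero hqM harch ℓ hℓN hg0
  obtain ⟨r1', hr1', hR1⟩ :=
    cZero_normT M q A πA IsLocalRing.residue_surjective residueAt_eq_zero hqM harch ℓ hℓN hg1
  have hn : ∀ (c : Qb) (f : Fl), g = algebraMap Qb Fl c * f →
      normT (M * q) ℓ Qb g = algebraMap Qb Fl (c ^ (ℓ + 1)) * normT (M * q) ℓ Qb f := by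
    intro c f h
    rw [h, normT_mul, normT_algebraMap (M * q) ℓ hℓN]
  refine hasKappa_of_fixed M q A hA hqM harch U hU p hD' hng hngD ?_
    (c := ![c0 ^ (ℓ + 1), c1 ^ (ℓ + 1)]) (gg := ![normT (M * q) ℓ Qb g0, normT (M * q) ℓ Qb g1])
    (r := ![r0', r1']) (Fin.forall_fin_two.2 ⟨hn _ _ e0, hn _ _ e1⟩) hr0' hr1'
    (Fin.forall_fin_two.2 ⟨hR0.ne_zero hr0, hR1.ne_zero hr1⟩) ?_
  · rintro _ ⟨σ, hσ, rfl⟩
    have hℓq : ℓ ≠ q := fun h => hℓN (h ▸ dvd_mul_left q M)
    rw [← normT_gal (M * q) ℓ Qb hℓN σ (inertia_fix_root q A hA p hqp hℓq hσ) g]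
    exact congrArg _ (hfix _ ⟨σ, hσ, rfl⟩)
  · show A.valuation (c1 ^ (ℓ + 1)) = _ * A.valuation (c0 ^ (ℓ + 1))
    rw [map_pow, map_pow, hκ, mul_pow, ← zpow_natCast (A.valuation (q : Qb) ^ (m1 - m0)),
      ← zpow_mul, mul_comm (m1 - m0)]

include hA hU hqp in
/-- Off the crossings orders of reductions are divisible by `p`; for fixed classes without orders
at the branches of `∞` they all are. -/
theorem ordMod_eq_zero [NeZero p] (hΔ : ¬ p ∣ U.Δ) {z : ModN (M * q) (∅ : Set ℕ) p}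
    (hz : ∀ σ ∈ A.inertiaSubgroupIn ℚ, galMod (M * q) (∅ : Set ℕ) p σ z = z)
    (h0 : brOrd M q A hqM harch p z = 0) (Q : Place kA Fb) :
    ordMod kA Fb p Q (rInf p (torsN (M * q) p z)) = 0 ∧
      ordMod kA Fb p Q (rZero p (torsN (M * q) p z)) = 0 := by
  obtain ⟨κ, hκ, -⟩ := exists_kappa M q A hA hqM harch U hU p hqp hz
  have key : ∀ i Q, ordMod kA Fb p Q (redTor p (isFunctionField_level Qb (M * q))
      ((theSemi M q A hqM harch).scaled i) (torsN (M * q) p z)) = 0 := by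
    refine (theFibre M q A hqM harch).forall_place
      (fun i Q hb => (theSemi M q A hqM harch).ordMod_redTor_off _ p _ hb) ?_
    intro s
    refine Fin.forall_fin_two.2 ⟨congrFun h0 s, ?_⟩
    exact (hκ s).2.trans (by rw [congrFun h0 s]; exact neg_zero)
  exact ⟨key 0 Q, key 1 Q⟩

end FA.ModField
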