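import Fermat.Agent.ModField.Semistable.Joint.Build

/-!
# One tube at a time

Functions without poles in the tube of one singular point have a common value at its branches,
which is the residue of their values in the tube; the degree of a divisor in the tube is read on
the branches of that singular point.
-/

set_option autoImplicit false
set_option linter.style.haveILetI false
set_option linter.unusedSectionVars false

noncomputable section

namespace FA.ModField.FibreHyp

open AlgebraicCurve FA.Curve FA.CurveRed FA.CurveRed.ConstRed Polynomial IntermediateField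

variable {K F k : Type*} [Field K] [IsAlgClosed K] [Field F] [Algebra K F] [Field k]
  [IsAlgClosed k] {ι : Type*} [Fintype ι] [Nonempty ι] [DecidableEq ι] {Fk : ι → Type*}
  [∀ i, Field (Fk i)] [∀ i, Algebra k (Fk i)] {A : ValuationSubring K}
  {J : MultiRed K F k Fk A} {hF : IsFunctionField K F}
  {hk : ∀ i, IsFunctionField k (Fk i)} {x : F} {xb : ∀ i, Fk i} (H : FibreHyp J hF hk x xb)

/-- A branch at the singular point `s`. -/
def InCls (s : H.Sg) (q : Σ i, Place k (Fk i)) : Prop :=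
  ∃ h : J.IsBranch x xb q, H.sgPt ⟨q, h⟩ = s

/-- A place of the tube of `s`. -/
def TubeAt (s : H.Sg) (P : Place K F) : Prop := H.InCls s (H.ctr P)

theorem tubeAt_iff_none {P : Place K F} : H.splMap P = none ↔ ∃ s, H.TubeAt s P := by
  rw [H.splMap_eq_none]
  exact ⟨fun h => ⟨_, h, rfl⟩, fun ⟨_, h, _⟩ => h⟩

theorem TubeAt.unique {H : FibreHyp J hF hk x xb} {s s' : H.Sg} {P : Place K F}
    (h : H.TubeAt s P) (h' : H.TubeAt s' P) : s = s' := by
  obtain ⟨_, rfl⟩ := h
  obtain ⟨_, rfl⟩ := h'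
  rfl

theorem TubeAt.inside {H : FibreHyp J hF hk x xb} {s : H.Sg} {P : Place K F}
    (h : H.TubeAt s P) : J.Inside x P :=
  (H.finPt_ctr P).1 h.1.1

include H in
theorem exists_cls_indicator (s : H.Sg) : ∃ e ∈ J.glued x,
    ∀ q, J.IsBranch x xb q →
      (H.InCls s q → HasValue q.2 (e q.1) 1) ∧ (¬ H.InCls s q → HasValue q.2 (e q.1) 0) := by
  classical
  obtain ⟨b, rfl⟩ := H.sgPt_surjective s
  obtain ⟨e, he, he1, he0⟩ := H.exists_indicator (q := b.1)
    (H.finite_branches.toFinset.filter fun q' => ¬ J.SameVal x b.1 q') fun q' hq' =>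
      ⟨(H.finite_branches.mem_toFinset.1 (Finset.mem_filter.1 hq').1).1,
        (Finset.mem_filter.1 hq').2⟩
  refine ⟨e, he, fun q hq => ⟨?_, fun hnot => ?_⟩⟩
  · rintro ⟨h, hs⟩
    exact (H.sgPt_eq.1 hs.symm) _ he 1 he1
  · refine he0 q (Finset.mem_filter.2 ⟨H.finite_branches.mem_toFinset.2 hq, fun hs => hnot ?_⟩)
    exact ⟨hq, (H.sgPt_eq (b := b) (b' := ⟨q, hq⟩)).2 hs |>.symm⟩

/-- The value at the centre of a regular integral function. -/
theorem value_ctr {P : Place K F} (hin : J.Inside x P) {u : F} {ub : ∀ i, Fk i}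
    (hu : u ∈ regSub (K := K) x) (hub : J.Red u ub) {b : K} (hb : HasValue P u b) :
    ∃ hbA : b ∈ A, HasValue (H.ctr P).2 (ub (H.ctr P).1) (J.π ⟨b, hbA⟩) := by
  classical
  obtain ⟨m, hm⟩ := MultiRed.exists_mem_nB hF H.chart.transX hu
  obtain ⟨hbA, hv⟩ := (H.exists_nctr P).choose_spec.2 m u ub (hm m le_rfl) hub b (by
    rwa [MultiRed.nUp, if_pos hin, one_pow, mul_one])
  change HasValue (H.ctr P).2 (ub (H.ctr P).1 * MultiRed.nDown xb (H.ctr P) ^ m) _ at hv
  rw [MultiRed.nDown, if_pos ((H.finPt_ctr P).2 hin), one_pow, mul_one] at hv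
  exact ⟨hbA, hv⟩

include H in
/-- An integral regular function, `1` on the branches at `s`, vanishing at a place elsewhere. -/
theorem exists_killer (s : H.Sg) {P : Place K F} (hP : ¬ H.TubeAt s P) :
    ∃ (h : F) (hb : ∀ i, Fk i), h ∈ regSub (K := K) x ∧ J.Red h hb ∧
      (∀ q, H.InCls s q → HasValue q.2 (hb q.1) 1) ∧ (0 ≤ P.ord x → AtLeast P 1 h) := by
  classical
  by_cases hin : J.Inside x P
  · obtain ⟨e, he, he0, he1⟩ : ∃ e ∈ J.glued x, HasValue (H.ctr P).2 (e (H.ctr P).1) 0 ∧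
        ∀ q, H.InCls s q → HasValue q.2 (e q.1) 1 := by
      by_cases hb : J.IsBranch x xb (H.ctr P)
      · obtain ⟨e, he, hee⟩ := H.exists_cls_indicator s
        exact ⟨e, he, (hee _ hb).2 hP, fun q hq => (hee q hq.1).1 hq⟩
      · obtain ⟨e, he, he0, he1⟩ := H.exists_one_vanishing ((H.finPt_ctr P).2 hin) hb
        exact ⟨e, he, he0, fun q hq => he1 q hq.1⟩
    obtain ⟨u, hu, hue⟩ := he
    obtain ⟨c, _, hc⟩ := id hin
    obtain ⟨b, hb⟩ := exists_hasValue hF
      (hu P ((atLeast_iff (x_ne_zero hF H.chart.transX)).1 hc.atLeast))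
    obtain ⟨hbA, hv⟩ := H.value_ctr hin hu hue hb
    refine ⟨u - algebraMap K F b, e, sub_mem hu (MultiRed.const_mem_regSub x b), fun j => ?_,
      he1, fun _ => hb⟩
    have h1 := (hue j).sub (J.red_const_at j ⟨b, hbA⟩)
    rwa [hv.unique he0, map_zero, sub_zero] at h1
  · by_cases hnn : 0 ≤ P.ord x
    · obtain ⟨c, hc⟩ := exists_hasValue hF (Or.inr hnn : AtLeast P 0 x)
      have hcA : c ∉ A := fun h' => hin ⟨c, h', hc⟩
      have hc0 : c ≠ 0 := fun h0 => hcA (h0 ▸ zero_mem A)
      have hci : c⁻¹ ∈ A := (A.mem_or_inv_mem c).resolve_left hcA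
      have hπ : J.π ⟨c⁻¹, hci⟩ = 0 := by
        rw [J.π_eq_zero]
        show A.valuation c⁻¹ < 1
        rw [map_inv₀]
        exact inv_lt_one_of_one_lt₀
          (lt_of_not_ge fun h' => hcA ((A.valuation_le_one_iff c).1 h'))
      refine ⟨1 - algebraMap K F c⁻¹ * x, 1,
        sub_mem (one_mem _) (mul_mem (MultiRed.const_mem_regSub x _) (self_mem_regSub x)),
        fun j => ?_, fun q _ => by simpa using hasValue_algebraMap q.2 (1 : k), fun _ => ?_⟩
      · have h1 := (ConstRed.red_one (C := J.C j)).sub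
          ((J.red_const_at j ⟨c⁻¹, hci⟩).mul (H.chart.red_x j))
        rwa [hπ, map_zero, zero_mul, sub_zero] at h1
      · have h1 := (hc.smul c⁻¹).neg
        rwa [inv_mul_cancel₀ hc0, map_one, neg_sub] at h1
    · exact ⟨1, 1, one_mem _, J.red_one,
        fun q _ => by simpa using hasValue_algebraMap q.2 (1 : k), fun h' => absurd h' hnn⟩

include H in
open Classical in
/-- **Values in a tube.** An integral function without poles in the tube of `s` has one value at
the branches at `s`, the residue of all its values in the tube. -/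
theorem value_at {f : F} {r : ∀ i, Fk i} (hfr : J.Red f r) (s : H.Sg)
    (hf : ∀ P, H.TubeAt s P → AtLeast P 0 f) :
    ∃ v : k, (∀ b : H.Br, H.sgPt b = s → HasValue b.1.2 (r b.1.1) v) ∧
      ∀ P, H.TubeAt s P → ∀ c, HasValue P f c → ∃ hc : c ∈ A, J.π ⟨c, hc⟩ = v := by
  have hx := H.chart.transX
  set poles := (finite_support hF f).toFinset.filter fun P => P.ord f < 0
  have hne : ∀ P ∈ poles, ¬ H.TubeAt s P := fun P hP h0 => by
    have hlt := (Finset.mem_filter.1 hP).2
    rcases hf P h0 with h' | h'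
    · rw [h', Place.ord_zero] at hlt; omega
    · omega
  choose! h hb hreg hred hone hzero using
    fun P (hP : P ∈ poles) => H.exists_killer s (hne P hP)
  set p := ∏ P ∈ poles, h P ^ (-P.ord f).toNat
  set pb := ∏ P ∈ poles, hb P ^ (-P.ord f).toNat
  have hp : J.Red p pb := MultiRed.red_prod fun P hP => (hred P hP).pow _
  have hpreg : p ∈ regSub (K := K) x := prod_mem fun P hP => pow_mem (hreg P hP) _
  have hfp : f * p ∈ regSub (K := K) x := by
    intro P hP
    by_cases hmem : P ∈ poles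
    · rw [show p = h P ^ (-P.ord f).toNat * ∏ P' ∈ poles.erase P, h P' ^ (-P'.ord f).toNat from
        (Finset.mul_prod_erase _ _ hmem).symm]
      have h1 : AtLeast P 0 (∏ P' ∈ poles.erase P, h P' ^ (-P'.ord f).toNat) :=
        (prod_mem (S := regSub (K := K) x) fun P' hP' =>
          pow_mem (hreg P' (Finset.mem_of_mem_erase hP')) _) P hP
      refine ((atLeast_ord f).mul ((atLeast_pow (hzero P hmem hP) _).mul h1)).mono ?_
      have := (Finset.mem_filter.1 hmem).2
      omega
    · have h1 : AtLeast P 0 f := Or.inr (by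
        by_contra hlt
        exact hmem (Finset.mem_filter.2
          ⟨(finite_support hF f).mem_toFinset.2 (show P.ord f ≠ 0 by omega), by omega⟩))
      simpa using h1.mul (hpreg P hP)
  have hgl : r * pb ∈ J.glued x := ⟨f * p, hfp, hfr.mul hp⟩
  have hpb1 : ∀ q, H.InCls s q → HasValue q.2 (pb q.1) 1 := by
    intro q hq
    simp only [pb, Finset.prod_apply]
    suffices key : ∀ S ⊆ poles, HasValue q.2 (∏ P ∈ S, (hb P ^ (-P.ord f).toNat) q.1) 1 from
      key _ (Finset.Subset.refl _)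
    intro S
    induction S using Finset.induction with
    | empty => exact fun _ => by simpa using hasValue_algebraMap q.2 (1 : k)
    | @insert P S hP ih =>
      intro hsub
      rw [Finset.insert_subset_iff] at hsub
      rw [Finset.prod_insert hP, Pi.pow_apply]
      have := ((hone P hsub.1 q hq).pow (-P.ord f).toNat).mul (ih hsub.2)
      rwa [one_pow, one_mul] at this
  have hdiv : ∀ q, H.InCls s q → ∀ v, HasValue q.2 ((r * pb) q.1) v →
      HasValue q.2 (r q.1) v := by
    intro q hq v hv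
    obtain ⟨hp0, hpo⟩ := (hpb1 q hq).ord_eq_zero one_ne_zero
    rw [HasValue]
    have h2 := hv.sub ((hpb1 q hq).smul v)
    rw [mul_one, sub_self, hasValue_zero_iff, Pi.mul_apply, ← sub_mul] at h2
    have h3 := h2.mul (atLeast_ord (v := q.2) (pb q.1)⁻¹)
    rwa [mul_assoc, mul_inv_cancel₀ hp0, mul_one, q.2.ord_inv, hpo, neg_zero, add_zero] at h3
  obtain ⟨b₀, hb₀⟩ := H.sgPt_surjective s
  obtain ⟨v, hv⟩ := H.exists_val hgl b₀.2.1
  have hall : ∀ q, H.InCls s q → HasValue q.2 ((r * pb) q.1) v := by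
    rintro q ⟨hq, hs⟩
    exact (H.sgPt_eq.1 (hb₀.trans hs.symm)) _ hgl v hv
  refine ⟨v, fun b hbs => hdiv b.1 ⟨b.2, hbs⟩ v (hall b.1 ⟨b.2, hbs⟩), fun P hP c hc => ?_⟩
  have hin := hP.inside
  obtain ⟨a, _, ha⟩ := id hin
  obtain ⟨d, hd⟩ := exists_hasValue hF
    (hpreg P ((atLeast_iff (x_ne_zero hF hx)).1 ha.atLeast))
  obtain ⟨hdA, hdv⟩ := H.value_ctr hin hpreg hp hd
  have hd1 : J.π ⟨d, hdA⟩ = 1 := hdv.unique (hpb1 _ hP)
  obtain ⟨hcdA, hcdv⟩ := H.value_ctr hin hfp (hfr.mul hp) (hc.mul hd)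
  have hd0 : A.valuation d = 1 := by
    refine le_antisymm ((A.valuation_le_one_iff d).2 hdA) (le_of_not_gt fun hlt => ?_)
    rw [(J.π_eq_zero ⟨d, hdA⟩).2 hlt] at hd1
    exact zero_ne_one hd1
  have hcA : c ∈ A := by
    have h1 := (A.valuation_le_one_iff _).2 hcdA
    rw [map_mul, hd0, mul_one] at h1
    exact (A.valuation_le_one_iff c).1 h1
  refine ⟨hcA, ?_⟩
  have h2 := hcdv.unique (hall _ hP)
  rwa [show (⟨c * d, hcdA⟩ : A) = ⟨c, hcA⟩ * ⟨d, hdA⟩ from rfl, map_mul, hd1, mul_one] at h2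

end FA.ModField.FibreHyp
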