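import Fermat.Agent.ModField.Semistable.Mono.Tube

/-!
# Degrees of divisors in one tube

The degree of the divisor of a function in the tube of a singular point is the sum of the orders
of its reductions at the branches of that point.
-/

set_option autoImplicit false
set_option linter.style.haveILetI false
set_option linter.unusedSectionVars false

noncomputable section

namespace FA.ModField.FibreHyp

open AlgebraicCurve FA.Curve FA.CurveRed FA.CurveRed.ConstRed Polynomial IntermediateField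

variable {K F k : Type*} [Field K] [IsAlgClosed K] [Field F] [Algebra K F] [Field k]
  [IsAlgClosed k] {ι : Type*} [Fintype ι] [Nonempty ι] [DecidableEq ι] {Fk : ι → Type*}
  [∀ i, Field (Fk i)] [∀ i, Algebra k (Fk i)] {A : ValuationSubring K}
  {J : MultiRed K F k Fk A} {hF : IsFunctionField K F}
  {hk : ∀ i, IsFunctionField k (Fk i)} {x : F} {xb : ∀ i, Fk i} (H : FibreHyp J hF hk x xb)

include H in
open Classical in
/-- Two sections whose quotient has simple zeros exactly at the branches of `s` among `bad` and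
the branches. -/
theorem exists_cls_pair (s : H.Sg) (bad : Finset (Σ i, Place k (Fk i))) :
    ∃ (m : ℕ) (z₁ z₂ : F) (z₁b z₂b : ∀ i, Fk i), 0 < m ∧
      z₁ ∈ riemannRochSpace (m • poleDiv hF x) ∧ z₂ ∈ riemannRochSpace (m • poleDiv hF x) ∧
      J.Red z₁ z₁b ∧ J.Red z₂ z₂b ∧ (∀ j, z₁b j ≠ 0) ∧ (∀ j, z₂b j ≠ 0) ∧
      (∀ p, 0 ≤ H.degOrd m z₁b p ∧ 0 ≤ H.degOrd m z₂b p) ∧
      (∀ p, 0 < H.degOrd m z₁b p → H.degOrd m z₂b p = 0) ∧
      (∀ p, p ∈ bad ∨ J.IsBranch x xb p →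
        H.degOrd m z₁b p = if H.InCls s p then 1 else 0) ∧
      ∀ j, ∃ Q, 0 < H.degOrd m z₁b ⟨j, Q⟩ := by
  set U : ∀ j, Finset (Place k (Fk j)) := fun j =>
    Finset.preimage (H.finite_branches.toFinset : Finset (Σ i, Place k (Fk i)))
      (fun Q' : Place k (Fk j) => (⟨j, Q'⟩ : Σ i, Place k (Fk i)))
      (fun _ _ _ _ h => eq_of_heq (Sigma.mk.inj h).2) with hUdef
  have hU : ∀ j Q', Q' ∈ U j ↔ J.IsBranch x xb ⟨j, Q'⟩ := fun j Q' => by
    rw [hUdef]
    exact Finset.mem_preimage.trans H.finite_branches.mem_toFinset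
  set Z : ∀ j, Finset (Place k (Fk j)) := fun j => (U j).filter fun Q' => H.InCls s ⟨j, Q'⟩
  set T : ∀ j, Finset (Place k (Fk j)) := fun j => U j \ Z j
  have hZ : ∀ j Q', Q' ∈ Z j ↔ H.InCls s ⟨j, Q'⟩ := fun j Q' => by
    simp only [Z, Finset.mem_filter, hU]
    exact ⟨And.right, fun h => ⟨h.1, h⟩⟩
  have hT : ∀ j Q', Q' ∈ T j ↔ J.IsBranch x xb ⟨j, Q'⟩ ∧ ¬ H.InCls s ⟨j, Q'⟩ := fun j Q' => by
    simp only [T, Finset.mem_sdiff, hU, hZ]
  choose c hc using fun j => MultiRed.exists_exact_one (hk j)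
  obtain ⟨m₁, hm₁⟩ := H.exists_lift_big
  -- zero at the branches of `s`, one at the others
  obtain ⟨e₀, he₀, hee⟩ := H.exists_cls_indicator s
  have he : (1 - e₀) ∈ J.glued x := sub_mem (J.one_mem_glued x) he₀
  have heZ : ∀ j, ∀ v ∈ Z j, AtLeast v 1 ((1 - e₀) j) := fun j v hv => by
    have h := (hasValue_algebraMap v (1 : k)).sub ((hee ⟨j, v⟩ ((hZ j v).1 hv).1).1 ((hZ j v).1 hv))
    rw [sub_self, hasValue_zero_iff, map_one] at h
    exact h
  have heT : ∀ j, ∀ v ∈ T j, HasValue v ((1 - e₀) j) 1 := fun j v hv => by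
    have h := (hasValue_algebraMap v (1 : k)).sub
      ((hee ⟨j, v⟩ ((hT j v).1 hv).1).2 ((hT j v).1 hv).2)
    rw [sub_zero, map_one] at h
    exact h
  choose m₂ hm₂ using fun j =>
    MultiRed.exists_mem_nB (hk j) (H.chart.trans j) (H.reg_of_glued he j)
  obtain ⟨m, hm1, hm2, hm3, hmc⟩ : ∃ m : ℕ, m₁ ≤ m ∧ (∀ j, m₂ j ≤ m) ∧ 0 < m ∧
      ∀ j, c j + (U j).card + (U j).card + 1 ≤ (m : ℤ) := by
    refine ⟨m₁ + (∑ j, m₂ j) + 1 + ∑ j, (c j + (U j).card + (U j).card + 1).toNat, by omega,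
      fun j => ?_, by omega, fun j => ?_⟩
    · have := Finset.single_le_sum (f := m₂) (fun _ _ => Nat.zero_le _) (Finset.mem_univ j)
      omega
    · have := Finset.single_le_sum (f := fun j => (c j + (U j).card + (U j).card + 1).toNat)
        (fun _ _ => Nat.zero_le _) (Finset.mem_univ j)
      omega
  set B := fun j => m • poleDiv (hk j) (xb j) with hBdef
  have hBU : ∀ j, ∀ v ∈ U j, B j v = 0 := fun j v hv =>
    MultiRed.nsmul_poleDiv_of_nonneg (hk j) ((hU j v).1 hv).1 m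
  have hB1 : ∀ j, (m : ℤ) ≤ Divisor.degree (B j) := fun j =>
    MultiRed.le_degree_nB (hk j) (H.chart.trans j) m
  have hBnn : ∀ j, (1 : Fk j) ∈ riemannRochSpace (B j) := fun j =>
    one_mem_nB (hk j) (H.chart.trans j) m
  -- the first section
  set D₁ : ∀ j, Divisor k (Fk j) := fun j => B j - ∑ v ∈ Z j, Finsupp.single v 1 with hD₁
  have hD₁a : ∀ j v, D₁ j v = B j v - if v ∈ Z j then 1 else 0 := fun j v => by
    rw [hD₁, Finsupp.sub_apply, Finset.sum_apply']
    simp [Finsupp.single_apply]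
  have hD₁le : ∀ j, D₁ j ≤ B j := fun j =>
    sub_le_self _ (Finset.sum_nonneg fun v _ => Finsupp.single_nonneg.2 zero_le_one)
  set S₁ : ∀ j, Finset (Place k (Fk j)) := fun j =>
    (Z j ∪ Finset.preimage bad (fun Q' : Place k (Fk j) => (⟨j, Q'⟩ : Σ i, Place k (Fk i)))
      (fun _ _ _ _ h => eq_of_heq (Sigma.mk.inj h).2)) \ T j
  have hex1 : ∀ j, ∃ r : Fk j, r ∈ riemannRochSpace (D₁ j) ∧ r ≠ 0 ∧
      (∀ v ∈ S₁ j, v.ord r = -D₁ j v) ∧ ∀ v ∈ T j, HasValue v r 1 := by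
    intro j
    refine hc j (D₁ j) (T j) (S₁ j) Finset.sdiff_disjoint (fun v hv => ?_) ?_ ((1 - e₀) j) ?_
      (heT j)
    · rw [hD₁a, hBU j v ((hU j v).2 ((hT j v).1 hv).1),
        if_neg fun h => ((hT j v).1 hv).2 ((hZ j v).1 h), sub_zero]
    · rw [hD₁, map_sub, map_sum]
      simp only [Divisor.degree_single, (hk j).deg_eq_one]
      have h1 : (T j).card ≤ (U j).card := Finset.card_le_card Finset.sdiff_subset
      have h2 : (Z j).card ≤ (U j).card := Finset.card_le_card (Finset.filter_subset _ _)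
      have := hB1 j
      have := hmc j
      simp only [Nat.cast_one, mul_one, Finset.sum_const, nsmul_eq_mul]
      omega
    · rw [FA.Curve.mem_riemannRochSpace]
      intro v
      rw [hD₁a]
      by_cases hv : v ∈ Z j
      · rw [if_pos hv, hBU j v ((hU j v).2 ((hZ j v).1 hv).1), zero_sub, neg_neg]
        exact heZ j v hv
      · rw [if_neg hv, sub_zero]
        exact FA.Curve.mem_riemannRochSpace.1 (hm₂ j m (hm2 j)) v
  choose z₁b hz₁D hz₁0 hz₁S hz₁T using hex1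
  have hz₁B : ∀ j, z₁b j ∈ riemannRochSpace (B j) := fun j =>
    riemannRochSpace_mono (hD₁le j) (hz₁D j)
  have hz₁Z : ∀ j, ∀ v ∈ Z j, HasValue v (z₁b j) 0 := fun j v hv => by
    have h := FA.Curve.mem_riemannRochSpace.1 (hz₁D j) v
    rw [hD₁a, if_pos hv, hBU j v ((hU j v).2 ((hZ j v).1 hv).1)] at h
    rw [hasValue_zero_iff]
    simpa using h
  have hD1pos : ∀ j, {Q' | H.degOrd m z₁b ⟨j, Q'⟩ ≠ 0}.Finite := fun j =>
    ((divOf (hk j) (z₁b j) + B j).support.finite_toSet).subset fun Q' hQ' => by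
      rw [Finset.mem_coe, Finsupp.mem_support_iff, Finsupp.add_apply, divOf_apply]
      exact hQ'
  -- the second section
  set S₂ : ∀ j, Finset (Place k (Fk j)) := fun j => (hD1pos j).toFinset \ U j
  have hex2 : ∀ j, ∃ r : Fk j, r ∈ riemannRochSpace (B j) ∧ r ≠ 0 ∧
      (∀ v ∈ S₂ j, v.ord r = -B j v) ∧ ∀ v ∈ U j, HasValue v r 1 := fun j =>
    hc j (B j) (U j) (S₂ j) Finset.sdiff_disjoint (hBU j) (by
      have := hB1 j
      have := hmc j
      omega) 1 (hBnn j) (fun v _ => by simpa using hasValue_algebraMap v (1 : k))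
  choose z₂b hz₂B hz₂0 hz₂S hz₂U using hex2
  obtain ⟨z₁, hz₁, hz₁r⟩ := hm₁ m hm1 z₁b (H.mem_glued_of_values
    (fun j => ((mem_riemannRoch_nB (hk j) (H.chart.trans j)).1 (hz₁B j)).1)
    fun p p' hp hp' hs v hv => by
      have hiff : H.InCls s p ↔ H.InCls s p' := by
        have h := (H.sgPt_eq (b := ⟨p, hp⟩) (b' := ⟨p', hp'⟩)).2 hs
        exact ⟨fun ⟨_, e⟩ => ⟨hp', h.symm.trans e⟩, fun ⟨_, e⟩ => ⟨hp, h.trans e⟩⟩
      by_cases hps : H.InCls s p
      · rw [hv.unique (hz₁Z p.1 p.2 ((hZ _ _).2 hps))]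
        exact hz₁Z p'.1 p'.2 ((hZ _ _).2 (hiff.1 hps))
      · rw [hv.unique (hz₁T p.1 p.2 ((hT _ _).2 ⟨hp, hps⟩))]
        exact hz₁T p'.1 p'.2 ((hT _ _).2 ⟨hp', fun h => hps (hiff.2 h)⟩)) hz₁B
  obtain ⟨z₂, hz₂, hz₂r⟩ := hm₁ m hm1 z₂b (H.mem_glued_of_values
    (fun j => ((mem_riemannRoch_nB (hk j) (H.chart.trans j)).1 (hz₂B j)).1)
    fun p p' hp hp' _ v hv => by
      rw [hv.unique (hz₂U p.1 p.2 ((hU _ _).2 hp))]
      exact hz₂U p'.1 p'.2 ((hU _ _).2 hp')) hz₂B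
  have hexact : ∀ p, p ∈ bad ∨ J.IsBranch x xb p →
      H.degOrd m z₁b p = if H.InCls s p then 1 else 0 := by
    rintro ⟨j, Q'⟩ hor
    by_cases hpT : Q' ∈ T j
    · rw [if_neg ((hT j Q').1 hpT).2]
      exact H.branch_degOrd ((hT j Q').1 hpT).1 (hz₁T j Q' hpT)
    have hmem : Q' ∈ S₁ j := Finset.mem_sdiff.2 ⟨by
      rcases hor with h' | h'
      · exact Finset.mem_union_right _ (Finset.mem_preimage.2 h')
      · refine Finset.mem_union_left _ ((hZ j Q').2 ?_)
        by_contra hns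
        exact hpT ((hT j Q').2 ⟨h', hns⟩), hpT⟩
    show Q'.ord (z₁b j) + B j Q' = _
    rw [hz₁S j Q' hmem, hD₁a, show (if Q' ∈ Z j then (1 : ℤ) else 0) =
      if H.InCls s ⟨j, Q'⟩ then 1 else 0 from if_congr (hZ j Q') rfl rfl]
    ring
  refine ⟨m, z₁, z₂, z₁b, z₂b, hm3, hz₁, hz₂, hz₁r, hz₂r, hz₁0, hz₂0, fun p =>
    ⟨H.degOrd_nonneg (hz₁B p.1) (hz₁0 p.1), H.degOrd_nonneg (hz₂B p.1) (hz₂0 p.1)⟩,
    fun p hp => ?_, hexact, fun j => ?_⟩
  · obtain ⟨j, Q'⟩ := p
    by_cases hb : J.IsBranch x xb ⟨j, Q'⟩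
    · exact H.branch_degOrd hb (hz₂U j Q' ((hU j Q').2 hb))
    have hmem : Q' ∈ S₂ j := Finset.mem_sdiff.2
      ⟨(hD1pos j).mem_toFinset.2 hp.ne', fun h' => hb ((hU j Q').1 h')⟩
    show Q'.ord (z₂b j) + B j Q' = 0
    rw [hz₂S j Q' hmem, neg_add_cancel]
  · by_contra hno
    push Not at hno
    have hz : divOf (hk j) (z₁b j) + B j = 0 := Finsupp.ext fun v => by
      have h1 := hno v
      have h2 := H.degOrd_nonneg (q := ⟨j, v⟩) (hz₁B j) (hz₁0 j)
      rw [Finsupp.add_apply, divOf_apply]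
      show v.ord (z₁b j) + B j v = 0
      simp only [degOrd, hBdef] at h1 h2 ⊢
      omega
    have h3 := congrArg Divisor.degree hz
    rw [map_add, degree_divOf, map_zero, zero_add] at h3
    have := hB1 j
    omega

include H in
open Classical in
/-- **Degrees in a tube.** -/
theorem degree_at {g : F} {cc : ι → K} {gg : ι → F} {rr : ∀ i, Fk i}
    (hfg : ∀ j, g = algebraMap K F (cc j) * gg j) (hred : ∀ j, (J.C j).Red (gg j) (rr j))
    (hg0 : g ≠ 0) (hrr0 : ∀ j, rr j ≠ 0) (s : H.Sg) :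
    Divisor.degree ((divOf hF g).filter fun P => H.TubeAt s P) =
      ∑ b : H.Br, if H.sgPt b = s then b.1.2.ord (rr b.1.1) else 0 := by
  set bad : Finset (Σ i, Place k (Fk i)) := (divOf hF g).support.image H.ctr ∪
    Finset.univ.sigma fun j => (divOf (hk j) (rr j)).support
  obtain ⟨m, z₁, z₂, z₁b, z₂b, hm, hz₁, hz₂, hz₁r, hz₂r, hz₁0, hz₂0, hnn, hdisj, hexact,
    hpos⟩ := H.exists_cls_pair s bad
  set w := z₁ * z₂⁻¹ with hwdef
  set wb : ∀ j, Fk j := fun j => z₁b j * (z₂b j)⁻¹ with hwbdef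
  have hwb0 : ∀ j, wb j ≠ 0 := fun j => mul_ne_zero (hz₁0 j) (inv_ne_zero (hz₂0 j))
  have hwr : J.Red w wb := fun j => (hz₁r j).mul ((hz₂r j).inv (hz₂0 j))
  have hword : ∀ p : Σ i, Place k (Fk i),
      p.2.ord (wb p.1) = H.degOrd m z₁b p - H.degOrd m z₂b p := fun p => by
    rw [hwbdef, p.2.ord_mul (hz₁0 _) (inv_ne_zero (hz₂0 _)), p.2.ord_inv, degOrd, degOrd]
    ring
  have hwtr : ∀ j, Transcendental k (wb j) := fun j => by
    obtain ⟨Q', hQ'⟩ := hpos j
    refine transcendental_of_ord_ne_zero Q' ?_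
    rw [hword ⟨j, Q'⟩, hdisj _ hQ']
    omega
  have hx := H.chart.transX
  have hwT : Transcendental K w :=
    transcendental_of_red (hwr (Classical.arbitrary ι)) (hwtr _)
  have hz20 : z₂ ≠ 0 := hz₂r.ne_zero (hz₂0 (Classical.arbitrary ι))
  have hz10 : z₁ ≠ 0 := hz₁r.ne_zero (hz₁0 (Classical.arbitrary ι))
  have hchart : J.MChart w wb := by
    refine ⟨hwr, hwtr, ?_⟩
    have e1 : ∀ j, (Module.finrank k⟮wb j⟯ (Fk j) : ℤ) =
        m * Module.finrank k⟮xb j⟯ (Fk j) := fun j => by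
      rw [← degree_poleDiv (hk j) (hwtr j),
        show poleDiv (hk j) (wb j) = divOf (hk j) (z₂b j) + m • poleDiv (hk j) (xb j) from
          Finsupp.ext fun v => by
            rw [poleDiv_apply, Finsupp.add_apply, divOf_apply, hword ⟨j, v⟩]
            have h1 := hnn ⟨j, v⟩
            have h2 := hdisj ⟨j, v⟩
            show _ = H.degOrd m z₂b ⟨j, v⟩
            rcases h1.1.lt_or_eq with hp | hp
            · rw [h2 hp]; omega
            · rw [← hp]; omega,
        map_add, degree_divOf, zero_add, map_nsmul, degree_poleDiv (hk j) (H.chart.trans j),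
        nsmul_eq_mul]
    have e2 : (Module.finrank K⟮w⟯ F : ℤ) ≤ m * Module.finrank K⟮x⟯ F := by
      rw [← degree_poleDiv hF hwT]
      refine (degree_mono hF (D' := divOf hF z₂ + m • poleDiv hF x)
        (Finsupp.le_def.2 fun P => ?_)).trans
        (le_of_eq (by rw [map_add, degree_divOf, zero_add, map_nsmul, degree_poleDiv hF hx,
          nsmul_eq_mul]))
      have a1 := (atLeast_iff hz10).1 (FA.Curve.mem_riemannRochSpace.1 hz₁ P)
      have a2 := (atLeast_iff hz20).1 (FA.Curve.mem_riemannRochSpace.1 hz₂ P)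
      rw [poleDiv_apply, Finsupp.add_apply, divOf_apply, hwdef,
        P.ord_mul hz10 (inv_ne_zero hz20), P.ord_inv]
      omega
    have e3 : (Module.finrank K⟮x⟯ F : ℤ) ≤ ∑ j, (Module.finrank k⟮xb j⟯ (Fk j) : ℤ) := by
      exact_mod_cast H.chart.degree_le
    have e4 : (Module.finrank K⟮w⟯ F : ℤ) ≤ ∑ j, (Module.finrank k⟮wb j⟯ (Fk j) : ℤ) := by
      simp only [e1, ← Finset.mul_sum]
      exact e2.trans (mul_le_mul_of_nonneg_left e3 (Int.natCast_nonneg _))
    exact_mod_cast e4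
  -- where `w` is small
  have hdisc : ∀ P : Place K F, J.InDisc w P 0 ↔ 0 < H.degOrd m z₁b (H.ctr P) := by
    intro P
    obtain ⟨b₁, hb₁A, hb₁, hb₁z⟩ := H.exists_zero_iff P hz₁ hz₁r (hz₁0 _)
    obtain ⟨b₂, hb₂A, hb₂, hb₂z⟩ := H.exists_zero_iff P hz₂ hz₂r (hz₂0 _)
    have hn0 : J.nUp x P ≠ 0 := by
      rw [MultiRed.nUp]
      split_ifs
      · exact one_ne_zero
      · exact inv_ne_zero (x_ne_zero hF hx)
    have hmul : w * (z₂ * J.nUp x P ^ m) = z₁ * J.nUp x P ^ m := by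
      rw [hwdef, mul_assoc, inv_mul_cancel_left₀ hz20]
    constructor
    · rintro ⟨d, hdA, hd0, hd⟩
      rw [← hb₁z]
      have h1 : b₁ = d * b₂ := hb₁.unique (hmul ▸ hd.mul hb₂)
      rw [show (⟨b₁, hb₁A⟩ : A) = ⟨d, hdA⟩ * ⟨b₂, hb₂A⟩ from Subtype.ext h1, map_mul, hd0,
        zero_mul]
    · intro hp
      have hb2π : J.π ⟨b₂, hb₂A⟩ ≠ 0 := fun h0 => by
        have := hb₂z.1 h0
        rw [hdisj _ hp] at this
        omega
      have hb20 : b₂ ≠ 0 := fun h0 => hb2π (by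
        rw [show (⟨b₂, hb₂A⟩ : A) = 0 from Subtype.ext h0, map_zero])
      obtain ⟨hu20, hu2⟩ := hb₂.ord_eq_zero hb20
      have hreg : AtLeast P 0 w := by
        rw [show w = z₁ * J.nUp x P ^ m * (z₂ * J.nUp x P ^ m)⁻¹ by
          rw [← hmul, mul_assoc, mul_inv_cancel₀ hu20, mul_one]]
        refine (hb₁.atLeast.mul (atLeast_ord _)).mono ?_
        rw [P.ord_inv, hu2]
        omega
      obtain ⟨d, hd⟩ := exists_hasValue hF hreg
      have h1 : b₁ = d * b₂ := hb₁.unique (hmul ▸ hd.mul hb₂)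
      have hb2i : b₂⁻¹ ∈ A := by
        rw [Ne, J.π_eq_zero, not_lt] at hb2π
        rw [← A.valuation_le_one_iff, map_inv₀]
        exact inv_le_one_of_one_le₀ hb2π
      have hdA : d ∈ A := by
        rw [show d = b₁ * b₂⁻¹ by rw [h1, mul_assoc, mul_inv_cancel₀ hb20, mul_one]]
        exact mul_mem hb₁A hb2i
      refine ⟨d, hdA, ?_, hd⟩
      have h2 := hb₁z.2 hp
      rw [show (⟨b₁, hb₁A⟩ : A) = ⟨d, hdA⟩ * ⟨b₂, hb₂A⟩ from Subtype.ext h1, map_mul] at h2
      exact (mul_eq_zero.1 h2).resolve_right hb2π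
  have hz := hchart.zone hF hk hfg hred hg0 hrr0 (0 : k)
  -- upstairs
  have hL : (divOf hF g).filter (fun P => J.InDisc w P 0) =
      (divOf hF g).filter fun P => H.TubeAt s P := by
    ext P
    rw [Finsupp.filter_apply, Finsupp.filter_apply]
    rcases eq_or_ne (divOf hF g P) 0 with h0 | h0
    · rw [h0, ite_self, ite_self]
    refine if_congr ?_ rfl rfl
    rw [hdisc, hexact _ (Or.inl (Finset.mem_union_left _ (Finset.mem_image_of_mem _
      (Finsupp.mem_support_iff.2 h0))))]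
    show _ ↔ H.InCls s (H.ctr P)
    split_ifs with hq <;> simp [hq]
  -- downstairs
  have hR : ∀ j, Divisor.degree ((divOf (hk j) (rr j)).filter fun Q' => HasValue Q' (wb j) 0) =
      Divisor.degree ((divOf (hk j) (rr j)).filter fun Q' => H.InCls s ⟨j, Q'⟩) := by
    intro j
    congr 1
    ext Q'
    rw [Finsupp.filter_apply, Finsupp.filter_apply]
    rcases eq_or_ne (divOf (hk j) (rr j) Q') 0 with h0 | h0
    · rw [h0, ite_self, ite_self]
    refine if_congr ?_ rfl rfl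
    rw [hasValue_zero_iff, atLeast_iff (hwb0 j), hword ⟨j, Q'⟩]
    have he := hexact ⟨j, Q'⟩ (Or.inl (Finset.mem_union_right _ (Finset.mem_sigma.2
      ⟨Finset.mem_univ _, Finsupp.mem_support_iff.2 h0⟩)))
    have h1 := hnn ⟨j, Q'⟩
    have h2 := hdisj ⟨j, Q'⟩
    by_cases hq : H.InCls s ⟨j, Q'⟩
    · rw [if_pos hq] at he
      refine iff_of_true ?_ hq
      rw [he, h2 (by omega)]
      omega
    · rw [if_neg hq] at he
      exact iff_of_false (by omega) hq
  rw [← hL, hz, Finset.sum_congr rfl fun j _ => hR j]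
  -- the branches
  have hS : ∀ j, Divisor.degree ((divOf (hk j) (rr j)).filter fun Q' => H.InCls s ⟨j, Q'⟩) =
      ∑ Q' ∈ Finset.preimage (H.finite_branches.toFinset : Finset (Σ i, Place k (Fk i)))
        (fun Q' : Place k (Fk j) => (⟨j, Q'⟩ : Σ i, Place k (Fk i)))
        (fun _ _ _ _ h => eq_of_heq (Sigma.mk.inj h).2),
        if H.InCls s ⟨j, Q'⟩ then Q'.ord (rr j) else 0 := fun j => by
    rw [degree_eq_finset_sum (hk j) _ (S := Finset.preimage
        (H.finite_branches.toFinset : Finset (Σ i, Place k (Fk i)))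
        (fun Q' : Place k (Fk j) => (⟨j, Q'⟩ : Σ i, Place k (Fk i)))
        (fun _ _ _ _ h => eq_of_heq (Sigma.mk.inj h).2)) fun Q' hQ' => by
      rw [Finsupp.support_filter, Finset.mem_filter] at hQ'
      exact Finset.mem_preimage.2 (H.finite_branches.mem_toFinset.2 hQ'.2.1)]
    exact Finset.sum_congr rfl fun Q' _ => by rw [Finsupp.filter_apply, divOf_apply]
  rw [Finset.sum_congr rfl fun j _ => hS j, Finset.sum_sigma']
  refine Finset.sum_bij' (fun q hq => (⟨q, H.finite_branches.mem_toFinset.1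
      (Finset.mem_preimage.1 (Finset.mem_sigma.1 hq).2)⟩ : H.Br))
    (fun b _ => b.1) (fun q hq => Finset.mem_univ _)
    (fun b _ => Finset.mem_sigma.2
      ⟨Finset.mem_univ _, Finset.mem_preimage.2 (H.finite_branches.mem_toFinset.2 b.2)⟩)
    (fun _ _ => rfl) (fun _ _ => rfl) fun q hq => ?_
  refine if_congr ⟨?_, ?_⟩ rfl rfl
  · rintro ⟨_, h⟩; exact h
  · exact fun h => ⟨_, h⟩

end FA.ModField.FibreHyp
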